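import Fermat.Agent.S24.ADefs
import Fermat.Agent.S28.CuspJ
import Fermat.Agent.S28.Bridge
import Fermat.Agent.S28.Invariance

/-!
# S24, task AN1: analytic representation of the elements of the function field

Every `f ∈ F = FF N ⊆ ℚ̄((q))` is represented (`IsAn N f P Q`) by a quotient `P / Q` of holomorphic
`Γ₀(N)`-invariant functions on `ℍ` with Laurent expansions at all cusps, such that the
`q`-expansion of `P / Q` is `f` (after the fixed embedding `embC : ℚ̄ → ℂ`).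

Main statements (exact signatures of the S24 skeleton): `isAn_cst`, `isAn_jdBar`, `isAn_jBar`,
`exists_isAn`, `IsAn.unique`, `IsAn.eq_zero_iff`, and the closure properties `IsAn.add`,
`IsAn.mul`, `IsAn.neg`, `IsAn.inv`.
-/

set_option autoImplicit false

open ModularCurve AlgebraicCurve UpperHalfPlane CongruenceSubgroup IntermediateField
open scoped MatrixGroups Manifold

noncomputable section

namespace Fermat.Agent.S24

open Fermat.Agent.S28 (HasTExp jAn jAt)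

/-! ## Basic facts on expansions -/

/-- a function with expansion `0` is `0`. -/
theorem h23_fun_eq_zero {N : ℕ} {G : ℍ → ℂ} (h : HasTExp N G 0) : G = 0 := by
  funext τ
  have h1 := Fermat.Agent.S28.hasTExp_iff.mp h τ
  have h2 := Fermat.Agent.S28.hasTExp_iff.mp (Fermat.Agent.S28.HasTExp.zero N) τ
  exact h1.unique h2

/-- the expansion of `0` is `0`. -/
theorem h23_series_eq_zero {N : ℕ} (hN : 0 < N) {s : LaurentSeries ℂ}
    (h : HasTExp N (0 : ℍ → ℂ) s) : s = 0 :=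
  Fermat.Agent.S28.HasTExp.eq_zero hN h

theorem h23_series_ne_zero {N : ℕ} {G : ℍ → ℂ} {s : LaurentSeries ℂ}
    (h : HasTExp N G s) (hG : G ≠ 0) : s ≠ 0 := by
  rintro rfl
  exact hG (h23_fun_eq_zero h)

theorem h23_fun_ne_zero {N : ℕ} (hN : 0 < N) {G : ℍ → ℂ} {s : LaurentSeries ℂ}
    (h : HasTExp N G s) (hs : s ≠ 0) : G ≠ 0 := by
  rintro rfl
  exact hs (h23_series_eq_zero hN h)

/-- two functions with the same expansion are equal. -/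
theorem h23_fun_unique {N : ℕ} {G G' : ℍ → ℂ} {s : LaurentSeries ℂ}
    (h : HasTExp N G s) (h' : HasTExp N G' s) : G = G' := by
  funext τ
  exact (Fermat.Agent.S28.hasTExp_iff.mp h τ).unique (Fermat.Agent.S28.hasTExp_iff.mp h' τ)

theorem h23_coeffMap_embC_injective : Function.Injective (coeffMap embC) := by
  intro x y hxy
  ext n
  have := congrArg (fun s => s.coeff n) hxy
  simp only [coeffMap_coeff] at this
  exact embC.injective this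

theorem h23_coeffMap_embC_coeffEmb (z : LaurentSeries ℚ) :
    coeffMap embC (coeffEmb Kbar z) = Fermat.Agent.S28.cEmb z := by
  rw [coeffEmb, coeffMap_coeffMap, Fermat.Agent.S28.cEmb]
  exact coeffMap_congr (Subsingleton.elim _ _) z

theorem h23_coeffMap_embC_algebraMap (a : Kbar) :
    coeffMap embC (algebraMap Kbar (LaurentSeries Kbar) a) = HahnSeries.C (embC a) := by
  rw [algebraMap_laurentSeries_eq_single, coeffMap_single]
  rfl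

/-! ## The ambient version of `IsAn` -/

/-- `IsAn` for an arbitrary element of the ambient field `ℚ̄((q))`. -/
structure h23_IsAnL (N : ℕ) (x : LaurentSeries Kbar) (P Q : ℍ → ℂ) : Prop where
  holoP : MDiff P
  holoQ : MDiff Q
  Q_ne : Q ≠ 0
  invP : ∀ γ ∈ Gamma0 N, ∀ τ : ℍ, P (γ • τ) = P τ
  invQ : ∀ γ ∈ Gamma0 N, ∀ τ : ℍ, Q (γ • τ) = Q τ
  expP : ∀ g : SL(2, ℤ), ∃ s : LaurentSeries ℂ, HasTExp N (fun τ => P (g • τ)) s
  expQ : ∀ g : SL(2, ℤ), ∃ s : LaurentSeries ℂ, HasTExp N (fun τ => Q (g • τ)) s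
  rel : ∃ p q : LaurentSeries ℂ, HasTExp 1 P p ∧ HasTExp 1 Q q ∧ coeffMap embC x * q = p

theorem h23_isAn_iff {N : ℕ} {f : FF N} {P Q : ℍ → ℂ} :
    IsAn N f P Q ↔ h23_IsAnL N (f : LaurentSeries Kbar) P Q :=
  ⟨fun h => ⟨h.holoP, h.holoQ, h.Q_ne, h.invP, h.invQ, h.expP, h.expQ, h.rel⟩,
    fun h => ⟨h.holoP, h.holoQ, h.Q_ne, h.invP, h.invQ, h.expP, h.expQ, h.rel⟩⟩

namespace h23_IsAnL

variable {N : ℕ}

theorem const (a : Kbar) :
    h23_IsAnL N (algebraMap Kbar (LaurentSeries Kbar) a) (fun _ => embC a) 1 where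
  holoP := mdifferentiable_const
  holoQ := mdifferentiable_const
  Q_ne := by
    intro h
    have := congrFun h UpperHalfPlane.I
    simp at this
  invP := fun _ _ _ => rfl
  invQ := fun _ _ _ => rfl
  expP := fun _ => ⟨_, Fermat.Agent.S28.HasTExp.const N (embC a)⟩
  expQ := fun _ => ⟨_, Fermat.Agent.S28.HasTExp.one N⟩
  rel := ⟨HahnSeries.C (embC a), 1, Fermat.Agent.S28.HasTExp.const 1 (embC a),
    Fermat.Agent.S28.HasTExp.one 1, by rw [mul_one, h23_coeffMap_embC_algebraMap]⟩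

theorem one : h23_IsAnL N (1 : LaurentSeries Kbar) (fun _ => 1) 1 := by
  have h := const (N := N) (1 : Kbar)
  rw [map_one] at h
  simpa using h

theorem jd [NeZero N] (d : ℕ) [NeZero d] (hd : d ∣ N) :
    h23_IsAnL N (coeffEmb Kbar (qExpand ℚ d jq)) (jAt d) 1 where
  holoP := Fermat.Agent.S28.holo_jAt d
  holoQ := mdifferentiable_const
  Q_ne := by
    intro h
    have := congrFun h UpperHalfPlane.I
    simp at this
  invP := fun γ hγ τ =>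
    Fermat.Agent.S28.jAt_smul_of_mem_Gamma0 N d hd (Nat.pos_of_ne_zero (NeZero.ne N)) γ hγ τ
  invQ := fun _ _ _ => rfl
  expP := fun g => by
    obtain ⟨s, hs, -⟩ := Fermat.Agent.S28.hasTExp_jAt_translate N d
      (Nat.pos_of_ne_zero (NeZero.ne N)) hd g
    exact ⟨s, hs⟩
  expQ := fun _ => ⟨_, Fermat.Agent.S28.HasTExp.one N⟩
  rel := by
    refine ⟨Fermat.Agent.S28.cEmb (qExpand ℚ d jq), 1, ?_, Fermat.Agent.S28.HasTExp.one 1, ?_⟩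
    · have h := Fermat.Agent.S28.hasTExp_jAt d (Nat.pos_of_ne_zero (NeZero.ne d))
      have hj : Fermat.Agent.S28.jSub d = qExpand ℚ d jq := by
        rw [Fermat.Agent.S28.jSub, dif_neg (NeZero.ne d)]
      rwa [hj] at h
    · rw [mul_one, h23_coeffMap_embC_coeffEmb]

theorem add [NeZero N] {x₁ x₂ : LaurentSeries Kbar} {P₁ Q₁ P₂ Q₂ : ℍ → ℂ}
    (h₁ : h23_IsAnL N x₁ P₁ Q₁) (h₂ : h23_IsAnL N x₂ P₂ Q₂) :
    h23_IsAnL N (x₁ + x₂) (P₁ * Q₂ + P₂ * Q₁) (Q₁ * Q₂) := by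
  have hN : 0 < N := Nat.pos_of_ne_zero (NeZero.ne N)
  obtain ⟨p₁, q₁, hp₁, hq₁, e₁⟩ := h₁.rel
  obtain ⟨p₂, q₂, hp₂, hq₂, e₂⟩ := h₂.rel
  have hQ : HasTExp 1 (Q₁ * Q₂) (q₁ * q₂) := hq₁.mul one_pos hq₂
  refine ⟨(h₁.holoP.mul h₂.holoQ).add (h₂.holoP.mul h₁.holoQ), h₁.holoQ.mul h₂.holoQ, ?_,
    ?_, ?_, ?_, ?_, ?_⟩
  · exact h23_fun_ne_zero one_pos hQ
      (mul_ne_zero (h23_series_ne_zero hq₁ h₁.Q_ne) (h23_series_ne_zero hq₂ h₂.Q_ne))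
  · intro γ hγ τ
    simp only [Pi.add_apply, Pi.mul_apply, h₁.invP γ hγ τ, h₂.invP γ hγ τ, h₁.invQ γ hγ τ,
      h₂.invQ γ hγ τ]
  · intro γ hγ τ
    simp only [Pi.mul_apply, h₁.invQ γ hγ τ, h₂.invQ γ hγ τ]
  · intro g
    obtain ⟨a₁, ha₁⟩ := h₁.expP g
    obtain ⟨b₁, hb₁⟩ := h₁.expQ g
    obtain ⟨a₂, ha₂⟩ := h₂.expP g
    obtain ⟨b₂, hb₂⟩ := h₂.expQ g
    exact ⟨a₁ * b₂ + a₂ * b₁, ((ha₁.mul hN hb₂).add (ha₂.mul hN hb₁)).congr fun τ => rfl⟩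
  · intro g
    obtain ⟨b₁, hb₁⟩ := h₁.expQ g
    obtain ⟨b₂, hb₂⟩ := h₂.expQ g
    exact ⟨b₁ * b₂, (hb₁.mul hN hb₂).congr fun τ => rfl⟩
  · refine ⟨p₁ * q₂ + p₂ * q₁, q₁ * q₂, (hp₁.mul one_pos hq₂).add (hp₂.mul one_pos hq₁), hQ, ?_⟩
    rw [map_add, ← e₁, ← e₂]
    ring

theorem mul [NeZero N] {x₁ x₂ : LaurentSeries Kbar} {P₁ Q₁ P₂ Q₂ : ℍ → ℂ}
    (h₁ : h23_IsAnL N x₁ P₁ Q₁) (h₂ : h23_IsAnL N x₂ P₂ Q₂) :
    h23_IsAnL N (x₁ * x₂) (P₁ * P₂) (Q₁ * Q₂) := by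
  have hN : 0 < N := Nat.pos_of_ne_zero (NeZero.ne N)
  obtain ⟨p₁, q₁, hp₁, hq₁, e₁⟩ := h₁.rel
  obtain ⟨p₂, q₂, hp₂, hq₂, e₂⟩ := h₂.rel
  have hQ : HasTExp 1 (Q₁ * Q₂) (q₁ * q₂) := hq₁.mul one_pos hq₂
  refine ⟨h₁.holoP.mul h₂.holoP, h₁.holoQ.mul h₂.holoQ, ?_, ?_, ?_, ?_, ?_, ?_⟩
  · exact h23_fun_ne_zero one_pos hQ
      (mul_ne_zero (h23_series_ne_zero hq₁ h₁.Q_ne) (h23_series_ne_zero hq₂ h₂.Q_ne))
  · intro γ hγ τ
    simp only [Pi.mul_apply, h₁.invP γ hγ τ, h₂.invP γ hγ τ]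
  · intro γ hγ τ
    simp only [Pi.mul_apply, h₁.invQ γ hγ τ, h₂.invQ γ hγ τ]
  · intro g
    obtain ⟨a₁, ha₁⟩ := h₁.expP g
    obtain ⟨a₂, ha₂⟩ := h₂.expP g
    exact ⟨a₁ * a₂, (ha₁.mul hN ha₂).congr fun τ => rfl⟩
  · intro g
    obtain ⟨b₁, hb₁⟩ := h₁.expQ g
    obtain ⟨b₂, hb₂⟩ := h₂.expQ g
    exact ⟨b₁ * b₂, (hb₁.mul hN hb₂).congr fun τ => rfl⟩
  · refine ⟨p₁ * p₂, q₁ * q₂, hp₁.mul one_pos hp₂, hQ, ?_⟩
    rw [map_mul, ← e₁, ← e₂]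
    ring

theorem neg {x : LaurentSeries Kbar} {P Q : ℍ → ℂ} (h : h23_IsAnL N x P Q) :
    h23_IsAnL N (-x) (-P) Q := by
  obtain ⟨p, q, hp, hq, e⟩ := h.rel
  refine ⟨h.holoP.neg, h.holoQ, h.Q_ne, ?_, h.invQ, ?_, h.expQ, ?_⟩
  · intro γ hγ τ
    simp only [Pi.neg_apply, h.invP γ hγ τ]
  · intro g
    obtain ⟨a, ha⟩ := h.expP g
    exact ⟨-a, ha.neg.congr fun τ => rfl⟩
  · exact ⟨-p, q, hp.neg, hq, by rw [map_neg, neg_mul, e]⟩

theorem zero : h23_IsAnL N (0 : LaurentSeries Kbar) (fun _ => 0) 1 := by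
  have h := const (N := N) (0 : Kbar)
  rw [map_zero] at h
  simpa using h

/-- if `x ≠ 0` then the numerator is not zero. -/
theorem P_ne {x : LaurentSeries Kbar} {P Q : ℍ → ℂ} (h : h23_IsAnL N x P Q) (hx : x ≠ 0) :
    P ≠ 0 := by
  obtain ⟨p, q, hp, hq, e⟩ := h.rel
  refine h23_fun_ne_zero one_pos hp ?_
  rw [← e]
  refine mul_ne_zero ?_ (h23_series_ne_zero hq h.Q_ne)
  intro h0
  exact hx (h23_coeffMap_embC_injective (by rw [h0, map_zero]))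

theorem inv {x : LaurentSeries Kbar} {P Q : ℍ → ℂ} (h : h23_IsAnL N x P Q) (hx : x ≠ 0) :
    h23_IsAnL N x⁻¹ Q P := by
  obtain ⟨p, q, hp, hq, e⟩ := h.rel
  refine ⟨h.holoQ, h.holoP, h.P_ne hx, h.invQ, h.invP, h.expQ, h.expP, q, p, hq, hp, ?_⟩
  have hcx : coeffMap embC x ≠ 0 := by
    intro h0
    exact hx (h23_coeffMap_embC_injective (by rw [h0, map_zero]))
  rw [map_inv₀, ← e]
  field_simp

theorem exists_inv {x : LaurentSeries Kbar} {P Q : ℍ → ℂ} (h : h23_IsAnL N x P Q) :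
    ∃ P' Q' : ℍ → ℂ, h23_IsAnL N x⁻¹ P' Q' := by
  by_cases hx : x = 0
  · subst hx
    rw [inv_zero]
    exact ⟨_, _, zero⟩
  · exact ⟨_, _, h.inv hx⟩

theorem unique {x : LaurentSeries Kbar} {P Q P' Q' : ℍ → ℂ}
    (h : h23_IsAnL N x P Q) (h' : h23_IsAnL N x P' Q') : P * Q' = P' * Q := by
  obtain ⟨p, q, hp, hq, e⟩ := h.rel
  obtain ⟨p', q', hp', hq', e'⟩ := h'.rel
  have h1 : HasTExp 1 (P * Q') (p * q') := hp.mul one_pos hq'
  have h2 : HasTExp 1 (P' * Q) (p' * q) := hp'.mul one_pos hq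
  have h3 : p * q' = p' * q := by
    rw [← e, ← e']
    ring
  rw [h3] at h1
  exact h23_fun_unique h1 h2

theorem eq_zero_iff {x : LaurentSeries Kbar} {P Q : ℍ → ℂ} (h : h23_IsAnL N x P Q) :
    x = 0 ↔ P = 0 := by
  constructor
  · rintro rfl
    obtain ⟨p, q, hp, hq, e⟩ := h.rel
    rw [map_zero, zero_mul] at e
    rw [← e] at hp
    exact h23_fun_eq_zero hp
  · intro hP
    by_contra hx
    exact h.P_ne hx hP

end h23_IsAnL

/-! ## Existence of a representation -/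

theorem h23_coeffEmb_algebraMap (c : ℚ) :
    coeffEmb Kbar (algebraMap ℚ (LaurentSeries ℚ) c) =
      algebraMap Kbar (LaurentSeries Kbar) (algebraMap ℚ Kbar c) := by
  rw [algebraMap_laurentSeries_eq_single, algebraMap_laurentSeries_eq_single, coeffEmb,
    coeffMap_single]

/-- representation of the elements of the rational function field `F₀`. -/
theorem h23_exists_isAnL_coeffEmb (N : ℕ) [NeZero N] {z : LaurentSeries ℚ}
    (hz : z ∈ modularFunctionFieldFull N) :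
    ∃ P Q : ℍ → ℂ, h23_IsAnL N (coeffEmb Kbar z) P Q := by
  have hz' : z ∈ Subfield.closure
      (Set.range (algebraMap ℚ (LaurentSeries ℚ)) ∪ divisorExpansions N) := hz
  clear hz
  induction hz' using Subfield.closure_induction with
  | mem y hy =>
      rcases hy with ⟨c, rfl⟩ | ⟨d, hne, hd, rfl⟩
      · rw [h23_coeffEmb_algebraMap]
        exact ⟨_, _, h23_IsAnL.const _⟩
      · have := hne
        exact ⟨_, _, h23_IsAnL.jd d hd⟩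
  | one =>
      rw [map_one]
      exact ⟨_, _, h23_IsAnL.one⟩
  | add x y _ _ hx hy =>
      obtain ⟨P₁, Q₁, h₁⟩ := hx
      obtain ⟨P₂, Q₂, h₂⟩ := hy
      rw [map_add]
      exact ⟨_, _, h₁.add h₂⟩
  | neg x _ hx =>
      obtain ⟨P₁, Q₁, h₁⟩ := hx
      rw [map_neg]
      exact ⟨_, _, h₁.neg⟩
  | inv x _ hx =>
      obtain ⟨P₁, Q₁, h₁⟩ := hx
      rw [map_inv₀]
      exact h₁.exists_inv
  | mul x y _ _ hx hy =>
      obtain ⟨P₁, Q₁, h₁⟩ := hx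
      obtain ⟨P₂, Q₂, h₂⟩ := hy
      rw [map_mul]
      exact ⟨_, _, h₁.mul h₂⟩

/-- representation of the elements of `F`, ambient version. -/
theorem h23_exists_isAnL (N : ℕ) [NeZero N] {x : LaurentSeries Kbar}
    (hx : x ∈ modularFunctionFieldBar N) :
    ∃ P Q : ℍ → ℂ, h23_IsAnL N x P Q := by
  have hx' := mem_laurentBaseChange_iff.mp hx
  clear hx
  induction hx' using Subfield.closure_induction with
  | mem y hy =>
      rcases hy with ⟨a, rfl⟩ | ⟨z, hz, rfl⟩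
      · exact ⟨_, _, h23_IsAnL.const a⟩
      · exact h23_exists_isAnL_coeffEmb N hz
  | one => exact ⟨_, _, h23_IsAnL.one⟩
  | add x y _ _ hx hy =>
      obtain ⟨P₁, Q₁, h₁⟩ := hx
      obtain ⟨P₂, Q₂, h₂⟩ := hy
      exact ⟨_, _, h₁.add h₂⟩
  | neg x _ hx =>
      obtain ⟨P₁, Q₁, h₁⟩ := hx
      exact ⟨_, _, h₁.neg⟩
  | inv x _ hx =>
      obtain ⟨P₁, Q₁, h₁⟩ := hx
      exact h₁.exists_inv
  | mul x y _ _ hx hy =>
      obtain ⟨P₁, Q₁, h₁⟩ := hx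
      obtain ⟨P₂, Q₂, h₂⟩ := hy
      exact ⟨_, _, h₁.mul h₂⟩

/-! ## The statements of the skeleton -/

theorem isAn_cst (N : ℕ) [NeZero N] (a : Kbar) : IsAn N (cst N a) (fun _ => embC a) 1 :=
  h23_isAn_iff.mpr (h23_IsAnL.const a)

theorem isAn_jdBar (N d : ℕ) [NeZero N] [NeZero d] (hd : d ∣ N) :
    IsAn N (jdBar N d hd) (jAt d) 1 :=
  h23_isAn_iff.mpr (h23_IsAnL.jd d hd)

theorem isAn_jBar (N : ℕ) [NeZero N] : IsAn N (jBar N) jAn 1 := by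
  have h := h23_IsAnL.jd (N := N) 1 (one_dvd N)
  rw [qExpand_one_apply] at h
  have hj : jAt 1 = jAn := by
    funext τ
    rw [Fermat.Agent.S28.jAt, Fermat.Agent.S28.scaleH_one]
  rw [hj] at h
  exact h23_isAn_iff.mpr h

theorem exists_isAn (N : ℕ) [NeZero N] (f : FF N) : ∃ P Q : ℍ → ℂ, IsAn N f P Q := by
  obtain ⟨P, Q, h⟩ := h23_exists_isAnL N f.2
  exact ⟨P, Q, h23_isAn_iff.mpr h⟩

theorem IsAn.unique {N : ℕ} [NeZero N] {f : FF N} {P Q P' Q' : ℍ → ℂ}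
    (h : IsAn N f P Q) (h' : IsAn N f P' Q') : P * Q' = P' * Q :=
  (h23_isAn_iff.mp h).unique (h23_isAn_iff.mp h')

theorem IsAn.eq_zero_iff {N : ℕ} [NeZero N] {f : FF N} {P Q : ℍ → ℂ}
    (h : IsAn N f P Q) : f = 0 ↔ P = 0 := by
  rw [← (h23_isAn_iff.mp h).eq_zero_iff]
  exact ⟨fun hf => by rw [hf]; rfl, fun hf => Subtype.ext hf⟩

theorem IsAn.add {N : ℕ} [NeZero N] {f₁ f₂ : FF N} {P₁ Q₁ P₂ Q₂ : ℍ → ℂ}
    (h₁ : IsAn N f₁ P₁ Q₁) (h₂ : IsAn N f₂ P₂ Q₂) :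
    IsAn N (f₁ + f₂) (P₁ * Q₂ + P₂ * Q₁) (Q₁ * Q₂) :=
  h23_isAn_iff.mpr ((h23_isAn_iff.mp h₁).add (h23_isAn_iff.mp h₂))

theorem IsAn.mul {N : ℕ} [NeZero N] {f₁ f₂ : FF N} {P₁ Q₁ P₂ Q₂ : ℍ → ℂ}
    (h₁ : IsAn N f₁ P₁ Q₁) (h₂ : IsAn N f₂ P₂ Q₂) :
    IsAn N (f₁ * f₂) (P₁ * P₂) (Q₁ * Q₂) :=
  h23_isAn_iff.mpr ((h23_isAn_iff.mp h₁).mul (h23_isAn_iff.mp h₂))

theorem IsAn.neg {N : ℕ} [NeZero N] {f : FF N} {P Q : ℍ → ℂ} (h : IsAn N f P Q) :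
    IsAn N (-f) (-P) Q :=
  h23_isAn_iff.mpr (h23_isAn_iff.mp h).neg

theorem IsAn.inv {N : ℕ} [NeZero N] {f : FF N} {P Q : ℍ → ℂ} (h : IsAn N f P Q)
    (hf : f ≠ 0) : IsAn N f⁻¹ Q P :=
  h23_isAn_iff.mpr ((h23_isAn_iff.mp h).inv (fun h0 => hf (Subtype.ext h0)))

theorem IsAn.sub {N : ℕ} [NeZero N] {f₁ f₂ : FF N} {P₁ Q₁ P₂ Q₂ : ℍ → ℂ}
    (h₁ : IsAn N f₁ P₁ Q₁) (h₂ : IsAn N f₂ P₂ Q₂) :
    IsAn N (f₁ - f₂) (P₁ * Q₂ + -P₂ * Q₁) (Q₁ * Q₂) := by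
  rw [sub_eq_add_neg]
  exact h₁.add h₂.neg

/-- if `f ≠ 0` the numerator is not the zero function. -/
theorem IsAn.P_ne {N : ℕ} [NeZero N] {f : FF N} {P Q : ℍ → ℂ} (h : IsAn N f P Q)
    (hf : f ≠ 0) : P ≠ 0 :=
  fun hP => hf (h.eq_zero_iff.mpr hP)

end Fermat.Agent.S24
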