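import Mathlib.FieldTheory.PrimitiveElement
import Mathlib.FieldTheory.IntermediateField.Adjoin.Basic
import Mathlib.FieldTheory.IntermediateField.Algebraic
import Mathlib.FieldTheory.Separable

/-!
# S24, task ML: pure field theory for the degree bound

* `h52_exists_nat_adjoin_pair` : primitive element theorem with a natural-number coefficient:
  in characteristic zero, `k(α, β) = k(α + m β)` for some `m : ℕ`.
* `h52_finrank_le_of_forall_natDegree_le` : if a field extension `E / k` (characteristic zero) is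
  generated by a set `A` which is stable under `(a, b) ↦ a + m b` (`m : ℕ`) and all of whose
  elements are algebraic of degree `≤ n` over `k`, then `[E : k] ≤ n`.
-/

set_option autoImplicit false

open IntermediateField Polynomial

noncomputable section

namespace Fermat.Agent.S24

/-- Primitive element theorem with a natural-number coefficient. -/
theorem h52_exists_nat_adjoin_pair {k E : Type*} [Field k] [Field E] [Algebra k E] [CharZero k]
    (α β : E) (hα : IsIntegral k α) (hβ : IsIntegral k β) :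
    ∃ m : ℕ, k⟮α, β⟯ = k⟮α + (m : k) • β⟯ := by
  classical
  have hfd : FiniteDimensional k k⟮α, β⟯ := finiteDimensional_adjoin_pair hα hβ
  have hα' : α ∈ k⟮α, β⟯ := subset_adjoin k _ (Set.mem_insert α {β})
  have hβ' : β ∈ k⟮α, β⟯ := subset_adjoin k _ (Set.mem_insert_of_mem α rfl)
  have hfin : Finite (IntermediateField k k⟮α, β⟯) :=
    Field.finite_intermediateField_of_exists_primitive_element k _
      (Field.exists_primitive_element k _)
  let a' : k⟮α, β⟯ := ⟨α, hα'⟩
  let b' : k⟮α, β⟯ := ⟨β, hβ'⟩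
  let f : ℕ → IntermediateField k k⟮α, β⟯ := fun m => k⟮a' + (m : k) • b'⟯
  obtain ⟨x, y, hneq, heq⟩ := Finite.exists_ne_map_eq_of_infinite f
  refine ⟨x, le_antisymm ?_ ?_⟩
  · -- `α, β ∈ k(α + x β)`
    have hx_in : a' + (x : k) • b' ∈ f x := mem_adjoin_simple_self k _
    have hy_in : a' + (y : k) • b' ∈ f x := by
      rw [heq]
      exact mem_adjoin_simple_self k _
    have hb_in : b' ∈ f x := by
      have h1 := sub_mem hx_in hy_in
      rw [show (a' + (x : k) • b') - (a' + (y : k) • b') = ((x : k) - (y : k)) • b' by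
        rw [sub_smul]; abel] at h1
      have hxy : ((x : k) - (y : k)) ≠ 0 := sub_ne_zero.2 (Nat.cast_injective.ne hneq)
      have h2 := (f x).smul_mem h1 (x := ((x : k) - (y : k))⁻¹)
      rwa [smul_smul, inv_mul_cancel₀ hxy, one_smul] at h2
    have ha_in : a' ∈ f x := by
      have := sub_mem hx_in ((f x).smul_mem hb_in (x := (x : k)))
      rwa [add_sub_cancel_right] at this
    have hlift : lift (f x) = k⟮α + (x : k) • β⟯ := by
      show lift (k⟮a' + (x : k) • b'⟯) = _
      rw [lift_adjoin_simple]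
      rfl
    rw [adjoin_le_iff]
    rintro z (rfl | rfl)
    · rw [← hlift]
      exact (mem_lift a').2 ha_in
    · rw [← hlift]
      exact (mem_lift b').2 hb_in
  · rw [adjoin_simple_le_iff]
    exact add_mem hα' (k⟮α, β⟯.smul_mem hβ')

/-- If `E / k` (characteristic zero) is generated by a set `A` stable under
`(a, b) ↦ a + m b` (`m : ℕ`) all of whose elements are algebraic of degree `≤ n` over `k`, then
`E / k` is finite of degree `≤ n`. -/
theorem h52_finrank_le_of_forall_natDegree_le {k E : Type*} [Field k] [Field E] [Algebra k E]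
    [CharZero k] (A : Set E) (n : ℕ) (hne : A.Nonempty)
    (hadd : ∀ a ∈ A, ∀ b ∈ A, ∀ m : ℕ, a + (m : k) • b ∈ A)
    (hdeg : ∀ a ∈ A, IsIntegral k a ∧ (minpoly k a).natDegree ≤ n)
    (hgen : adjoin k A = ⊤) :
    FiniteDimensional k E ∧ Module.finrank k E ≤ n := by
  classical
  -- an element of maximal degree
  obtain ⟨θ, hθA, hθmax⟩ : ∃ θ ∈ A, ∀ a ∈ A,
      (minpoly k a).natDegree ≤ (minpoly k θ).natDegree := by
    let P : ℕ → Prop := fun d => ∃ a ∈ A, (minpoly k a).natDegree = d
    obtain ⟨a₀, ha₀⟩ := hne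
    have hP : P (minpoly k a₀).natDegree := ⟨a₀, ha₀, rfl⟩
    have hspec := Nat.findGreatest_spec (P := P) (hdeg a₀ ha₀).2 hP
    obtain ⟨θ, hθA, hθ⟩ := hspec
    refine ⟨θ, hθA, fun a ha => ?_⟩
    rw [hθ]
    exact Nat.le_findGreatest (hdeg a ha).2 ⟨a, ha, rfl⟩
  have hθint : IsIntegral k θ := (hdeg θ hθA).1
  have hfdθ : FiniteDimensional k k⟮θ⟯ := adjoin.finiteDimensional hθint
  -- every element of `A` lies in `k(θ)`
  have hA : A ⊆ (k⟮θ⟯ : Set E) := by
    intro x hx
    have hxint : IsIntegral k x := (hdeg x hx).1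
    obtain ⟨m, hm⟩ := h52_exists_nat_adjoin_pair θ x hθint hxint
    have hγA : θ + (m : k) • x ∈ A := hadd θ hθA x hx m
    have hγint : IsIntegral k (θ + (m : k) • x) := (hdeg _ hγA).1
    have hle : k⟮θ⟯ ≤ k⟮θ, x⟯ := by
      rw [adjoin_simple_le_iff]
      exact subset_adjoin k _ (Set.mem_insert θ {x})
    have hfd2 : FiniteDimensional k k⟮θ, x⟯ := finiteDimensional_adjoin_pair hθint hxint
    have hrank : Module.finrank k k⟮θ, x⟯ ≤ Module.finrank k k⟮θ⟯ := by
      rw [hm, adjoin.finrank hγint, adjoin.finrank hθint]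
      exact hθmax _ hγA
    have heq : k⟮θ⟯ = k⟮θ, x⟯ := eq_of_le_of_finrank_le hle hrank
    show x ∈ k⟮θ⟯
    rw [heq]
    exact subset_adjoin k _ (Set.mem_insert_of_mem θ rfl)
  have htop : k⟮θ⟯ = ⊤ := by
    refine top_unique ?_
    rw [← hgen, adjoin_le_iff]
    exact hA
  have hfd : FiniteDimensional k E := by
    rw [htop] at hfdθ
    exact topEquiv.toLinearEquiv.finiteDimensional
  refine ⟨hfd, ?_⟩
  rw [← finrank_top', ← htop, adjoin.finrank hθint]
  exact (hdeg θ hθA).2

end Fermat.Agent.S24
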