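import Fermat.Agent.S24.ADefs
import Fermat.Agent.S24.DegLeAlg
import Fermat.Agent.S28.PartOne
import Fermat.Prelude.Def_ModularCurve_X0ModL

/-!
# S24, task ML: `j` is transcendental and `[F : K̄(j)] ≤ [SL₂(ℤ) : Γ₀(N)]`

Route: the characteristic polynomial machine of S28 (Part I) shows that every element of
`ℚ[j(q^d) : d ∣ N] ⊆ ℚ((q))` is a root of a nonzero polynomial of `X`-degree at most the index
over `ℚ[j]`.  The images of these elements in `F = K̄(j(q^d) : d ∣ N)` form a ring `A` generating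
`F` over `K̄(j)`, all of whose elements have degree at most the index over `K̄(j)`; a primitive
element argument (`DegLeAlg.lean`) then bounds `[F : K̄(j)]`.
-/

set_option autoImplicit false

open ModularCurve AlgebraicCurve CongruenceSubgroup IntermediateField UpperHalfPlane
open scoped MatrixGroups Manifold

noncomputable section

namespace Fermat.Agent.S24

/-- The characteristic polynomial machine of S28 over `ℚ`: every element of
`ℚ[j(q^d) : d ∣ N]` is a root of a nonzero polynomial of `X`-degree `≤ [SL₂(ℤ) : Γ₀(N)]`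
over `ℚ[j]`. -/
theorem h52_degLe_rat (N : ℕ) [NeZero N] {f : LaurentSeries ℚ}
    (hf : f ∈ Algebra.adjoin ℚ (divisorExpansions N)) :
    ∃ P : Polynomial (Polynomial ℚ), P ≠ 0 ∧ P.natDegree ≤ (Gamma0 N).index ∧
      P.eval₂ (Fermat.Agent.S28.evalAtQ jq) f = 0 := by
  have hN : 0 < N := Nat.pos_of_ne_zero (NeZero.ne N)
  have hb := Fermat.Agent.S28.h44_bridgeStatement N hN
  have hc := Fermat.Agent.S28.h44_cuspStatement N hN
  have hf' : f ∈ Algebra.adjoin ℚ
      (insert (Fermat.Agent.S28.modUnit N) (divisorExpansions N)) :=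
    Algebra.adjoin_mono (Set.subset_insert _ _) hf
  obtain ⟨F, M, hholo, hinv, hexp1, hexpN⟩ :=
    Fermat.Agent.S28.h44Good_of_mem_adjoin N hb hc hf'
  obtain ⟨Q, hQ, hQdeg, -, hQzero⟩ :=
    Fermat.Agent.S28.h44_charpoly_machine hb.1 N ⊤ F hholo hinv M
      (fun γ => let ⟨s, hs, hbd⟩ := hexpN γ; ⟨s, hs, fun _ => Subring.mem_top _, hbd⟩)
  refine Fermat.Agent.S28.h52_descent jq f _
    (Q.map (Polynomial.mapRingHom (⊤ : Subring ℂ).subtype))
    (hQ.map _).ne_zero ?_ (Fermat.Agent.S28.h52_transfer one_pos _ hb.1 hexp1 hQzero)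
  rw [hQ.natDegree_map]
  exact hQdeg.le

theorem h52_coeffEmb_jq : coeffEmb Kbar jq = jqModC Kbar := by
  rw [← jqModC_rat]
  exact coeffMap_jqModC (algebraMap ℚ Kbar)

theorem h52_transcendental_coeffEmb_jq : Transcendental Kbar (coeffEmb Kbar jq) := by
  rw [h52_coeffEmb_jq]
  exact P2MW.S_ModularCurve_coeff_jqModC_neg_one.ModularCurve.CharLRows.transcendental_jqModC Kbar

theorem h52_transcendental_jq : Transcendental ℚ jq :=
  P2MW.S_ModularCurve_coeff_jqModC_neg_one.ModularCurve.CharLRows.transcendental_jqModC ℚ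

/-- `j` is transcendental over `K̄`. -/
theorem transcendental_jBar (N : ℕ) [NeZero N] : Transcendental Kbar (jBar N) := by
  intro halg
  apply h52_transcendental_coeffEmb_jq
  have h := (IntermediateField.isAlgebraic_iff (S := modularFunctionFieldBar N)
    (x := jBar N)).mp halg
  exact h

theorem h52_coeffEmb_injective : Function.Injective (coeffEmb Kbar) := by
  intro x y h
  ext n
  have := congrArg (fun s : LaurentSeries Kbar => s.coeff n) h
  simpa using this

theorem h52_coeffEmb_algebraMap (r : ℚ) :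
    coeffEmb Kbar (algebraMap ℚ (LaurentSeries ℚ) r) =
      algebraMap Kbar (LaurentSeries Kbar) (algebraMap ℚ Kbar r) := by
  rw [algebraMap_laurentSeries_eq_single, algebraMap_laurentSeries_eq_single, coeffEmb,
    coeffMap_single]

/-- The image in `F` of the ring `ℚ[j(q^d) : d ∣ N]`. -/
def h52_imageRing (N : ℕ) : Set (FF N) :=
  {x | ∃ f ∈ Algebra.adjoin ℚ (divisorExpansions N), (x : LaurentSeries Kbar) = coeffEmb Kbar f}

theorem h52_zero_mem_imageRing (N : ℕ) : (0 : FF N) ∈ h52_imageRing N :=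
  ⟨0, Subalgebra.zero_mem _, by simp⟩

theorem h52_imageRing_add (N : ℕ) [NeZero N] (a : FF N) (ha : a ∈ h52_imageRing N) (b : FF N)
    (hb : b ∈ h52_imageRing N) (m : ℕ) :
    a + ((m : ℕ) : Kbar⟮jBar N⟯) • b ∈ h52_imageRing N := by
  obtain ⟨f, hf, hfa⟩ := ha
  obtain ⟨g, hg, hgb⟩ := hb
  refine ⟨f + (m : LaurentSeries ℚ) * g,
    Subalgebra.add_mem _ hf (Subalgebra.mul_mem _ (natCast_mem _ m) hg), ?_⟩
  have h1 : ((m : ℕ) : Kbar⟮jBar N⟯) • b = (m : FF N) * b := by
    rw [Algebra.smul_def, map_natCast]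
  rw [h1, map_add, map_mul, map_natCast, ← hfa, ← hgb]
  push_cast
  rfl

/-- the evaluation `ℚ[Y] → K̄(j)`, `Y ↦ j`. -/
def h52_evalGen (N : ℕ) [NeZero N] : Polynomial ℚ →+* Kbar⟮jBar N⟯ :=
  Polynomial.eval₂RingHom (algebraMap ℚ Kbar⟮jBar N⟯) (AdjoinSimple.gen Kbar (jBar N))

theorem h52_val_comp_evalGen (N : ℕ) [NeZero N] :
    ((modularFunctionFieldBar N).val : FF N →+* LaurentSeries Kbar).comp
      ((algebraMap Kbar⟮jBar N⟯ (FF N)).comp (h52_evalGen N)) =
    (coeffEmb Kbar).comp (Fermat.Agent.S28.evalAtQ jq) := by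
  refine Polynomial.ringHom_ext' (Subsingleton.elim _ _) ?_
  simp only [RingHom.comp_apply, h52_evalGen, Polynomial.coe_eval₂RingHom, Polynomial.eval₂_X,
    Fermat.Agent.S28.evalAtQ]
  rfl

theorem h52_evalGen_injective (N : ℕ) [NeZero N] : Function.Injective (h52_evalGen N) := by
  have h1 : Function.Injective ((coeffEmb Kbar).comp (Fermat.Agent.S28.evalAtQ jq)) := by
    refine h52_coeffEmb_injective.comp ?_
    have h := transcendental_iff_injective.mp h52_transcendental_jq
    intro P Q hPQ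
    apply h
    have e : ∀ R : Polynomial ℚ, Fermat.Agent.S28.evalAtQ jq R = Polynomial.aeval jq R := by
      intro R
      show Polynomial.eval₂ _ jq R = _
      rw [Polynomial.aeval_def]
    rw [← e, ← e]
    exact hPQ
  rw [← h52_val_comp_evalGen N] at h1
  have h2 : Function.Injective ((algebraMap Kbar⟮jBar N⟯ (FF N)).comp (h52_evalGen N)) :=
    Function.Injective.of_comp (f := (modularFunctionFieldBar N).val) h1
  exact Function.Injective.of_comp (f := algebraMap Kbar⟮jBar N⟯ (FF N)) h2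

theorem h52_imageRing_deg (N : ℕ) [NeZero N] (a : FF N) (ha : a ∈ h52_imageRing N) :
    IsIntegral Kbar⟮jBar N⟯ a ∧ (minpoly Kbar⟮jBar N⟯ a).natDegree ≤ (Gamma0 N).index := by
  obtain ⟨f, hf, hfa⟩ := ha
  obtain ⟨P, hP0, hPdeg, hPzero⟩ := h52_degLe_rat N hf
  set p : Polynomial Kbar⟮jBar N⟯ := P.map (h52_evalGen N) with hp
  have hp0 : p ≠ 0 := by
    rw [hp, Ne, Polynomial.map_eq_zero_iff (h52_evalGen_injective N)]
    exact hP0
  have hroot : Polynomial.aeval a p = 0 := by
    apply Subtype.val_injective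
    show (modularFunctionFieldBar N).val (Polynomial.aeval a p) = (modularFunctionFieldBar N).val 0
    rw [map_zero, Polynomial.aeval_def, hp, Polynomial.eval₂_map]
    have h1 := Polynomial.hom_eval₂ P ((algebraMap Kbar⟮jBar N⟯ (FF N)).comp (h52_evalGen N))
      ((modularFunctionFieldBar N).val : FF N →+* LaurentSeries Kbar) a
    have h2 := Polynomial.hom_eval₂ P (Fermat.Agent.S28.evalAtQ jq) (coeffEmb Kbar) f
    rw [hPzero, map_zero] at h2
    have h3 : (modularFunctionFieldBar N).val a = coeffEmb Kbar f := hfa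
    erw [h1, h52_val_comp_evalGen N, h3]
    exact h2.symm
  have hint : IsIntegral Kbar⟮jBar N⟯ a := isAlgebraic_iff_isIntegral.mp ⟨p, hp0, hroot⟩
  refine ⟨hint, ?_⟩
  refine (Polynomial.natDegree_le_natDegree
    (minpoly.degree_le_of_ne_zero Kbar⟮jBar N⟯ a hp0 hroot)).trans ?_
  exact (Polynomial.natDegree_map_le).trans hPdeg

theorem h52_coeffEmb_mem_FF (N : ℕ) {f : LaurentSeries ℚ}
    (hf : f ∈ Algebra.adjoin ℚ (divisorExpansions N)) :
    coeffEmb Kbar f ∈ modularFunctionFieldBar N := by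
  refine coeffEmb_mem_laurentBaseChange Kbar ?_
  exact (IntermediateField.algebra_adjoin_le_adjoin ℚ _) hf

theorem h52_imageRing_gen (N : ℕ) [NeZero N] :
    adjoin Kbar⟮jBar N⟯ (h52_imageRing N) = ⊤ := by
  refine top_unique fun x _ => ?_
  set M : IntermediateField Kbar (FF N) :=
    (adjoin Kbar⟮jBar N⟯ (h52_imageRing N)).restrictScalars Kbar with hM
  -- the image of `F₀` lies in `lift M`
  have key : ∀ f ∈ modularFunctionFieldFull N, coeffEmb Kbar f ∈ lift M := by
    intro f hf
    induction hf using IntermediateField.adjoin_induction with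
    | mem y hy =>
      have hy' : y ∈ Algebra.adjoin ℚ (divisorExpansions N) := Algebra.subset_adjoin hy
      have h1 : (⟨coeffEmb Kbar y, h52_coeffEmb_mem_FF N hy'⟩ : FF N) ∈ M := by
        rw [hM, IntermediateField.mem_restrictScalars]
        exact subset_adjoin _ _ ⟨y, hy', rfl⟩
      exact (mem_lift (⟨coeffEmb Kbar y, h52_coeffEmb_mem_FF N hy'⟩ : FF N)).2 h1
    | algebraMap r =>
      rw [h52_coeffEmb_algebraMap]
      exact (lift M).algebraMap_mem _
    | add y z _ _ hy hz =>
      rw [map_add]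
      exact add_mem hy hz
    | inv y _ hy =>
      rw [map_inv₀]
      exact inv_mem hy
    | mul y z _ _ hy hz =>
      rw [map_mul]
      exact mul_mem hy hz
  have hle : modularFunctionFieldBar N ≤ lift M := by
    show adjoin Kbar (⇑(coeffEmb Kbar) '' (modularFunctionFieldFull N : Set (LaurentSeries ℚ)))
      ≤ lift M
    rw [adjoin_le_iff]
    rintro _ ⟨f, hf, rfl⟩
    exact key f hf
  have hx : x ∈ M := (mem_lift x).1 (hle x.2)
  rwa [hM, IntermediateField.mem_restrictScalars] at hx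

/-- `[F : K̄(j)] ≤ [SL₂(ℤ) : Γ₀(N)]`. -/
theorem finrank_le_index (N : ℕ) [NeZero N] :
    FiniteDimensional Kbar⟮jBar N⟯ (FF N) ∧
      Module.finrank Kbar⟮jBar N⟯ (FF N) ≤ (Gamma0 N).index :=
  h52_finrank_le_of_forall_natDegree_le (h52_imageRing N) (Gamma0 N).index
    ⟨0, h52_zero_mem_imageRing N⟩ (h52_imageRing_add N) (h52_imageRing_deg N)
    (h52_imageRing_gen N)

end Fermat.Agent.S24
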