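import Mathlib
import Fermat.Prelude.Def_AlgebraicCurve_CanonicalDivisor

/-!
# S24 (function-field half): places of a function field of transcendence degree one

Generic facts for a field extension `F / K` with `F` algebraic over `K(x)`:

* `isAlgebraic_adjoin_of_transcendental` : exchange, `F` is algebraic over `K(y)` for every
  transcendental `y`;
* `ord_nonneg_iff_mem`, `ord_eq_zero_of_isAlgebraic`, `transcendental_of_ord_ne_zero`;
* `isAlgebraic_residue`, `place_deg_eq_one` : over an algebraically closed constant field every
  place has degree one;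
* `exists_dCoord_eq`, `dCoordGenerates_of_span` : the prelude's coordinate differential is `d π`
  for a uniformizer, and `DCoordGenerates` holds as soon as `Ω = F dy` for transcendental `y`;
* `ordDifferential_smul_of_ne_zero`;
* `genus_eq_of_degree` : genus assembly (deals with the choice of the differential in the
  prelude's definition of the genus).
-/

set_option autoImplicit false

namespace Fermat.Agent.S24.DiffPlace

open AlgebraicCurve KaehlerDifferential IntermediateField

variable {K F : Type*} [Field K] [Field F] [Algebra K F]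

/-! ### Exchange -/

/-- Exchange: if `F` is algebraic over `K(x)` and `y` is transcendental over `K`,
then `F` is algebraic over `K(y)`. -/
theorem isAlgebraic_adjoin_of_transcendental (x y : F)
    (halg : Algebra.IsAlgebraic K⟮x⟯ F) (hy : Transcendental K y) :
    Algebra.IsAlgebraic K⟮y⟯ F := by
  have h1 : Algebra.IsAlgebraic (Algebra.adjoin K ({x} : Set F)) F :=
    IntermediateField.isAlgebraic_adjoin_iff_top.mp halg
  have h2 : Algebra.trdeg K F ≤ 1 := by
    have := Algebra.IsAlgebraic.trdeg_le_cardinalMk K ({x} : Set F)
    simpa using this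
  have h3 : AlgebraicIndependent K (fun _ : Unit => y) :=
    algebraicIndependent_unique_type_iff.mpr hy
  have h4 : IsTranscendenceBasis K (fun _ : Unit => y) :=
    h3.isTranscendenceBasis_of_lift_trdeg_le_of_finite (by simpa using h2)
  have h5 := h4.isAlgebraic_field
  have h6 : Set.range (fun _ : Unit => y) = {y} := by
    ext z; simp [eq_comm]
  rwa [h6] at h5

/-- A valuation subring containing a subfield `L` over which `F` is algebraic is everything. -/
theorem valuationSubring_eq_top_of_isAlgebraic (A : ValuationSubring F)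
    (L : IntermediateField K F) (hL : ∀ z ∈ L, z ∈ A) (halg : Algebra.IsAlgebraic L F) :
    A = ⊤ := by
  refine eq_top_iff.mpr fun f _ => ?_
  have hf : IsIntegral L f := (halg.isAlgebraic f).isIntegral
  obtain ⟨p, hp, hpf⟩ := hf
  let φ : L →+* A :=
    { toFun := fun z => ⟨z.1, hL z.1 z.2⟩
      map_one' := rfl
      map_mul' := fun _ _ => rfl
      map_zero' := rfl
      map_add' := fun _ _ => rfl }
  have hint : IsIntegral A f := by
    refine ⟨p.map φ, hp.map φ, ?_⟩
    rw [Polynomial.eval₂_map]
    exact hpf
  obtain ⟨y, hy⟩ := (IsIntegrallyClosed.isIntegral_iff (R := A) (K := F)).mp hint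
  rw [← hy]
  exact y.2

/-! ### Orders and membership -/

theorem ord_nonneg_of_mem (v : Place K F) {f : F} (hf : f ∈ v.toValuationSubring) :
    0 ≤ v.ord f := by
  rcases eq_or_ne f 0 with rfl | hf0
  · simp
  · have h1 : v.adicValuation f ≤ 1 := by
      have := v.adicValuation_coe ⟨f, hf⟩
      rw [this]
      exact v.heightOneSpectrum.intValuation_le_one _
    have h2 : WithZero.log (v.adicValuation f) ≤ 0 := by
      rw [WithZero.log_le_iff_le_exp (v.adicValuation_ne_zero hf0)]
      simpa using h1
    unfold Place.ord
    omega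

theorem mem_of_ord_nonneg (v : Place K F) {f : F} (hf : 0 ≤ v.ord f) :
    f ∈ v.toValuationSubring := by
  rcases eq_or_ne f 0 with rfl | hf0
  · exact v.toValuationSubring.zero_mem
  · obtain ⟨π, hπ⟩ := IsDiscreteValuationRing.exists_irreducible v.toValuationSubring
    obtain ⟨u, hu⟩ := v.exists_unit_mul_zpow hf0 hπ
    rw [hu]
    obtain ⟨n, hn⟩ := Int.eq_ofNat_of_zero_le hf
    rw [hn, zpow_natCast]
    exact v.toValuationSubring.mul_mem _ _ (Subtype.mem _)
      (v.toValuationSubring.pow_mem (Subtype.mem _) n)

theorem ord_nonneg_iff_mem (v : Place K F) {f : F} :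
    0 ≤ v.ord f ↔ f ∈ v.toValuationSubring :=
  ⟨mem_of_ord_nonneg v, ord_nonneg_of_mem v⟩

theorem isUnit_of_ord_eq_zero (v : Place K F) {z : v.toValuationSubring} (hz0 : z ≠ 0)
    (hz : v.ord (z : F) = 0) : IsUnit z := by
  rw [← v.adicValuation_coe_eq_one_iff]
  have hzF : (z : F) ≠ 0 := fun h => hz0 (Subtype.ext h)
  have h1 : WithZero.log (v.adicValuation (z : F)) = 0 := by
    unfold Place.ord at hz
    omega
  have h2 := WithZero.exp_log (v.adicValuation_ne_zero hzF)
  rw [h1] at h2
  rw [← h2]
  rfl

theorem ord_pos_of_mem_maximalIdeal (v : Place K F) {z : v.toValuationSubring}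
    (hz : z ∈ IsLocalRing.maximalIdeal v.toValuationSubring) (hz0 : z ≠ 0) :
    0 < v.ord (z : F) := by
  have h1 : 0 ≤ v.ord (z : F) := ord_nonneg_of_mem v z.2
  rcases h1.lt_or_eq with h | h
  · exact h
  · exact absurd (isUnit_of_ord_eq_zero v hz0 h.symm) ((IsLocalRing.mem_maximalIdeal _).mp hz)

theorem mem_maximalIdeal_of_ord_pos (v : Place K F) {z : v.toValuationSubring}
    (hz : 0 < v.ord (z : F)) : z ∈ IsLocalRing.maximalIdeal v.toValuationSubring := by
  rw [IsLocalRing.mem_maximalIdeal, mem_nonunits_iff]
  rintro ⟨u, rfl⟩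
  rw [v.ord_coe_unit] at hz
  exact lt_irrefl _ hz

/-- Elements algebraic over the constants have order zero at every place. -/
theorem ord_eq_zero_of_isAlgebraic (v : Place K F) {y : F} (hy : IsAlgebraic K y) :
    v.ord y = 0 := by
  have key : ∀ z : F, IsAlgebraic K z → 0 ≤ v.ord z := by
    intro z hz
    apply ord_nonneg_of_mem
    have hint : IsIntegral K z := hz.isIntegral
    have hint' : IsIntegral v.toValuationSubring z := hint.tower_top
    obtain ⟨w, hw⟩ := (IsIntegrallyClosed.isIntegral_iff (R := v.toValuationSubring)
      (K := F)).mp hint'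
    rw [← hw]
    exact w.2
  have h1 := key y hy
  have h2 := key y⁻¹ hy.inv
  rw [v.ord_inv] at h2
  omega

/-- Constants have order zero. -/
theorem ord_algebraMap (v : Place K F) (a : K) : v.ord (algebraMap K F a) = 0 :=
  ord_eq_zero_of_isAlgebraic v (isAlgebraic_algebraMap a)

theorem transcendental_of_ord_ne_zero (v : Place K F) {y : F} (hy : v.ord y ≠ 0) :
    Transcendental K y :=
  fun h => hy (ord_eq_zero_of_isAlgebraic v h)

/-! ### Residue fields -/

/-- The residue of an element of a place is algebraic over the constants, as soon as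
`F` has transcendence degree at most one. -/
theorem isAlgebraic_residue (x : F) (halg : Algebra.IsAlgebraic K⟮x⟯ F) (v : Place K F)
    (t : v.toValuationSubring) :
    IsAlgebraic K (IsLocalRing.residue v.toValuationSubring t) := by
  by_contra htr
  have htr' : Transcendental K (IsLocalRing.residue v.toValuationSubring t) := htr
  have haeval_res : ∀ p : Polynomial K,
      IsLocalRing.residue v.toValuationSubring (Polynomial.aeval t p)
        = Polynomial.aeval (IsLocalRing.residue v.toValuationSubring t) p := by
    intro p
    have := Polynomial.aeval_algHom_apply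
      (IsScalarTower.toAlgHom K v.toValuationSubring v.ResidueField) t p
    exact this.symm
  have haeval_coe : ∀ p : Polynomial K,
      ((Polynomial.aeval t p : v.toValuationSubring) : F) = Polynomial.aeval (t : F) p := by
    intro p
    have := Polynomial.aeval_algHom_apply
      (IsScalarTower.toAlgHom K v.toValuationSubring F) t p
    exact this.symm
  have hunit : ∀ p : Polynomial K, p ≠ 0 → IsUnit (Polynomial.aeval t p) := by
    intro p hp
    have h1 : Polynomial.aeval (IsLocalRing.residue v.toValuationSubring t) p ≠ 0 :=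
      fun h0 => htr' ⟨p, hp, h0⟩
    rw [← haeval_res] at h1
    by_contra hnu
    exact h1 ((IsLocalRing.residue_eq_zero_iff _).mpr
      ((IsLocalRing.mem_maximalIdeal _).mpr hnu))
  have htF : Transcendental K (t : F) := by
    intro ⟨p, hp, h0⟩
    have h1 := hunit p hp
    have h2 : (Polynomial.aeval t p : v.toValuationSubring) = 0 := by
      apply Subtype.ext
      rw [haeval_coe]
      exact h0
    rw [h2] at h1
    exact not_isUnit_zero h1
  have halg' := isAlgebraic_adjoin_of_transcendental x (t : F) halg htF
  have hsub : ∀ z ∈ K⟮(t : F)⟯, z ∈ v.toValuationSubring := by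
    intro z hz
    obtain ⟨r, s, rfl⟩ := (IntermediateField.mem_adjoin_simple_iff K z).mp hz
    by_cases hs : s = 0
    · simp [hs, v.toValuationSubring.zero_mem]
    · obtain ⟨u, hu⟩ := hunit s hs
      have h1 : (Polynomial.aeval (t : F) s)⁻¹ = ((↑u⁻¹ : v.toValuationSubring) : F) := by
        rw [← haeval_coe, ← hu]
        have h2 : ((u : v.toValuationSubring) : F) * ((↑u⁻¹ : v.toValuationSubring) : F)
            = 1 := by
          have h3 : (u : v.toValuationSubring) * (↑u⁻¹ : v.toValuationSubring) = 1 :=
            u.mul_inv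
          have h4 := congrArg (fun a : v.toValuationSubring => (a : F)) h3
          exact h4
        exact inv_eq_of_mul_eq_one_right h2
      rw [div_eq_mul_inv, h1, ← haeval_coe]
      exact v.toValuationSubring.mul_mem _ _ (Subtype.mem _) (Subtype.mem _)
  exact v.ne_top' (valuationSubring_eq_top_of_isAlgebraic v.toValuationSubring _ hsub halg')

/-- The residue field of a place is integral over the constants. -/
theorem isIntegral_residueField (x : F) (halg : Algebra.IsAlgebraic K⟮x⟯ F) (v : Place K F) :
    Algebra.IsIntegral K v.ResidueField := by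
  refine ⟨fun z => ?_⟩
  obtain ⟨t, rfl⟩ := IsLocalRing.residue_surjective z
  exact (isAlgebraic_residue x halg v t).isIntegral

/-- Over an algebraically closed constant field, the constants map bijectively onto the residue
field of every place. -/
theorem algebraMap_residueField_bijective [IsAlgClosed K] (x : F)
    (halg : Algebra.IsAlgebraic K⟮x⟯ F) (v : Place K F) :
    Function.Bijective (algebraMap K v.ResidueField) := by
  have hint : Algebra.IsIntegral K v.ResidueField := isIntegral_residueField x halg v
  exact IsAlgClosed.algebraMap_bijective_of_isIntegral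

/-- D1: over an algebraically closed constant field, every place of a function field of
transcendence degree one has degree one. -/
theorem place_deg_eq_one [IsAlgClosed K] (x : F) (halg : Algebra.IsAlgebraic K⟮x⟯ F)
    (v : Place K F) : v.deg = 1 := by
  have hbij := algebraMap_residueField_bijective x halg v
  have e : K ≃ₗ[K] v.ResidueField :=
    LinearEquiv.ofBijective (Algebra.linearMap K v.ResidueField) hbij
  unfold Place.deg
  rw [← e.finrank_eq, Module.finrank_self]

/-- Every element of the valuation ring is congruent to a constant modulo the maximal ideal. -/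
theorem exists_const_sub_mem_maximalIdeal [IsAlgClosed K] (x : F)
    (halg : Algebra.IsAlgebraic K⟮x⟯ F) (v : Place K F) (t : v.toValuationSubring) :
    ∃ a : K, t - algebraMap K v.toValuationSubring a ∈
      IsLocalRing.maximalIdeal v.toValuationSubring := by
  obtain ⟨a, ha⟩ := (algebraMap_residueField_bijective x halg v).2
    (IsLocalRing.residue v.toValuationSubring t)
  refine ⟨a, ?_⟩
  rw [← IsLocalRing.residue_eq_zero_iff, map_sub, ← ha]
  exact sub_eq_zero.mpr rfl

/-- CEN (general form): a non-constant function regular at a place takes a value there. -/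
theorem exists_ord_sub_const_pos [IsAlgClosed K] (x : F)
    (halg : Algebra.IsAlgebraic K⟮x⟯ F) (v : Place K F) {f : F}
    (hf : Transcendental K f) (hreg : 0 ≤ v.ord f) :
    ∃ c : K, 0 < v.ord (f - algebraMap K F c) := by
  obtain ⟨c, hc⟩ := exists_const_sub_mem_maximalIdeal x halg v ⟨f, mem_of_ord_nonneg v hreg⟩
  refine ⟨c, ?_⟩
  obtain ⟨z, hz⟩ : ∃ z : v.toValuationSubring,
      z = ⟨f, mem_of_ord_nonneg v hreg⟩ - algebraMap K v.toValuationSubring c := ⟨_, rfl⟩
  rw [← hz] at hc
  have hzF : (z : F) = f - algebraMap K F c := by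
    rw [hz]
    rfl
  have hne : z ≠ 0 := by
    rintro rfl
    have h2 : f - algebraMap K F c = 0 := hzF.symm
    exact hf (by rw [sub_eq_zero.mp h2]; exact isAlgebraic_algebraMap c)
  rw [← hzF]
  exact ord_pos_of_mem_maximalIdeal v hc hne

/-- With all places of degree one, the degree of a divisor is the sum of its coefficients. -/
theorem degree_eq_sum (hdeg : ∀ v : Place K F, v.deg = 1) (D : Divisor K F) :
    Divisor.degree D = D.sum fun _ n => n := by
  induction D using Finsupp.induction_linear with
  | zero => simp
  | add f g hf hg =>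
    rw [map_add, hf, hg, Finsupp.sum_add_index' (by simp) (by simp)]
  | single v n =>
    rw [Divisor.degree_single, hdeg v, Finsupp.sum_single_index rfl]
    simp

/-! ### The coordinate differential -/

/-- The (private) coordinate differential of a place is `d π` for a uniformizer `π`
which is the coercion of an irreducible element of the valuation ring. -/
theorem exists_dCoord_eq (v : Place K F) :
    ∃ π : v.toValuationSubring, Irreducible π ∧ v.ord (π : F) = 1 ∧
      v.dCoord = D K F (π : F) :=
  ⟨(IsDiscreteValuationRing.exists_irreducible v.toValuationSubring).choose,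
    (IsDiscreteValuationRing.exists_irreducible v.toValuationSubring).choose_spec,
    v.ord_coe_irreducible
      (IsDiscreteValuationRing.exists_irreducible v.toValuationSubring).choose_spec,
    rfl⟩

/-- DCG: once `Ω[F/K]` is spanned by `d y` for every transcendental `y`, every place
satisfies `DCoordGenerates`. -/
theorem dCoordGenerates_of_span (v : Place K F)
    (h : ∀ y : F, Transcendental K y → Submodule.span F {D K F y} = ⊤) :
    v.DCoordGenerates := by
  obtain ⟨π, _, hord, hd⟩ := exists_dCoord_eq v
  refine ⟨?_⟩
  rw [hd]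
  exact h _ (transcendental_of_ord_ne_zero v (by rw [hord]; exact one_ne_zero))

theorem differentialCoeff_ne_zero (v : Place K F) [v.DCoordGenerates]
    {ω : Ω[F⁄K]} (hω : ω ≠ 0) : v.differentialCoeff ω ≠ 0 := by
  intro h0
  apply hω
  rw [← v.differentialCoeff_smul_dCoord ω, h0, zero_smul]

/-- D5: `ord_v (c • ω) = ord_v c + ord_v ω` for `c ≠ 0`, `ω ≠ 0`. -/
theorem ordDifferential_smul_of_ne_zero (v : Place K F) [v.DCoordGenerates]
    [Nontrivial Ω[F⁄K]] {c : F} (hc : c ≠ 0) {ω : Ω[F⁄K]} (hω : ω ≠ 0) :
    v.ordDifferential (c • ω) = v.ord c + v.ordDifferential ω :=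
  v.ordDifferential_smul hc (differentialCoeff_ne_zero v hω)

/-! ### Genus assembly -/

/-- GEN: genus assembly.  If `Ω[F/K]` is spanned by `ω₁`, principal divisors have degree `0`,
and the divisor of `ω₁` has degree `2 g - 2`, then the (choice based) genus of the
prelude equals `g`. -/
theorem genus_eq_of_degree [HasCanonicalDivisor (K := K) (F := F)] [HasPrincipalDivisors K F]
    [Nontrivial Ω[F⁄K]] (hgen : ∀ v : Place K F, v.DCoordGenerates)
    {ω₁ : Ω[F⁄K]} (hspan : Submodule.span F {ω₁} = ⊤) (D₁ : Divisor K F)
    (hD₁ : ∀ v, D₁ v = v.ordDifferential ω₁) (g : ℕ)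
    (hdeg : Divisor.degree D₁ = 2 * (g : ℤ) - 2) :
    genus K F = g := by
  classical
  have hω₁ : ω₁ ≠ 0 := by
    rintro rfl
    obtain ⟨x, hx⟩ := exists_ne (0 : Ω[F⁄K])
    have hx_mem : x ∈ Submodule.span F {(0 : Ω[F⁄K])} := hspan ▸ Submodule.mem_top
    rw [Submodule.span_zero_singleton] at hx_mem
    exact hx hx_mem
  have hex : ∃ ω : Ω[F⁄K], ω ≠ 0 := ⟨ω₁, hω₁⟩
  have key : ∀ (ω₀ : Ω[F⁄K]) (hω₀ : ω₀ ≠ 0),
      Divisor.degree (canonicalDivisorOf hω₀) = 2 * (g : ℤ) - 2 := by
    intro ω₀ hω₀
    have hmem : ω₀ ∈ Submodule.span F {ω₁} := hspan ▸ Submodule.mem_top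
    obtain ⟨f, hf⟩ := Submodule.mem_span_singleton.mp hmem
    have hf0 : f ≠ 0 := by
      rintro rfl
      apply hω₀
      rw [← hf, zero_smul]
    obtain ⟨Df, hDf, hDfdeg⟩ := HasPrincipalDivisors.exists_divisor (K := K) f hf0
    have hD : canonicalDivisorOf hω₀ = Df + D₁ := by
      ext v
      have := hgen v
      rw [canonicalDivisorOf_apply, Finsupp.add_apply, hDf, hD₁, ← hf,
        ordDifferential_smul_of_ne_zero v hf0 hω₁]
    rw [hD, map_add, hDfdeg, zero_add, hdeg]
  unfold genus
  rw [dif_pos hex, key]
  have : (2 * (g : ℤ) - 2 + 2).toNat = 2 * g := by omega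
  rw [this]
  omega

end Fermat.Agent.S24.DiffPlace
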