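import Mathlib.RingTheory.LaurentSeries
import Mathlib.RingTheory.PowerSeries.Order
import Mathlib.RingTheory.PowerSeries.Inverse
import Mathlib.RingTheory.DiscreteValuationRing.Basic
import Mathlib.LinearAlgebra.Dimension.Finrank
import Mathlib.Tactic.LinearCombination
import Mathlib.Tactic.Ring
import Fermat.Prelude.Def_AlgebraicCurve_DivisorClassGroup

/-!
# S24, task EXP: the expansion embedding at a place

For a place `v` of `F / K` with residue field `K` (degree one) we construct a ring homomorphism
`E : F →+* K⸨X⸩` which is the identity on constants, sends a chosen uniformizer to `X` and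
satisfies `(E f).order = v.ord f`.

Main results: `EXP_exists_expansion`, `EXP_exists_expansion_of_surjective`.
-/

set_option autoImplicit false

noncomputable section

namespace Fermat.Agent.S24

open AlgebraicCurve

/-- Abstract input for the Taylor expansion: a `K`-algebra `A` with a `K`-point `res` whose
kernel is generated by a regular element `π`, together with a chosen division by `π`. -/
structure EXPData (K A : Type*) [Field K] [CommRing A] [Algebra K A] where
  /-- the `K`-point -/
  res : A →ₐ[K] K
  /-- the uniformizer -/
  π : A
  /-- `shift a = (a - res a) / π` -/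
  shift : A → A
  shift_spec : ∀ a, a = algebraMap K A (res a) + π * shift a
  reg : ∀ b b' : A, π * b = π * b' → b = b'
  res_π : res π = 0

namespace EXPData

variable {K A : Type*} [Field K] [CommRing A] [Algebra K A] (D : EXPData K A)

lemma res_algebraMap (c : K) : D.res (algebraMap K A c) = c := by
  rw [AlgHom.commutes]; rfl

lemma shift_add (a b : A) : D.shift (a + b) = D.shift a + D.shift b := by
  apply D.reg
  have h1 := D.shift_spec a
  have h2 := D.shift_spec b
  have h3 := D.shift_spec (a + b)
  rw [map_add, map_add] at h3
  linear_combination h1 + h2 - h3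

lemma shift_mul (a b : A) :
    D.shift (a * b) = D.shift a * b + algebraMap K A (D.res a) * D.shift b := by
  apply D.reg
  have h1 := D.shift_spec a
  have h2 := D.shift_spec b
  have h3 := D.shift_spec (a * b)
  rw [map_mul, map_mul] at h3
  linear_combination (-1 : A) * h3 + b * h1 + algebraMap K A (D.res a) * h2

lemma shift_algebraMap (c : K) : D.shift (algebraMap K A c) = 0 := by
  apply D.reg
  have h := D.shift_spec (algebraMap K A c)
  rw [D.res_algebraMap] at h
  linear_combination (-1 : A) * h

lemma shift_zero : D.shift 0 = 0 := by
  have := D.shift_algebraMap 0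
  rwa [map_zero] at this

lemma shift_one : D.shift 1 = 0 := by
  have := D.shift_algebraMap 1
  rwa [map_one] at this

lemma shift_π : D.shift D.π = 1 := by
  apply D.reg
  have h := D.shift_spec D.π
  rw [D.res_π, map_zero] at h
  linear_combination (-1 : A) * h

lemma shift_algebraMap_mul (c : K) (a : A) :
    D.shift (algebraMap K A c * a) = algebraMap K A c * D.shift a := by
  rw [D.shift_mul, D.shift_algebraMap, zero_mul, zero_add, D.res_algebraMap]

/-- `shift` as a `K`-linear map. -/
def shiftL : A →ₗ[K] A where
  toFun := D.shift
  map_add' := D.shift_add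
  map_smul' c a := by
    rw [Algebra.smul_def, D.shift_algebraMap_mul, RingHom.id_apply, Algebra.smul_def]

@[simp] lemma shiftL_apply (a : A) : D.shiftL a = D.shift a := rfl

lemma iterate_eq (n : ℕ) (a : A) : D.shift^[n] a = (D.shiftL ^ n) a := by
  induction n generalizing a with
  | zero => simp
  | succ n ih =>
    rw [Function.iterate_succ_apply, ih, pow_succ, Module.End.mul_apply, shiftL_apply]

/-- Leibniz rule for the iterated shift. -/
lemma iterate_shift_mul (n : ℕ) (a b : A) :
    D.shift^[n] (a * b) = D.shift^[n] a * b +
      ∑ i ∈ Finset.range n, algebraMap K A (D.res (D.shift^[i] a)) * D.shift^[n - i] b := by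
  induction n with
  | zero => simp
  | succ n ih =>
    rw [Function.iterate_succ_apply', ih, ← shiftL_apply, map_add, map_sum, shiftL_apply,
      D.shift_mul, Finset.sum_range_succ, ← Function.iterate_succ_apply' D.shift n a]
    have hsum : ∑ i ∈ Finset.range n,
          D.shiftL (algebraMap K A (D.res (D.shift^[i] a)) * D.shift^[n - i] b) =
        ∑ i ∈ Finset.range n,
          algebraMap K A (D.res (D.shift^[i] a)) * D.shift^[n + 1 - i] b := by
      refine Finset.sum_congr rfl fun i hi => ?_
      have hi' : i ≤ n := (Finset.mem_range.mp hi).le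
      rw [shiftL_apply, D.shift_algebraMap_mul, Nat.succ_sub hi',
        Function.iterate_succ_apply']
    rw [hsum, Nat.add_sub_cancel_left, Function.iterate_one]
    ring

/-- The Taylor expansion `A → K⟦X⟧`. -/
def expand : A →ₐ[K] PowerSeries K where
  toFun a := PowerSeries.mk fun n => D.res (D.shift^[n] a)
  map_one' := by
    ext n
    rw [PowerSeries.coeff_mk, PowerSeries.coeff_one]
    rcases n with _ | n
    · simp
    · rw [Function.iterate_succ_apply, D.shift_one, D.iterate_eq, map_zero, map_zero]
      simp
  map_mul' a b := by
    ext n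
    rw [PowerSeries.coeff_mul, PowerSeries.coeff_mk, D.iterate_shift_mul, map_add, map_mul,
      map_sum,
      Finset.Nat.sum_antidiagonal_eq_sum_range_succ
        (fun i j => PowerSeries.coeff i (PowerSeries.mk fun n => D.res (D.shift^[n] a)) *
          PowerSeries.coeff j (PowerSeries.mk fun n => D.res (D.shift^[n] b))),
      Finset.sum_range_succ]
    simp only [PowerSeries.coeff_mk, map_mul, D.res_algebraMap, Nat.sub_self,
      Function.iterate_zero, id_eq]
    rw [add_comm]
  map_zero' := by
    ext n
    rw [PowerSeries.coeff_mk, D.iterate_eq, map_zero, map_zero, map_zero]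
  map_add' a b := by
    ext n
    rw [PowerSeries.coeff_mk, map_add, PowerSeries.coeff_mk, PowerSeries.coeff_mk,
      D.iterate_eq, D.iterate_eq, D.iterate_eq, map_add, map_add]
  commutes' c := by
    ext n
    rw [PowerSeries.coeff_mk, PowerSeries.algebraMap_apply, Algebra.algebraMap_self,
      RingHom.id_apply, PowerSeries.coeff_C]
    rcases n with _ | n
    · simp [D.res_algebraMap]
    · rw [Function.iterate_succ_apply, D.shift_algebraMap, D.iterate_eq, map_zero, map_zero]
      simp

lemma coeff_expand (a : A) (n : ℕ) :
    PowerSeries.coeff n (D.expand a) = D.res (D.shift^[n] a) := by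
  change PowerSeries.coeff n (PowerSeries.mk fun n => D.res (D.shift^[n] a)) = _
  exact PowerSeries.coeff_mk _ _

lemma coeff_zero_expand (a : A) : PowerSeries.coeff 0 (D.expand a) = D.res a := by
  rw [coeff_expand]; rfl

lemma expand_π : D.expand D.π = PowerSeries.X := by
  ext n
  rw [coeff_expand, PowerSeries.coeff_X]
  rcases n with _ | _ | n
  · simp [D.res_π]
  · simp [D.shift_π]
  · rw [Function.iterate_succ_apply, D.shift_π, Function.iterate_succ_apply, D.shift_one,
      D.iterate_eq, map_zero, map_zero]
    simp

end EXPData

section Place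

variable {K F : Type*} [Field K] [Field F] [Algebra K F] (v : Place K F)

/-- `K ≃ k(v)` when the residue field of `v` is `K`. -/
def EXP_resEquiv (hres : Function.Surjective (algebraMap K v.ResidueField)) :
    K ≃+* v.ResidueField :=
  RingEquiv.ofBijective (algebraMap K v.ResidueField)
    ⟨(algebraMap K v.ResidueField).injective, hres⟩

lemma EXP_resEquiv_apply (hres : Function.Surjective (algebraMap K v.ResidueField)) (c : K) :
    EXP_resEquiv v hres c = algebraMap K v.ResidueField c := rfl

lemma EXP_residue_algebraMap (c : K) :
    IsLocalRing.residue v.toValuationSubring (algebraMap K v.toValuationSubring c) =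
      algebraMap K v.ResidueField c := rfl

/-- The residue map `𝒪_v → K`. -/
def EXP_res (hres : Function.Surjective (algebraMap K v.ResidueField)) :
    v.toValuationSubring →ₐ[K] K where
  toRingHom := ((EXP_resEquiv v hres).symm : v.ResidueField →+* K).comp
    (IsLocalRing.residue v.toValuationSubring)
  commutes' c := by
    change (EXP_resEquiv v hres).symm
      (IsLocalRing.residue v.toValuationSubring (algebraMap K v.toValuationSubring c)) = c
    rw [EXP_residue_algebraMap, ← EXP_resEquiv_apply v hres, RingEquiv.symm_apply_apply]

lemma EXP_res_apply (hres : Function.Surjective (algebraMap K v.ResidueField))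
    (a : v.toValuationSubring) :
    algebraMap K v.ResidueField (EXP_res v hres a) =
      IsLocalRing.residue v.toValuationSubring a := by
  change EXP_resEquiv v hres ((EXP_resEquiv v hres).symm
    (IsLocalRing.residue v.toValuationSubring a)) = _
  rw [RingEquiv.apply_symm_apply]

lemma EXP_sub_res_mem (hres : Function.Surjective (algebraMap K v.ResidueField))
    (a : v.toValuationSubring) :
    a - algebraMap K v.toValuationSubring (EXP_res v hres a) ∈
      IsLocalRing.maximalIdeal v.toValuationSubring := by
  rw [← IsLocalRing.residue_eq_zero_iff, map_sub, EXP_residue_algebraMap, EXP_res_apply,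
    sub_self]

lemma EXP_exists_shift (hres : Function.Surjective (algebraMap K v.ResidueField))
    {π : v.toValuationSubring} (hπ : Irreducible π) (a : v.toValuationSubring) :
    ∃ b : v.toValuationSubring,
      a = algebraMap K v.toValuationSubring (EXP_res v hres a) + π * b := by
  have h := EXP_sub_res_mem v hres a
  rw [hπ.maximalIdeal_eq, Ideal.mem_span_singleton'] at h
  obtain ⟨b, hb⟩ := h
  exact ⟨b, by linear_combination -hb⟩

/-- The expansion data of a degree-one place with a chosen uniformizer. -/
def EXP_data (hres : Function.Surjective (algebraMap K v.ResidueField))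
    {π : v.toValuationSubring} (hπ : Irreducible π) : EXPData K v.toValuationSubring where
  res := EXP_res v hres
  π := π
  shift a := (EXP_exists_shift v hres hπ a).choose
  shift_spec a := (EXP_exists_shift v hres hπ a).choose_spec
  reg b b' h := mul_left_cancel₀ hπ.ne_zero h
  res_π := by
    have h1 : IsLocalRing.residue v.toValuationSubring π = 0 := by
      rw [IsLocalRing.residue_eq_zero_iff, hπ.maximalIdeal_eq]
      exact Ideal.mem_span_singleton_self π
    have h2 := EXP_res_apply v hres π
    rw [h1] at h2
    exact (map_eq_zero (algebraMap K v.ResidueField)).mp h2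

lemma EXP_res_unit_ne_zero (hres : Function.Surjective (algebraMap K v.ResidueField))
    (u : v.toValuationSubringˣ) : EXP_res v hres (u : v.toValuationSubring) ≠ 0 :=
  (u.isUnit.map (EXP_res v hres)).ne_zero

/-- The order of the image of a power series with nonzero constant coefficient. -/
lemma EXP_order_ofPowerSeries {φ : PowerSeries K} (hφ : PowerSeries.coeff 0 φ ≠ 0) :
    (HahnSeries.ofPowerSeries ℤ K φ).order = 0 := by
  have hc0 : (HahnSeries.ofPowerSeries ℤ K φ).coeff 0 ≠ 0 := by
    have := HahnSeries.ofPowerSeries_apply_coeff (Γ := ℤ) φ 0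
    simp only [Nat.cast_zero] at this
    rw [this]; exact hφ
  have hne : HahnSeries.ofPowerSeries ℤ K φ ≠ 0 := by
    intro h
    rw [h] at hc0
    exact hc0 rfl
  apply le_antisymm
  · exact HahnSeries.order_le_of_coeff_ne_zero hc0
  · rw [HahnSeries.le_order_iff_forall hne]
    intro j hj
    have := PowerSeries.coeff_coe (f := φ) j
    rw [if_pos hj] at this
    exact this

/-- **EXP**, with a prescribed uniformizer. -/
theorem EXP_exists_expansion_of_surjective
    (hres : Function.Surjective (algebraMap K v.ResidueField))
    {π : v.toValuationSubring} (hπ : Irreducible π) :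
    ∃ E : F →+* LaurentSeries K, (∀ c : K, E (algebraMap K F c) = HahnSeries.C c) ∧
      E (π : F) = HahnSeries.single 1 1 ∧ (∀ f : F, f ≠ 0 → (E f).order = v.ord f) := by
  set D := EXP_data v hres hπ with hD
  let g : v.toValuationSubring →+* LaurentSeries K :=
    (HahnSeries.ofPowerSeries ℤ K).comp D.expand.toRingHom
  have hgπ : g π = HahnSeries.single 1 1 := by
    change HahnSeries.ofPowerSeries ℤ K (D.expand D.π) = _
    rw [D.expand_π, HahnSeries.ofPowerSeries_X]
  have hgu : ∀ u : v.toValuationSubringˣ, (g (u : v.toValuationSubring)).order = 0 := by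
    intro u
    apply EXP_order_ofPowerSeries
    change PowerSeries.coeff 0 (D.expand (u : v.toValuationSubring)) ≠ 0
    rw [D.coeff_zero_expand]
    exact EXP_res_unit_ne_zero v hres u
  have hgu0 : ∀ u : v.toValuationSubringˣ, g (u : v.toValuationSubring) ≠ 0 := by
    intro u
    exact (u.isUnit.map g).ne_zero
  have hginj : Function.Injective g := by
    rw [injective_iff_map_eq_zero]
    intro a ha
    by_contra hne
    obtain ⟨n, u, hu⟩ := IsDiscreteValuationRing.eq_unit_mul_pow_irreducible hne hπ
    rw [hu, map_mul, map_pow, hgπ] at ha
    rcases mul_eq_zero.mp ha with h | h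
    · exact hgu0 u h
    · exact pow_ne_zero n (HahnSeries.single_ne_zero one_ne_zero) h
  refine ⟨IsFractionRing.lift hginj, ?_, ?_, ?_⟩
  · intro c
    have h1 : algebraMap K F c =
        algebraMap v.toValuationSubring F (algebraMap K v.toValuationSubring c) := rfl
    rw [h1, IsFractionRing.lift_algebraMap]
    change HahnSeries.ofPowerSeries ℤ K (D.expand (algebraMap K v.toValuationSubring c)) = _
    rw [AlgHom.commutes, PowerSeries.algebraMap_apply, Algebra.algebraMap_self,
      RingHom.id_apply, HahnSeries.ofPowerSeries_C]
  · have h1 : (π : F) = algebraMap v.toValuationSubring F π := rfl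
    rw [h1, IsFractionRing.lift_algebraMap, hgπ]
  · intro f hf
    obtain ⟨u, hu⟩ := v.exists_unit_mul_zpow hf hπ
    have h1 : (π : F) = algebraMap v.toValuationSubring F π := rfl
    have h2 : ((u : v.toValuationSubring) : F) =
        algebraMap v.toValuationSubring F (u : v.toValuationSubring) := rfl
    conv_lhs => rw [hu]
    rw [map_mul, map_zpow₀, h1, h2, IsFractionRing.lift_algebraMap,
      IsFractionRing.lift_algebraMap, hgπ, ← RatFunc.single_zpow,
      HahnSeries.order_mul (hgu0 u) (HahnSeries.single_ne_zero one_ne_zero), hgu u,
      HahnSeries.order_single one_ne_zero, zero_add]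

/-- `v.deg = 1` implies that the residue field is `K`. -/
lemma EXP_surjective_of_deg (hdeg : v.deg = 1) :
    Function.Surjective (algebraMap K v.ResidueField) := by
  intro x
  have h := (finrank_eq_one_iff_of_nonzero' (1 : v.ResidueField) one_ne_zero).mp hdeg x
  obtain ⟨c, hc⟩ := h
  exact ⟨c, by rw [Algebra.algebraMap_eq_smul_one, hc]⟩

/-- **EXP** (task `EXP` of the S24 plan): the expansion embedding at a place of degree one. -/
theorem EXP_exists_expansion (hdeg : v.deg = 1) :
    ∃ E : F →+* LaurentSeries K, (∀ c : K, E (algebraMap K F c) = HahnSeries.C c) ∧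
      (∀ f : F, f ≠ 0 → (E f).order = v.ord f) := by
  obtain ⟨π, hπ⟩ := IsDiscreteValuationRing.exists_irreducible v.toValuationSubring
  obtain ⟨E, h1, -, h3⟩ :=
    EXP_exists_expansion_of_surjective v (EXP_surjective_of_deg v hdeg) hπ
  exact ⟨E, h1, h3⟩

/-- An element of order one is (the image of) an irreducible element of the valuation ring. -/
lemma EXP_exists_irreducible_of_ord_eq_one {π : F} (hπ : v.ord π = 1) :
    ∃ p : v.toValuationSubring, Irreducible p ∧ (p : F) = π := by
  have hπ0 : π ≠ 0 := by
    rintro rfl
    rw [v.ord_zero] at hπ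
    exact zero_ne_one hπ
  obtain ⟨ϖ, hϖ⟩ := IsDiscreteValuationRing.exists_irreducible v.toValuationSubring
  obtain ⟨u, hu⟩ := v.exists_unit_mul_zpow hπ0 hϖ
  rw [hπ, zpow_one] at hu
  exact ⟨(u : v.toValuationSubring) * ϖ, (irreducible_units_mul u).mpr hϖ, hu.symm⟩

/-- **EXP** with a prescribed uniformizer `π : F`, `v.ord π = 1`: the expansion sends `π` to
`X`. -/
theorem EXP_exists_expansion_uniformizer (hdeg : v.deg = 1) {π : F} (hπ : v.ord π = 1) :
    ∃ E : F →+* LaurentSeries K, (∀ c : K, E (algebraMap K F c) = HahnSeries.C c) ∧
      E π = HahnSeries.single 1 1 ∧ (∀ f : F, f ≠ 0 → (E f).order = v.ord f) := by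
  obtain ⟨p, hp, rfl⟩ := EXP_exists_irreducible_of_ord_eq_one v hπ
  exact EXP_exists_expansion_of_surjective v (EXP_surjective_of_deg v hdeg) hp

end Place

end Fermat.Agent.S24
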