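import Fermat.Agent.S24.ADefs
import Fermat.Agent.S28.CuspJ

/-!
# S24 MOD, task AN4: the conjugates of `j(Nτ)` are pairwise distinct

If `j(N · γτ) = j(Nτ)` for all `τ` then `γ ∈ Γ₀(N)`.  Proof: by the Hermite decomposition
`j(N · γτ) = j((aτ + b)/d)` with `a = gcd(N, c)`, `a d = N`; in `𝕋 = exp (2πiτ/N)` this has a pole
of order `a · (N/d) = a²`, whereas `j(Nτ)` has a pole of order `N²`.  Hence `a = N`, i.e. `N ∣ c`.
-/

set_option autoImplicit false

open ModularCurve AlgebraicCurve CongruenceSubgroup UpperHalfPlane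
open scoped MatrixGroups Manifold

noncomputable section

namespace Fermat.Agent.S24

open Fermat.Agent.S28 (HasTExp jAn jAt)

/-- The pole order of `τ ↦ j(δ · γτ)` in `𝕋 = exp (2πiτ/N)`: there is an expansion of order
`-(a · (N / d))` where `a = gcd(δ, c)`, `a d = δ`. -/
theorem an4_exists_texp_jAt_smul (N δ : ℕ) (hN : 0 < N) (hδ : δ ∣ N) (γ : SL(2, ℤ)) :
    ∃ (a d : ℕ) (s : LaurentSeries ℂ), 0 < a ∧ 0 < d ∧ a * d = δ ∧ a = Int.gcd δ (γ 1 0) ∧
      HasTExp N (fun τ => jAt δ (γ • τ)) s ∧ s.order = -((a * (N / d) : ℕ) : ℤ) := by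
  have hδ0 : 0 < δ := Nat.pos_of_dvd_of_pos hδ hN
  obtain ⟨a, d, b, φ, ha, hd, hmul, hgcd, -, -, hφ, -, hj⟩ :=
    Fermat.Agent.S28.Cusp.cusp_exists_data δ hδ0 γ
  have hdN : d ∣ N := (Dvd.intro_left a hmul).trans hδ
  have hεpos : (0 : ℤ) < ((a * (N / d) : ℕ) : ℤ) := by
    exact_mod_cast Nat.mul_pos ha (Nat.div_pos (Nat.le_of_dvd hN hdN) hd)
  have ht := Fermat.Agent.S28.Cusp.isTwistDilate_twistDilate
    (Complex.exp (2 * Real.pi * Complex.I * b / d)) ((a * (N / d) : ℕ) : ℤ) hεpos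
    (Fermat.Agent.S28.cEmb jq)
  refine ⟨a, d, Fermat.Agent.S28.Cusp.twistDilate
    (Complex.exp (2 * Real.pi * Complex.I * b / d)) ((a * (N / d) : ℕ) : ℤ) hεpos
    (Fermat.Agent.S28.cEmb jq), ha, hd, hmul, hgcd, ?_, ?_⟩
  · have h := Fermat.Agent.S28.Cusp.hasTExp_jAn'.affine_twistDilate hN φ a d b ha hd hdN hφ _ ht
    exact h.congr fun τ => (hj τ).symm
  · have hne : Fermat.Agent.S28.cEmb jq ≠ 0 := by
      intro h0
      have := Fermat.Agent.S28.Cusp.order_cEmb_jq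
      rw [h0, HahnSeries.order_zero] at this
      norm_num at this
    rw [ht.order_eq hεpos (Complex.exp_ne_zero _) hne, Fermat.Agent.S28.Cusp.order_cEmb_jq]
    ring

/-- **AN4**: if `j(N · γτ) = j(Nτ)` for all `τ`, then `γ ∈ Γ₀(N)`. -/
theorem mem_Gamma0_of_jAt_smul_eq (N : ℕ) [NeZero N] (γ : SL(2, ℤ))
    (h : ∀ τ : ℍ, jAt N (γ • τ) = jAt N τ) : γ ∈ Gamma0 N := by
  have hN : 0 < N := Nat.pos_of_ne_zero (NeZero.ne N)
  obtain ⟨a, d, s, ha, hd, hmul, hgcd, hs, hord⟩ :=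
    an4_exists_texp_jAt_smul N N hN dvd_rfl γ
  obtain ⟨a', d', s', ha', hd', hmul', hgcd', hs', hord'⟩ :=
    an4_exists_texp_jAt_smul N N hN dvd_rfl 1
  -- for `γ = 1`: `a' = N`, `d' = 1`
  have ha'N : a' = N := by
    rw [hgcd']
    simp
  have hd'1 : d' = 1 := by
    rw [ha'N] at hmul'
    exact Nat.eq_of_mul_eq_mul_left hN (by rw [hmul', mul_one])
  have hs'' : HasTExp N (jAt N) s' := hs'.congr fun τ => by rw [one_smul]
  have hss : s = s' := HasTExp.unique hN (hs.congr h) hs''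
  have hkey : a * (N / d) = N * N := by
    have h1 : -((a * (N / d) : ℕ) : ℤ) = -((a' * (N / d') : ℕ) : ℤ) := by
      rw [← hord, ← hord', hss]
    have h2 : ((a * (N / d) : ℕ) : ℤ) = ((a' * (N / d') : ℕ) : ℤ) := neg_injective h1
    have h3 : a * (N / d) = a' * (N / d') := by exact_mod_cast h2
    rw [h3, ha'N, hd'1, Nat.div_one]
  -- `N / d = a`
  have hNd : N / d = a := by
    rw [← hmul, Nat.mul_div_cancel _ hd]
  rw [hNd] at hkey
  have haN : a = N := by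
    have := Nat.mul_self_inj.mp hkey
    exact this
  rw [Fermat.Agent.S28.Cusp.mem_Gamma0_iff_dvd]
  have hg : (Int.gcd (N : ℤ) (γ 1 0) : ℤ) = N := by
    rw [← hgcd, haN]
  rw [← hg]
  exact Int.gcd_dvd_right _ _

end Fermat.Agent.S24
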