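import Fermat.Agent.S24.ADefs
import Fermat.Agent.S28.TExp

/-!
# S24 (MOD, AN2): the germ embedding at a point of the upper half plane

`exists_germEmb_of`: for `τ₀ ∈ ℍ` and `g ∈ SL(2, ℤ)` there is a ring homomorphism
`E : F → ℂ((s))` sending `f = P / Q` to the quotient of the Taylor series at `τ₀` of
`P ∘ g⁻¹` and `Q ∘ g⁻¹`.  The inputs from AN1 (`exists_isAn`) and AN5 (the Taylor calculus
`TayAxioms`) are explicit hypotheses.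
-/

set_option autoImplicit false

open ModularCurve AlgebraicCurve UpperHalfPlane CongruenceSubgroup
open scoped MatrixGroups Manifold

noncomputable section

namespace Fermat.Agent.S24

open Fermat.Agent.S28 (HasTExp)

/-- The statements of AN5 used by the germ embedding. -/
structure TayAxioms : Prop where
  eq_zero_iff : ∀ {H : ℍ → ℂ}, MDiff H → ∀ τ₀ : ℍ, (tayAt τ₀ H = 0 ↔ H = 0)
  mul : ∀ {H₁ H₂ : ℍ → ℂ}, MDiff H₁ → MDiff H₂ → ∀ τ₀ : ℍ,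
    tayAt τ₀ (H₁ * H₂) = tayAt τ₀ H₁ * tayAt τ₀ H₂
  add : ∀ {H₁ H₂ : ℍ → ℂ}, MDiff H₁ → MDiff H₂ → ∀ τ₀ : ℍ,
    tayAt τ₀ (H₁ + H₂) = tayAt τ₀ H₁ + tayAt τ₀ H₂
  const : ∀ (c : ℂ) (τ₀ : ℍ), tayAt τ₀ (fun _ => c) = PowerSeries.C c

/-! ## closure properties of `IsAn` -/

/-- a function with a `𝕋`-expansion is determined by it. -/
theorem h25_fun_unique {N : ℕ} {G G' : ℍ → ℂ} {s : LaurentSeries ℂ}
    (h : HasTExp N G s) (h' : HasTExp N G' s) : G = G' := by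
  funext τ
  exact (Fermat.Agent.S28.hasTExp_iff.mp h τ).unique (Fermat.Agent.S28.hasTExp_iff.mp h' τ)

/-- a nonzero function has a nonzero expansion. -/
theorem h25_exp_ne_zero {N : ℕ} {G : ℍ → ℂ} {s : LaurentSeries ℂ}
    (h : HasTExp N G s) (hG : G ≠ 0) : s ≠ 0 := by
  rintro rfl
  exact hG (h25_fun_unique h (HasTExp.zero N))

/-- a function with a nonzero expansion is nonzero. -/
theorem h25_fun_ne_zero {N : ℕ} (hN : 0 < N) {G : ℍ → ℂ} {s : LaurentSeries ℂ}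
    (h : HasTExp N G s) (hs : s ≠ 0) : G ≠ 0 := by
  rintro rfl
  exact hs (HasTExp.unique hN h (HasTExp.zero N))

theorem h25_isAn_unique {N : ℕ} [NeZero N] {f : FF N} {P Q P' Q' : ℍ → ℂ}
    (h : IsAn N f P Q) (h' : IsAn N f P' Q') : P * Q' = P' * Q := by
  obtain ⟨p, q, hp, hq, hrel⟩ := h.rel
  obtain ⟨p', q', hp', hq', hrel'⟩ := h'.rel
  have h1 : HasTExp 1 (P * Q') (p * q') := hp.mul one_pos hq'
  have h2 : HasTExp 1 (P' * Q) (p' * q) := hp'.mul one_pos hq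
  have h3 : p * q' = p' * q := by
    rw [← hrel, ← hrel']
    ring
  rw [h3] at h1
  exact h25_fun_unique h1 h2

theorem h25_isAn_cst (N : ℕ) [NeZero N] (a : Kbar) :
    IsAn N (cst N a) (fun _ => embC a) 1 where
  holoP := mdifferentiable_const
  holoQ := mdifferentiable_const
  Q_ne := by
    intro h
    have := congrFun h UpperHalfPlane.I
    simp at this
  invP _ _ _ := rfl
  invQ _ _ _ := rfl
  expP _ := ⟨_, HasTExp.const N _⟩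
  expQ _ := ⟨_, HasTExp.one N⟩
  rel := by
    refine ⟨HahnSeries.C (embC a), 1, HasTExp.const 1 _, HasTExp.one 1, ?_⟩
    rw [mul_one]
    have : ((cst N a : FF N) : LaurentSeries Kbar) = algebraMap Kbar (LaurentSeries Kbar) a := rfl
    rw [this, algebraMap_laurentSeries_eq_single, coeffMap_single]
    rfl

theorem h25_isAn_add {N : ℕ} [NeZero N] {f₁ f₂ : FF N} {P₁ Q₁ P₂ Q₂ : ℍ → ℂ}
    (h₁ : IsAn N f₁ P₁ Q₁) (h₂ : IsAn N f₂ P₂ Q₂) :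
    IsAn N (f₁ + f₂) (P₁ * Q₂ + P₂ * Q₁) (Q₁ * Q₂) := by
  have hN : 0 < N := Nat.pos_of_ne_zero (NeZero.ne N)
  obtain ⟨p₁, q₁, hp₁, hq₁, hrel₁⟩ := h₁.rel
  obtain ⟨p₂, q₂, hp₂, hq₂, hrel₂⟩ := h₂.rel
  refine ⟨(h₁.holoP.mul h₂.holoQ).add (h₂.holoP.mul h₁.holoQ), h₁.holoQ.mul h₂.holoQ, ?_, ?_, ?_,
    ?_, ?_, ?_⟩
  · exact h25_fun_ne_zero one_pos (hq₁.mul one_pos hq₂)
      (mul_ne_zero (h25_exp_ne_zero hq₁ h₁.Q_ne) (h25_exp_ne_zero hq₂ h₂.Q_ne))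
  · intro γ hγ τ
    simp only [Pi.add_apply, Pi.mul_apply, h₁.invP γ hγ τ, h₂.invP γ hγ τ, h₁.invQ γ hγ τ,
      h₂.invQ γ hγ τ]
  · intro γ hγ τ
    simp only [Pi.mul_apply, h₁.invQ γ hγ τ, h₂.invQ γ hγ τ]
  · intro g
    obtain ⟨s₁, hs₁⟩ := h₁.expP g
    obtain ⟨t₁, ht₁⟩ := h₁.expQ g
    obtain ⟨s₂, hs₂⟩ := h₂.expP g
    obtain ⟨t₂, ht₂⟩ := h₂.expQ g
    exact ⟨s₁ * t₂ + s₂ * t₁, (hs₁.mul hN ht₂).add (hs₂.mul hN ht₁)⟩
  · intro g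
    obtain ⟨t₁, ht₁⟩ := h₁.expQ g
    obtain ⟨t₂, ht₂⟩ := h₂.expQ g
    exact ⟨t₁ * t₂, ht₁.mul hN ht₂⟩
  · refine ⟨p₁ * q₂ + p₂ * q₁, q₁ * q₂, (hp₁.mul one_pos hq₂).add (hp₂.mul one_pos hq₁),
      hq₁.mul one_pos hq₂, ?_⟩
    have : ((f₁ + f₂ : FF N) : LaurentSeries Kbar)
        = (f₁ : LaurentSeries Kbar) + (f₂ : LaurentSeries Kbar) := rfl
    rw [this, map_add, ← hrel₁, ← hrel₂]
    ring

theorem h25_isAn_mul {N : ℕ} [NeZero N] {f₁ f₂ : FF N} {P₁ Q₁ P₂ Q₂ : ℍ → ℂ}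
    (h₁ : IsAn N f₁ P₁ Q₁) (h₂ : IsAn N f₂ P₂ Q₂) :
    IsAn N (f₁ * f₂) (P₁ * P₂) (Q₁ * Q₂) := by
  have hN : 0 < N := Nat.pos_of_ne_zero (NeZero.ne N)
  obtain ⟨p₁, q₁, hp₁, hq₁, hrel₁⟩ := h₁.rel
  obtain ⟨p₂, q₂, hp₂, hq₂, hrel₂⟩ := h₂.rel
  refine ⟨h₁.holoP.mul h₂.holoP, h₁.holoQ.mul h₂.holoQ, ?_, ?_, ?_, ?_, ?_, ?_⟩
  · exact h25_fun_ne_zero one_pos (hq₁.mul one_pos hq₂)
      (mul_ne_zero (h25_exp_ne_zero hq₁ h₁.Q_ne) (h25_exp_ne_zero hq₂ h₂.Q_ne))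
  · intro γ hγ τ
    simp only [Pi.mul_apply, h₁.invP γ hγ τ, h₂.invP γ hγ τ]
  · intro γ hγ τ
    simp only [Pi.mul_apply, h₁.invQ γ hγ τ, h₂.invQ γ hγ τ]
  · intro g
    obtain ⟨s₁, hs₁⟩ := h₁.expP g
    obtain ⟨s₂, hs₂⟩ := h₂.expP g
    exact ⟨s₁ * s₂, hs₁.mul hN hs₂⟩
  · intro g
    obtain ⟨t₁, ht₁⟩ := h₁.expQ g
    obtain ⟨t₂, ht₂⟩ := h₂.expQ g
    exact ⟨t₁ * t₂, ht₁.mul hN ht₂⟩
  · refine ⟨p₁ * p₂, q₁ * q₂, hp₁.mul one_pos hp₂, hq₁.mul one_pos hq₂, ?_⟩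
    have : ((f₁ * f₂ : FF N) : LaurentSeries Kbar)
        = (f₁ : LaurentSeries Kbar) * (f₂ : LaurentSeries Kbar) := rfl
    rw [this, map_mul, ← hrel₁, ← hrel₂]
    ring

/-! ## the germ of a translate -/

/-- Translation by an element of `SL(2, ℤ)` preserves holomorphy. -/
theorem h25_mdiff_comp_smul {H : ℍ → ℂ} (hH : MDiff H) (γ : SL(2, ℤ)) :
    MDiff (fun τ => H (γ • τ)) := by
  have hdet : 0 < ((γ : GL (Fin 2) ℝ)).det.val := by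
    simp
  exact hH.comp (UpperHalfPlane.mdifferentiable_smul hdet)

/-- The Taylor series at `τ₀` of the translate of `H` by `g⁻¹`, as a Laurent series. -/
def germOf (τ₀ : ℍ) (g : SL(2, ℤ)) (H : ℍ → ℂ) : LaurentSeries ℂ :=
  HahnSeries.ofPowerSeries ℤ ℂ (tayAt τ₀ (fun τ => H (g⁻¹ • τ)))

theorem germOf_mul (hT : TayAxioms) (τ₀ : ℍ) (g : SL(2, ℤ)) {H₁ H₂ : ℍ → ℂ}
    (h₁ : MDiff H₁) (h₂ : MDiff H₂) :
    germOf τ₀ g (H₁ * H₂) = germOf τ₀ g H₁ * germOf τ₀ g H₂ := by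
  have h := hT.mul (h25_mdiff_comp_smul h₁ g⁻¹) (h25_mdiff_comp_smul h₂ g⁻¹) τ₀
  have e : (fun τ => (H₁ * H₂) (g⁻¹ • τ))
      = (fun τ => H₁ (g⁻¹ • τ)) * (fun τ => H₂ (g⁻¹ • τ)) := rfl
  rw [germOf, germOf, germOf, e, h, map_mul]

theorem germOf_add (hT : TayAxioms) (τ₀ : ℍ) (g : SL(2, ℤ)) {H₁ H₂ : ℍ → ℂ}
    (h₁ : MDiff H₁) (h₂ : MDiff H₂) :
    germOf τ₀ g (H₁ + H₂) = germOf τ₀ g H₁ + germOf τ₀ g H₂ := by
  have h := hT.add (h25_mdiff_comp_smul h₁ g⁻¹) (h25_mdiff_comp_smul h₂ g⁻¹) τ₀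
  have e : (fun τ => (H₁ + H₂) (g⁻¹ • τ))
      = (fun τ => H₁ (g⁻¹ • τ)) + (fun τ => H₂ (g⁻¹ • τ)) := rfl
  rw [germOf, germOf, germOf, e, h, map_add]

theorem germOf_const (hT : TayAxioms) (τ₀ : ℍ) (g : SL(2, ℤ)) (c : ℂ) :
    germOf τ₀ g (fun _ => c) = HahnSeries.C c := by
  rw [germOf, hT.const c τ₀, HahnSeries.ofPowerSeries_C]

theorem germOf_one (hT : TayAxioms) (τ₀ : ℍ) (g : SL(2, ℤ)) :
    germOf τ₀ g (1 : ℍ → ℂ) = 1 := by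
  have h := germOf_const hT τ₀ g 1
  rw [map_one] at h
  exact h

theorem germOf_ne_zero (hT : TayAxioms) (τ₀ : ℍ) (g : SL(2, ℤ)) {H : ℍ → ℂ}
    (hH : MDiff H) (h0 : H ≠ 0) : germOf τ₀ g H ≠ 0 := by
  intro h
  apply h0
  rw [germOf] at h
  have h1 : tayAt τ₀ (fun τ => H (g⁻¹ • τ)) = 0 := by
    apply HahnSeries.ofPowerSeries_injective (Γ := ℤ) (R := ℂ)
    rw [h, map_zero]
  have h2 := (hT.eq_zero_iff (h25_mdiff_comp_smul hH g⁻¹) τ₀).mp h1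
  funext τ
  have h3 := congrFun h2 (g • τ)
  simpa using h3

/-! ## the germ embedding -/

section Construction

variable {N : ℕ} [NeZero N]

/-- The value of the germ embedding at `f`, computed from a chosen representation. -/
def germEmbFun (hex : ∀ f : FF N, ∃ P Q : ℍ → ℂ, IsAn N f P Q) (τ₀ : ℍ) (g : SL(2, ℤ))
    (f : FF N) : LaurentSeries ℂ :=
  germOf τ₀ g (hex f).choose / germOf τ₀ g (hex f).choose_spec.choose

/-- The germ embedding is computed by any representation. -/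
theorem germEmbFun_spec (hT : TayAxioms) (hex : ∀ f : FF N, ∃ P Q : ℍ → ℂ, IsAn N f P Q)
    (τ₀ : ℍ) (g : SL(2, ℤ)) {f : FF N} {P Q : ℍ → ℂ} (h : IsAn N f P Q) :
    germEmbFun hex τ₀ g f * germOf τ₀ g Q = germOf τ₀ g P := by
  have h' : IsAn N f (hex f).choose (hex f).choose_spec.choose := (hex f).choose_spec.choose_spec
  have hu : P * (hex f).choose_spec.choose = (hex f).choose * Q := h25_isAn_unique h h'
  have h1 : germOf τ₀ g P * germOf τ₀ g (hex f).choose_spec.choose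
      = germOf τ₀ g (hex f).choose * germOf τ₀ g Q := by
    rw [← germOf_mul hT τ₀ g h.holoP h'.holoQ, ← germOf_mul hT τ₀ g h'.holoP h.holoQ, hu]
  have hne : germOf τ₀ g (hex f).choose_spec.choose ≠ 0 :=
    germOf_ne_zero hT τ₀ g h'.holoQ h'.Q_ne
  rw [germEmbFun, div_mul_eq_mul_div, div_eq_iff hne, ← h1]

/-- Characterisation of the value of the germ embedding. -/
theorem germEmbFun_eq (hT : TayAxioms) (hex : ∀ f : FF N, ∃ P Q : ℍ → ℂ, IsAn N f P Q)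
    (τ₀ : ℍ) (g : SL(2, ℤ)) {f : FF N} {P Q : ℍ → ℂ} (h : IsAn N f P Q) :
    germEmbFun hex τ₀ g f = germOf τ₀ g P / germOf τ₀ g Q := by
  rw [eq_div_iff (germOf_ne_zero hT τ₀ g h.holoQ h.Q_ne)]
  exact germEmbFun_spec hT hex τ₀ g h

/-- The germ embedding as a ring homomorphism. -/
def germEmb (hT : TayAxioms) (hex : ∀ f : FF N, ∃ P Q : ℍ → ℂ, IsAn N f P Q) (τ₀ : ℍ)
    (g : SL(2, ℤ)) : FF N →+* LaurentSeries ℂ where
  toFun := germEmbFun hex τ₀ g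
  map_one' := by
    have h : IsAn N (1 : FF N) (fun _ => embC 1) 1 := by
      have := h25_isAn_cst N 1
      rwa [show cst N 1 = (1 : FF N) from map_one _] at this
    rw [germEmbFun_eq hT hex τ₀ g h, germOf_const hT, germOf_one hT, map_one, div_one, map_one]
  map_zero' := by
    have h : IsAn N (0 : FF N) (fun _ => embC 0) 1 := by
      have := h25_isAn_cst N 0
      rwa [show cst N 0 = (0 : FF N) from map_zero _] at this
    rw [germEmbFun_eq hT hex τ₀ g h, germOf_const hT, germOf_one hT, map_zero, div_one]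
    simp
  map_add' f₁ f₂ := by
    obtain ⟨P₁, Q₁, h₁⟩ := hex f₁
    obtain ⟨P₂, Q₂, h₂⟩ := hex f₂
    have hne₁ := germOf_ne_zero hT τ₀ g h₁.holoQ h₁.Q_ne
    have hne₂ := germOf_ne_zero hT τ₀ g h₂.holoQ h₂.Q_ne
    rw [germEmbFun_eq hT hex τ₀ g (h25_isAn_add h₁ h₂), germEmbFun_eq hT hex τ₀ g h₁,
      germEmbFun_eq hT hex τ₀ g h₂,
      germOf_add hT τ₀ g (h₁.holoP.mul h₂.holoQ) (h₂.holoP.mul h₁.holoQ),
      germOf_mul hT τ₀ g h₁.holoP h₂.holoQ, germOf_mul hT τ₀ g h₂.holoP h₁.holoQ,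
      germOf_mul hT τ₀ g h₁.holoQ h₂.holoQ]
    field_simp
  map_mul' f₁ f₂ := by
    obtain ⟨P₁, Q₁, h₁⟩ := hex f₁
    obtain ⟨P₂, Q₂, h₂⟩ := hex f₂
    have hne₁ := germOf_ne_zero hT τ₀ g h₁.holoQ h₁.Q_ne
    have hne₂ := germOf_ne_zero hT τ₀ g h₂.holoQ h₂.Q_ne
    rw [germEmbFun_eq hT hex τ₀ g (h25_isAn_mul h₁ h₂), germEmbFun_eq hT hex τ₀ g h₁,
      germEmbFun_eq hT hex τ₀ g h₂, germOf_mul hT τ₀ g h₁.holoP h₂.holoP,
      germOf_mul hT τ₀ g h₁.holoQ h₂.holoQ]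
    field_simp

/-- **AN2** (`exists_germEmb`), with AN1 (`exists_isAn`) and AN5 (`TayAxioms`) as explicit
hypotheses. -/
theorem exists_germEmb_of (hT : TayAxioms) (hex : ∀ f : FF N, ∃ P Q : ℍ → ℂ, IsAn N f P Q)
    (τ₀ : ℍ) (g : SL(2, ℤ)) :
    ∃ E : FF N →+* LaurentSeries ℂ,
      (∀ a : Kbar, E (cst N a) = HahnSeries.C (embC a)) ∧
      ∀ (f : FF N) (P Q : ℍ → ℂ), IsAn N f P Q →
        E f * HahnSeries.ofPowerSeries ℤ ℂ (tayAt τ₀ (fun τ => Q (g⁻¹ • τ)))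
          = HahnSeries.ofPowerSeries ℤ ℂ (tayAt τ₀ (fun τ => P (g⁻¹ • τ))) := by
  refine ⟨germEmb hT hex τ₀ g, fun a => ?_, fun f P Q h => ?_⟩
  · show germEmbFun hex τ₀ g (cst N a) = _
    rw [germEmbFun_eq hT hex τ₀ g (h25_isAn_cst N a), germOf_const hT, germOf_one hT, div_one]
  · exact germEmbFun_spec hT hex τ₀ g h

end Construction

end Fermat.Agent.S24
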