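import Mathlib

/-!
# S24, package M5a: the `j`-function `E₄³ / Δ : ℍ → ℂ` is surjective

If `c` is not a value of `j`, then `G = E₄³ - c Δ` is a weight 12 form of level one without zeros
which tends to `1` at `i∞`; so `1 / G` is a modular form of weight `-12`, hence zero: absurd.
-/

set_option autoImplicit false

open UpperHalfPlane ModularForm SlashInvariantForm SlashInvariantFormClass ModularFormClass
  CuspFormClass MatrixGroups OnePoint Filter EisensteinSeries Asymptotics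

open scoped Topology

noncomputable section

namespace Fermat.Agent.S24

/-- A level one modular form tends to the constant term of its `q`-expansion at `i∞`. -/
theorem tendsto_atImInfty_coeff_zero {k : ℤ} (f : ModularForm 𝒮ℒ k) :
    Tendsto f atImInfty (𝓝 ((qExpansion 1 f).coeff 0)) := by
  have hper := SlashInvariantFormClass.periodic_comp_ofComplex f one_mem_strictPeriods_SL
  have han : AnalyticAt ℂ (cuspFunction 1 f) 0 :=
    UpperHalfPlane.analyticAt_cuspFunction_zero one_pos hper (ModularFormClass.holo f)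
      (ModularFormClass.bdd_at_infty f)
  have hcomp : (cuspFunction 1 f ∘ fun τ : ℍ ↦ Function.Periodic.qParam 1 τ : ℍ → ℂ) = f := by
    funext τ
    simpa using eq_cuspFunction τ one_ne_zero hper
  have h0 : (qExpansion 1 f).coeff 0 = cuspFunction 1 f 0 := by
    simp [qExpansion_coeff]
  rw [h0]
  have := han.continuousAt.tendsto.comp (qParam_tendsto_atImInfty (h := 1) one_pos)
  rwa [hcomp] at this

/-- `E₄ → 1` at `i∞`. -/
theorem tendsto_E₄_atImInfty : Tendsto (E₄ : ℍ → ℂ) atImInfty (𝓝 1) := by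
  have := tendsto_atImInfty_coeff_zero E₄
  rwa [E_qExpansion_coeff_zero _ ⟨2, rfl⟩] at this

/-- The weight `12` form `E₄³ - c Δ`, written as `(1 - c/1728) E₄³ + (c/1728) E₆²`. -/
def jNum (c : ℂ) : ModularForm 𝒮ℒ 12 :=
  (1 - c / 1728) • ModularForm.mcast (by decide) (E₄.pow 3) +
    (c / 1728) • ModularForm.mcast (by decide) (E₆.pow 2)

theorem jNum_apply (c : ℂ) (z : ℍ) :
    jNum c z = E₄ z ^ 3 - c * ModularForm.discriminant z := by
  have h := discriminant_eq_E₄_cube_sub_E₆_sq z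
  have : jNum c z = (1 - c / 1728) * E₄ z ^ 3 + (c / 1728) * E₆ z ^ 2 := by
    simp only [jNum, coe_mcast, coe_pow, Pi.pow_apply, add_apply, smul_apply, smul_eq_mul]
  rw [this, h]
  ring

theorem tendsto_jNum_atImInfty (c : ℂ) : Tendsto (jNum c) atImInfty (𝓝 1) := by
  have h1 := (tendsto_E₄_atImInfty.pow 3).sub
    ((discriminant_isZeroAtImInfty : Tendsto _ _ _).const_mul c)
  simp only [one_pow, mul_zero, sub_zero] at h1
  refine h1.congr fun z => ?_
  rw [jNum_apply]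

theorem inv_jNum_slash (c : ℂ) (γ : SL(2, ℤ)) :
    (fun z ↦ (1 : ℂ) / jNum c z) ∣[(-12 : ℤ)] γ = fun z ↦ (1 : ℂ) / jNum c z := by
  have hγ : (γ : GL (Fin 2) ℝ) ∈ 𝒮ℒ := ⟨γ, rfl⟩
  change ((1 : ℍ → ℂ) / ⇑(jNum c)) ∣[(-12 : ℤ)] γ = (1 : ℍ → ℂ) / ⇑(jNum c)
  rw [show (-12 : ℤ) = 0 - 12 by norm_num, div_slash_SL2, is_invariant_one, SL_slash,
    slash_action_eqn _ _ hγ]

/-- `1 / (E₄³ - c Δ)` as a modular form of weight `-12`, if the denominator has no zeros. -/
def invJNum (c : ℂ) (hc : ∀ z : ℍ, jNum c z ≠ 0) : ModularForm 𝒮ℒ (-12) where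
  toFun z := (1 : ℂ) / jNum c z
  slash_action_eq' := fun _ ⟨γ, hγ⟩ ↦ hγ ▸ inv_jNum_slash c γ
  holo' := (mdifferentiable_const (c := (1 : ℂ))).div (jNum c).holo' hc
  bdd_at_cusps' {x} hx := by
    rw [Subgroup.IsArithmetic.isCusp_iff_isCusp_SL2Z] at hx
    rw [isBoundedAt_iff_forall_SL2Z hx]
    intro γ _
    rw [inv_jNum_slash c γ, IsBoundedAtImInfty, BoundedAtFilter]
    have h := (tendsto_const_nhds (x := (1 : ℂ))).div (tendsto_jNum_atImInfty c) one_ne_zero
    exact h.isBigO_one ℝ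

/-- **The `j`-function is surjective.** -/
theorem exists_E₄_cube_div_discriminant_eq (c : ℂ) :
    ∃ τ : ℍ, E₄ τ ^ 3 / ModularForm.discriminant τ = c := by
  by_contra hne
  have hne : ∀ τ : ℍ, E₄ τ ^ 3 / ModularForm.discriminant τ ≠ c := fun τ h => hne ⟨τ, h⟩
  have hc : ∀ z : ℍ, jNum c z ≠ 0 := by
    intro z hz
    apply hne z
    rw [jNum_apply, sub_eq_zero] at hz
    rw [hz, mul_div_assoc, div_self (discriminant_ne_zero z), mul_one]
  have h0 := levelOne_neg_weight_eq_zero (by norm_num : (-12 : ℤ) < 0) (invJNum c hc)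
  have h1 := congrFun h0 I
  have h2 : (invJNum c hc) I = 1 / jNum c I := rfl
  rw [h2] at h1
  exact one_div_ne_zero (hc I) h1

/-- `E₄³ - c Δ` has a zero on `ℍ`, for every `c`. -/
theorem exists_jNum_eq_zero (c : ℂ) : ∃ τ : ℍ, jNum c τ = 0 := by
  obtain ⟨τ, hτ⟩ := exists_E₄_cube_div_discriminant_eq c
  refine ⟨τ, ?_⟩
  rw [jNum_apply, ← hτ, div_mul_cancel₀ _ (discriminant_ne_zero τ), sub_self]

/-- `E₄` has a zero on `ℍ`. -/
theorem exists_E₄_eq_zero : ∃ τ : ℍ, E₄ τ = 0 := by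
  obtain ⟨τ, hτ⟩ := exists_E₄_cube_div_discriminant_eq 0
  refine ⟨τ, ?_⟩
  have h := (div_eq_zero_iff.mp hτ).resolve_right (discriminant_ne_zero τ)
  exact pow_eq_zero_iff (n := 3) (by norm_num) |>.mp h

/-- `E₆` has a zero on `ℍ`. -/
theorem exists_E₆_eq_zero : ∃ τ : ℍ, E₆ τ = 0 := by
  obtain ⟨τ, hτ⟩ := exists_E₄_cube_div_discriminant_eq 1728
  refine ⟨τ, ?_⟩
  have hΔ := discriminant_ne_zero τ
  have h := discriminant_eq_E₄_cube_sub_E₆_sq τ
  have h1 : E₄ τ ^ 3 = 1728 * ModularForm.discriminant τ := by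
    rw [← hτ, div_mul_cancel₀ _ hΔ]
  have h2 : E₆ τ ^ 2 = 0 := by
    rw [h] at h1
    linear_combination h1
  exact pow_eq_zero_iff (n := 2) (by norm_num) |>.mp h2

end Fermat.Agent.S24
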