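import Fermat.Agent.S24.ADefs
import Fermat.Agent.S24.JSurj
import Fermat.Agent.S21.J1.DeltaJ

/-!
# S24 / AN6: the level-one `j`-function

* `exists_jAn_eq` : `j : ℍ → ℂ` is surjective;
* `order_tayAt_jAn_sub` : `j - j(τ₀)` has a simple zero at `τ₀` when `j(τ₀) ∉ {0, 1728}`;
* `jAn_ptI`, `order_tayAt_jAn_sub_ptI` : `j(i) = 1728` and `j - 1728` has a double zero at `i`;
* `jAn_ptRho`, `order_tayAt_jAn_ptRho` : `j(ρ) = 0` and `j` has a triple zero at `ρ`.

The statements are verbatim those of the `M-SKEL` skeleton, section AN6.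
-/

set_option autoImplicit false

open ModularCurve AlgebraicCurve CongruenceSubgroup UpperHalfPlane
open scoped MatrixGroups Manifold

noncomputable section

namespace Fermat.Agent.S24

open Fermat.Agent.S28 (HasTExp jAn jAt)

namespace LevelOneJ

open ModularForm EisensteinSeries

/-- The order of the formal Taylor series is the analytic order. -/
theorem order_tayAt_eq_iff {H : ℍ → ℂ} (hH : MDiff H) (τ₀ : ℍ) (n : ℕ) :
    (tayAt τ₀ H).order = n ↔ analyticOrderAt (H ∘ UpperHalfPlane.ofComplex) (τ₀ : ℂ) = n := by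
  have han : AnalyticAt ℂ (H ∘ UpperHalfPlane.ofComplex) (τ₀ : ℂ) :=
    Fermat.Agent.S21.J1.analyticAt_comp_ofComplex' hH τ₀
  rw [PowerSeries.order_eq_nat, analyticOrderAt_eq_nat_iff_iteratedDeriv_eq_zero han]
  have hfac : ∀ k : ℕ, ((k.factorial : ℂ))⁻¹ ≠ 0 := fun k =>
    inv_ne_zero (Nat.cast_ne_zero.mpr (Nat.factorial_ne_zero k))
  constructor
  · rintro ⟨h1, h2⟩
    refine ⟨fun k hk => ?_, ?_⟩
    · have := h2 k hk
      simp only [tayAt, PowerSeries.coeff_mk] at this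
      exact (mul_eq_zero.mp this).resolve_left (hfac k)
    · intro h
      apply h1
      simp only [tayAt, PowerSeries.coeff_mk, h, mul_zero]
  · rintro ⟨h1, h2⟩
    refine ⟨?_, fun k hk => ?_⟩
    · simp only [tayAt, PowerSeries.coeff_mk]
      exact mul_ne_zero (hfac n) h2
    · simp only [tayAt, PowerSeries.coeff_mk, h1 k hk, mul_zero]

theorem mdiff_E₄ : MDiff (E₄ : ℍ → ℂ) := Fermat.Agent.S21.J1.levelOne_mdiff E₄

theorem mdiff_E₆ : MDiff (E₆ : ℍ → ℂ) := Fermat.Agent.S21.J1.levelOne_mdiff E₆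

theorem mdiff_discriminant : MDiff (discriminant : ℍ → ℂ) :=
  Fermat.Agent.S21.J1.mdiff_discriminant

/-- `Δ⁻¹` is analytic at every point of `ℍ`. -/
theorem analyticAt_inv_discriminant (τ₀ : ℍ) :
    AnalyticAt ℂ (fun w : ℂ => ((discriminant : ℍ → ℂ) (UpperHalfPlane.ofComplex w))⁻¹)
      (τ₀ : ℂ) := by
  have h := Fermat.Agent.S21.J1.analyticAt_comp_ofComplex' mdiff_discriminant τ₀
  refine AnalyticAt.inv h ?_
  simp only [UpperHalfPlane.ofComplex_apply]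
  exact discriminant_ne_zero τ₀

/-- Multiplying by a nonvanishing analytic function does not change the analytic order. -/
theorem analyticOrderAt_mul_of_ne_zero {f g : ℂ → ℂ} {z : ℂ} (hf : AnalyticAt ℂ f z)
    (hg : AnalyticAt ℂ g z) (hgz : g z ≠ 0) :
    analyticOrderAt (fun w => f w * g w) z = analyticOrderAt f z := by
  have h := analyticOrderAt_mul hf hg
  have h0 : analyticOrderAt g z = 0 := hg.analyticOrderAt_eq_zero.mpr hgz
  rw [h0, add_zero] at h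
  exact h

/-- `j - j(τ₀) = φ_{τ₀} / (Δ(τ₀) Δ)`. -/
theorem jAn_sub_eq (τ₀ τ : ℍ) :
    jAn τ - jAn τ₀ =
      Fermat.Agent.S21.J1.phi τ₀ τ * ((discriminant τ₀)⁻¹ * (discriminant τ)⁻¹) := by
  have h1 := discriminant_ne_zero τ₀
  have h2 := discriminant_ne_zero τ
  simp only [Fermat.Agent.S28.jAn, Fermat.Agent.S21.J1.phi_apply]
  field_simp

theorem ptRho_eq : ptRho = Fermat.Agent.S21.J1.rho := by
  apply UpperHalfPlane.ext
  show ((-1 + Real.sqrt 3 * Complex.I) / 2 : ℂ) = (⟨-1 / 2, Real.sqrt 3 / 2⟩ : ℂ)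
  apply Complex.ext <;> simp

theorem E₄_ptRho : E₄ ptRho = 0 := by
  rw [ptRho_eq]; exact Fermat.Agent.S21.J1.E₄_rho

theorem E₆_ptI : E₆ ptI = 0 := Fermat.Agent.S21.J1.E₆_I

/-- `j - 1728 = E₆² / Δ`. -/
theorem jAn_sub_1728 (τ : ℍ) : jAn τ - 1728 = E₆ τ ^ 2 * (discriminant τ)⁻¹ := by
  have h2 := discriminant_ne_zero τ
  have h := discriminant_eq_E₄_cube_sub_E₆_sq τ
  have h' : E₄ τ ^ 3 = 1728 * discriminant τ + E₆ τ ^ 2 := by rw [h]; ring
  rw [Fermat.Agent.S28.jAn, h']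
  field_simp
  ring

theorem jAn_eq_zero_iff (τ : ℍ) : jAn τ = 0 ↔ E₄ τ = 0 := by
  simp only [Fermat.Agent.S28.jAn, div_eq_zero_iff, discriminant_ne_zero τ, or_false]
  exact pow_eq_zero_iff (by norm_num)

theorem jAn_eq_1728_iff (τ : ℍ) : jAn τ = 1728 ↔ E₆ τ = 0 := by
  rw [← sub_eq_zero, jAn_sub_1728]
  simp only [mul_eq_zero, inv_eq_zero, discriminant_ne_zero τ, or_false]
  exact pow_eq_zero_iff (by norm_num)

theorem mdiff_jAn : MDiff jAn := by
  have h : jAn = fun τ => E₄ τ ^ 3 * (discriminant τ)⁻¹ := by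
    funext τ; simp only [Fermat.Agent.S28.jAn, div_eq_mul_inv]
  rw [h, UpperHalfPlane.mdifferentiable_iff]
  have h4 := UpperHalfPlane.mdifferentiable_iff.mp mdiff_E₄
  have hΔ := UpperHalfPlane.mdifferentiable_iff.mp mdiff_discriminant
  have hΔ' : DifferentiableOn ℂ
      (fun w : ℂ => ((discriminant : ℍ → ℂ) (UpperHalfPlane.ofComplex w))⁻¹)
      {z : ℂ | 0 < z.im} := by
    refine DifferentiableOn.inv hΔ fun w hw => ?_
    exact discriminant_ne_zero _
  exact (h4.pow 3).mul hΔ'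

end LevelOneJ

open LevelOneJ ModularForm EisensteinSeries

/-- **The `j`-function is surjective.** -/
theorem exists_jAn_eq (c : ℂ) : ∃ τ : ℍ, jAn τ = c :=
  exists_E₄_cube_div_discriminant_eq c

theorem order_tayAt_jAn_sub (τ₀ : ℍ) (h0 : jAn τ₀ ≠ 0) (h1 : jAn τ₀ ≠ 1728) :
    (tayAt τ₀ (fun τ => jAn τ - jAn τ₀)).order = 1 := by
  have h4 : E₄ τ₀ ≠ 0 := fun h => h0 ((jAn_eq_zero_iff τ₀).mpr h)
  have h6 : E₆ τ₀ ≠ 0 := fun h => h1 ((jAn_eq_1728_iff τ₀).mpr h)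
  have hmd : MDiff (fun τ => jAn τ - jAn τ₀) := fun τ => (mdiff_jAn τ).sub mdifferentiableAt_const
  have key := (order_tayAt_eq_iff hmd τ₀ 1).mpr ?_
  · simpa using key
  have hfun : ((fun τ => jAn τ - jAn τ₀) ∘ UpperHalfPlane.ofComplex) =
      fun w : ℂ => (Fermat.Agent.S21.J1.phi τ₀ ∘ UpperHalfPlane.ofComplex) w *
        ((discriminant τ₀)⁻¹ * ((discriminant : ℍ → ℂ) (UpperHalfPlane.ofComplex w))⁻¹) := by
    funext w
    simp only [Function.comp_apply, jAn_sub_eq]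
  have hg : AnalyticAt ℂ (fun w : ℂ => (discriminant τ₀)⁻¹ *
      ((discriminant : ℍ → ℂ) (UpperHalfPlane.ofComplex w))⁻¹) (τ₀ : ℂ) :=
    analyticAt_const.mul (analyticAt_inv_discriminant τ₀)
  rw [hfun, analyticOrderAt_mul_of_ne_zero
    (Fermat.Agent.S21.J1.analyticAt_comp_ofComplex' (Fermat.Agent.S21.J1.mdiff_phi τ₀) τ₀) hg]
  · simpa using Fermat.Agent.S21.J1.analyticOrderAt_phi h4 h6
  · simp only [UpperHalfPlane.ofComplex_apply]
    exact mul_ne_zero (inv_ne_zero (discriminant_ne_zero τ₀))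
      (inv_ne_zero (discriminant_ne_zero τ₀))

theorem jAn_ptI : jAn ptI = 1728 := (jAn_eq_1728_iff ptI).mpr E₆_ptI

theorem order_tayAt_jAn_sub_ptI : (tayAt ptI (fun τ => jAn τ - 1728)).order = 2 := by
  have hmd : MDiff (fun τ => jAn τ - 1728) := fun τ => (mdiff_jAn τ).sub mdifferentiableAt_const
  have key := (order_tayAt_eq_iff hmd ptI 2).mpr ?_
  · simpa using key
  have hfun : ((fun τ => jAn τ - 1728) ∘ UpperHalfPlane.ofComplex) =
      fun w : ℂ => (((E₆ : ℍ → ℂ) ∘ UpperHalfPlane.ofComplex) w) ^ 2 *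
        ((discriminant : ℍ → ℂ) (UpperHalfPlane.ofComplex w))⁻¹ := by
    funext w
    simp only [Function.comp_apply, jAn_sub_1728]
  have han6 := Fermat.Agent.S21.J1.analyticAt_comp_ofComplex' mdiff_E₆ ptI
  have han6' : AnalyticAt ℂ (fun w : ℂ => (((E₆ : ℍ → ℂ) ∘ UpperHalfPlane.ofComplex) w) ^ 2)
      (ptI : ℂ) := han6.pow 2
  rw [hfun, analyticOrderAt_mul_of_ne_zero han6' (analyticAt_inv_discriminant ptI)]
  · have h := analyticOrderAt_pow han6 2
    have h1 := Fermat.Agent.S21.J1.analyticOrderAt_E₆_of_eq_zero E₆_ptI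
    have h2 : (fun w : ℂ => (((E₆ : ℍ → ℂ) ∘ UpperHalfPlane.ofComplex) w) ^ 2) =
        ((E₆ : ℍ → ℂ) ∘ UpperHalfPlane.ofComplex) ^ 2 := rfl
    rw [h2, h, h1]
    norm_num
  · simp only [UpperHalfPlane.ofComplex_apply]
    exact inv_ne_zero (discriminant_ne_zero ptI)

theorem jAn_ptRho : jAn ptRho = 0 := (jAn_eq_zero_iff ptRho).mpr E₄_ptRho

theorem order_tayAt_jAn_ptRho : (tayAt ptRho jAn).order = 3 := by
  have key := (order_tayAt_eq_iff mdiff_jAn ptRho 3).mpr ?_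
  · simpa using key
  have hfun : (jAn ∘ UpperHalfPlane.ofComplex) =
      fun w : ℂ => (((E₄ : ℍ → ℂ) ∘ UpperHalfPlane.ofComplex) w) ^ 3 *
        ((discriminant : ℍ → ℂ) (UpperHalfPlane.ofComplex w))⁻¹ := by
    funext w
    simp only [Function.comp_apply, Fermat.Agent.S28.jAn, div_eq_mul_inv]
  have han4 := Fermat.Agent.S21.J1.analyticAt_comp_ofComplex' mdiff_E₄ ptRho
  have han4' : AnalyticAt ℂ (fun w : ℂ => (((E₄ : ℍ → ℂ) ∘ UpperHalfPlane.ofComplex) w) ^ 3)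
      (ptRho : ℂ) := han4.pow 3
  rw [hfun, analyticOrderAt_mul_of_ne_zero han4' (analyticAt_inv_discriminant ptRho)]
  · have h := analyticOrderAt_pow han4 3
    have h1 := Fermat.Agent.S21.J1.analyticOrderAt_E₄_of_eq_zero E₄_ptRho
    have h2 : (fun w : ℂ => (((E₄ : ℍ → ℂ) ∘ UpperHalfPlane.ofComplex) w) ^ 3) =
        ((E₄ : ℍ → ℂ) ∘ UpperHalfPlane.ofComplex) ^ 3 := rfl
    rw [h2, h, h1]
    norm_num
  · simp only [UpperHalfPlane.ofComplex_apply]
    exact inv_ne_zero (discriminant_ne_zero ptRho)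

end Fermat.Agent.S24
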