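import Fermat.Agent.S24.M6Dvd
import Fermat.Agent.S24.AnRep

/-!
# S24, modular half: the fields `order_smul` and `dvd` of the point families (AN7p)

Let `X = SL(2, ℤ) ⧸ Γ₀(N)`, `g_x = Quotient.out x`, and let `E x : F → ℂ((s))` be germ embeddings
at `τ₀` of the translates by `g_x⁻¹` (the conclusion of AN2). If `σ` fixes `τ₀` then

* `order_smul_of_germ` : `order (E (σ • x) f) = order (E x f)`;
* `dvd_of_germ` : if `(c τ₀ + d)²` is a primitive `h`-th root of unity for `σ` and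
  `σ ^ k • x = x`, then `h ∣ k * order (E x f)` for `f ≠ 0`.
-/

set_option autoImplicit false

open ModularCurve AlgebraicCurve UpperHalfPlane CongruenceSubgroup
open scoped MatrixGroups Manifold

namespace Fermat.Agent.S24.M6

/-! ### Coset bookkeeping -/

theorem out_smul_mem (N : ℕ) (σ : SL(2, ℤ)) (x : SL(2, ℤ) ⧸ Gamma0 N) :
    (Quotient.out (σ • x))⁻¹ * (σ * Quotient.out x) ∈ Gamma0 N := by
  rw [← QuotientGroup.eq]
  rw [QuotientGroup.out_eq']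
  have h : (σ • x) = σ • ((Quotient.out x : SL(2, ℤ)) : SL(2, ℤ) ⧸ Gamma0 N) := by
    rw [QuotientGroup.out_eq']
  rw [h]
  rfl

/-- translate by the representative of `σ • x` = translate by the representative of `x`
composed with `σ⁻¹`, on `Γ₀(N)`-invariant functions. -/
theorem tr_out_smul (N : ℕ) {P : ℍ → ℂ} (invP : ∀ γ ∈ Gamma0 N, ∀ τ : ℍ, P (γ • τ) = P τ)
    (σ : SL(2, ℤ)) (x : SL(2, ℤ) ⧸ Gamma0 N) (τ : ℍ) :
    P ((Quotient.out (σ • x))⁻¹ • τ) = P ((Quotient.out x)⁻¹ • (σ⁻¹ • τ)) := by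
  have hγ := out_smul_mem N σ x
  have h1 : (Quotient.out (σ • x))⁻¹ • τ
      = ((Quotient.out (σ • x))⁻¹ * (σ * Quotient.out x)) • ((Quotient.out x)⁻¹ • (σ⁻¹ • τ)) := by
    rw [← mul_smul, ← mul_smul]
    congr 1
    group
  rw [h1, invP _ hγ]

/-- if `σ ^ k` fixes the coset `x`, the translate by the representative of `x` of a
`Γ₀(N)`-invariant function is `σ ^ k`-invariant. -/
theorem tr_out_pow_inv (N : ℕ) {P : ℍ → ℂ} (invP : ∀ γ ∈ Gamma0 N, ∀ τ : ℍ, P (γ • τ) = P τ)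
    (σ : SL(2, ℤ)) (k : ℕ) (x : SL(2, ℤ) ⧸ Gamma0 N) (hx : σ ^ k • x = x) (τ : ℍ) :
    P ((Quotient.out x)⁻¹ • ((σ ^ k) • τ)) = P ((Quotient.out x)⁻¹ • τ) := by
  have h := tr_out_smul N invP (σ ^ k) x ((σ ^ k) • τ)
  rw [hx, inv_smul_smul] at h
  exact h

/-! ### Translates are holomorphic and nonzero -/

theorem mdiff_tr {H : ℍ → ℂ} (hH : MDiff H) (g : SL(2, ℤ)) : MDiff (fun τ => H (g • τ)) := by
  have hdet : 0 < ((g : GL (Fin 2) ℝ)).det.val := by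
    rw [Matrix.GeneralLinearGroup.val_det_apply]; exact det_coe_SL_pos' g
  exact hH.comp (UpperHalfPlane.mdifferentiable_smul hdet)

theorem tr_ne_zero {H : ℍ → ℂ} (h0 : H ≠ 0) (g : SL(2, ℤ)) : (fun τ => H (g • τ)) ≠ 0 := by
  intro h
  apply h0
  funext τ
  have := congrFun h (g⁻¹ • τ)
  simpa using this

theorem tayAt_ne_zero {H : ℍ → ℂ} (hH : MDiff H) (h0 : H ≠ 0) (τ₀ : ℍ) : tayAt τ₀ H ≠ 0 := by
  intro h
  have h1 : (tayAt τ₀ H).order = ⊤ := PowerSeries.order_eq_top.mpr h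
  rw [order_tayAt_eq_analyticOrderAt hH τ₀] at h1
  exact analyticOrderAt_ne_top_of_ne_zero hH h0 τ₀ h1

/-! ### The order of a germ embedding -/

/-- order of `E f` as the difference of Taylor orders of numerator and denominator. -/
theorem order_germ {N : ℕ} [NeZero N] (τ₀ : ℍ) (g : SL(2, ℤ))
    (E : FF N →+* LaurentSeries ℂ)
    (hE : ∀ (f : FF N) (P Q : ℍ → ℂ), IsAn N f P Q →
      E f * HahnSeries.ofPowerSeries ℤ ℂ (tayAt τ₀ (fun τ => Q (g⁻¹ • τ)))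
        = HahnSeries.ofPowerSeries ℤ ℂ (tayAt τ₀ (fun τ => P (g⁻¹ • τ))))
    {f : FF N} (hf : f ≠ 0) {P Q : ℍ → ℂ} (h : IsAn N f P Q) :
    (E f).order = ((tayAt τ₀ (fun τ => P (g⁻¹ • τ))).order.toNat : ℤ)
      - ((tayAt τ₀ (fun τ => Q (g⁻¹ • τ))).order.toNat : ℤ) :=
  order_eq_sub_of_mul_eq
    (tayAt_ne_zero (mdiff_tr h.holoP g⁻¹) (tr_ne_zero (h.P_ne hf) g⁻¹) τ₀)
    (tayAt_ne_zero (mdiff_tr h.holoQ g⁻¹) (tr_ne_zero h.Q_ne g⁻¹) τ₀)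
    (hE f P Q h)

variable {N : ℕ} [NeZero N]

/-- Field `order_smul` of the point families. -/
theorem order_smul_of_germ (τ₀ : ℍ) (σ : SL(2, ℤ)) (hσ : σ • τ₀ = τ₀)
    (E : SL(2, ℤ) ⧸ Gamma0 N → (FF N →+* LaurentSeries ℂ))
    (hE : ∀ (x : SL(2, ℤ) ⧸ Gamma0 N) (f : FF N) (P Q : ℍ → ℂ), IsAn N f P Q →
      E x f * HahnSeries.ofPowerSeries ℤ ℂ (tayAt τ₀ (fun τ => Q ((Quotient.out x)⁻¹ • τ)))
        = HahnSeries.ofPowerSeries ℤ ℂ (tayAt τ₀ (fun τ => P ((Quotient.out x)⁻¹ • τ))))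
    (x : SL(2, ℤ) ⧸ Gamma0 N) (f : FF N) :
    (E (σ • x) f).order = (E x f).order := by
  rcases eq_or_ne f 0 with rfl | hf
  · simp
  obtain ⟨P, Q, h⟩ := exists_isAn N f
  rw [order_germ τ₀ _ (E (σ • x)) (hE (σ • x)) hf h, order_germ τ₀ _ (E x) (hE x) hf h]
  have hσ' : σ⁻¹ • τ₀ = τ₀ := by
    rw [inv_smul_eq_iff, hσ]
  have key : ∀ {H : ℍ → ℂ}, MDiff H → (∀ γ ∈ Gamma0 N, ∀ τ : ℍ, H (γ • τ) = H τ) →
      (tayAt τ₀ (fun τ => H ((Quotient.out (σ • x))⁻¹ • τ))).order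
        = (tayAt τ₀ (fun τ => H ((Quotient.out x)⁻¹ • τ))).order := by
    intro H hH invH
    have h1 : (fun τ => H ((Quotient.out (σ • x))⁻¹ • τ))
        = fun τ => (fun w => H ((Quotient.out x)⁻¹ • w)) (σ⁻¹ • τ) := by
      funext τ
      exact tr_out_smul N invH σ x τ
    rw [h1]
    exact order_tayAt_comp_smul (mdiff_tr hH _) σ⁻¹ τ₀ hσ'
  rw [key h.holoP h.invP, key h.holoQ h.invQ]

/-- Field `dvd` of the point families. -/
theorem dvd_of_germ (τ₀ : ℍ) (σ : SL(2, ℤ)) (hσ : σ • τ₀ = τ₀) (h : ℕ)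
    (hprim : IsPrimitiveRoot (denom σ τ₀ ^ 2) h)
    (E : SL(2, ℤ) ⧸ Gamma0 N → (FF N →+* LaurentSeries ℂ))
    (hE : ∀ (x : SL(2, ℤ) ⧸ Gamma0 N) (f : FF N) (P Q : ℍ → ℂ), IsAn N f P Q →
      E x f * HahnSeries.ofPowerSeries ℤ ℂ (tayAt τ₀ (fun τ => Q ((Quotient.out x)⁻¹ • τ)))
        = HahnSeries.ofPowerSeries ℤ ℂ (tayAt τ₀ (fun τ => P ((Quotient.out x)⁻¹ • τ))))
    (x : SL(2, ℤ) ⧸ Gamma0 N) (k : ℕ) (hx : σ ^ k • x = x) (f : FF N) (hf : f ≠ 0) :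
    (h : ℤ) ∣ k * (E x f).order := by
  obtain ⟨P, Q, hPQ⟩ := exists_isAn N f
  rw [order_germ τ₀ _ (E x) (hE x) hf hPQ, mul_sub]
  have key : ∀ {H : ℍ → ℂ}, MDiff H → H ≠ 0 → (∀ γ ∈ Gamma0 N, ∀ τ : ℍ, H (γ • τ) = H τ) →
      (h : ℤ) ∣ k * ((tayAt τ₀ (fun τ => H ((Quotient.out x)⁻¹ • τ))).order.toNat : ℤ) := by
    intro H hH h0 invH
    exact dvd_mul_order_tayAt_of_isPrimitiveRoot σ τ₀ hσ h hprim (mdiff_tr hH _)
      (tr_ne_zero h0 _) k (fun τ => tr_out_pow_inv N invH σ k x hx τ)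
  exact dvd_sub (key hPQ.holoP (hPQ.P_ne hf) hPQ.invP) (key hPQ.holoQ hPQ.Q_ne hPQ.invQ)

/-! ### The three instances -/

theorem isPrimitiveRoot_one_generic (τ₀ : ℍ) :
    IsPrimitiveRoot (denom (1 : SL(2, ℤ)) τ₀ ^ 2) 1 := by
  have : denom (1 : SL(2, ℤ)) τ₀ = 1 := by simp [denom]
  rw [this, one_pow]
  exact IsPrimitiveRoot.one

theorem isPrimitiveRoot_S_ptI : IsPrimitiveRoot (denom ModularGroup.S ptI ^ 2) 2 :=
  isPrimitiveRoot_denom_sq_of_trace_eq_zero _ trace_S ptI S_smul_ptI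

theorem isPrimitiveRoot_ST_ptRho :
    IsPrimitiveRoot
      (denom (((ModularGroup.S * ModularGroup.T : SL(2, ℤ))) : GL (Fin 2) ℝ) ptRho ^ 2) 3 :=
  isPrimitiveRoot_denom_sq_of_trace_eq_one _ (Or.inl trace_ST) ptRho ST_smul_ptRho

end Fermat.Agent.S24.M6
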