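import Mathlib

/-!
# S24, modular half, M6: stabiliser invariance at points of the upper half plane

If a meromorphic germ `f` at `x` is invariant under an analytic germ `g` fixing `x`, then
`g'(x) ^ ord_x f = 1` (comparison of trailing coefficients; no linearisation needed).

For `γ ∈ SL(2, ℤ)` fixing `τ₀ ∈ ℍ` the multiplier is `1 / (c τ₀ + d) ^ 2` and `c τ₀ + d` is an
eigenvalue of `γ`, hence:

* `tr γ = 0` (e.g. `γ = S ^ k`, `k` odd) forces `2 ∣ ord`;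
* `tr γ = ± 1` (e.g. `γ = (S T) ^ k`, `3 ∤ k`) forces `3 ∣ ord`.

Main statements: `multiplier_zpow_order_eq_one`, `denom_sq_zpow_order_eq_one`,
`two_dvd_order_of_trace_eq_zero`, `three_dvd_order_of_trace_eq_one`,
`two_dvd_mul_order_of_S_pow`, `three_dvd_mul_order_of_ST_pow`.
-/

set_option autoImplicit false

open Filter Topology UpperHalfPlane
open scoped MatrixGroups

namespace Fermat.Agent.S24.M6

/-! ### Analytic core -/

/-- The trailing coefficient of `g - g x` at `x` is the derivative of `g` at `x`,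
when the latter is nonzero. -/
theorem trailingCoeff_sub_self {g : ℂ → ℂ} {x : ℂ} (hg : AnalyticAt ℂ g x)
    (hg' : deriv g x ≠ 0) :
    meromorphicTrailingCoeffAt (fun z => g z - g x) x = deriv g x := by
  obtain ⟨s, hs, hgs⟩ := hg.exists_mem_nhds_analyticOnNhd
  have hdiff : DifferentiableOn ℂ g s := hgs.differentiableOn
  have hd : DifferentiableOn ℂ (dslope g x) s :=
    (Complex.differentiableOn_dslope hs).mpr hdiff
  have han : AnalyticAt ℂ (dslope g x) x := hd.analyticAt hs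
  have hne : dslope g x x ≠ 0 := by rwa [dslope_same]
  have h := han.meromorphicTrailingCoeffAt_of_ne_zero_of_eq_nhdsNE (n := 1) hne
    (f := fun z => g z - g x) (by
      refine Eventually.of_forall fun z => ?_
      simp only [zpow_one]
      exact (sub_smul_dslope g x z).symm)
  rw [h, dslope_same]

theorem not_eventuallyConst_of_deriv_ne_zero {g : ℂ → ℂ} {x : ℂ} (hg : AnalyticAt ℂ g x)
    (hg' : deriv g x ≠ 0) : ¬ EventuallyConst g (𝓝 x) := by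
  have hgo : analyticOrderAt (fun z => g z - g x) x = 1 :=
    hg.analyticOrderAt_sub_eq_one_of_deriv_ne_zero hg'
  rw [eventuallyConst_iff_analyticOrderAt_sub_eq_top, hgo]
  simp

/-- M6 analytic core: if a meromorphic germ `f` at `x` is invariant under an analytic germ `g`
fixing `x`, then the multiplier `g'(x)` raised to the order of `f` is `1`. -/
theorem multiplier_zpow_order_eq_one {f g : ℂ → ℂ} {x : ℂ} (hf : MeromorphicAt f x)
    (hfne : meromorphicOrderAt f x ≠ ⊤) (hg : AnalyticAt ℂ g x) (hgx : g x = x)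
    (hg' : deriv g x ≠ 0) (hinv : f ∘ g =ᶠ[𝓝[≠] x] f) :
    deriv g x ^ (meromorphicOrderAt f x).untop₀ = 1 := by
  have hf' : MeromorphicAt f (g x) := by rwa [hgx]
  have h1 := hf'.meromorphicTrailingCoeffAt_comp hg (not_eventuallyConst_of_deriv_ne_zero hg hg')
  rw [trailingCoeff_sub_self hg hg', meromorphicTrailingCoeffAt_congr_nhdsNE hinv, hgx] at h1
  have h2 : meromorphicTrailingCoeffAt f x ≠ 0 := hf.meromorphicTrailingCoeffAt_ne_zero hfne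
  rw [smul_eq_mul] at h1
  have h3 : (deriv g x ^ (meromorphicOrderAt f x).untop₀ - 1) * meromorphicTrailingCoeffAt f x
      = 0 := by
    rw [sub_mul, one_mul, ← h1, sub_self]
  rcases mul_eq_zero.mp h3 with h | h
  · exact sub_eq_zero.mp h
  · exact absurd h h2

/-! ### Möbius transformations -/

theorem det_coe_SL_pos' (γ : SL(2, ℤ)) : 0 < ((γ : GL (Fin 2) ℝ)).val.det := by
  have hdet : (γ : GL (Fin 2) ℝ).val.det = 1 := by
    rw [← Matrix.GeneralLinearGroup.val_det_apply]; simp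
  rw [hdet]; exact one_pos

theorem det_coe_SL_eq_one (γ : SL(2, ℤ)) : ((γ : GL (Fin 2) ℝ)).val.det = 1 := by
  rw [← Matrix.GeneralLinearGroup.val_det_apply]; simp

/-- M6 for a Möbius transformation: if `F : ℍ → ℂ` is invariant under `γ ∈ SL(2, ℤ)` fixing `τ₀`
and meromorphic of finite order `n` at `τ₀`, then `((c τ₀ + d) ^ 2) ^ n = 1`. -/
theorem denom_sq_zpow_order_eq_one (γ : SL(2, ℤ)) (τ₀ : ℍ) (hγ : γ • τ₀ = τ₀) (F : ℍ → ℂ)
    (hinv : ∀ τ : ℍ, F (γ • τ) = F τ)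
    (hF : MeromorphicAt (fun z : ℂ => F (ofComplex z)) (τ₀ : ℂ))
    (hFne : meromorphicOrderAt (fun z : ℂ => F (ofComplex z)) (τ₀ : ℂ) ≠ ⊤) :
    (denom γ τ₀ ^ 2) ^ (meromorphicOrderAt (fun z : ℂ => F (ofComplex z)) (τ₀ : ℂ)).untop₀
      = 1 := by
  have hdet := det_coe_SL_pos' γ
  set g : ℂ → ℂ := fun z => (((γ : GL (Fin 2) ℝ) • ofComplex z : ℍ) : ℂ) with hgdef
  have hg : AnalyticAt ℂ g (τ₀ : ℂ) := τ₀.analyticAt_smul hdet
  have hderiv : deriv g (τ₀ : ℂ) = 1 / denom γ τ₀ ^ 2 := by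
    have h := τ₀.deriv_smul hdet
    rw [det_coe_SL_eq_one] at h
    rw [hgdef, h]
    simp
  have hgx : g (τ₀ : ℂ) = (τ₀ : ℂ) := by
    simp only [hgdef, ofComplex_apply]
    exact congrArg (fun t : ℍ => (t : ℂ)) hγ
  have hd0 : denom γ τ₀ ≠ 0 := denom_ne_zero γ τ₀
  have hg' : deriv g (τ₀ : ℂ) ≠ 0 := by
    rw [hderiv]
    exact one_div_ne_zero (pow_ne_zero _ hd0)
  have hcomp : (fun z : ℂ => F (ofComplex z)) ∘ g =ᶠ[𝓝[≠] (τ₀ : ℂ)]
      (fun z : ℂ => F (ofComplex z)) := by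
    refine Eventually.of_forall fun z => ?_
    simp only [Function.comp_apply, hgdef, ofComplex_apply]
    exact hinv (ofComplex z)
  have key := multiplier_zpow_order_eq_one hF hFne hg hgx hg' hcomp
  rw [hderiv, one_div, inv_zpow] at key
  exact inv_eq_one.mp key

/-- `c τ₀ + d` is an eigenvalue of `γ` when `γ` fixes `τ₀`. -/
theorem denom_eigen (γ : SL(2, ℤ)) (τ₀ : ℍ) (hγ : γ • τ₀ = τ₀) :
    denom γ τ₀ ^ 2 - (((γ 0 0 + γ 1 1 : ℤ) : ℂ)) * denom γ τ₀ + 1 = 0 := by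
  have h1 : ((γ • τ₀ : ℍ) : ℂ) = (τ₀ : ℂ) := congrArg (fun t : ℍ => (t : ℂ)) hγ
  rw [UpperHalfPlane.coe_specialLinearGroup_apply] at h1
  have hd : denom γ τ₀ = ((γ 1 0 : ℤ) : ℂ) * τ₀ + ((γ 1 1 : ℤ) : ℂ) := by
    simp [denom]
  have hd0 : denom γ τ₀ ≠ 0 := denom_ne_zero γ τ₀
  rw [hd] at hd0
  simp only [algebraMap_int_eq, eq_intCast, Complex.ofReal_intCast] at h1
  rw [div_eq_iff hd0] at h1
  have hdet : (γ 0 0 : ℤ) * γ 1 1 - γ 0 1 * γ 1 0 = 1 := by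
    have := γ.det_coe
    rw [Matrix.det_fin_two] at this
    exact this
  have hdetC : ((γ 0 0 : ℤ) : ℂ) * ((γ 1 1 : ℤ) : ℂ) - ((γ 0 1 : ℤ) : ℂ) * ((γ 1 0 : ℤ) : ℂ)
      = 1 := by
    exact_mod_cast hdet
  rw [hd]
  push_cast
  linear_combination (-((γ 1 0 : ℤ) : ℂ)) * h1 - hdetC

/-- `denom (γ ^ k) τ₀ = (denom γ τ₀) ^ k` at a fixed point `τ₀` of `γ`. -/
theorem denom_pow_of_fixed (γ : SL(2, ℤ)) (τ₀ : ℍ) (hγ : γ • τ₀ = τ₀) (k : ℕ) :
    denom (γ ^ k : SL(2, ℤ)) τ₀ = denom γ τ₀ ^ k := by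
  induction k with
  | zero => simp [denom]
  | succ k ih =>
    have h1 : (γ ^ (k + 1) : SL(2, ℤ)) = γ ^ k * γ := pow_succ γ k
    have hpos : 0 < ((γ : GL (Fin 2) ℝ)).det.val := by
      rw [Matrix.GeneralLinearGroup.val_det_apply]; exact det_coe_SL_pos' γ
    have h2 := UpperHalfPlane.denom_cocycle ((γ ^ k : SL(2, ℤ)) : GL (Fin 2) ℝ)
      (γ : GL (Fin 2) ℝ) τ₀.im_ne_zero
    have h3 : (((γ ^ k * γ : SL(2, ℤ)) : GL (Fin 2) ℝ)) =
        ((γ ^ k : SL(2, ℤ)) : GL (Fin 2) ℝ) * (γ : GL (Fin 2) ℝ) := by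
      simp
    have h4 : ((γ : GL (Fin 2) ℝ) • τ₀ : ℍ) = τ₀ := hγ
    have h5 : UpperHalfPlane.num (γ : GL (Fin 2) ℝ) τ₀ / denom (γ : GL (Fin 2) ℝ) τ₀
        = (τ₀ : ℂ) := by
      rw [← UpperHalfPlane.coe_smul_of_det_pos hpos τ₀, h4]
    rw [h1, h3, h2, h5, ih, pow_succ]

theorem pow_smul_of_fixed (γ : SL(2, ℤ)) (τ₀ : ℍ) (hγ : γ • τ₀ = τ₀) (k : ℕ) :
    (γ ^ k) • τ₀ = τ₀ := by
  induction k with
  | zero => simp
  | succ k ih => rw [pow_succ, mul_smul, hγ, ih]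

/-- M6, general form: if the multiplier-inverse `(c τ₀ + d) ^ 2` of `g` at its fixed point `τ₀`
is a primitive `h`-th root of unity and `F` is invariant under `g ^ k`, then
`h ∣ k * ord_{τ₀} F`. -/
theorem dvd_mul_order_of_isPrimitiveRoot (g : SL(2, ℤ)) (τ₀ : ℍ) (hg : g • τ₀ = τ₀) (h : ℕ)
    (hprim : IsPrimitiveRoot (denom g τ₀ ^ 2) h) (k : ℕ) (F : ℍ → ℂ)
    (hinv : ∀ τ : ℍ, F ((g ^ k) • τ) = F τ)
    (hF : MeromorphicAt (fun z : ℂ => F (ofComplex z)) (τ₀ : ℂ))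
    (hFne : meromorphicOrderAt (fun z : ℂ => F (ofComplex z)) (τ₀ : ℂ) ≠ ⊤) :
    (h : ℤ) ∣ k * (meromorphicOrderAt (fun z : ℂ => F (ofComplex z)) (τ₀ : ℂ)).untop₀ := by
  have h1 := denom_sq_zpow_order_eq_one (g ^ k) τ₀ (pow_smul_of_fixed g τ₀ hg k) F hinv hF hFne
  rw [denom_pow_of_fixed g τ₀ hg k, ← pow_mul, mul_comm k 2, pow_mul, ← zpow_natCast,
    ← zpow_mul] at h1
  exact (hprim.zpow_eq_one_iff_dvd _).mp h1

/-- Trace zero: `(c τ₀ + d) ^ 2 = -1` is a primitive second root of unity. -/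
theorem isPrimitiveRoot_denom_sq_of_trace_eq_zero (γ : SL(2, ℤ)) (htr : γ 0 0 + γ 1 1 = 0)
    (τ₀ : ℍ) (hγ : γ • τ₀ = τ₀) : IsPrimitiveRoot (denom γ τ₀ ^ 2) 2 := by
  have h2 := denom_eigen γ τ₀ hγ
  rw [htr] at h2
  have h3 : denom γ τ₀ ^ 2 = -1 := by
    push_cast at h2
    linear_combination h2
  rw [h3]
  exact IsPrimitiveRoot.neg_one 0 (by norm_num)

/-- Trace `± 1`: `(c τ₀ + d) ^ 2` is a primitive third root of unity. -/
theorem isPrimitiveRoot_denom_sq_of_trace_eq_one (γ : SL(2, ℤ))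
    (htr : γ 0 0 + γ 1 1 = 1 ∨ γ 0 0 + γ 1 1 = -1) (τ₀ : ℍ) (hγ : γ • τ₀ = τ₀) :
    IsPrimitiveRoot (denom γ τ₀ ^ 2) 3 := by
  have h2 := denom_eigen γ τ₀ hγ
  set ω : ℂ := denom γ τ₀ ^ 2 with hω
  have hω2 : ω ^ 2 + ω + 1 = 0 := by
    rcases htr with h | h
    · rw [h] at h2
      push_cast at h2
      have hδ : denom γ τ₀ ^ 2 = denom γ τ₀ - 1 := by linear_combination h2
      rw [hω, hδ]
      linear_combination h2
    · rw [h] at h2
      push_cast at h2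
      have hδ : denom γ τ₀ ^ 2 = -denom γ τ₀ - 1 := by linear_combination h2
      rw [hω, hδ]
      linear_combination h2
  have hω3 : ω ^ 3 = 1 := by linear_combination (ω - 1) * hω2
  have hω1 : ω ≠ 1 := by
    intro h
    rw [h] at hω2
    norm_num at hω2
  refine IsPrimitiveRoot.mk_of_lt ω (by norm_num) hω3 ?_
  intro l hl0 hl3 hl
  interval_cases l
  · exact hω1 (by simpa using hl)
  · have h4 : ω = -2 := by linear_combination hω2 - hl
    rw [h4] at hl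
    norm_num at hl

/-- Trace zero: the order of an invariant meromorphic germ at the fixed point is even. -/
theorem two_dvd_order_of_trace_eq_zero (γ : SL(2, ℤ)) (htr : γ 0 0 + γ 1 1 = 0) (τ₀ : ℍ)
    (hγ : γ • τ₀ = τ₀) (F : ℍ → ℂ) (hinv : ∀ τ : ℍ, F (γ • τ) = F τ)
    (hF : MeromorphicAt (fun z : ℂ => F (ofComplex z)) (τ₀ : ℂ))
    (hFne : meromorphicOrderAt (fun z : ℂ => F (ofComplex z)) (τ₀ : ℂ) ≠ ⊤) :
    (2 : ℤ) ∣ (meromorphicOrderAt (fun z : ℂ => F (ofComplex z)) (τ₀ : ℂ)).untop₀ := by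
  have h := dvd_mul_order_of_isPrimitiveRoot γ τ₀ hγ 2
    (isPrimitiveRoot_denom_sq_of_trace_eq_zero γ htr τ₀ hγ) 1 F (by simpa using hinv) hF hFne
  simpa using h

/-- Trace `± 1`: the order of an invariant meromorphic germ at the fixed point is divisible
by three. -/
theorem three_dvd_order_of_trace_eq_one (γ : SL(2, ℤ))
    (htr : γ 0 0 + γ 1 1 = 1 ∨ γ 0 0 + γ 1 1 = -1) (τ₀ : ℍ)
    (hγ : γ • τ₀ = τ₀) (F : ℍ → ℂ) (hinv : ∀ τ : ℍ, F (γ • τ) = F τ)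
    (hF : MeromorphicAt (fun z : ℂ => F (ofComplex z)) (τ₀ : ℂ))
    (hFne : meromorphicOrderAt (fun z : ℂ => F (ofComplex z)) (τ₀ : ℂ) ≠ ⊤) :
    (3 : ℤ) ∣ (meromorphicOrderAt (fun z : ℂ => F (ofComplex z)) (τ₀ : ℂ)).untop₀ := by
  have h := dvd_mul_order_of_isPrimitiveRoot γ τ₀ hγ 3
    (isPrimitiveRoot_denom_sq_of_trace_eq_one γ htr τ₀ hγ) 1 F (by simpa using hinv) hF hFne
  simpa using h

/-! ### The generators `S` and `S T`, and their conjugates -/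

theorem trace_S : (ModularGroup.S : SL(2, ℤ)) 0 0 + (ModularGroup.S : SL(2, ℤ)) 1 1 = 0 := by
  simp [ModularGroup.S]

theorem trace_ST : (ModularGroup.S * ModularGroup.T : SL(2, ℤ)) 0 0
    + (ModularGroup.S * ModularGroup.T : SL(2, ℤ)) 1 1 = 1 := by
  simp only [Matrix.SpecialLinearGroup.coe_mul, Matrix.mul_apply, Fin.sum_univ_two]
  simp [ModularGroup.S, ModularGroup.T]

/-- The trace is invariant under conjugation. -/
theorem trace_conj (a g : SL(2, ℤ)) :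
    (a * g * a⁻¹ : SL(2, ℤ)) 0 0 + (a * g * a⁻¹ : SL(2, ℤ)) 1 1 = g 0 0 + g 1 1 := by
  have hdet : a 0 0 * a 1 1 - a 0 1 * a 1 0 = 1 := by
    have := a.det_coe
    rw [Matrix.det_fin_two] at this
    exact this
  simp only [Matrix.SpecialLinearGroup.coe_mul, Matrix.SpecialLinearGroup.coe_inv,
    Matrix.adjugate_fin_two, Matrix.mul_apply, Fin.sum_univ_two, Matrix.of_apply,
    Matrix.cons_val', Matrix.cons_val_zero, Matrix.cons_val_one, Matrix.cons_val_fin_one]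
  linear_combination (g 0 0 + g 1 1) * hdet

/-- M6 at the orbit of `i`: `g = a S a⁻¹`, `τ₀` fixed by `g`, `F` invariant under `g ^ k`
implies `2 ∣ k * ord_{τ₀} F`. -/
theorem two_dvd_mul_order_conj_S (a : SL(2, ℤ)) (τ₀ : ℍ)
    (hg : (a * ModularGroup.S * a⁻¹) • τ₀ = τ₀) (k : ℕ) (F : ℍ → ℂ)
    (hinv : ∀ τ : ℍ, F (((a * ModularGroup.S * a⁻¹) ^ k) • τ) = F τ)
    (hF : MeromorphicAt (fun z : ℂ => F (ofComplex z)) (τ₀ : ℂ))
    (hFne : meromorphicOrderAt (fun z : ℂ => F (ofComplex z)) (τ₀ : ℂ) ≠ ⊤) :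
    ((2 : ℕ) : ℤ) ∣ k * (meromorphicOrderAt (fun z : ℂ => F (ofComplex z)) (τ₀ : ℂ)).untop₀ :=
  dvd_mul_order_of_isPrimitiveRoot _ τ₀ hg 2
    (isPrimitiveRoot_denom_sq_of_trace_eq_zero _ (by rw [trace_conj, trace_S]) τ₀ hg)
    k F hinv hF hFne

/-- M6 at the orbit of `ρ`: `g = a (S T) a⁻¹`, `τ₀` fixed by `g`, `F` invariant under `g ^ k`
implies `3 ∣ k * ord_{τ₀} F`. -/
theorem three_dvd_mul_order_conj_ST (a : SL(2, ℤ)) (τ₀ : ℍ)
    (hg : (a * (ModularGroup.S * ModularGroup.T) * a⁻¹) • τ₀ = τ₀) (k : ℕ) (F : ℍ → ℂ)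
    (hinv : ∀ τ : ℍ, F (((a * (ModularGroup.S * ModularGroup.T) * a⁻¹) ^ k) • τ) = F τ)
    (hF : MeromorphicAt (fun z : ℂ => F (ofComplex z)) (τ₀ : ℂ))
    (hFne : meromorphicOrderAt (fun z : ℂ => F (ofComplex z)) (τ₀ : ℂ) ≠ ⊤) :
    ((3 : ℕ) : ℤ) ∣ k * (meromorphicOrderAt (fun z : ℂ => F (ofComplex z)) (τ₀ : ℂ)).untop₀ :=
  dvd_mul_order_of_isPrimitiveRoot _ τ₀ hg 3
    (isPrimitiveRoot_denom_sq_of_trace_eq_one _ (Or.inl (by rw [trace_conj, trace_ST])) τ₀ hg)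
    k F hinv hF hFne

end Fermat.Agent.S24.M6
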