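import Fermat.Agent.S24.ADefs
import Fermat.Agent.S24.M6Stab

/-!
# S24, modular half: M6 in terms of the formal Taylor series `tayAt` (elliptic part of AN5)

* `order_tayAt_eq_analyticOrderAt` : bridge `tayAt` order = `analyticOrderAt`;
* `S_smul_ptI`, `ST_smul_ptRho`;
* `two_dvd_order_tayAt_I`, `three_dvd_order_tayAt_rho`, `order_tayAt_comp_smul`
  (the M-SKEL statements of AN5, here in the namespace `Fermat.Agent.S24.M6`).
-/

set_option autoImplicit false

open UpperHalfPlane Filter Topology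
open scoped MatrixGroups Manifold

namespace Fermat.Agent.S24.M6

theorem analyticAt_comp_ofComplex {H : ℍ → ℂ} (hH : MDiff H) (τ₀ : ℍ) :
    AnalyticAt ℂ (H ∘ ofComplex) (τ₀ : ℂ) :=
  (UpperHalfPlane.mdifferentiable_iff.mp hH).analyticOnNhd isOpen_upperHalfPlaneSet
    (τ₀ : ℂ) τ₀.im_pos

/-- Bridge: the order of the formal Taylor series is the analytic order. -/
theorem order_tayAt_eq_analyticOrderAt {H : ℍ → ℂ} (hH : MDiff H) (τ₀ : ℍ) :
    (tayAt τ₀ H).order = analyticOrderAt (H ∘ ofComplex) (τ₀ : ℂ) := by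
  have han := analyticAt_comp_ofComplex hH τ₀
  have key : ∀ n : ℕ, (n : ℕ∞) ≤ (tayAt τ₀ H).order ↔
      (n : ℕ∞) ≤ analyticOrderAt (H ∘ ofComplex) (τ₀ : ℂ) := by
    intro n
    rw [natCast_le_analyticOrderAt_iff_iteratedDeriv_eq_zero han]
    constructor
    · intro h i hi
      have h1 : PowerSeries.coeff i (tayAt τ₀ H) = 0 :=
        PowerSeries.coeff_of_lt_order i (lt_of_lt_of_le (by exact_mod_cast hi) h)
      rw [tayAt, PowerSeries.coeff_mk] at h1
      rcases mul_eq_zero.mp h1 with h2 | h2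
      · exact absurd h2 (inv_ne_zero (Nat.cast_ne_zero.mpr (Nat.factorial_ne_zero i)))
      · exact h2
    · intro h
      refine PowerSeries.nat_le_order _ n fun i hi => ?_
      rw [tayAt, PowerSeries.coeff_mk, h i hi, mul_zero]
  refine le_antisymm ?_ ?_
  · refine ENat.forall_natCast_le_iff_le.mp fun n hn => (key n).mp hn
  · refine ENat.forall_natCast_le_iff_le.mp fun n hn => (key n).mpr hn


theorem S_smul_ptI : ModularGroup.S • ptI = ptI := by
  apply UpperHalfPlane.ext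
  rw [UpperHalfPlane.coe_specialLinearGroup_apply]
  simp only [ModularGroup.S, ptI]
  simp

theorem ST_smul_ptRho : (ModularGroup.S * ModularGroup.T) • ptRho = ptRho := by
  apply UpperHalfPlane.ext
  rw [UpperHalfPlane.coe_specialLinearGroup_apply]
  simp only [Matrix.SpecialLinearGroup.coe_mul, Matrix.mul_apply, Fin.sum_univ_two]
  simp only [ModularGroup.S, ModularGroup.T, ptRho]
  simp
  have h3 : (Real.sqrt 3 : ℂ) ^ 2 = 3 := by
    norm_cast
    exact Real.sq_sqrt (by norm_num)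
  have hne : ((-1 + (Real.sqrt 3 : ℂ) * Complex.I) / 2 + 1) ≠ 0 := by
    intro h
    have := congrArg Complex.im h
    simp at this
  rw [div_eq_iff hne]
  ring_nf
  rw [Complex.I_sq, h3]
  ring


theorem analyticOrderAt_ne_top_of_ne_zero {H : ℍ → ℂ} (hH : MDiff H) (h0 : H ≠ 0) (τ₀ : ℍ) :
    analyticOrderAt (H ∘ ofComplex) (τ₀ : ℂ) ≠ ⊤ := by
  intro htop
  apply h0
  funext w
  have hpre : IsPreconnected {z : ℂ | 0 < z.im} := (convex_halfSpace_im_gt 0).isPreconnected
  have hon : AnalyticOnNhd ℂ (H ∘ ofComplex) {z : ℂ | 0 < z.im} :=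
    (UpperHalfPlane.mdifferentiable_iff.mp hH).analyticOnNhd isOpen_upperHalfPlaneSet
  have h1 : analyticOrderAt (H ∘ ofComplex) (τ₀ : ℂ) = ⊤ := htop
  rw [analyticOrderAt_eq_top] at h1
  have h2 := hon.eqOn_zero_of_preconnected_of_eventuallyEq_zero hpre τ₀.im_pos h1
  have h3 := h2 w.im_pos
  simpa [Function.comp, ofComplex_apply] using h3

/-- The meromorphic order (as an integer) of a holomorphic function on `ℍ` is the order of its
formal Taylor series. -/
theorem meromorphicOrderAt_untop₀_eq {H : ℍ → ℂ} (hH : MDiff H) (τ₀ : ℍ) :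
    (meromorphicOrderAt (fun z : ℂ => H (ofComplex z)) (τ₀ : ℂ)).untop₀
      = ((tayAt τ₀ H).order.toNat : ℤ) := by
  have han := analyticAt_comp_ofComplex hH τ₀
  have h1 : meromorphicOrderAt (H ∘ ofComplex) (τ₀ : ℂ)
      = (analyticOrderAt (H ∘ ofComplex) (τ₀ : ℂ)).map Nat.cast := han.meromorphicOrderAt_eq
  have h2 : (fun z : ℂ => H (ofComplex z)) = H ∘ ofComplex := rfl
  rw [h2, h1, order_tayAt_eq_analyticOrderAt hH τ₀]
  induction analyticOrderAt (H ∘ ofComplex) (τ₀ : ℂ) using ENat.recTopCoe with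
  | top => simp
  | coe n => simp

theorem meromorphicOrderAt_ne_top_of_ne_zero {H : ℍ → ℂ} (hH : MDiff H) (h0 : H ≠ 0) (τ₀ : ℍ) :
    meromorphicOrderAt (fun z : ℂ => H (ofComplex z)) (τ₀ : ℂ) ≠ ⊤ := by
  have han := analyticAt_comp_ofComplex hH τ₀
  have h1 : meromorphicOrderAt (H ∘ ofComplex) (τ₀ : ℂ)
      = (analyticOrderAt (H ∘ ofComplex) (τ₀ : ℂ)).map Nat.cast := han.meromorphicOrderAt_eq
  have h2 : (fun z : ℂ => H (ofComplex z)) = H ∘ ofComplex := rfl
  rw [h2, h1]
  have h3 := analyticOrderAt_ne_top_of_ne_zero hH h0 τ₀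
  generalize analyticOrderAt (H ∘ ofComplex) (τ₀ : ℂ) = n at h3 ⊢
  induction n using ENat.recTopCoe with
  | top => exact absurd rfl h3
  | coe n => simp

/-- an `S`-invariant holomorphic function vanishes to even order at `i`. -/
theorem two_dvd_order_tayAt_I {H : ℍ → ℂ} (hH : MDiff H) (h0 : H ≠ 0)
    (hinv : ∀ τ : ℍ, H (ModularGroup.S • τ) = H τ) :
    2 ∣ (tayAt ptI H).order.toNat := by
  have h := two_dvd_order_of_trace_eq_zero ModularGroup.S trace_S ptI S_smul_ptI H hinv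
    (analyticAt_comp_ofComplex hH ptI).meromorphicAt
    (meromorphicOrderAt_ne_top_of_ne_zero hH h0 ptI)
  rw [meromorphicOrderAt_untop₀_eq hH ptI] at h
  exact_mod_cast h

/-- an `ST`-invariant holomorphic function vanishes to order divisible by `3` at `ρ`. -/
theorem three_dvd_order_tayAt_rho {H : ℍ → ℂ} (hH : MDiff H) (h0 : H ≠ 0)
    (hinv : ∀ τ : ℍ, H ((ModularGroup.S * ModularGroup.T) • τ) = H τ) :
    3 ∣ (tayAt ptRho H).order.toNat := by
  have h := three_dvd_order_of_trace_eq_one (ModularGroup.S * ModularGroup.T)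
    (Or.inl trace_ST) ptRho ST_smul_ptRho H hinv
    (analyticAt_comp_ofComplex hH ptRho).meromorphicAt
    (meromorphicOrderAt_ne_top_of_ne_zero hH h0 ptRho)
  rw [meromorphicOrderAt_untop₀_eq hH ptRho] at h
  exact_mod_cast h

/-- the order of vanishing at a fixed point is invariant under the local automorphism. -/
theorem order_tayAt_comp_smul {H : ℍ → ℂ} (hH : MDiff H) (σ : SL(2, ℤ)) (τ₀ : ℍ)
    (hσ : σ • τ₀ = τ₀) :
    (tayAt τ₀ (fun τ => H (σ • τ))).order = (tayAt τ₀ H).order := by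
  have hdet := det_coe_SL_pos' σ
  have hdet' : 0 < ((σ : GL (Fin 2) ℝ)).det.val := by
    rw [Matrix.GeneralLinearGroup.val_det_apply]; exact hdet
  have hH' : MDiff (fun τ : ℍ => H (σ • τ)) :=
    hH.comp (UpperHalfPlane.mdifferentiable_smul hdet')
  rw [order_tayAt_eq_analyticOrderAt hH' τ₀, order_tayAt_eq_analyticOrderAt hH τ₀]
  let G : ℂ → ℂ := fun w => ((σ : GL (Fin 2) ℝ) • ofComplex w : ℍ)
  have hcomp : ((fun w => H (σ • w)) ∘ ofComplex) = (H ∘ ofComplex) ∘ G := by
    funext w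
    simp only [Function.comp_apply, G, ofComplex_apply]
    rfl
  rw [hcomp, analyticOrderAt_comp_of_deriv_ne_zero (τ₀.analyticAt_smul hdet)
    (τ₀.deriv_smul_ne_zero hdet)]
  simp only [ofComplex_apply]
  have : ((σ : GL (Fin 2) ℝ) • τ₀ : ℍ) = τ₀ := hσ
  rw [this]

end Fermat.Agent.S24.M6
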