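import Fermat.Agent.S24.AnRep
import Fermat.Agent.S24.GermEmb
import Fermat.Agent.S24.Distinct
import Fermat.Agent.S24.M6Tay
import Fermat.Agent.S24.M6Fields
import Fermat.Agent.S24.LevelOneJ

/-!
# S24, task AN7p (core): the family of germ embeddings at a point of `ℍ`

For a point `τ₀ ∈ ℍ` fixed by `σ ∈ SL(2, ℤ)` such that the multiplier `(c τ₀ + d)²` of `σ` is a
primitive `h`-th root of unity, and `c ∈ ℚ̄` such that `j - embC c` vanishes to order `h` at `τ₀`,
the germ embeddings `E_{g}` (`g` running over representatives of `SL(2, ℤ) ⧸ Γ₀(N)`) form an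
`EmbFamily` for `t = j - c`, `σ`, `h`.

The local analysis of Taylor series (`TayAxioms`, task AN5) is an explicit hypothesis here.
-/

set_option autoImplicit false

open ModularCurve AlgebraicCurve UpperHalfPlane CongruenceSubgroup IntermediateField
open scoped MatrixGroups Manifold

noncomputable section

namespace Fermat.Agent.S24

open Fermat.Agent.S28 (HasTExp jAn jAt)

/-! ## order of a power series viewed as a Laurent series -/

theorem h23_order_ofPowerSeries (p : PowerSeries ℂ) :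
    (HahnSeries.ofPowerSeries ℤ ℂ p).order = (p.order.toNat : ℤ) := by
  by_cases hp : p = 0
  · subst hp
    simp
  have hx : HahnSeries.ofPowerSeries ℤ ℂ p ≠ 0 := by
    intro h
    apply hp
    apply HahnSeries.ofPowerSeries_injective (Γ := ℤ) (R := ℂ)
    rw [h, map_zero]
  obtain ⟨n, hn⟩ : ∃ n : ℕ, p.order = n := by
    have hfin : p.order ≠ ⊤ := ((PowerSeries.order_finite_iff_ne_zero).mpr hp).ne
    exact ⟨p.order.toNat, (ENat.natCast_toNat hfin).symm⟩
  rw [hn, ENat.toNat_natCast]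
  have hcn : PowerSeries.coeff n p ≠ 0 := by
    have := PowerSeries.coeff_order hp
    rwa [show p.order.toNat = n by rw [hn, ENat.toNat_natCast]] at this
  apply le_antisymm
  · apply HahnSeries.order_le_of_coeff_ne_zero
    rw [HahnSeries.ofPowerSeries_apply_coeff]
    exact hcn
  · by_contra hlt
    push Not at hlt
    have h1 : (HahnSeries.ofPowerSeries ℤ ℂ p).coeff (HahnSeries.ofPowerSeries ℤ ℂ p).order ≠ 0 :=
      fun h => hx (HahnSeries.coeff_order_eq_zero.mp h)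
    apply h1
    rcases lt_or_ge (HahnSeries.ofPowerSeries ℤ ℂ p).order 0 with hneg | hnn
    · exact ModularCurve.ofPowerSeries_coeff_of_neg p hneg
    · obtain ⟨m, hm⟩ := Int.eq_ofNat_of_zero_le hnn
      rw [hm, HahnSeries.ofPowerSeries_apply_coeff]
      apply PowerSeries.coeff_of_lt_order
      rw [hn]
      rw [hm] at hlt
      exact_mod_cast hlt

/-! ## translates -/

theorem h23_germOf_order (τ₀ : ℍ) (g : SL(2, ℤ)) (H : ℍ → ℂ) :
    (germOf τ₀ g H).order = ((tayAt τ₀ (fun τ => H (g⁻¹ • τ))).order.toNat : ℤ) := by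
  rw [germOf, h23_order_ofPowerSeries]

/-- translating by an element of `Γ₀(N)` on the right does not change the germ of an invariant
function. -/
theorem h23_germOf_mul_right {N : ℕ} (τ₀ : ℍ) (g γ : SL(2, ℤ)) (hγ : γ ∈ Gamma0 N)
    {H : ℍ → ℂ} (hinv : ∀ γ ∈ Gamma0 N, ∀ τ : ℍ, H (γ • τ) = H τ) :
    germOf τ₀ (g * γ) H = germOf τ₀ g H := by
  have e : (fun τ => H ((g * γ)⁻¹ • τ)) = fun τ => H (g⁻¹ • τ) := by
    funext τ
    rw [mul_inv_rev, mul_smul]
    exact hinv γ⁻¹ (inv_mem hγ) _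
  rw [germOf, germOf, e]

/-- translating by a stabiliser of `τ₀` on the left does not change the order of the germ. -/
theorem h23_germOf_order_mul_left (τ₀ : ℍ) (σ g : SL(2, ℤ)) (hσ : σ • τ₀ = τ₀)
    {H : ℍ → ℂ} (hH : MDiff H) :
    (germOf τ₀ (σ * g) H).order = (germOf τ₀ g H).order := by
  rw [h23_germOf_order, h23_germOf_order]
  have hσ' : σ⁻¹ • τ₀ = τ₀ := by
    rw [inv_smul_eq_iff, hσ]
  have h := M6.order_tayAt_comp_smul (h25_mdiff_comp_smul hH g⁻¹) σ⁻¹ τ₀ hσ'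
  have e : (fun τ => H ((σ * g)⁻¹ • τ)) = fun τ => (fun τ' => H (g⁻¹ • τ')) (σ⁻¹ • τ) := by
    funext τ
    rw [mul_inv_rev, mul_smul]
  rw [e, h]

section Family

variable (N : ℕ) [NeZero N] (hT : TayAxioms) (τ₀ : ℍ)

/-- the germ embedding at `τ₀` of the translate by `g⁻¹`. -/
def h23_E (g : SL(2, ℤ)) : FF N →+* LaurentSeries ℂ :=
  (exists_germEmb_of hT (exists_isAn N) τ₀ g).choose

theorem h23_E_cst (g : SL(2, ℤ)) (a : Kbar) :
    h23_E N hT τ₀ g (cst N a) = HahnSeries.C (embC a) :=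
  (exists_germEmb_of hT (exists_isAn N) τ₀ g).choose_spec.1 a

theorem h23_E_spec (g : SL(2, ℤ)) {f : FF N} {P Q : ℍ → ℂ} (h : IsAn N f P Q) :
    h23_E N hT τ₀ g f * germOf τ₀ g Q = germOf τ₀ g P :=
  (exists_germEmb_of hT (exists_isAn N) τ₀ g).choose_spec.2 f P Q h

theorem h23_E_eq (g : SL(2, ℤ)) {f : FF N} {P Q : ℍ → ℂ} (h : IsAn N f P Q) :
    h23_E N hT τ₀ g f = germOf τ₀ g P / germOf τ₀ g Q := by
  rw [eq_div_iff (germOf_ne_zero hT τ₀ g h.holoQ h.Q_ne)]
  exact h23_E_spec N hT τ₀ g h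

theorem h23_E_order (g : SL(2, ℤ)) {f : FF N} (hf : f ≠ 0) {P Q : ℍ → ℂ} (h : IsAn N f P Q) :
    (h23_E N hT τ₀ g f).order = (germOf τ₀ g P).order - (germOf τ₀ g Q).order := by
  have hQ := germOf_ne_zero hT τ₀ g h.holoQ h.Q_ne
  have hE : h23_E N hT τ₀ g f ≠ 0 := by
    rw [Ne, map_eq_zero]
    exact hf
  have h1 := h23_E_spec N hT τ₀ g h
  have h2 := HahnSeries.order_mul hE hQ
  rw [h1] at h2
  rw [h2]
  ring

/-- the embedding only depends on the coset `g Γ₀(N)`. -/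
theorem h23_E_mul_right (g γ : SL(2, ℤ)) (hγ : γ ∈ Gamma0 N) :
    h23_E N hT τ₀ (g * γ) = h23_E N hT τ₀ g := by
  ext1 f
  obtain ⟨P, Q, h⟩ := exists_isAn N f
  rw [h23_E_eq N hT τ₀ (g * γ) h, h23_E_eq N hT τ₀ g h,
    h23_germOf_mul_right τ₀ g γ hγ h.invP, h23_germOf_mul_right τ₀ g γ hγ h.invQ]

/-- the order of `E_{σ g} f` equals the order of `E_g f` if `σ` fixes `τ₀`. -/
theorem h23_E_order_mul_left (σ g : SL(2, ℤ)) (hσ : σ • τ₀ = τ₀) (f : FF N) :
    (h23_E N hT τ₀ (σ * g) f).order = (h23_E N hT τ₀ g f).order := by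
  by_cases hf : f = 0
  · subst hf
    simp
  obtain ⟨P, Q, h⟩ := exists_isAn N f
  rw [h23_E_order N hT τ₀ (σ * g) hf h, h23_E_order N hT τ₀ g hf h,
    h23_germOf_order_mul_left τ₀ σ g hσ h.holoP, h23_germOf_order_mul_left τ₀ σ g hσ h.holoQ]

/-- the value of the embeddings at `j`. -/
theorem h23_E_jBar (g : SL(2, ℤ)) :
    h23_E N hT τ₀ g (jBar N) = HahnSeries.ofPowerSeries ℤ ℂ (tayAt τ₀ jAn) := by
  have h := h23_E_spec N hT τ₀ g (isAn_jBar N)
  have h1 : germOf τ₀ g (1 : ℍ → ℂ) = 1 := germOf_one hT τ₀ g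
  have h2 : germOf τ₀ g jAn = HahnSeries.ofPowerSeries ℤ ℂ (tayAt τ₀ jAn) := by
    have e : (fun τ => jAn (g⁻¹ • τ)) = jAn := funext fun τ => Fermat.Agent.S28.jAn_smul g⁻¹ τ
    rw [germOf, e]
  rw [h1, mul_one, h2] at h
  exact h

/-- the value of the embeddings at `t = j - c`. -/
theorem h23_E_t (g : SL(2, ℤ)) (c : Kbar) :
    h23_E N hT τ₀ g (jBar N - cst N c) =
      HahnSeries.ofPowerSeries ℤ ℂ (tayAt τ₀ (fun τ => jAn τ - embC c)) := by
  rw [map_sub, h23_E_jBar, h23_E_cst]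
  have e : (fun τ => jAn τ - embC c) = jAn + fun _ => -embC c := by
    funext τ
    simp [sub_eq_add_neg]
  have hj : MDiff jAn := Fermat.Agent.S28.holo_jAn
  have hc : MDiff (fun _ : ℍ => -embC c) := mdifferentiable_const
  have h1 : tayAt τ₀ (jAn + fun _ => -embC c) = tayAt τ₀ jAn + PowerSeries.C (-embC c) := by
    rw [hT.add hj hc τ₀, hT.const]
  rw [e, h1, RingHom.map_add, HahnSeries.ofPowerSeries_C, RingHom.map_neg, sub_eq_add_neg]

/-- the value of the embeddings at `j(Nτ)`. -/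
theorem h23_E_jN (g : SL(2, ℤ)) :
    h23_E N hT τ₀ g (jdBar N N dvd_rfl) = germOf τ₀ g (jAt N) := by
  have h := h23_E_spec N hT τ₀ g (isAn_jdBar N N dvd_rfl)
  have h1 : germOf τ₀ g (1 : ℍ → ℂ) = 1 := germOf_one hT τ₀ g
  rw [h1, mul_one] at h
  exact h

/-- the embeddings of distinct cosets are distinct. -/
theorem h23_E_injective {g g' : SL(2, ℤ)} (h : h23_E N hT τ₀ g = h23_E N hT τ₀ g') :
    g⁻¹ * g' ∈ Gamma0 N := by
  have h1 : germOf τ₀ g (jAt N) = germOf τ₀ g' (jAt N) := by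
    rw [← h23_E_jN N hT τ₀ g, ← h23_E_jN N hT τ₀ g', h]
  rw [germOf, germOf] at h1
  have h2 := HahnSeries.ofPowerSeries_injective (Γ := ℤ) (R := ℂ) h1
  have hm : MDiff (fun τ => jAt N (g⁻¹ • τ)) :=
    h25_mdiff_comp_smul (Fermat.Agent.S28.holo_jAt N) g⁻¹
  have hm' : MDiff (fun τ => jAt N (g'⁻¹ • τ)) :=
    h25_mdiff_comp_smul (Fermat.Agent.S28.holo_jAt N) g'⁻¹
  -- the difference has vanishing Taylor series
  have hcst : MDiff (fun _ : ℍ => (-1 : ℂ)) := mdifferentiable_const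
  have hneg : MDiff ((fun _ : ℍ => (-1 : ℂ)) * (fun τ : ℍ => jAt N (g'⁻¹ • τ))) :=
    hcst.mul hm'
  have h3 : tayAt τ₀ ((fun τ : ℍ => jAt N (g⁻¹ • τ)) +
      (fun _ : ℍ => (-1 : ℂ)) * (fun τ : ℍ => jAt N (g'⁻¹ • τ))) = 0 := by
    rw [hT.add hm hneg, hT.mul hcst hm', hT.const, h2]
    simp
  have h4 := (hT.eq_zero_iff (hm.add hneg) τ₀).mp h3
  have h5 : ∀ τ : ℍ, jAt N (g⁻¹ • τ) = jAt N (g'⁻¹ • τ) := by
    intro τ
    have := congrFun h4 τ
    simp only [Pi.add_apply, Pi.mul_apply, Pi.zero_apply] at this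
    linear_combination this
  apply mem_Gamma0_of_jAt_smul_eq N
  intro τ
  have := h5 (g' • τ)
  rw [inv_smul_smul] at this
  rw [mul_smul]
  exact this

end Family

/-! ## the family -/

/-- **AN7p, core.** The family of germ embeddings at `τ₀`. -/
theorem h23_embFamily_point (N : ℕ) [NeZero N] (hT : TayAxioms) (τ₀ : ℍ) (c : Kbar)
    (σ : SL(2, ℤ)) (hσ : σ • τ₀ = τ₀) (h : ℕ)
    (hord : (tayAt τ₀ (fun τ => jAn τ - embC c)).order = h)
    (hprim : IsPrimitiveRoot (denom σ τ₀ ^ 2) h) :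
    Nonempty (EmbFamily Kbar (FF N) (jBar N - cst N c) (SL(2, ℤ) ⧸ Gamma0 N) σ h) := by
  classical
  -- representatives
  have hout : ∀ x : SL(2, ℤ) ⧸ Gamma0 N, ((Quotient.out x : SL(2, ℤ)) : SL(2, ℤ) ⧸ Gamma0 N) = x :=
    fun x => QuotientGroup.out_eq' x
  -- `out (g • x) = g * out x * γ`
  have hrep : ∀ (g : SL(2, ℤ)) (x : SL(2, ℤ) ⧸ Gamma0 N),
      ∃ γ ∈ Gamma0 N, (Quotient.out (g • x) : SL(2, ℤ)) = g * Quotient.out x * γ := by
    intro g x
    refine ⟨(g * Quotient.out x)⁻¹ * Quotient.out (g • x), ?_, by group⟩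
    rw [← QuotientGroup.eq, hout]
    conv_rhs => rw [← hout x]
    rfl
  refine ⟨{
    θ := embC
    ι := fun x => h23_E N hT τ₀ (Quotient.out x)
    map_const := fun x a => h23_E_cst N hT τ₀ _ a
    map_t := fun x y => by rw [h23_E_t, h23_E_t]
    order_t := fun x => by
      rw [h23_E_t, h23_order_ofPowerSeries, hord, ENat.toNat_natCast]
    inj := fun x y hxy => by
      have h1 := h23_E_injective N hT τ₀ hxy
      rw [← hout x, ← hout y]
      exact QuotientGroup.eq.mpr h1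
    order_smul := fun x f => by
      obtain ⟨γ, hγ, e⟩ := hrep σ x
      show (h23_E N hT τ₀ (Quotient.out (σ • x)) f).order = _
      rw [e, h23_E_mul_right N hT τ₀ _ γ hγ, h23_E_order_mul_left N hT τ₀ σ _ hσ]
    dvd := fun x k hk hx f hf => by
      obtain ⟨P, Q, hPQ⟩ := exists_isAn N f
      have hP0 : P ≠ 0 := hPQ.P_ne hf
      -- `x.out⁻¹ σ^k x.out ∈ Γ₀(N)`
      have hmem : (Quotient.out x : SL(2, ℤ))⁻¹ * (σ ^ k * Quotient.out x) ∈ Gamma0 N := by
        rw [← QuotientGroup.eq, hout]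
        have h1 : σ ^ k • ((Quotient.out x : SL(2, ℤ)) : SL(2, ℤ) ⧸ Gamma0 N)
            = ((σ ^ k * Quotient.out x : SL(2, ℤ)) : SL(2, ℤ) ⧸ Gamma0 N) := rfl
        rw [hout, hx] at h1
        exact h1
      have key : ∀ H : ℍ → ℂ, MDiff H → H ≠ 0 →
          (∀ γ ∈ Gamma0 N, ∀ τ : ℍ, H (γ • τ) = H τ) →
          (h : ℤ) ∣ k * (germOf τ₀ (Quotient.out x) H).order := by
        intro H hH hH0 hinv
        set H' : ℍ → ℂ := fun τ => H ((Quotient.out x : SL(2, ℤ))⁻¹ • τ) with hH'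
        have hmd : MDiff H' := h25_mdiff_comp_smul hH _
        have hne : H' ≠ 0 := by
          intro h0
          apply hH0
          funext τ
          have := congrFun h0 ((Quotient.out x : SL(2, ℤ)) • τ)
          simpa [hH'] using this
        have hinv' : ∀ τ : ℍ, H' ((σ ^ k) • τ) = H' τ := by
          intro τ
          show H ((Quotient.out x : SL(2, ℤ))⁻¹ • (σ ^ k) • τ)
            = H ((Quotient.out x : SL(2, ℤ))⁻¹ • τ)
          rw [← hinv _ hmem ((Quotient.out x : SL(2, ℤ))⁻¹ • τ)]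
          congr 1
          simp only [mul_smul, smul_inv_smul]
        have := M6.dvd_mul_order_of_isPrimitiveRoot σ τ₀ hσ h hprim k H' hinv'
          (M6.analyticAt_comp_ofComplex hmd τ₀).meromorphicAt
          (M6.meromorphicOrderAt_ne_top_of_ne_zero hmd hne τ₀)
        rw [M6.meromorphicOrderAt_untop₀_eq hmd τ₀] at this
        rw [h23_germOf_order]
        exact this
      show (h : ℤ) ∣ k * (h23_E N hT τ₀ (Quotient.out x) f).order
      rw [h23_E_order N hT τ₀ _ hf hPQ, mul_sub]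
      exact dvd_sub (key P hPQ.holoP hP0 hPQ.invP) (key Q hPQ.holoQ hPQ.Q_ne hPQ.invQ) }⟩

end Fermat.Agent.S24

namespace Fermat.Agent.S24

open Fermat.Agent.S28 (HasTExp jAn jAt)

/-! ## the three instances (with `TayAxioms` as hypothesis) -/

theorem h23_embC_ofNat : embC 1728 = 1728 := map_ofNat embC 1728

/-- generic point `c ≠ 0, 1728`. -/
theorem exists_embFamily_generic_of (hT : TayAxioms) (N : ℕ) [NeZero N] (c : Kbar)
    (h0 : c ≠ 0) (h1 : c ≠ 1728) :
    Nonempty (EmbFamily Kbar (FF N) (jBar N - cst N c)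
      (SL(2, ℤ) ⧸ Gamma0 N) (1 : SL(2, ℤ)) 1) := by
  obtain ⟨τ₀, hτ₀⟩ := exists_jAn_eq (embC c)
  have hc0 : jAn τ₀ ≠ 0 := by
    rw [hτ₀, Ne, map_eq_zero]
    exact h0
  have hc1 : jAn τ₀ ≠ 1728 := by
    rw [hτ₀]
    intro h
    apply h1
    apply embC.injective
    rw [h, h23_embC_ofNat]
  have hord := order_tayAt_jAn_sub τ₀ hc0 hc1
  rw [hτ₀] at hord
  exact h23_embFamily_point N hT τ₀ c 1 (one_smul _ _) 1 (by rw [hord]; rfl)
    (M6.isPrimitiveRoot_one_generic τ₀)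

/-- the elliptic point `i`, `j = 1728`. -/
theorem exists_embFamily_I_of (hT : TayAxioms) (N : ℕ) [NeZero N] :
    Nonempty (EmbFamily Kbar (FF N) (jBar N - cst N 1728)
      (SL(2, ℤ) ⧸ Gamma0 N) ModularGroup.S 2) := by
  have hord := order_tayAt_jAn_sub_ptI
  refine h23_embFamily_point N hT ptI 1728 ModularGroup.S M6.S_smul_ptI 2 ?_
    M6.isPrimitiveRoot_S_ptI
  rw [h23_embC_ofNat, hord]
  rfl

/-- the elliptic point `ρ`, `j = 0`. -/
theorem exists_embFamily_rho_of (hT : TayAxioms) (N : ℕ) [NeZero N] :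
    Nonempty (EmbFamily Kbar (FF N) (jBar N - cst N 0)
      (SL(2, ℤ) ⧸ Gamma0 N) (ModularGroup.S * ModularGroup.T) 3) := by
  have hord := order_tayAt_jAn_ptRho
  refine h23_embFamily_point N hT ptRho 0 (ModularGroup.S * ModularGroup.T) M6.ST_smul_ptRho 3 ?_
    M6.isPrimitiveRoot_ST_ptRho
  have e : (fun τ => jAn τ - embC 0) = jAn := by
    funext τ
    rw [map_zero, sub_zero]
  rw [e, hord]
  rfl

end Fermat.Agent.S24
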