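import Mathlib
import Fermat.Prelude.Def_AlgebraicCurve_DivisorClassGroup

/-!
# S24: dictionary between places of a function field and height-one primes of a Dedekind domain

`R` is a Dedekind domain with fraction field `F`, containing the constant field `K`.
* `ofHeightOneSpectrum_injective`: distinct primes give distinct places;
* `exists_ofHeightOneSpectrum_eq`: every place whose valuation ring contains `R` comes from a
  height-one prime of `R`;
* `ord_ofHeightOneSpectrum`: the order at the place of `P` is the `P`-adic order;
* `deg_ofHeightOneSpectrum`: the degree of the place of `P` is `[R ⧸ P : K]`.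
-/

set_option autoImplicit false

noncomputable section

namespace Fermat.Agent.S24

open IsDedekindDomain AlgebraicCurve WithZero

variable {K F : Type*} [Field K] [Field F] [Algebra K F]
variable {R : Type*} [CommRing R] [IsDedekindDomain R] [Algebra R F] [IsFractionRing R F]
  [Algebra K R] [IsScalarTower K R F]

/-- An element of `ℤᵐ⁰` which is `< 1` is `≤ exp (-1)`. -/
theorem dict_le_exp_neg_one_of_lt_one {x : ℤᵐ⁰} (hx : x < 1) : x ≤ exp (-1 : ℤ) := by
  rcases eq_or_ne x 0 with rfl | hx0
  · exact zero_le
  · have h1 : log x < 0 := by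
      rw [log_lt_iff_lt_exp hx0]
      simpa using hx
    have h2 : log x ≤ -1 := by omega
    exact le_exp_of_log_le h2

/-- (a) distinct height-one primes give distinct places. -/
theorem ofHeightOneSpectrum_injective :
    Function.Injective (Place.ofHeightOneSpectrum (K := K) (F := F) (R := R)) := by
  intro P Q h
  have h1 : (P.valuation F).valuationSubring = (Q.valuation F).valuationSubring :=
    congrArg Place.toValuationSubring h
  exact HeightOneSpectrum.eq_of_valuation_isEquiv_valuation
    ((Valuation.isEquiv_iff_valuationSubring _ _).mpr h1)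

/-- (b) every place whose valuation ring contains `R` comes from a height-one prime. -/
theorem exists_ofHeightOneSpectrum_eq (v : Place K F)
    (hv : ∀ r : R, algebraMap R F r ∈ v.toValuationSubring) :
    ∃ P : HeightOneSpectrum R, Place.ofHeightOneSpectrum (K := K) (F := F) P = v := by
  classical
  -- the ring homomorphism `R → O_v`
  let ι : R →+* v.toValuationSubring :=
    (algebraMap R F).codRestrict v.toValuationSubring.toSubring hv
  have hι : ∀ r, ((ι r : v.toValuationSubring) : F) = algebraMap R F r := fun _ => rfl
  let p : Ideal R := (IsLocalRing.maximalIdeal v.toValuationSubring).comap ι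
  have hpprime : p.IsPrime := Ideal.comap_isPrime ι _
  have hunit : ∀ r : R, r ∉ p → (algebraMap R F r)⁻¹ ∈ v.toValuationSubring := by
    intro r hr
    have h1 : ι r ∉ IsLocalRing.maximalIdeal v.toValuationSubring := hr
    have h2 : IsUnit (ι r) := by
      by_contra hnu
      exact h1 hnu
    obtain ⟨w, hw⟩ := h2.exists_right_inv
    have h3 : algebraMap R F r * (w : F) = 1 := by
      have := congrArg (Subtype.val) hw
      simpa [hι] using this
    rw [inv_eq_of_mul_eq_one_right h3]
    exact w.2
  have hpbot : p ≠ ⊥ := by
    intro hbot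
    apply v.ne_top'
    refine SetLike.ext fun x => ⟨fun _ => ValuationSubring.mem_top x, fun _ => ?_⟩
    obtain ⟨a, b, hb, rfl⟩ := IsFractionRing.div_surjective (A := R) x
    have hb0 : b ≠ 0 := nonZeroDivisors.ne_zero hb
    have hbp : b ∉ p := by
      rw [hbot, Ideal.mem_bot]
      exact hb0
    rw [div_eq_mul_inv]
    exact mul_mem (hv a) (hunit b hbp)
  let P : HeightOneSpectrum R := ⟨p, hpprime, hpbot⟩
  refine ⟨P, ?_⟩
  apply Place.ext
  rw [Place.ofHeightOneSpectrum_toValuationSubring,
    ← HeightOneSpectrum.valuationSubringAtPrime_eq_valuationSubring]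
  refine ValuationSubring.eq_of_le_of_ne_top _ ?_ v.ne_top'
  rintro x ⟨a, s, hs, rfl⟩
  exact mul_mem (hv a) (hunit s hs)

/-- Units of the valuation ring of `P` have `P`-adic valuation `1`. -/
theorem dict_valuation_unit (P : HeightOneSpectrum R)
    (u : ((P.valuation F).valuationSubring)ˣ) :
    P.valuation F ((u : (P.valuation F).valuationSubring) : F) = 1 :=
  (Valuation.valuationSubring.integers (P.valuation F)).valuation_unit u

/-- Irreducible elements of the valuation ring of `P` have `P`-adic valuation `exp (-1)`. -/
theorem dict_valuation_irreducible (P : HeightOneSpectrum R)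
    {π : (P.valuation F).valuationSubring} (hπ : Irreducible π) :
    P.valuation F (π : F) = exp (-1 : ℤ) := by
  have hint := Valuation.valuationSubring.integers (P.valuation F)
  have hlt : P.valuation F (π : F) < 1 := hint.valuation_irreducible_lt_one hπ
  refine le_antisymm (dict_le_exp_neg_one_of_lt_one hlt) ?_
  obtain ⟨ϖ, hϖ⟩ := P.valuation_exists_uniformizer' F
  have hϖmem : algebraMap R F ϖ ∈ (P.valuation F).valuationSubring := by
    rw [Valuation.mem_valuationSubring_iff]
    exact P.valuation_le_one ϖ
  have hnu : ¬ IsUnit (⟨algebraMap R F ϖ, hϖmem⟩ : (P.valuation F).valuationSubring) := by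
    intro hu
    have h1 := hint.isUnit_iff_valuation_eq_one.mp hu
    have h2 : P.valuation F (algebraMap R F ϖ) = 1 := h1
    rw [hϖ] at h2
    simp at h2
  have hmem : (⟨algebraMap R F ϖ, hϖmem⟩ : (P.valuation F).valuationSubring)
      ∈ IsLocalRing.maximalIdeal (P.valuation F).valuationSubring := hnu
  rw [hπ.maximalIdeal_eq, Ideal.mem_span_singleton'] at hmem
  obtain ⟨a, ha⟩ := hmem
  have h3 : (a : F) * (π : F) = algebraMap R F ϖ := congrArg Subtype.val ha
  have h4 : P.valuation F (a : F) ≤ 1 := a.2
  calc exp (-1 : ℤ) = P.valuation F (algebraMap R F ϖ) := hϖ.symm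
    _ = P.valuation F (a : F) * P.valuation F (π : F) := by rw [← h3, map_mul]
    _ ≤ 1 * P.valuation F (π : F) := by gcongr
    _ = P.valuation F (π : F) := one_mul _

/-- (c) the order at the place of `P` is the `P`-adic order. -/
theorem ord_ofHeightOneSpectrum (P : HeightOneSpectrum R) (f : F) :
    (Place.ofHeightOneSpectrum (K := K) (F := F) P).ord f = -(WithZero.log (P.valuation F f)) := by
  rcases eq_or_ne f 0 with rfl | hf
  · simp
  obtain ⟨π, hπ⟩ := IsDiscreteValuationRing.exists_irreducible
    (Place.ofHeightOneSpectrum (K := K) (F := F) P).toValuationSubring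
  obtain ⟨u, hu⟩ := (Place.ofHeightOneSpectrum (K := K) (F := F) P).exists_unit_mul_zpow hf hπ
  have key : P.valuation F f
      = exp (-((Place.ofHeightOneSpectrum (K := K) (F := F) P).ord f)) := by
    conv_lhs => rw [hu]
    rw [map_mul, map_zpow₀]
    have h1 : P.valuation F ((u : (Place.ofHeightOneSpectrum (K := K) (F := F)
        P).toValuationSubring) : F) = 1 := dict_valuation_unit P u
    have h2 : P.valuation F (π : F) = exp (-1 : ℤ) := dict_valuation_irreducible P hπ
    rw [h1, h2, one_mul, ← exp_zsmul]
    simp
  rw [key, log_exp, neg_neg]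

/-- The `K`-algebra homomorphism `R → k(v_P)`. -/
def dictResidueHom (P : HeightOneSpectrum R) :
    R →ₐ[K] (Place.ofHeightOneSpectrum (K := K) (F := F) P).ResidueField where
  toRingHom := (IsLocalRing.residue _).comp
    ((algebraMap R F).codRestrict
      (Place.ofHeightOneSpectrum (K := K) (F := F) P).toValuationSubring.toSubring
      (fun r => by
        show algebraMap R F r ∈ (P.valuation F).valuationSubring
        rw [Valuation.mem_valuationSubring_iff]
        exact P.valuation_le_one r))
  commutes' a := by
    show IsLocalRing.residue _ _ = IsLocalRing.residue _ _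
    congr 1
    apply Subtype.ext
    show algebraMap R F (algebraMap K R a) = algebraMap K F a
    rw [← IsScalarTower.algebraMap_apply]

theorem dictResidueHom_apply (P : HeightOneSpectrum R) (r : R) :
    dictResidueHom (K := K) (F := F) P r = IsLocalRing.residue _
      (⟨algebraMap R F r, by
        show algebraMap R F r ∈ (P.valuation F).valuationSubring
        rw [Valuation.mem_valuationSubring_iff]
        exact P.valuation_le_one r⟩ :
        (Place.ofHeightOneSpectrum (K := K) (F := F) P).toValuationSubring) := rfl

/-- Membership in the maximal ideal of the valuation ring of `P`. -/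
theorem dict_mem_maximalIdeal_iff (P : HeightOneSpectrum R)
    (a : (P.valuation F).valuationSubring) :
    a ∈ IsLocalRing.maximalIdeal (P.valuation F).valuationSubring ↔ P.valuation F (a : F) < 1 := by
  have hint := Valuation.valuationSubring.integers (P.valuation F)
  rw [IsLocalRing.mem_maximalIdeal, mem_nonunits_iff, hint.isUnit_iff_valuation_eq_one]
  have h1 : P.valuation F (a : F) ≤ 1 := a.2
  constructor
  · intro h
    exact lt_of_le_of_ne h1 h
  · intro h
    exact ne_of_lt h

theorem ker_dictResidueHom (P : HeightOneSpectrum R) :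
    RingHom.ker (dictResidueHom (K := K) (F := F) P) = P.asIdeal := by
  ext r
  rw [RingHom.mem_ker, dictResidueHom_apply, IsLocalRing.residue_eq_zero_iff]
  refine Iff.trans (dict_mem_maximalIdeal_iff P _) ?_
  exact P.valuation_lt_one_iff_mem r

theorem dictResidueHom_surjective (P : HeightOneSpectrum R) :
    Function.Surjective (dictResidueHom (K := K) (F := F) P) := by
  intro x
  obtain ⟨a, rfl⟩ := IsLocalRing.residue_surjective x
  have ha : P.valuation F (a : F) ≤ 1 := a.2
  obtain ⟨n, d, hnd⟩ := P.exists_primeCompl_mul_eq_of_integer (a : F) ha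
  have hdP : (d : R) ∉ P.asIdeal := d.2
  have hmax : P.asIdeal.IsMaximal := P.isMaximal
  obtain ⟨t, i, hi, hti⟩ := Ideal.IsMaximal.exists_inv hmax hdP
  refine ⟨n * t, ?_⟩
  rw [dictResidueHom_apply, eq_comm, ← sub_eq_zero, ← map_sub, IsLocalRing.residue_eq_zero_iff]
  refine (dict_mem_maximalIdeal_iff P _).mpr ?_
  -- `a - n t = a * i`
  have h1 : ((a : F) - algebraMap R F (n * t)) = (a : F) * algebraMap R F i := by
    have h2 : algebraMap R F t * algebraMap R F (d : R) + algebraMap R F i = 1 := by
      rw [← map_mul, ← map_add, hti, map_one]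
    rw [map_mul, ← hnd]
    linear_combination (-(a : F)) * h2
  show P.valuation F ((a : F) - algebraMap R F (n * t)) < 1
  rw [h1, map_mul]
  have h3 : P.valuation F (algebraMap R F i) < 1 := (P.valuation_lt_one_iff_mem i).mpr hi
  calc P.valuation F (a : F) * P.valuation F (algebraMap R F i)
      ≤ 1 * P.valuation F (algebraMap R F i) := by gcongr
    _ = P.valuation F (algebraMap R F i) := one_mul _
    _ < 1 := h3

/-- The residue field of the place of `P` is `R ⧸ P`, as `K`-algebras. -/
def dictResidueEquiv (P : HeightOneSpectrum R) :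
    (R ⧸ P.asIdeal) ≃ₐ[K] (Place.ofHeightOneSpectrum (K := K) (F := F) P).ResidueField :=
  (Ideal.quotientEquivAlgOfEq K (ker_dictResidueHom (K := K) (F := F) P).symm).trans
    (Ideal.quotientKerAlgEquivOfSurjective (dictResidueHom_surjective (K := K) (F := F) P))

theorem dictResidueEquiv_mk (P : HeightOneSpectrum R) (r : R) :
    dictResidueEquiv (K := K) (F := F) P (Ideal.Quotient.mk _ r)
      = dictResidueHom (K := K) (F := F) P r := rfl

/-- (d) the degree of the place of `P` is `[R ⧸ P : K]`. -/
theorem deg_ofHeightOneSpectrum (P : HeightOneSpectrum R) :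
    (Place.ofHeightOneSpectrum (K := K) (F := F) P).deg = Module.finrank K (R ⧸ P.asIdeal) :=
  ((dictResidueEquiv (K := K) (F := F) P).toLinearEquiv.finrank_eq).symm

end Fermat.Agent.S24
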