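import Mathlib
import Fermat.Agent.S24.PlaceDict
import Fermat.Agent.S24.DiffPlace

set_option autoImplicit false
set_option linter.unusedSectionVars false

noncomputable section

namespace Fermat.Agent.S24

open IsDedekindDomain AlgebraicCurve WithZero IntermediateField

namespace FICore

section Abstract

variable {K F : Type*} [Field K] [Field F] [Algebra K F]
variable {A : Type*} [CommRing A] [IsDomain A] [Algebra A F]
variable {B : Type*} [CommRing B] [IsDedekindDomain B] [Algebra K B] [Algebra B F]
  [IsScalarTower K B F] [IsFractionRing B F]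
  [Algebra A B] [IsScalarTower A B F] [Module.Finite A B] [Module.Flat A B]
  [Module.IsTorsionFree A B]

/-- the height-one prime attached to a prime over a nonzero ideal. -/
def primeOfOver {p : Ideal A} (hp : p ≠ ⊥) (q : p.primesOver B) : HeightOneSpectrum B :=
  ⟨q.1, q.2.1, Ideal.ne_bot_of_mem_primesOver hp q.2⟩

theorem ord_eq_ramificationIdx (t : A) (ht : t ≠ 0) (q : (Ideal.span {t}).primesOver B) :
    (Place.ofHeightOneSpectrum (K := K) (F := F)
        (primeOfOver (Ideal.span_singleton_eq_bot.not.mpr ht) q)).ord (algebraMap A F t)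
      = (q.1.ramificationIdx A : ℤ) := by
  have hp : (Ideal.span {t} : Ideal A) ≠ ⊥ := Ideal.span_singleton_eq_bot.not.mpr ht
  have htB : algebraMap A B t ≠ 0 := by
    intro h0
    exact ht ((FaithfulSMul.algebraMap_injective A B) (by rw [h0, map_zero]))
  have hmap : (Ideal.span {t} : Ideal A).map (algebraMap A B) = Ideal.span {algebraMap A B t} := by
    rw [Ideal.map_span, Set.image_singleton]
  have hmapne : (Ideal.span {t} : Ideal A).map (algebraMap A B) ≠ ⊥ := by
    rw [hmap]; exact Ideal.span_singleton_eq_bot.not.mpr htB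
  have : q.1.IsPrime := q.2.1
  have : q.1.LiesOver (Ideal.span {t}) := q.2.2
  rw [ord_ofHeightOneSpectrum, IsScalarTower.algebraMap_apply A B F,
    HeightOneSpectrum.valuation_of_algebraMap,
    HeightOneSpectrum.intValuation_eq_exp_neg_multiplicity _ htB,
    Ideal.IsDedekindDomain.ramificationIdx_eq_multiplicity (Ideal.span {t}) q.1 hmapne, hmap]
  simp [primeOfOver]

theorem primeOfOver_injective {p : Ideal A} (hp : p ≠ ⊥) :
    Function.Injective (primeOfOver (B := B) hp) := by
  intro q q' h
  apply Subtype.ext
  exact congrArg HeightOneSpectrum.asIdeal h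

/-- **Fundamental identity**, abstract form: `A ⊆ B` a finite flat extension of Dedekind
domains inside `F = Frac B`, `t ∈ A` generating a maximal ideal over which all inertia degrees
are `1`.  Then the places of `F` at which `t` has positive order form a finite set and the
orders of `t` add up to the rank of `B` over `A`. -/
theorem exists_finset_sum_ord (t : A) (ht : t ≠ 0) [hmax : (Ideal.span {t} : Ideal A).IsMaximal]
    (hf : ∀ q : (Ideal.span {t} : Ideal A).primesOver B, q.1.inertiaDeg A = 1)
    (hB : ∀ v : Place K F, 0 < v.ord (algebraMap A F t) →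
      ∀ b : B, algebraMap B F b ∈ v.toValuationSubring) :
    ∃ s : Finset (Place K F), (∀ v, v ∈ s ↔ 0 < v.ord (algebraMap A F t)) ∧
      ∑ v ∈ s, v.ord (algebraMap A F t) = (Module.finrank A B : ℤ) := by
  classical
  have hp : (Ideal.span {t} : Ideal A) ≠ ⊥ := Ideal.span_singleton_eq_bot.not.mpr ht
  have hint : Algebra.IsIntegral A B := Algebra.IsIntegral.of_finite A B
  have hfinite : Finite ((Ideal.span {t} : Ideal A).primesOver B) :=
    (IsDedekindDomain.primesOver_finite (Ideal.span {t} : Ideal A) B).to_subtype
  let _ : Fintype ((Ideal.span {t} : Ideal A).primesOver B) := Fintype.ofFinite _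
  let g : (Ideal.span {t} : Ideal A).primesOver B → Place K F := fun q =>
    Place.ofHeightOneSpectrum (K := K) (F := F) (primeOfOver hp q)
  have hg : Function.Injective g :=
    (ofHeightOneSpectrum_injective (K := K) (F := F) (R := B)).comp (primeOfOver_injective hp)
  refine ⟨Finset.univ.image g, ?_, ?_⟩
  · intro v
    rw [Finset.mem_image]
    constructor
    · rintro ⟨q, -, rfl⟩
      show 0 < (Place.ofHeightOneSpectrum (K := K) (F := F) (primeOfOver hp q)).ord _
      rw [ord_eq_ramificationIdx t ht q]
      have : q.1.IsPrime := q.2.1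
      exact_mod_cast Ideal.ramificationIdx_pos q.1 A
    · intro hv
      obtain ⟨P, hP⟩ := exists_ofHeightOneSpectrum_eq (R := B) v (hB v hv)
      have hval : P.valuation F (algebraMap A F t) < 1 := by
        rw [← hP, ord_ofHeightOneSpectrum] at hv
        have hne : P.valuation F (algebraMap A F t) ≠ 0 := by
          intro h0
          rw [h0] at hv
          simp at hv
        have hlog : log (P.valuation F (algebraMap A F t)) < 0 := by omega
        rwa [log_lt_iff_lt_exp hne, exp_zero] at hlog
      have htP : algebraMap A B t ∈ P.asIdeal := by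
        rw [IsScalarTower.algebraMap_apply A B F] at hval
        exact (P.valuation_lt_one_iff_mem _).mp hval
      have hunder : (Ideal.span {t} : Ideal A) = P.asIdeal.under A := by
        have hle : (Ideal.span {t} : Ideal A) ≤ P.asIdeal.under A := by
          rw [Ideal.span_le, Set.singleton_subset_iff]
          exact htP
        have hprime : (P.asIdeal.under A).IsPrime := Ideal.IsPrime.under A P.asIdeal
        exact hmax.eq_of_le hprime.ne_top hle
      refine ⟨⟨P.asIdeal, P.isPrime, ⟨hunder⟩⟩, Finset.mem_univ _, ?_⟩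
      rw [← hP]
      rfl
  · rw [Finset.sum_image (fun a _ b _ h => hg h)]
    have hsum := Ideal.sum_ramification_inertia_eq_finrank (Ideal.span {t} : Ideal A) B
    have : ∑ q : (Ideal.span {t} : Ideal A).primesOver B, (g q).ord (algebraMap A F t)
        = ∑ q : (Ideal.span {t} : Ideal A).primesOver B,
            ((q.1.ramificationIdx A * q.1.inertiaDeg A : ℕ) : ℤ) := by
      refine Finset.sum_congr rfl fun q _ => ?_
      rw [hf q, mul_one]
      exact ord_eq_ramificationIdx t ht q
    rw [this, ← Nat.cast_sum, hsum]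

end Abstract

section Concrete

open scoped IntermediateField.algebraAdjoinAdjoin

variable {K F : Type*} [Field K] [Field F] [Algebra K F]

/-- `K[X] ≃ K[x]` for a transcendental `x`. -/
def adjoinEquiv (x : F) (hx : Transcendental K x) :
    Polynomial K ≃ₐ[K] Algebra.adjoin K {x} :=
  (AlgEquiv.ofInjective (Polynomial.aeval x) (transcendental_iff_injective.mp hx)).trans
    (Subalgebra.equivOfEq _ _ (Algebra.adjoin_singleton_eq_range_aeval K x).symm)

/-- the generator `x` of `K[x]`. -/
def gen (x : F) : Algebra.adjoin K {x} := ⟨x, Algebra.self_mem_adjoin_singleton K x⟩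

theorem adjoinEquiv_X (x : F) (hx : Transcendental K x) :
    adjoinEquiv x hx Polynomial.X = gen (K := K) x := by
  apply Subtype.ext
  simp [adjoinEquiv, gen]

theorem isPrincipalIdealRing_adjoin (x : F) (hx : Transcendental K x) :
    IsPrincipalIdealRing (Algebra.adjoin K {x}) :=
  IsPrincipalIdealRing.of_surjective (adjoinEquiv x hx).toAlgHom.toRingHom
    (adjoinEquiv x hx).surjective

theorem irreducible_gen (x : F) (hx : Transcendental K x) : Irreducible (gen (K := K) x) := by
  rw [← adjoinEquiv_X x hx]
  exact (MulEquiv.irreducible_iff (adjoinEquiv x hx).toMulEquiv).mpr Polynomial.irreducible_X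

theorem gen_ne_zero (x : F) (hx : Transcendental K x) : gen (K := K) x ≠ 0 :=
  (irreducible_gen x hx).ne_zero

theorem span_gen_isMaximal (x : F) (hx : Transcendental K x) :
    (Ideal.span {gen (K := K) x}).IsMaximal := by
  have := isPrincipalIdealRing_adjoin x hx
  exact PrincipalIdealRing.isMaximal_of_irreducible (irreducible_gen x hx)

theorem inertiaDeg_eq_one_aux [IsAlgClosed K] (x : F) [FiniteDimensional K⟮x⟯ F]
    (A : Type*) [CommRing A] [IsDomain A] [Algebra A F] [Algebra K A] [IsScalarTower K A F]
    (B : Type*) [CommRing B] [IsDedekindDomain B] [Algebra K B] [Algebra B F]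
    [IsScalarTower K B F] [IsFractionRing B F]
    [Algebra A B] [IsScalarTower A B F] [IsScalarTower K A B] [Module.IsTorsionFree A B]
    (p : Ideal A) [hpmax : p.IsMaximal] (hp : p ≠ ⊥) (q : p.primesOver B) :
    q.1.inertiaDeg A = 1 := by
  have hqprime : q.1.IsPrime := q.2.1
  have hqne : q.1 ≠ ⊥ := Ideal.ne_bot_of_mem_primesOver hp q.2
  have hqmax : q.1.IsMaximal := hqprime.isMaximal hqne
  have hlies : q.1.LiesOver p := q.2.2
  rw [Ideal.inertiaDeg_eq_of_isMaximal p q.1]
  have halg : Algebra.IsAlgebraic K⟮x⟯ F := Algebra.IsAlgebraic.of_finite _ _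
  have hdeg : Module.finrank K (B ⧸ q.1) = 1 := by
    rw [← deg_ofHeightOneSpectrum (K := K) (F := F) (⟨q.1, hqprime, hqne⟩ : HeightOneSpectrum B)]
    exact DiffPlace.place_deg_eq_one x halg _
  let _ : Field (A ⧸ p) := Ideal.Quotient.field p
  rw [finrank_eq_one_iff_of_nonzero' (1 : B ⧸ q.1) one_ne_zero]
  intro w
  obtain ⟨c, hc⟩ := (finrank_eq_one_iff_of_nonzero' (1 : B ⧸ q.1) one_ne_zero).mp hdeg w
  refine ⟨Ideal.Quotient.mk p (algebraMap K A c), ?_⟩
  rw [← hc, Algebra.smul_def, mul_one, Algebra.smul_def, mul_one]
  rw [Ideal.Quotient.algebraMap_mk_of_liesOver]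
  rw [← IsScalarTower.algebraMap_apply K A B]
  rfl

/-- the valuation ring of a place containing `x` contains the integral closure of `K[x]`. -/
theorem mem_of_isIntegral_adjoin (x : F) (v : Place K F) (hxv : x ∈ v.toValuationSubring)
    {b : F} (hb : IsIntegral (Algebra.adjoin K {x}) b) : b ∈ v.toValuationSubring := by
  have hA : ∀ a : Algebra.adjoin K {x}, (a : F) ∈ v.toValuationSubring := by
    intro a
    let S : Subalgebra K F :=
      { v.toValuationSubring.toSubring.toSubsemiring with
        algebraMap_mem' := v.algebraMap_mem' }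
    have hle : Algebra.adjoin K {x} ≤ S := Algebra.adjoin_le (by
      intro y hy
      rw [Set.mem_singleton_iff] at hy
      rw [hy]
      exact hxv)
    exact hle a.2
  let φ : Algebra.adjoin K {x} →+* v.toValuationSubring :=
    (algebraMap (Algebra.adjoin K {x}) F).codRestrict v.toValuationSubring.toSubring hA
  let _ : Algebra (Algebra.adjoin K {x}) v.toValuationSubring := φ.toAlgebra
  have : IsScalarTower (Algebra.adjoin K {x}) v.toValuationSubring F :=
    IsScalarTower.of_algebraMap_eq fun _ => rfl
  have hb' : IsIntegral v.toValuationSubring b := hb.tower_top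
  obtain ⟨z, hz⟩ := (IsIntegrallyClosed.isIntegral_iff (R := v.toValuationSubring) (K := F)).mp hb'
  rw [← hz]
  exact z.2

theorem fi_zeros [IsAlgClosed K] [CharZero K] (x : F) (hx : Transcendental K x)
    [FiniteDimensional K⟮x⟯ F] :
    ∃ s : Finset (Place K F), (∀ v, v ∈ s ↔ 0 < v.ord x) ∧
      ∑ v ∈ s, v.ord x = (Module.finrank K⟮x⟯ F : ℤ) := by
  have hPID := isPrincipalIdealRing_adjoin x hx
  have hDed : IsDedekindDomain (integralClosure (Algebra.adjoin K {x}) F) :=
    integralClosure.isDedekindDomain (Algebra.adjoin K {x}) K⟮x⟯ F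
  have hFrac : IsFractionRing (integralClosure (Algebra.adjoin K {x}) F) F :=
    integralClosure.isFractionRing_of_finite_extension K⟮x⟯ F
  have hfin : Module.Finite (Algebra.adjoin K {x}) (integralClosure (Algebra.adjoin K {x}) F) :=
    IsIntegralClosure.finite (Algebra.adjoin K {x}) K⟮x⟯ F _
  have hmax := span_gen_isMaximal x hx
  have hpne : (Ideal.span {gen (K := K) x}) ≠ ⊥ :=
    Ideal.span_singleton_eq_bot.not.mpr (gen_ne_zero x hx)
  have hf : ∀ q : (Ideal.span {gen (K := K) x}).primesOver
      (integralClosure (Algebra.adjoin K {x}) F), q.1.inertiaDeg (Algebra.adjoin K {x}) = 1 :=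
    fun q => inertiaDeg_eq_one_aux (K := K) (F := F) x (Algebra.adjoin K {x})
      (integralClosure (Algebra.adjoin K {x}) F) (Ideal.span {gen (K := K) x}) hpne q
  have hB : ∀ v : Place K F, 0 < v.ord (algebraMap (Algebra.adjoin K {x}) F (gen x)) →
      ∀ b : integralClosure (Algebra.adjoin K {x}) F,
        algebraMap (integralClosure (Algebra.adjoin K {x}) F) F b ∈ v.toValuationSubring := by
    intro v hv b
    exact mem_of_isIntegral_adjoin x v (DiffPlace.mem_of_ord_nonneg v hv.le) b.2
  obtain ⟨s, hs, hsum⟩ := exists_finset_sum_ord (K := K) (F := F)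
    (A := Algebra.adjoin K {x}) (B := integralClosure (Algebra.adjoin K {x}) F)
    (gen x) (gen_ne_zero x hx) hf hB
  refine ⟨s, hs, ?_⟩
  rw [show x = algebraMap (Algebra.adjoin K {x}) F (gen x) from rfl, hsum]
  congr 1
  exact (IsFractionRing.finrank_eq (Algebra.adjoin K {x}) K⟮x⟯
    (integralClosure (Algebra.adjoin K {x}) F) F).symm

end Concrete

end FICore

end Fermat.Agent.S24
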