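import Mathlib
import Fermat.Prelude.Def_AlgebraicCurve_DivisorClassGroup

/-!
# S24 (PD): principal divisors of a function field have finite support and degree zero

General form: `K` algebraically closed, `F / K` a field with a transcendental element `x` such
that `F` is finite over `K(x)`.  The fundamental identity (FI, helper43) and `deg v = 1`
(DEG1, helper64) enter as explicit hypotheses `FIStatement` and `hdeg`.
-/

set_option autoImplicit false

noncomputable section

namespace Fermat.Agent.S24

open AlgebraicCurve IntermediateField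

variable {K F : Type*} [Field K] [Field F] [Algebra K F]

/-- Statement of the fundamental identity (FI) for a function `x`: the zeros of `x - c` and the
poles of `x` form finite sets, and both weighted counts equal `[F : K(x)]`.  This is `IfaceFI`
with `(K, F, x)` in place of `(Kbar, FF N, jBar N)`. -/
def FIStatement (K F : Type*) [Field K] [Field F] [Algebra K F] (x : F) : Prop :=
  (∀ c : K, ∃ s : Finset (Place K F),
      (∀ v, v ∈ s ↔ 0 < v.ord (x - algebraMap K F c)) ∧
      ∑ v ∈ s, v.ord (x - algebraMap K F c) = (Module.finrank K⟮x⟯ F : ℤ)) ∧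
  (∃ s : Finset (Place K F),
      (∀ v, v ∈ s ↔ v.ord x < 0) ∧
      ∑ v ∈ s, (- v.ord x) = (Module.finrank K⟮x⟯ F : ℤ))

section Trdeg

open scoped IntermediateField.algebraAdjoinAdjoin

/-- If `F` is finite over `K(x)`, then `F` is algebraic over the polynomial ring `K[x]`. -/
theorem pd_isAlgebraic_adjoin (x : F) [FiniteDimensional K⟮x⟯ F] :
    Algebra.IsAlgebraic (Algebra.adjoin K {x}) F := by
  have : Algebra.IsAlgebraic K⟮x⟯ F := Algebra.IsAlgebraic.of_finite _ _
  exact Algebra.IsAlgebraic.trans (Algebra.adjoin K {x}) K⟮x⟯ F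

/-- If `F` is finite over `K(x)` and `f` is transcendental over `K`, then `F` is algebraic over
`K(f)`. -/
theorem pd_isAlgebraic_adjoin_of_transcendental (x : F) [FiniteDimensional K⟮x⟯ F] (f : F)
    (hf : Transcendental K f) : Algebra.IsAlgebraic K⟮f⟯ F := by
  have halg := pd_isAlgebraic_adjoin (K := K) x
  have h1 : Algebra.trdeg K F ≤ Cardinal.mk ({x} : Set F) :=
    Algebra.IsAlgebraic.trdeg_le_cardinalMk K ({x} : Set F)
  have h2 : Algebra.trdeg K F ≤ 1 := by simpa using h1
  have hind : AlgebraicIndependent K (fun _ : Unit => f) :=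
    algebraicIndependent_unique_type_iff.mpr hf
  have hbasis : IsTranscendenceBasis K (fun _ : Unit => f) :=
    hind.isTranscendenceBasis_of_lift_trdeg_le_of_finite (by simpa using h2)
  have h3 := hbasis.isAlgebraic_field
  have h4 : Set.range (fun _ : Unit => f) = {f} := by
    ext y
    simp [eq_comm]
  rwa [h4] at h3

/-- If `F` is finite over `K(x)` and `f` is transcendental over `K`, then `F` is finite over
`K(f)`. -/
theorem pd_finiteDimensional_adjoin_of_transcendental (x : F) [FiniteDimensional K⟮x⟯ F] (f : F)
    (hf : Transcendental K f) : FiniteDimensional K⟮f⟯ F := by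
  have halg : Algebra.IsAlgebraic K⟮f⟯ F := pd_isAlgebraic_adjoin_of_transcendental x f hf
  -- `F` is essentially of finite type over `K`
  have h1 : Algebra.EssFiniteType K K⟮x⟯ :=
    IntermediateField.essFiniteType_iff.mpr ⟨{x}, by simp⟩
  have h2 : Algebra.EssFiniteType K⟮x⟯ F := inferInstance
  have h3 : Algebra.EssFiniteType K F := Algebra.EssFiniteType.comp K K⟮x⟯ F
  have h4 : Algebra.EssFiniteType K⟮f⟯ F := Algebra.EssFiniteType.of_comp K K⟮f⟯ F
  obtain ⟨s, hs⟩ := IntermediateField.fg_top K⟮f⟯ F
  have h5 : FiniteDimensional K⟮f⟯ (IntermediateField.adjoin K⟮f⟯ (s : Set F)) :=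
    IntermediateField.finiteDimensional_adjoin fun y _ =>
      (Algebra.IsAlgebraic.isAlgebraic y).isIntegral
  rw [hs] at h5
  exact Module.Finite.equiv (IntermediateField.topEquiv (F := K⟮f⟯) (E := F)).toLinearEquiv

end Trdeg

/-- Nonzero constants have order `0` at every place. -/
theorem pd_ord_algebraMap (v : Place K F) {c : K} (hc : c ≠ 0) :
    v.ord (algebraMap K F c) = 0 := by
  have hu : IsUnit (algebraMap K v.toValuationSubring c) := (IsUnit.mk0 c hc).map _
  have h := v.ord_coe_unit hu.unit
  rwa [IsUnit.unit_spec, v.coe_algebraMap] at h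

/-- Over an algebraically closed field, algebraic elements are constants. -/
theorem pd_exists_algebraMap_eq [IsAlgClosed K] {f : F} (hf : IsAlgebraic K f) :
    ∃ c : K, algebraMap K F c = f := by
  have hint : IsIntegral K f := hf.isIntegral
  have hirr := minpoly.irreducible hint
  have hdeg := IsAlgClosed.degree_eq_one_of_irreducible K hirr
  exact minpoly.mem_range_of_degree_eq_one K f hdeg

/-- The degree of a divisor given by a function on a finite set, when all places have
degree one. -/
theorem pd_degree_onFinset (hdeg : ∀ v : Place K F, v.deg = 1) (s : Finset (Place K F))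
    (g : Place K F → ℤ) (hg : ∀ v, g v ≠ 0 → v ∈ s) :
    Divisor.degree (Finsupp.onFinset s g hg) = ∑ v ∈ s, g v := by
  rw [Divisor.degree, Finsupp.liftAddHom_apply, Finsupp.onFinset_sum]
  · refine Finset.sum_congr rfl fun v _ => ?_
    simp [hdeg v]
  · intro v
    simp

/-- **PD**, with FI and DEG1 as explicit hypotheses: principal divisors have finite support and
degree zero. -/
theorem hasPrincipalDivisors_of [IsAlgClosed K]
    (hFI : ∀ f : F, Transcendental K f → FiniteDimensional K⟮f⟯ F → FIStatement K F f)
    (hdeg : ∀ v : Place K F, v.deg = 1)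
    (x : F) [FiniteDimensional K⟮x⟯ F] : HasPrincipalDivisors K F := by
  classical
  refine ⟨fun f hf0 => ?_⟩
  by_cases hf : IsAlgebraic K f
  · obtain ⟨c, rfl⟩ := pd_exists_algebraMap_eq hf
    have hc : c ≠ 0 := by
      rintro rfl
      simp at hf0
    exact ⟨0, fun v => by simp [pd_ord_algebraMap v hc], by simp⟩
  · have hft : Transcendental K f := hf
    have hfin := pd_finiteDimensional_adjoin_of_transcendental x f hft
    obtain ⟨hz, sinf, hsinf, hsuminf⟩ := hFI f hft hfin
    obtain ⟨s₀, hs₀, hsum₀⟩ := hz 0
    simp only [map_zero, sub_zero] at hs₀ hsum₀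
    have hsupp : ∀ v : Place K F, v.ord f ≠ 0 → v ∈ s₀ ∪ sinf := by
      intro v hv
      rw [Finset.mem_union, hs₀, hsinf]
      rcases lt_trichotomy (v.ord f) 0 with h | h | h
      · exact Or.inr h
      · exact absurd h hv
      · exact Or.inl h
    refine ⟨Finsupp.onFinset (s₀ ∪ sinf) (fun v => v.ord f) hsupp, fun v => rfl, ?_⟩
    have hdisj : Disjoint s₀ sinf := by
      rw [Finset.disjoint_left]
      intro v h0 hinf
      rw [hs₀] at h0
      rw [hsinf] at hinf
      omega
    rw [pd_degree_onFinset hdeg, Finset.sum_union hdisj, hsum₀]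
    rw [Finset.sum_neg_distrib] at hsuminf
    omega

end Fermat.Agent.S24
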