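import Mathlib
import Fermat.Prelude.Def_AlgebraicCurve_DivisorClassGroup
import Fermat.Agent.S24.PrincipalDiv

/-!
# S24 (FI wrapper): the fundamental identity `FIStatement` from the zeros theorem

The "zeros theorem" (helper43, `fi_zeros`): for every `y : F` transcendental over `K` with
`F` finite over `K(y)`, the zeros of `y` form a finite set `s` and
`∑ v ∈ s, v.ord y = [F : K(y)]`.

From it, applied to `y = x - c` and to `y = x⁻¹` (using `K(x - c) = K(x) = K(x⁻¹)`), we get the
full fundamental identity `FIStatement K F x`.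
-/

set_option autoImplicit false

noncomputable section

namespace Fermat.Agent.S24

open AlgebraicCurve IntermediateField

variable {K F : Type*} [Field K] [Field F] [Algebra K F]

/-- The shape of the zeros theorem `fi_zeros`, as a `Prop`. -/
def ZerosStatement (K F : Type*) [Field K] [Field F] [Algebra K F] : Prop :=
  ∀ y : F, Transcendental K y → FiniteDimensional K⟮y⟯ F →
    ∃ s : Finset (Place K F), (∀ v, v ∈ s ↔ 0 < v.ord y) ∧
      ∑ v ∈ s, v.ord y = (Module.finrank K⟮y⟯ F : ℤ)

/-- `K(x - c) = K(x)`. -/
theorem fiw_adjoin_sub_const (x : F) (c : K) :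
    K⟮x - algebraMap K F c⟯ = K⟮x⟯ := by
  apply le_antisymm
  · rw [IntermediateField.adjoin_simple_le_iff]
    exact sub_mem (IntermediateField.mem_adjoin_simple_self K x)
      (IntermediateField.algebraMap_mem _ c)
  · rw [IntermediateField.adjoin_simple_le_iff]
    have h := add_mem (IntermediateField.mem_adjoin_simple_self K (x - algebraMap K F c))
      (IntermediateField.algebraMap_mem K⟮x - algebraMap K F c⟯ c)
    simpa using h

/-- `K(x⁻¹) = K(x)`. -/
theorem fiw_adjoin_inv (x : F) : K⟮x⁻¹⟯ = K⟮x⟯ := by
  apply le_antisymm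
  · rw [IntermediateField.adjoin_simple_le_iff]
    exact inv_mem (IntermediateField.mem_adjoin_simple_self K x)
  · rw [IntermediateField.adjoin_simple_le_iff]
    have h := inv_mem (IntermediateField.mem_adjoin_simple_self K x⁻¹)
    simpa using h

/-- Transport of finite-dimensionality along an equality of intermediate fields. -/
theorem fiw_finiteDimensional_of_eq {E₁ E₂ : IntermediateField K F} (h : E₁ = E₂)
    (hfin : FiniteDimensional E₂ F) : FiniteDimensional E₁ F := by
  subst h
  exact hfin

/-- Transport of `finrank` along an equality of intermediate fields. -/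
theorem fiw_finrank_of_eq {E₁ E₂ : IntermediateField K F} (h : E₁ = E₂) :
    Module.finrank E₁ F = Module.finrank E₂ F := by
  subst h
  rfl

/-- `x - c` is transcendental if `x` is. -/
theorem fiw_transcendental_sub_const {x : F} (hx : Transcendental K x) (c : K) :
    Transcendental K (x - algebraMap K F c) := by
  intro h
  apply hx
  have h2 : IsAlgebraic K ((x - algebraMap K F c) + algebraMap K F c) :=
    h.add (isAlgebraic_algebraMap c)
  simpa using h2

/-- `x⁻¹` is transcendental if `x` is. -/
theorem fiw_transcendental_inv {x : F} (hx : Transcendental K x) :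
    Transcendental K x⁻¹ := by
  intro h
  apply hx
  have h2 : IsAlgebraic K (x⁻¹)⁻¹ := h.inv
  simpa using h2

/-- **FI from the zeros theorem.** -/
theorem fiStatement_of_zeros
    (hZ : ∀ y : F, Transcendental K y → FiniteDimensional K⟮y⟯ F →
      ∃ s : Finset (Place K F), (∀ v, v ∈ s ↔ 0 < v.ord y) ∧
        ∑ v ∈ s, v.ord y = (Module.finrank K⟮y⟯ F : ℤ))
    (x : F) (hx : Transcendental K x) [hfin : FiniteDimensional K⟮x⟯ F] :
    FIStatement K F x := by
  refine ⟨fun c => ?_, ?_⟩
  · obtain ⟨s, hs, hsum⟩ := hZ (x - algebraMap K F c) (fiw_transcendental_sub_const hx c)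
      (fiw_finiteDimensional_of_eq (fiw_adjoin_sub_const x c) hfin)
    exact ⟨s, hs, by rw [hsum, fiw_finrank_of_eq (fiw_adjoin_sub_const x c)]⟩
  · obtain ⟨s, hs, hsum⟩ := hZ x⁻¹ (fiw_transcendental_inv hx)
      (fiw_finiteDimensional_of_eq (fiw_adjoin_inv x) hfin)
    refine ⟨s, fun v => ?_, ?_⟩
    · rw [hs v, Place.ord_inv]
      omega
    · rw [← fiw_finrank_of_eq (fiw_adjoin_inv (K := K) x), ← hsum]
      exact Finset.sum_congr rfl fun v _ => (Place.ord_inv v x).symm

/-- **FI for all functions from the zeros theorem**, in the exact shape consumed by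
`hasPrincipalDivisors_of` and `Glue`. -/
theorem fi_general_of_zeros (hZ : ZerosStatement K F) :
    ∀ f : F, Transcendental K f → FiniteDimensional K⟮f⟯ F → FIStatement K F f :=
  fun f hf hfin => by
    exact @fiStatement_of_zeros K F _ _ _ hZ f hf hfin

/-- **PD from the zeros theorem and DEG1.** -/
theorem hasPrincipalDivisors_of_zeros [IsAlgClosed K] (hZ : ZerosStatement K F)
    (hdeg : ∀ v : Place K F, v.deg = 1)
    (x : F) [FiniteDimensional K⟮x⟯ F] : HasPrincipalDivisors K F :=
  hasPrincipalDivisors_of (fi_general_of_zeros hZ) hdeg x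

end Fermat.Agent.S24
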