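import Fermat.Agent.S28.ADefs
import Fermat.Agent.S21.EPrim.JPrim

/-!
# S24 task AN4 (helper20): distinctness of the conjugates of `j(Nτ)`

`h20_mem_Gamma0_of_jAt_smul_eq`: if `γ ∈ SL(2,ℤ)` satisfies `j(N·γτ) = j(Nτ)` for all `τ`, then
`γ ∈ Γ₀(N)`.  This is a restatement of `Fermat.Agent.S21.EPrim.mem_Gamma0_of_jN_smul_eq` in terms
of `Fermat.Agent.S28.jAt`.
-/

set_option autoImplicit false

open UpperHalfPlane hiding I
open CongruenceSubgroup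
open scoped MatrixGroups

namespace Fermat.Agent.S24

open Fermat.Agent.S28 in
theorem h20_scaleH_eq_smul (N : ℕ) [NeZero N] (τ : ℍ) :
    scaleH N τ = Fermat.Agent.S23.H20.alpha N • τ := by
  apply UpperHalfPlane.ext
  rw [Fermat.Agent.S23.H20.coe_alpha_smul]
  simp [scaleH, Nat.pos_of_ne_zero (NeZero.ne N)]

open Fermat.Agent.S28 in
theorem h20_jAt_eq_jN (N : ℕ) [NeZero N] (τ : ℍ) :
    jAt N τ = Fermat.Agent.S21.EPrim.jN N τ := by
  unfold jAt Fermat.Agent.S21.EPrim.jN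
  rw [h20_scaleH_eq_smul]
  rfl

open Fermat.Agent.S28 in
/-- **AN4**: `j(N·γτ) = j(Nτ)` for all `τ` implies `γ ∈ Γ₀(N)`. -/
theorem h20_mem_Gamma0_of_jAt_smul_eq (N : ℕ) [NeZero N] (γ : SL(2, ℤ))
    (h : ∀ τ : ℍ, jAt N (γ • τ) = jAt N τ) : γ ∈ Gamma0 N := by
  apply Fermat.Agent.S21.EPrim.mem_Gamma0_of_jN_smul_eq
  intro z
  rw [← h20_jAt_eq_jN, ← h20_jAt_eq_jN]
  exact h z

end Fermat.Agent.S24
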