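import Fermat.Agent.S24.ADefs

/-!
# S24 AN5 (helper58), part 1: the formal Taylor series `tayAt τ₀ H`

* `tayAt_eq_zero_iff`, `tayAt_mul`, `tayAt_add`, `tayAt_const`
* `h58_order_tayAt` : `(tayAt τ₀ H).order = analyticOrderAt (H ∘ ofComplex) τ₀`
* `order_tayAt_comp_smul` : invariance of the order under a Möbius map fixing `τ₀`
* `h58_deriv_pow_order_eq_one` : if `H ∘ σ = H` and `σ τ₀ = τ₀`, then `σ'(τ₀) ^ ord = 1`.
-/

set_option autoImplicit false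

open ModularCurve AlgebraicCurve CongruenceSubgroup IntermediateField UpperHalfPlane
open scoped MatrixGroups Manifold
open Filter Topology

noncomputable section

namespace Fermat.Agent.S24

theorem h58_coeff_tayAt (τ₀ : ℍ) (H : ℍ → ℂ) (n : ℕ) :
    PowerSeries.coeff n (tayAt τ₀ H) =
      ((n.factorial : ℂ))⁻¹ * iteratedDeriv n (H ∘ UpperHalfPlane.ofComplex) (τ₀ : ℂ) := by
  simp [tayAt]

theorem h58_analyticOnNhd {H : ℍ → ℂ} (hH : MDiff H) :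
    AnalyticOnNhd ℂ (H ∘ UpperHalfPlane.ofComplex) {z : ℂ | 0 < z.im} :=
  (UpperHalfPlane.mdifferentiable_iff.mp hH).analyticOnNhd isOpen_upperHalfPlaneSet

theorem h58_analyticAt {H : ℍ → ℂ} (hH : MDiff H) (τ₀ : ℍ) :
    AnalyticAt ℂ (H ∘ UpperHalfPlane.ofComplex) (τ₀ : ℂ) :=
  h58_analyticOnNhd hH _ τ₀.im_pos

/-- The order of the formal Taylor series is the analytic order. -/
theorem h58_order_tayAt {H : ℍ → ℂ} (hH : MDiff H) (τ₀ : ℍ) :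
    (tayAt τ₀ H).order = analyticOrderAt (H ∘ UpperHalfPlane.ofComplex) (τ₀ : ℂ) := by
  have ha := h58_analyticAt hH τ₀
  rcases h : analyticOrderAt (H ∘ UpperHalfPlane.ofComplex) (τ₀ : ℂ) with _ | n
  · -- infinite order
    have h0 : (H ∘ UpperHalfPlane.ofComplex) =ᶠ[𝓝 (τ₀ : ℂ)] (fun _ => (0 : ℂ)) :=
      analyticOrderAt_eq_top.mp h
    have : tayAt τ₀ H = 0 := by
      ext n
      rw [h58_coeff_tayAt, h0.iteratedDeriv_eq n]
      simp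
    rw [this, PowerSeries.order_zero]
    rfl
  · have h' : analyticOrderAt (H ∘ UpperHalfPlane.ofComplex) (τ₀ : ℂ) = (n : ℕ∞) := h
    rw [analyticOrderAt_eq_nat_iff_iteratedDeriv_eq_zero ha] at h'
    have : (tayAt τ₀ H).order = (n : ℕ∞) := by
      rw [PowerSeries.order_eq_nat]
      refine ⟨?_, fun i hi => ?_⟩
      · rw [h58_coeff_tayAt]
        exact mul_ne_zero (inv_ne_zero (Nat.cast_ne_zero.mpr n.factorial_ne_zero)) h'.2
      · rw [h58_coeff_tayAt, h'.1 i hi, mul_zero]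
    rw [this]
    rfl

theorem tayAt_eq_zero_iff {H : ℍ → ℂ} (hH : MDiff H) (τ₀ : ℍ) : tayAt τ₀ H = 0 ↔ H = 0 := by
  constructor
  · intro h
    have h1 : (tayAt τ₀ H).order = ⊤ := by rw [h, PowerSeries.order_zero]
    rw [h58_order_tayAt hH τ₀, analyticOrderAt_eq_top] at h1
    have hpc : IsPreconnected {z : ℂ | 0 < z.im} :=
      (Complex.isConnected_of_upperHalfPlane subset_rfl (by grind)).isPreconnected
    have := (h58_analyticOnNhd hH).eqOn_zero_of_preconnected_of_eventuallyEq_zero hpc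
      τ₀.im_pos h1
    funext w
    have hw := this w.im_pos
    simpa [UpperHalfPlane.ofComplex_apply] using hw
  · rintro rfl
    ext n
    rw [h58_coeff_tayAt]
    have : ((0 : ℍ → ℂ) ∘ UpperHalfPlane.ofComplex) = fun _ => (0 : ℂ) := rfl
    rw [this]
    simp

theorem tayAt_mul {H₁ H₂ : ℍ → ℂ} (h₁ : MDiff H₁) (h₂ : MDiff H₂) (τ₀ : ℍ) :
    tayAt τ₀ (H₁ * H₂) = tayAt τ₀ H₁ * tayAt τ₀ H₂ := by
  have e : (H₁ * H₂) ∘ UpperHalfPlane.ofComplex =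
      (H₁ ∘ UpperHalfPlane.ofComplex) * (H₂ ∘ UpperHalfPlane.ofComplex) := rfl
  ext n
  simp only [h58_coeff_tayAt, e,
    iteratedDeriv_mul (h58_analyticAt h₁ τ₀).contDiffAt (h58_analyticAt h₂ τ₀).contDiffAt,
    Finset.mul_sum, PowerSeries.coeff_mul, Finset.Nat.sum_antidiagonal_eq_sum_range_succ_mk,
    Nat.succ_eq_add_one]
  refine Finset.sum_congr rfl fun i hi ↦ ?_
  rw [Nat.cast_choose _ (by grind)]
  field_simp [Nat.factorial_ne_zero]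

theorem tayAt_add {H₁ H₂ : ℍ → ℂ} (h₁ : MDiff H₁) (h₂ : MDiff H₂) (τ₀ : ℍ) :
    tayAt τ₀ (H₁ + H₂) = tayAt τ₀ H₁ + tayAt τ₀ H₂ := by
  have e : (H₁ + H₂) ∘ UpperHalfPlane.ofComplex =
      (H₁ ∘ UpperHalfPlane.ofComplex) + (H₂ ∘ UpperHalfPlane.ofComplex) := rfl
  ext n
  simp only [h58_coeff_tayAt, e, map_add,
    iteratedDeriv_add (h58_analyticAt h₁ τ₀).contDiffAt (h58_analyticAt h₂ τ₀).contDiffAt,
    mul_add]

theorem tayAt_const (c : ℂ) (τ₀ : ℍ) : tayAt τ₀ (fun _ => c) = PowerSeries.C c := by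
  ext m
  rw [h58_coeff_tayAt, PowerSeries.coeff_C]
  have : ((fun _ : ℍ => c) ∘ UpperHalfPlane.ofComplex) = fun _ => c := rfl
  rw [this]
  rcases m with _ | m
  · simp
  · simp [iteratedDeriv_succ']

/-- The Möbius map of `σ` in the coordinate of `ℂ`. -/
def h58_moeb (σ : SL(2, ℤ)) (z : ℂ) : ℂ := ((σ • UpperHalfPlane.ofComplex z : ℍ) : ℂ)

theorem h58_comp_smul_eq (H : ℍ → ℂ) (σ : SL(2, ℤ)) :
    (fun τ : ℍ => H (σ • τ)) ∘ UpperHalfPlane.ofComplex =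
      (H ∘ UpperHalfPlane.ofComplex) ∘ h58_moeb σ := by
  funext z
  simp [h58_moeb, UpperHalfPlane.ofComplex_apply]

theorem h58_det_eq_one (σ : SL(2, ℤ)) : ((σ : GL (Fin 2) ℝ)).val.det = 1 :=
  (Matrix.SpecialLinearGroup.map (Int.castRingHom ℝ) σ).det_coe

theorem h58_det_pos (σ : SL(2, ℤ)) : 0 < ((σ : GL (Fin 2) ℝ)).val.det := by
  rw [h58_det_eq_one]
  exact one_pos

theorem h58_moeb_analyticAt (σ : SL(2, ℤ)) (τ₀ : ℍ) : AnalyticAt ℂ (h58_moeb σ) (τ₀ : ℂ) :=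
  UpperHalfPlane.analyticAt_smul (g := (σ : GL (Fin 2) ℝ)) (h58_det_pos σ) τ₀

theorem h58_moeb_apply (σ : SL(2, ℤ)) (τ₀ : ℍ) : h58_moeb σ (τ₀ : ℂ) = ((σ • τ₀ : ℍ) : ℂ) := by
  simp [h58_moeb, UpperHalfPlane.ofComplex_apply]

theorem h58_moeb_deriv (σ : SL(2, ℤ)) (τ₀ : ℍ) :
    deriv (h58_moeb σ) (τ₀ : ℂ) = 1 / (UpperHalfPlane.denom (σ : GL (Fin 2) ℝ) τ₀) ^ 2 := by
  have := UpperHalfPlane.deriv_smul (g := (σ : GL (Fin 2) ℝ)) (h58_det_pos σ) τ₀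
  rw [h58_det_eq_one] at this
  rw [Complex.ofReal_one] at this
  exact this

theorem h58_moeb_deriv_ne_zero (σ : SL(2, ℤ)) (τ₀ : ℍ) : deriv (h58_moeb σ) (τ₀ : ℂ) ≠ 0 :=
  UpperHalfPlane.deriv_smul_ne_zero (g := (σ : GL (Fin 2) ℝ)) (h58_det_pos σ) τ₀

theorem h58_mdiff_comp_smul {H : ℍ → ℂ} (hH : MDiff H) (σ : SL(2, ℤ)) :
    MDiff (fun τ : ℍ => H (σ • τ)) :=
  hH.comp (UpperHalfPlane.mdifferentiable_smul (g := (σ : GL (Fin 2) ℝ)) (h58_det_pos σ))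

/-- the order of vanishing at a fixed point is invariant under the local automorphism. -/
theorem order_tayAt_comp_smul {H : ℍ → ℂ} (hH : MDiff H) (σ : SL(2, ℤ)) (τ₀ : ℍ)
    (hσ : σ • τ₀ = τ₀) :
    (tayAt τ₀ (fun τ => H (σ • τ))).order = (tayAt τ₀ H).order := by
  rw [h58_order_tayAt (h58_mdiff_comp_smul hH σ) τ₀, h58_order_tayAt hH τ₀, h58_comp_smul_eq,
    analyticOrderAt_comp_of_deriv_ne_zero (h58_moeb_analyticAt σ τ₀)
      (h58_moeb_deriv_ne_zero σ τ₀), h58_moeb_apply, hσ]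

/-- If `H` is invariant under `σ`, `σ` fixes `τ₀` and `H ≠ 0`, then the multiplier of `σ` at `τ₀`
raised to the order of `H` at `τ₀` is `1`. -/
theorem h58_deriv_pow_order_eq_one {H : ℍ → ℂ} (hH : MDiff H) (h0 : H ≠ 0) (σ : SL(2, ℤ))
    (τ₀ : ℍ) (hσ : σ • τ₀ = τ₀) (hinv : ∀ τ : ℍ, H (σ • τ) = H τ) :
    (deriv (h58_moeb σ) (τ₀ : ℂ)) ^ (tayAt τ₀ H).order.toNat = 1 := by
  set g : ℂ → ℂ := H ∘ UpperHalfPlane.ofComplex with hg
  set m : ℂ → ℂ := h58_moeb σ with hm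
  have ha : AnalyticAt ℂ g (τ₀ : ℂ) := h58_analyticAt hH τ₀
  have hma : AnalyticAt ℂ m (τ₀ : ℂ) := h58_moeb_analyticAt σ τ₀
  have hmτ : m (τ₀ : ℂ) = (τ₀ : ℂ) := by rw [hm, h58_moeb_apply, hσ]
  have hgm : g ∘ m = g := by
    rw [hg, ← h58_comp_smul_eq]
    congr 1
    funext τ
    exact hinv τ
  -- the order is finite
  have hne : (tayAt τ₀ H).order ≠ ⊤ := by
    intro htop
    rw [PowerSeries.order_eq_top] at htop
    exact h0 ((tayAt_eq_zero_iff hH τ₀).mp htop)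
  obtain ⟨n, hn⟩ := ENat.ne_top_iff_exists.mp hne
  rw [← hn]
  simp only [ENat.toNat_natCast]
  have hord : analyticOrderAt g (τ₀ : ℂ) = (n : ℕ∞) := by
    rw [← h58_order_tayAt hH τ₀, ← hn]
  obtain ⟨h, hha, hhne, hgh⟩ := (ha.analyticOrderAt_eq_natCast).mp hord
  -- the slope of `m`
  have hk : analyticOrderAt (fun z => m z - m (τ₀ : ℂ)) (τ₀ : ℂ) = ((1 : ℕ) : ℕ∞) := by
    have := hma.analyticOrderAt_sub_eq_one_of_deriv_ne_zero (h58_moeb_deriv_ne_zero σ τ₀)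
    simpa using this
  have hma' : AnalyticAt ℂ (fun z => m z - m (τ₀ : ℂ)) (τ₀ : ℂ) := hma.sub analyticAt_const
  obtain ⟨k, hka, hkne, hmk⟩ := (hma'.analyticOrderAt_eq_natCast).mp hk
  -- value of `k` at `τ₀`
  have hkτ : k (τ₀ : ℂ) = deriv m (τ₀ : ℂ) := by
    have h1 : HasDerivAt (fun z : ℂ => (z - (τ₀ : ℂ)) * k z) (k (τ₀ : ℂ)) (τ₀ : ℂ) := by
      have hd1 : HasDerivAt (fun z : ℂ => z - (τ₀ : ℂ)) 1 (τ₀ : ℂ) :=
        (hasDerivAt_id _).sub_const _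
      have := hd1.fun_mul hka.differentiableAt.hasDerivAt
      simpa using this
    have hmk' : (fun z => m z - m (τ₀ : ℂ)) =ᶠ[𝓝 (τ₀ : ℂ)] fun z : ℂ => (z - (τ₀ : ℂ)) * k z := by
      filter_upwards [hmk] with z hz
      rw [hz, pow_one, smul_eq_mul]
    have h2 : HasDerivAt (fun z => m z - m (τ₀ : ℂ)) (k (τ₀ : ℂ)) (τ₀ : ℂ) :=
      h1.congr_of_eventuallyEq hmk'
    have h3 : HasDerivAt (fun z => m z - m (τ₀ : ℂ)) (deriv m (τ₀ : ℂ)) (τ₀ : ℂ) :=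
      hma.differentiableAt.hasDerivAt.sub_const _
    exact h2.unique h3
  -- compare the two factorisations
  have hcont : Tendsto m (𝓝 (τ₀ : ℂ)) (𝓝 (τ₀ : ℂ)) := by
    have := hma.continuousAt.tendsto
    rwa [hmτ] at this
  have hgh' : ∀ᶠ z in 𝓝 (τ₀ : ℂ), g (m z) = (m z - (τ₀ : ℂ)) ^ n • h (m z) :=
    hcont.eventually hgh
  have hha' : AnalyticAt ℂ (fun z => k z ^ n * h (m z)) (τ₀ : ℂ) := by
    have h1 : AnalyticAt ℂ h (m (τ₀ : ℂ)) := by rw [hmτ]; exact hha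
    have h2 : AnalyticAt ℂ (fun z => h (m z)) (τ₀ : ℂ) := h1.comp hma
    exact (hka.pow n).mul h2
  have hfreq : ∃ᶠ z in 𝓝[≠] (τ₀ : ℂ), k z ^ n * h (m z) = h z := by
    apply Eventually.frequently
    have hall : ∀ᶠ z in 𝓝 (τ₀ : ℂ), z ≠ (τ₀ : ℂ) → k z ^ n * h (m z) = h z := by
      filter_upwards [hgh, hgh', hmk] with z h1 h2 h3 hz
      have h4 : g (m z) = g z := congrFun hgm z
      rw [hmτ] at h3
      rw [h2, h1, h3] at h4
      simp only [smul_eq_mul, pow_one, mul_pow] at h4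
      have hz' : (z - (τ₀ : ℂ)) ^ n ≠ 0 := pow_ne_zero _ (sub_ne_zero.mpr hz)
      have h5 : (z - (τ₀ : ℂ)) ^ n * (k z ^ n * h (m z)) = (z - (τ₀ : ℂ)) ^ n * h z := by
        rw [← h4]; ring
      exact mul_left_cancel₀ hz' h5
    exact eventually_nhdsWithin_iff.mpr (by filter_upwards [hall] with z hz hz' using hz hz')
  have hev := (hha'.frequently_eq_iff_eventually_eq hha).mp hfreq
  have hat : k (τ₀ : ℂ) ^ n * h (m (τ₀ : ℂ)) = h (τ₀ : ℂ) := hev.self_of_nhds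
  rw [hmτ] at hat
  rw [← hkτ]
  exact mul_right_cancel₀ hhne (by rw [hat, one_mul])

end Fermat.Agent.S24
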