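import Fermat.Agent.S24.CuspEmb
import Fermat.Agent.S24.AnRep
import Fermat.Agent.S24.Distinct
import Fermat.Agent.S28.CoeffAlg
import Fermat.Agent.S28.Invariance

/-!
# S24 MOD, task AN7c: the cusp family `exists_embFamily_cusp`

The family of cusp embeddings `E_g : F → ℂ((𝕋))`, `𝕋 = exp (2πiτ/N)`, indexed by the left cosets
`g Γ₀(N)`, is an `EmbFamily` for `t = 1/j`, the generator `T` of the stabiliser of `∞` and
`h = N`.
-/

set_option autoImplicit false

open ModularCurve AlgebraicCurve CongruenceSubgroup IntermediateField UpperHalfPlane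
open scoped MatrixGroups Manifold

noncomputable section

namespace Fermat.Agent.S24

open Fermat.Agent.S28 (HasTExp jAn jAt cEmb twist tParam)

/-! ## Translation by `T ^ k` on `𝕋`-expansions -/

/-- the translate `τ ↦ τ + k` multiplies `tParam N` by `exp (2πi/N) ^ k`. -/
theorem h84_tParam_vadd_nat {N : ℕ} (hN : 0 < N) (k : ℕ) (τ : ℍ) :
    tParam N ((k : ℝ) +ᵥ τ)
      = Complex.exp (2 * Real.pi * Complex.I / (N : ℂ)) ^ k * tParam N τ := by
  have hN' : (N : ℂ) ≠ 0 := by exact_mod_cast hN.ne'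
  simp only [tParam, Function.Periodic.qParam, Complex.ofReal_natCast, UpperHalfPlane.coe_vadd]
  rw [← Complex.exp_nat_mul, ← Complex.exp_add]
  congr 1
  field_simp

theorem h84_T_pow_smul (k : ℕ) (τ : ℍ) : ModularGroup.T ^ k • τ = (k : ℝ) +ᵥ τ := by
  have h := UpperHalfPlane.modular_T_zpow_smul τ (k : ℤ)
  rw [zpow_natCast] at h
  rw [h]
  simp

/-- the expansion of the translate by `T ^ k`. -/
theorem h84_hasTExp_comp_T_pow {N : ℕ} [NeZero N] {H : ℍ → ℂ} {s : LaurentSeries ℂ}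
    (h : HasTExp N H s) (k : ℕ) :
    HasTExp N (fun τ => H (ModularGroup.T ^ k • τ))
      (twist (Complex.exp (2 * Real.pi * Complex.I / (N : ℂ)) ^ k) s) := by
  have hN : 0 < N := Nat.pos_of_ne_zero (NeZero.ne N)
  have h1 : HasTExp N (fun τ => H ((k : ℝ) +ᵥ τ))
      (twist (Complex.exp (2 * Real.pi * Complex.I / (N : ℂ)) ^ k) s) := by
    refine h.subst (fun τ => (k : ℝ) +ᵥ τ)
      (Complex.exp (2 * Real.pi * Complex.I / (N : ℂ)) ^ k) 1 one_pos (fun τ => ?_) _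
      (fun n => ?_) (fun m hm => absurd (one_dvd m) (by simp at hm))
    · rw [pow_one]
      exact h84_tParam_vadd_nat hN k τ
    · simp
  exact h1.congr (fun τ => by rw [h84_T_pow_smul])

/-- translation by `T` does not change the order of a `𝕋`-expansion. -/
theorem h84_order_comp_T {N : ℕ} [NeZero N] {H : ℍ → ℂ} {s s' : LaurentSeries ℂ}
    (h : HasTExp N H s) (h' : HasTExp N (fun τ => H (ModularGroup.T • τ)) s') :
    s'.order = s.order := by
  have hN : 0 < N := Nat.pos_of_ne_zero (NeZero.ne N)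
  have h1 := h84_hasTExp_comp_T_pow h 1
  simp only [pow_one] at h1
  have h2 : s' = twist (Complex.exp (2 * Real.pi * Complex.I / (N : ℂ))) s :=
    HasTExp.unique hN h' h1
  rw [h2, Fermat.Agent.S28.order_twist (Complex.exp_ne_zero _)]

/-- a `T^k`-invariant function has a `𝕋`-expansion whose order `n` satisfies `N ∣ k n`. -/
theorem h84_dvd_mul_order_of_periodic {N : ℕ} [NeZero N] {H : ℍ → ℂ} {s : LaurentSeries ℂ}
    (h : HasTExp N H s) (hs : s ≠ 0) (k : ℕ)
    (hper : ∀ τ : ℍ, H (ModularGroup.T ^ k • τ) = H τ) :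
    (N : ℤ) ∣ k * s.order := by
  have hN : 0 < N := Nat.pos_of_ne_zero (NeZero.ne N)
  set ζ : ℂ := Complex.exp (2 * Real.pi * Complex.I / (N : ℂ)) with hζ
  have hprim : IsPrimitiveRoot ζ N := Complex.isPrimitiveRoot_exp N hN.ne'
  have h1 := h84_hasTExp_comp_T_pow h k
  have h2 : twist (ζ ^ k) s = s := HasTExp.unique hN (h1.congr hper) h
  have h3 : (twist (ζ ^ k) s).coeff s.order = s.coeff s.order := by rw [h2]
  rw [Fermat.Agent.S28.coeff_twist] at h3
  have hne : s.coeff s.order ≠ 0 := Fermat.Agent.S28.coeff_order_ne_zero' hs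
  have h4 : (ζ ^ k) ^ s.order = 1 := mul_left_cancel₀ hne (h3.trans (mul_one _).symm)
  have h5 : ζ ^ ((k : ℤ) * s.order) = 1 := by
    rw [zpow_mul, zpow_natCast]
    exact h4
  exact (hprim.zpow_eq_one_iff_dvd _).mp h5

/-! ## The chosen cusp embeddings -/

/-- the chosen cusp embedding attached to `g`. -/
def h84_E (N : ℕ) [NeZero N] (g : SL(2, ℤ)) : FF N →+* LaurentSeries ℂ :=
  Classical.choose (exists_cuspEmb N g)

theorem h84_E_cst (N : ℕ) [NeZero N] (g : SL(2, ℤ)) (a : Kbar) :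
    h84_E N g (cst N a) = HahnSeries.C (embC a) :=
  (Classical.choose_spec (exists_cuspEmb N g)).1 a

theorem h84_E_mul (N : ℕ) [NeZero N] (g : SL(2, ℤ)) {f : FF N} {P Q : ℍ → ℂ}
    {p q : LaurentSeries ℂ} (hf : IsAn N f P Q)
    (hp : HasTExp N (fun τ => P (g⁻¹ • τ)) p) (hq : HasTExp N (fun τ => Q (g⁻¹ • τ)) q) :
    h84_E N g f * q = p :=
  (Classical.choose_spec (exists_cuspEmb N g)).2 f P Q p q hf hp hq

/-- the expansion of the constant function `1`, written as a translate. -/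
theorem h84_hasTExp_one_translate (N : ℕ) (g : SL(2, ℤ)) :
    HasTExp N (fun τ => (1 : ℍ → ℂ) (g⁻¹ • τ)) 1 :=
  (HasTExp.one N).congr (fun _ => rfl)

/-- if the numerator is a genuine function with denominator `1`, the embedding is its expansion. -/
theorem h84_E_eq (N : ℕ) [NeZero N] (g : SL(2, ℤ)) {f : FF N} {P : ℍ → ℂ}
    {p : LaurentSeries ℂ} (hf : IsAn N f P 1) (hp : HasTExp N (fun τ => P (g⁻¹ • τ)) p) :
    h84_E N g f = p := by
  have h := h84_E_mul N g hf hp (h84_hasTExp_one_translate N g)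
  rwa [mul_one] at h

/-- the level-`N` expansion of `j`. -/
def h84_p0 (N : ℕ) [NeZero N] : LaurentSeries ℂ := qExpand ℂ N (cEmb jq)

theorem h84_E_jBar (N : ℕ) [NeZero N] (g : SL(2, ℤ)) : h84_E N g (jBar N) = h84_p0 N := by
  refine h84_E_eq N g (isAn_jBar N) ?_
  exact (Fermat.Agent.S28.Cusp.hasTExp_jAn'.of_one (N := N)).congr
    (fun τ => (Fermat.Agent.S28.jAn_smul g⁻¹ τ).symm)

theorem h84_order_p0 (N : ℕ) [NeZero N] : (h84_p0 N).order = -(N : ℤ) := by
  rw [h84_p0, Fermat.Agent.S28.order_qExpand, Fermat.Agent.S28.Cusp.order_cEmb_jq]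
  ring

theorem h84_p0_ne_zero (N : ℕ) [NeZero N] : h84_p0 N ≠ 0 := by
  intro h0
  have h := h84_order_p0 N
  rw [h0, HahnSeries.order_zero] at h
  have hN : (0 : ℤ) < N := by exact_mod_cast Nat.pos_of_ne_zero (NeZero.ne N)
  omega

theorem h84_order_p0_inv (N : ℕ) [NeZero N] : ((h84_p0 N)⁻¹).order = (N : ℤ) := by
  have hne := h84_p0_ne_zero N
  have hinv : (h84_p0 N)⁻¹ ≠ 0 := inv_ne_zero hne
  have h1 : ((h84_p0 N)⁻¹ * h84_p0 N).order = ((h84_p0 N)⁻¹).order + (h84_p0 N).order :=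
    HahnSeries.order_mul hinv hne
  rw [inv_mul_cancel₀ hne, HahnSeries.order_one, h84_order_p0] at h1
  omega

/-! ## Translates and cosets -/

/-- the translate of a `Γ₀(N)`-invariant function only depends on the left coset. -/
theorem h84_translate_congr {N : ℕ} {P : ℍ → ℂ}
    (hinv : ∀ γ ∈ Gamma0 N, ∀ τ : ℍ, P (γ • τ) = P τ) {a b : SL(2, ℤ)}
    (hab : a⁻¹ * b ∈ Gamma0 N) (τ : ℍ) : P (b⁻¹ • τ) = P (a⁻¹ • τ) := by
  have h1 : b⁻¹ * a ∈ Gamma0 N := by
    have := (Gamma0 N).inv_mem hab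
    simpa [mul_inv_rev] using this
  have h2 : b⁻¹ • τ = (b⁻¹ * a) • (a⁻¹ • τ) := by
    rw [← mul_smul, mul_assoc, mul_inv_cancel, mul_one]
  rw [h2, hinv _ h1]

/-- the translate of a nonzero function is nonzero. -/
theorem h84_translate_ne_zero {Q : ℍ → ℂ} (hQ : Q ≠ 0) (g : SL(2, ℤ)) :
    (fun τ => Q (g⁻¹ • τ)) ≠ 0 := by
  intro h0
  apply hQ
  funext τ
  have := congrFun h0 (g • τ)
  simpa using this

/-- the order of the embedding of `f = P/Q`. -/
theorem h84_order_E (N : ℕ) [NeZero N] (g : SL(2, ℤ)) {f : FF N} (hf0 : f ≠ 0)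
    {P Q : ℍ → ℂ} {p q : LaurentSeries ℂ} (hf : IsAn N f P Q)
    (hp : HasTExp N (fun τ => P (g⁻¹ • τ)) p) (hq : HasTExp N (fun τ => Q (g⁻¹ • τ)) q) :
    (h84_E N g f).order = p.order - q.order := by
  have hq0 : q ≠ 0 := h23_series_ne_zero hq (h84_translate_ne_zero hf.Q_ne g)
  have hE0 : h84_E N g f ≠ 0 := (map_ne_zero _).mpr hf0
  have h := h84_E_mul N g hf hp hq
  have h1 : (h84_E N g f * q).order = (h84_E N g f).order + q.order :=
    HahnSeries.order_mul hE0 hq0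
  rw [h] at h1
  omega

/-- representatives of `x` and of `a • x`. -/
theorem h84_out_smul (N : ℕ) (a : SL(2, ℤ)) (x : SL(2, ℤ) ⧸ Gamma0 N) :
    (a * Quotient.out x)⁻¹ * Quotient.out (a • x) ∈ Gamma0 N := by
  rw [← QuotientGroup.eq, QuotientGroup.out_eq']
  conv_rhs => rw [← QuotientGroup.out_eq' x]
  rfl

/-! ## The family -/

/-- the embedding attached to a coset. -/
def h84_iota (N : ℕ) [NeZero N] (x : SL(2, ℤ) ⧸ Gamma0 N) : FF N →+* LaurentSeries ℂ :=
  h84_E N (Quotient.out x)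

theorem h84_iota_injective (N : ℕ) [NeZero N] : Function.Injective (h84_iota N) := by
  intro x y hxy
  have hAn := isAn_jdBar N N (dvd_refl N)
  obtain ⟨px, hpx⟩ := hAn.expP (Quotient.out x)⁻¹
  obtain ⟨py, hpy⟩ := hAn.expP (Quotient.out y)⁻¹
  have hx : h84_iota N x (jdBar N N (dvd_refl N)) = px := h84_E_eq N _ hAn hpx
  have hy : h84_iota N y (jdBar N N (dvd_refl N)) = py := h84_E_eq N _ hAn hpy
  have hpxy : px = py := by rw [← hx, ← hy, hxy]
  rw [hpxy] at hpx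
  have hfun := h23_fun_unique hpx hpy
  have hmem : (Quotient.out x)⁻¹ * Quotient.out y ∈ Gamma0 N := by
    apply mem_Gamma0_of_jAt_smul_eq
    intro τ
    have h1 := congrFun hfun (Quotient.out y • τ)
    simp only [inv_smul_smul] at h1
    rw [mul_smul]
    exact h1
  have := (QuotientGroup.eq (s := Gamma0 N)).mpr hmem
  rwa [QuotientGroup.out_eq', QuotientGroup.out_eq'] at this

theorem h84_iota_order_smul (N : ℕ) [NeZero N] (x : SL(2, ℤ) ⧸ Gamma0 N) (f : FF N) :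
    (h84_iota N (ModularGroup.T • x) f).order = (h84_iota N x f).order := by
  by_cases hf0 : f = 0
  · subst hf0
    simp
  obtain ⟨P, Q, hAn⟩ := exists_isAn N f
  set g := Quotient.out x with hg
  set g' := Quotient.out (ModularGroup.T • x) with hg'
  obtain ⟨p, hp⟩ := hAn.expP g⁻¹
  obtain ⟨q, hq⟩ := hAn.expQ g⁻¹
  obtain ⟨p', hp'⟩ := hAn.expP g'⁻¹
  obtain ⟨q', hq'⟩ := hAn.expQ g'⁻¹
  have hcos : (ModularGroup.T * g)⁻¹ * g' ∈ Gamma0 N := h84_out_smul N ModularGroup.T x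
  have key : ∀ {R : ℍ → ℂ}, (∀ γ ∈ Gamma0 N, ∀ τ : ℍ, R (γ • τ) = R τ) →
      ∀ τ : ℍ, R (g'⁻¹ • (ModularGroup.T • τ)) = R (g⁻¹ • τ) := by
    intro R hR τ
    rw [h84_translate_congr hR hcos, mul_inv_rev, mul_smul, inv_smul_smul]
  have hpo : p.order = p'.order :=
    h84_order_comp_T (H := fun τ => P (g'⁻¹ • τ)) hp' (hp.congr fun τ => (key hAn.invP τ).symm)
  have hqo : q.order = q'.order :=
    h84_order_comp_T (H := fun τ => Q (g'⁻¹ • τ)) hq' (hq.congr fun τ => (key hAn.invQ τ).symm)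
  rw [h84_iota, h84_iota, h84_order_E N g' hf0 hAn hp' hq', h84_order_E N g hf0 hAn hp hq,
    hpo, hqo]

theorem h84_iota_dvd (N : ℕ) [NeZero N] (x : SL(2, ℤ) ⧸ Gamma0 N) (k : ℕ)
    (hk : ModularGroup.T ^ k • x = x) (f : FF N) (hf0 : f ≠ 0) :
    (N : ℤ) ∣ k * (h84_iota N x f).order := by
  obtain ⟨P, Q, hAn⟩ := exists_isAn N f
  set g := Quotient.out x with hg
  obtain ⟨p, hp⟩ := hAn.expP g⁻¹
  obtain ⟨q, hq⟩ := hAn.expQ g⁻¹
  have hcos : (ModularGroup.T ^ k * g)⁻¹ * g ∈ Gamma0 N := by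
    have := h84_out_smul N (ModularGroup.T ^ k) x
    rwa [hk] at this
  have key : ∀ {R : ℍ → ℂ}, (∀ γ ∈ Gamma0 N, ∀ τ : ℍ, R (γ • τ) = R τ) →
      ∀ τ : ℍ, R (g⁻¹ • (ModularGroup.T ^ k • τ)) = R (g⁻¹ • τ) := by
    intro R hR τ
    rw [h84_translate_congr hR hcos, mul_inv_rev, mul_smul, inv_smul_smul]
  have hp0 : p ≠ 0 := h23_series_ne_zero hp (h84_translate_ne_zero (hAn.P_ne hf0) g)
  have hq0 : q ≠ 0 := h23_series_ne_zero hq (h84_translate_ne_zero hAn.Q_ne g)
  have h1 := h84_dvd_mul_order_of_periodic hp hp0 k (key hAn.invP)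
  have h2 := h84_dvd_mul_order_of_periodic hq hq0 k (key hAn.invQ)
  rw [h84_iota, h84_order_E N g hf0 hAn hp hq, mul_sub]
  exact dvd_sub h1 h2

/-- **AN7c**: the cusp family. -/
theorem exists_embFamily_cusp (N : ℕ) [NeZero N] :
    Nonempty (EmbFamily Kbar (FF N) (jBar N)⁻¹
      (SL(2, ℤ) ⧸ Gamma0 N) ModularGroup.T N) :=
  ⟨{ θ := embC
     ι := h84_iota N
     map_const := fun x a => h84_E_cst N _ a
     map_t := fun x y => by
       rw [h84_iota, h84_iota, map_inv₀, map_inv₀, h84_E_jBar, h84_E_jBar]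
     order_t := fun x => by
       rw [h84_iota, map_inv₀, h84_E_jBar, h84_order_p0_inv]
     inj := h84_iota_injective N
     order_smul := fun x f => h84_iota_order_smul N x f
     dvd := fun x k _ hk f hf0 => h84_iota_dvd N x k hk f hf0 }⟩

end Fermat.Agent.S24
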