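import Fermat.Agent.S24.FICore
import Fermat.Agent.S24.FIWrap

/-!
# S24 (FI): the fundamental identity for every transcendental function, unconditional

`fi_general` = `fi_general_of_zeros` (FIWrap, helper25) applied to `FICore.fi_zeros` (helper43).
-/

set_option autoImplicit false

noncomputable section

namespace Fermat.Agent.S24

open AlgebraicCurve IntermediateField

variable {K F : Type*} [Field K] [Field F] [Algebra K F]

/-- The zeros theorem, as `ZerosStatement`. -/
theorem zerosStatement [IsAlgClosed K] [CharZero K] : ZerosStatement K F :=
  fun y hy hfin => @FICore.fi_zeros K F _ _ _ _ _ y hy hfin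

/-- **FI (general form)**: for `K` algebraically closed of characteristic `0`, `f : F`
transcendental over `K` and `F` finite over `K(f)`, the zeros of `f - c` (for every constant `c`)
and the poles of `f` form finite sets, each with weighted count `[F : K(f)]`. -/
theorem fi_general [IsAlgClosed K] [CharZero K] (f : F) (hf : Transcendental K f)
    [hfin : FiniteDimensional K⟮f⟯ F] : FIStatement K F f :=
  fi_general_of_zeros zerosStatement f hf hfin

/-- `fi_general` in the shape of the `hFI` argument of `Final.result_of` / `Glue`. -/
theorem fi_general_all [IsAlgClosed K] [CharZero K] :
    ∀ f : F, Transcendental K f → FiniteDimensional K⟮f⟯ F → FIStatement K F f :=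
  fi_general_of_zeros zerosStatement

end Fermat.Agent.S24
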