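import Fermat.Agent.S24.OrbitCountGen
import Fermat.Agent.S21.C23.FixCount
import Fermat.Agent.S21.C1.Index
import Fermat.Agent.S21.C4.Main

/-!
# S24, package M7: orbit counts of the stabilisers on `SL(2,ℤ) ⧸ Γ₀(N)`

* `two_mul_card_orbits_S`   : `2 * #(⟨S⟩ \ X) = ψ(N) + ν₂(N)`
* `three_mul_card_orbits_ST`: `3 * #(⟨ST⟩ \ X) = ψ(N) + 2 ν₃(N)`
* `card_orbits_T`           : `#(⟨T⟩ \ X) = cuspCount N`
* conjugated versions, orbit sizes, and the Riemann–Hurwitz numerology `rh_numerics`.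
-/

set_option autoImplicit false

open MulAction CongruenceSubgroup ModularCurve
open scoped MatrixGroups

namespace Fermat.Agent.S24

theorem S_pow_two : ModularGroup.S ^ 2 = (-1 : SL(2, ℤ)) := by
  ext i j
  fin_cases i <;> fin_cases j <;>
    simp [pow_two, ModularGroup.S, Matrix.mul_apply, Fin.sum_univ_two]

theorem ST_pow_three : (ModularGroup.S * ModularGroup.T) ^ 3 = (-1 : SL(2, ℤ)) := by
  ext i j
  fin_cases i <;> fin_cases j <;>
    simp [pow_succ, ModularGroup.S, ModularGroup.T, Matrix.mul_apply, Fin.sum_univ_two]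

theorem neg_one_mem_Gamma0 (N : ℕ) : (-1 : SL(2, ℤ)) ∈ Gamma0 N := by
  rw [Gamma0_mem]
  simp

/-- `-1` acts trivially on the cosets of `Γ₀(N)`. -/
theorem neg_one_smul_coset (N : ℕ) (x : SL(2, ℤ) ⧸ Gamma0 N) : (-1 : SL(2, ℤ)) • x = x := by
  induction x using QuotientGroup.induction_on with
  | H g =>
    change ((((-1 : SL(2, ℤ)) * g : SL(2, ℤ)) : SL(2, ℤ) ⧸ Gamma0 N)) = (g : SL(2, ℤ) ⧸ Gamma0 N)
    have hc : (-1 : SL(2, ℤ)) * g = g * (-1) := by
      ext i j
      simp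
    rw [hc]
    exact QuotientGroup.mk_mul_of_mem g (neg_one_mem_Gamma0 N)

theorem card_coset_Gamma0 (N : ℕ) [NeZero N] :
    Nat.card (SL(2, ℤ) ⧸ Gamma0 N) = dedekindPsi N :=
  Fermat.Agent.S21.C1.index_Gamma0 N

theorem dedekindPsi_ne_zero' (N : ℕ) [NeZero N] : dedekindPsi N ≠ 0 := by
  rw [← Fermat.Agent.S21.C1.index_Gamma0 N]
  exact Subgroup.FiniteIndex.index_ne_zero

theorem finite_coset_Gamma0 (N : ℕ) [NeZero N] : Finite (SL(2, ℤ) ⧸ Gamma0 N) :=
  Nat.finite_of_card_ne_zero (by rw [card_coset_Gamma0]; exact dedekindPsi_ne_zero' N)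

/-- `2 * #(⟨S⟩ \ X) = ψ(N) + ν₂(N)`. -/
theorem two_mul_card_orbits_S (N : ℕ) [NeZero N] :
    2 * Nat.card (orbitRel.Quotient (Subgroup.zpowers ModularGroup.S) (SL(2, ℤ) ⧸ Gamma0 N)) =
      dedekindPsi N + nuTwo N := by
  have := finite_coset_Gamma0 N
  have h := mul_card_orbits_zpowers (X := SL(2, ℤ) ⧸ Gamma0 N) ModularGroup.S Nat.prime_two
    (fun x => by rw [S_pow_two]; exact neg_one_smul_coset N x)
  rw [card_coset_Gamma0, Fermat.Agent.S21.C23.fixCount_S_Gamma0] at h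
  simp only [Nat.add_one_sub_one, one_mul] at h
  exact h

/-- `3 * #(⟨ST⟩ \ X) = ψ(N) + 2 ν₃(N)`. -/
theorem three_mul_card_orbits_ST (N : ℕ) [NeZero N] :
    3 * Nat.card (orbitRel.Quotient (Subgroup.zpowers (ModularGroup.S * ModularGroup.T))
      (SL(2, ℤ) ⧸ Gamma0 N)) = dedekindPsi N + 2 * nuThree N := by
  have := finite_coset_Gamma0 N
  have h := mul_card_orbits_zpowers (X := SL(2, ℤ) ⧸ Gamma0 N)
    (ModularGroup.S * ModularGroup.T) Nat.prime_three
    (fun x => by rw [ST_pow_three]; exact neg_one_smul_coset N x)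
  rw [card_coset_Gamma0, Fermat.Agent.S21.C23.fixCount_ST_Gamma0] at h
  simp only [Nat.add_one_sub_one] at h
  exact h

/-- `#(⟨T⟩ \ X) = cuspCount N`. -/
theorem card_orbits_T (N : ℕ) [NeZero N] :
    Nat.card (orbitRel.Quotient (Subgroup.zpowers ModularGroup.T) (SL(2, ℤ) ⧸ Gamma0 N)) =
      cuspCount N :=
  Fermat.Agent.S21.C4.cuspOrbit_card_Gamma0 N

/-- conjugated version of `two_mul_card_orbits_S` (stabiliser of `a • i`). -/
theorem two_mul_card_orbits_conj_S (N : ℕ) [NeZero N] (a : SL(2, ℤ)) :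
    2 * Nat.card (orbitRel.Quotient (Subgroup.zpowers (a * ModularGroup.S * a⁻¹))
      (SL(2, ℤ) ⧸ Gamma0 N)) = dedekindPsi N + nuTwo N := by
  have h := card_orbits_zpowers_conj (X := SL(2, ℤ) ⧸ Gamma0 N) a ModularGroup.S
  have h2 := two_mul_card_orbits_S N
  exact (congrArg (2 * ·) h).trans h2

/-- conjugated version of `three_mul_card_orbits_ST` (stabiliser of `a • ρ`). -/
theorem three_mul_card_orbits_conj_ST (N : ℕ) [NeZero N] (a : SL(2, ℤ)) :
    3 * Nat.card (orbitRel.Quotient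
      (Subgroup.zpowers (a * (ModularGroup.S * ModularGroup.T) * a⁻¹))
      (SL(2, ℤ) ⧸ Gamma0 N)) = dedekindPsi N + 2 * nuThree N := by
  have h := card_orbits_zpowers_conj (X := SL(2, ℤ) ⧸ Gamma0 N) a
    (ModularGroup.S * ModularGroup.T)
  have h3 := three_mul_card_orbits_ST N
  exact (congrArg (3 * ·) h).trans h3

/-- conjugated version of `card_orbits_T` (stabiliser of the cusp `a • ∞`). -/
theorem card_orbits_conj_T (N : ℕ) [NeZero N] (a : SL(2, ℤ)) :
    Nat.card (orbitRel.Quotient (Subgroup.zpowers (a * ModularGroup.T * a⁻¹))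
      (SL(2, ℤ) ⧸ Gamma0 N)) = cuspCount N := by
  have h := card_orbits_zpowers_conj (X := SL(2, ℤ) ⧸ Gamma0 N) a ModularGroup.T
  exact h.trans (card_orbits_T N)

/-- Orbits of `⟨S⟩` have `1` or `2` elements. -/
theorem card_orbit_S (N : ℕ) (x : SL(2, ℤ) ⧸ Gamma0 N) [Decidable (ModularGroup.S • x = x)] :
    Nat.card (orbit (Subgroup.zpowers ModularGroup.S) x) =
      if ModularGroup.S • x = x then 1 else 2 :=
  card_orbit_zpowers ModularGroup.S Nat.prime_two
    (fun x => by rw [S_pow_two]; exact neg_one_smul_coset N x) x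

/-- Orbits of `⟨ST⟩` have `1` or `3` elements. -/
theorem card_orbit_ST (N : ℕ) (x : SL(2, ℤ) ⧸ Gamma0 N)
    [Decidable ((ModularGroup.S * ModularGroup.T) • x = x)] :
    Nat.card (orbit (Subgroup.zpowers (ModularGroup.S * ModularGroup.T)) x) =
      if (ModularGroup.S * ModularGroup.T) • x = x then 1 else 3 :=
  card_orbit_zpowers (ModularGroup.S * ModularGroup.T) Nat.prime_three
    (fun x => by rw [ST_pow_three]; exact neg_one_smul_coset N x) x

/-- **Riemann–Hurwitz numerology.** With `n = ψ(N)` sheets, `O₂`, `O₃` the numbers of orbits of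
`⟨S⟩`, `⟨ST⟩` and `c = cuspCount N` the number of cusps,
`(n - O₂) + (n - O₃) - n - c = 2 * genusFormula N - 2`. -/
theorem rh_numerics (N : ℕ) [NeZero N] :
    ((dedekindPsi N : ℚ) - Nat.card (orbitRel.Quotient (Subgroup.zpowers ModularGroup.S)
        (SL(2, ℤ) ⧸ Gamma0 N))) +
      ((dedekindPsi N : ℚ) - Nat.card (orbitRel.Quotient
        (Subgroup.zpowers (ModularGroup.S * ModularGroup.T)) (SL(2, ℤ) ⧸ Gamma0 N))) -
      (dedekindPsi N : ℚ) - (cuspCount N : ℚ) = 2 * genusFormula N - 2 := by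
  have h2 : (2 : ℚ) * Nat.card (orbitRel.Quotient (Subgroup.zpowers ModularGroup.S)
      (SL(2, ℤ) ⧸ Gamma0 N)) = dedekindPsi N + nuTwo N := by
    exact_mod_cast two_mul_card_orbits_S N
  have h3 : (3 : ℚ) * Nat.card (orbitRel.Quotient
      (Subgroup.zpowers (ModularGroup.S * ModularGroup.T)) (SL(2, ℤ) ⧸ Gamma0 N)) =
      dedekindPsi N + 2 * nuThree N := by
    exact_mod_cast three_mul_card_orbits_ST N
  unfold genusFormula
  linear_combination (-1 / 2 : ℚ) * h2 - (1 / 3 : ℚ) * h3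

end Fermat.Agent.S24
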