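import Fermat.Agent.S24.Interfaces

/-!
# S24, modular half (MOD): shared definitions (sorry-free)

Uses `Kbar`, `FF N`, `jBar N`, `cst N c` from `Interfaces.lean`.

* `jdBar N d hd : FF N` : the element `j(q^d)` of the function field, `d ∣ N`.
* `embC : Kbar →+* ℂ` : a fixed embedding `Q̄ → ℂ`.
* `EmbFamily` : a finite family of embeddings `F → ℂ((s))` indexed by a `G`-set `X`
  (for us `X = SL(2,ℤ) ⧸ Γ₀(N)`), all agreeing on `t`, with the equivariance / divisibility
  properties that force `{places over t = 0} ↔ {orbits of g on X}`.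
-/

set_option autoImplicit false

open ModularCurve AlgebraicCurve

noncomputable section

namespace Fermat.Agent.S24

/-- `j(q^d)` as an element of the function field (`d ∣ N`, `d ≠ 0`). -/
def jdBar (N d : ℕ) [NeZero d] (hd : d ∣ N) : FF N :=
  ⟨coeffEmb Kbar (qExpand ℚ d jq), coeffEmb_mem_laurentBaseChange Kbar (jqd_mem_full N hd)⟩

@[simp] theorem coe_jdBar (N d : ℕ) [NeZero d] (hd : d ∣ N) :
    ((jdBar N d hd : FF N) : LaurentSeries Kbar) = coeffEmb Kbar (qExpand ℚ d jq) := rfl

/-- A fixed embedding `Q̄ → ℂ`. -/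
def embC : Kbar →+* ℂ :=
  haveI : Algebra.IsAlgebraic ℚ (AlgebraicClosure ℚ) := AlgebraicClosure.isAlgebraic ℚ
  ((IsAlgClosed.lift : AlgebraicClosure ℚ →ₐ[ℚ] ℂ) : AlgebraicClosure ℚ →+* ℂ)

/-- A finite family of embeddings `ι x : F → ℂ((s))`, `x ∈ X`, where `X` is a `G`-set and `g : G`:
* all `ι x` restrict to the same map on constants and send `t` to the same series, of order `h`;
* the `ι x` are pairwise distinct;
* `ι (g • x)` and `ι x` induce the same valuation on `F`;
* if `g ^ k` fixes `x` then `h ∣ k * ord (ι x f)` for all `f ≠ 0`. -/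
structure EmbFamily (K F : Type*) [Field K] [Field F] [Algebra K F] (t : F)
    {G : Type*} [Group G] (X : Type*) [MulAction G X] (g : G) (h : ℕ) where
  /-- the embedding of the constants -/
  θ : K →+* ℂ
  /-- the embeddings -/
  ι : X → (F →+* LaurentSeries ℂ)
  map_const : ∀ x a, ι x (algebraMap K F a) = HahnSeries.C (θ a)
  map_t : ∀ x y, ι x t = ι y t
  order_t : ∀ x, (ι x t).order = h
  inj : Function.Injective ι
  order_smul : ∀ x f, (ι (g • x) f).order = (ι x f).order
  dvd : ∀ x (k : ℕ), 0 < k → g ^ k • x = x → ∀ f : F, f ≠ 0 → (h : ℤ) ∣ k * (ι x f).order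

end Fermat.Agent.S24
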