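import Fermat.Agent.S28.TExp
import Fermat.Agent.S24.MDefs

/-!
# S24 (MOD half): a generic construction of embeddings `F → ℂ((s))` from local expansions

`F = K(S₀) ⊆ K((q))` is a field generated over `K` by formal series `x ∈ S₀`, each of which is
the `q`-expansion (through `θ : K → ℂ`) of a function `G_x : ℍ → ℂ`.  Given an "expansion system"
`Exp` (a single-valued, faithful relation between functions on `ℍ` and Laurent series which is
closed under the ring operations, e.g. "expansion of `g ∘ γ` at the cusp `∞`" or "Taylor expansion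
at `τ₀`") in which every `G_x` has an expansion, we construct a ring homomorphism
`E : F → ℂ((s))` with `Exp G_b (E b)` for every `b ∈ K[S₀]`.
-/

set_option autoImplicit false

open ModularCurve UpperHalfPlane Complex HahnSeries
open Fermat.Agent.S28

noncomputable section

namespace Fermat.Agent.S24

/-- An expansion system: a relation between functions on `ℍ` and Laurent series, closed under the
ring operations, single-valued and faithful. -/
structure h46_ExpSys (Exp : (ℍ → ℂ) → LaurentSeries ℂ → Prop) : Prop where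
  const : ∀ c : ℂ, Exp (fun _ => c) (HahnSeries.C c)
  add : ∀ {g₁ g₂ : ℍ → ℂ} {s₁ s₂ : LaurentSeries ℂ}, Exp g₁ s₁ → Exp g₂ s₂ →
    Exp (g₁ + g₂) (s₁ + s₂)
  mul : ∀ {g₁ g₂ : ℍ → ℂ} {s₁ s₂ : LaurentSeries ℂ}, Exp g₁ s₁ → Exp g₂ s₂ →
    Exp (g₁ * g₂) (s₁ * s₂)
  unique : ∀ {g : ℍ → ℂ} {s₁ s₂ : LaurentSeries ℂ}, Exp g s₁ → Exp g s₂ → s₁ = s₂
  faithful : ∀ {g : ℍ → ℂ}, Exp g 0 → g = 0

/-- the function with a given `q`-expansion is unique. -/
theorem h46_fun_unique {N : ℕ} {G G' : ℍ → ℂ} {s : LaurentSeries ℂ}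
    (h : HasTExp N G s) (h' : HasTExp N G' s) : G = G' := by
  funext τ
  exact (hasTExp_iff.mp h τ).unique (hasTExp_iff.mp h' τ)

theorem h46_coeffMap_injective {K : Type*} [Field K] (θ : K →+* ℂ) :
    Function.Injective (coeffMap θ) := by
  intro x y hxy
  ext n
  have := congrArg (fun s => s.coeff n) hxy
  simp only [coeffMap_coeff] at this
  exact θ.injective this

section Generic

variable {K : Type*} [Field K] (θ : K →+* ℂ) (S₀ : Set (LaurentSeries K))
  (Exp : (ℍ → ℂ) → LaurentSeries ℂ → Prop)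

/-- `b` is the `q`-expansion of a function which has an expansion in the system `Exp`. -/
def h46_Good (b : LaurentSeries K) : Prop :=
  ∃ (G : ℍ → ℂ) (s : LaurentSeries ℂ), HasTExp 1 G (coeffMap θ b) ∧ Exp G s

variable {θ S₀ Exp}

theorem h46_good_algebraMap (hExp : h46_ExpSys Exp) (a : K) :
    h46_Good θ Exp (algebraMap K (LaurentSeries K) a) := by
  refine ⟨fun _ => θ a, HahnSeries.C (θ a), ?_, hExp.const _⟩
  rw [algebraMap_laurentSeries_eq_single, coeffMap_single]
  exact HasTExp.const 1 _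

theorem h46_good_add (hExp : h46_ExpSys Exp) {b₁ b₂ : LaurentSeries K}
    (h₁ : h46_Good θ Exp b₁) (h₂ : h46_Good θ Exp b₂) : h46_Good θ Exp (b₁ + b₂) := by
  obtain ⟨G₁, s₁, hG₁, hs₁⟩ := h₁
  obtain ⟨G₂, s₂, hG₂, hs₂⟩ := h₂
  refine ⟨G₁ + G₂, s₁ + s₂, ?_, hExp.add hs₁ hs₂⟩
  rw [map_add]
  exact hG₁.add hG₂

theorem h46_good_mul (hExp : h46_ExpSys Exp) {b₁ b₂ : LaurentSeries K}
    (h₁ : h46_Good θ Exp b₁) (h₂ : h46_Good θ Exp b₂) : h46_Good θ Exp (b₁ * b₂) := by
  obtain ⟨G₁, s₁, hG₁, hs₁⟩ := h₁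
  obtain ⟨G₂, s₂, hG₂, hs₂⟩ := h₂
  refine ⟨G₁ * G₂, s₁ * s₂, ?_, hExp.mul hs₁ hs₂⟩
  rw [map_mul]
  exact hG₁.mul one_pos hG₂

theorem h46_good_of_mem_adjoin (hExp : h46_ExpSys Exp)
    (hgen : ∀ x ∈ S₀, h46_Good θ Exp x) {b : LaurentSeries K}
    (hb : b ∈ Algebra.adjoin K S₀) : h46_Good θ Exp b := by
  induction hb using Algebra.adjoin_induction with
  | mem x hx => exact hgen x hx
  | algebraMap r => exact h46_good_algebraMap hExp r
  | add x y _ _ hx hy => exact h46_good_add hExp hx hy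
  | mul x y _ _ hx hy => exact h46_good_mul hExp hx hy

/-- the expansion attached to a good series. -/
def h46_expOf (b : LaurentSeries K) (hb : h46_Good θ Exp b) : LaurentSeries ℂ :=
  hb.choose_spec.choose

theorem h46_expOf_eq (hExp : h46_ExpSys Exp) {b : LaurentSeries K} (hb : h46_Good θ Exp b)
    {G : ℍ → ℂ} {s : LaurentSeries ℂ} (hG : HasTExp 1 G (coeffMap θ b)) (hs : Exp G s) :
    h46_expOf b hb = s := by
  have h1 := hb.choose_spec.choose_spec
  have hGG : G = hb.choose := h46_fun_unique hG h1.1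
  subst hGG
  exact hExp.unique h1.2 hs

theorem h46_expOf_spec {b : LaurentSeries K} (hb : h46_Good θ Exp b) :
    ∃ G : ℍ → ℂ, HasTExp 1 G (coeffMap θ b) ∧ Exp G (h46_expOf b hb) :=
  ⟨hb.choose, hb.choose_spec.choose_spec⟩

/-- the ring homomorphism on the subalgebra `K[S₀]`. -/
def h46_embAdjoin (hExp : h46_ExpSys Exp) (hgen : ∀ x ∈ S₀, h46_Good θ Exp x) :
    Algebra.adjoin K S₀ →+* LaurentSeries ℂ where
  toFun b := h46_expOf (b : LaurentSeries K) (h46_good_of_mem_adjoin hExp hgen b.2)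
  map_one' := by
    refine h46_expOf_eq hExp _ (G := fun _ => 1) ?_ ?_
    · simpa using HasTExp.one 1
    · simpa using hExp.const 1
  map_zero' := by
    refine h46_expOf_eq hExp _ (G := fun _ => 0) ?_ ?_
    · simpa using HasTExp.zero 1
    · simpa using hExp.const 0
  map_add' x y := by
    obtain ⟨G₁, hG₁, hs₁⟩ := h46_expOf_spec (h46_good_of_mem_adjoin hExp hgen x.2)
    obtain ⟨G₂, hG₂, hs₂⟩ := h46_expOf_spec (h46_good_of_mem_adjoin hExp hgen y.2)
    refine h46_expOf_eq hExp _ (G := G₁ + G₂) ?_ (hExp.add hs₁ hs₂)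
    simp only [Subalgebra.coe_add, map_add]
    exact hG₁.add hG₂
  map_mul' x y := by
    obtain ⟨G₁, hG₁, hs₁⟩ := h46_expOf_spec (h46_good_of_mem_adjoin hExp hgen x.2)
    obtain ⟨G₂, hG₂, hs₂⟩ := h46_expOf_spec (h46_good_of_mem_adjoin hExp hgen y.2)
    refine h46_expOf_eq hExp _ (G := G₁ * G₂) ?_ (hExp.mul hs₁ hs₂)
    simp only [Subalgebra.coe_mul, map_mul]
    exact hG₁.mul one_pos hG₂

theorem h46_embAdjoin_spec (hExp : h46_ExpSys Exp) (hgen : ∀ x ∈ S₀, h46_Good θ Exp x)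
    (b : Algebra.adjoin K S₀) :
    ∃ G : ℍ → ℂ, HasTExp 1 G (coeffMap θ (b : LaurentSeries K)) ∧
      Exp G (h46_embAdjoin hExp hgen b) :=
  h46_expOf_spec _

theorem h46_embAdjoin_eq (hExp : h46_ExpSys Exp) (hgen : ∀ x ∈ S₀, h46_Good θ Exp x)
    (b : Algebra.adjoin K S₀) {G : ℍ → ℂ} {s : LaurentSeries ℂ}
    (hG : HasTExp 1 G (coeffMap θ (b : LaurentSeries K))) (hs : Exp G s) :
    h46_embAdjoin hExp hgen b = s :=
  h46_expOf_eq hExp _ hG hs

theorem h46_embAdjoin_injective (hExp : h46_ExpSys Exp) (hgen : ∀ x ∈ S₀, h46_Good θ Exp x) :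
    Function.Injective (h46_embAdjoin hExp hgen) := by
  rw [injective_iff_map_eq_zero]
  intro b hb
  obtain ⟨G, hG, hs⟩ := h46_embAdjoin_spec hExp hgen b
  rw [hb] at hs
  have hG0 : G = 0 := hExp.faithful hs
  rw [hG0] at hG
  have h0 : coeffMap θ (b : LaurentSeries K) = 0 := HasTExp.eq_zero one_pos hG
  have : (b : LaurentSeries K) = 0 := h46_coeffMap_injective θ (by rw [h0, map_zero])
  exact Subtype.ext this

open scoped IntermediateField.algebraAdjoinAdjoin in
/-- the embedding of the field `K(S₀)`. -/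
def h46_emb (hExp : h46_ExpSys Exp) (hgen : ∀ x ∈ S₀, h46_Good θ Exp x) :
    IntermediateField.adjoin K S₀ →+* LaurentSeries ℂ :=
  IsFractionRing.lift (A := Algebra.adjoin K S₀) (K := IntermediateField.adjoin K S₀)
    (g := h46_embAdjoin hExp hgen) (h46_embAdjoin_injective hExp hgen)

open scoped IntermediateField.algebraAdjoinAdjoin in
theorem h46_emb_of_mem_adjoin (hExp : h46_ExpSys Exp) (hgen : ∀ x ∈ S₀, h46_Good θ Exp x)
    (b : IntermediateField.adjoin K S₀) (hb : (b : LaurentSeries K) ∈ Algebra.adjoin K S₀) :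
    h46_emb hExp hgen b = h46_embAdjoin hExp hgen ⟨b, hb⟩ := by
  have : b = algebraMap (Algebra.adjoin K S₀) (IntermediateField.adjoin K S₀) ⟨b, hb⟩ :=
    Subtype.ext rfl
  conv_lhs => rw [this]
  exact IsFractionRing.lift_algebraMap _ _

/-- polynomial elements: the function with `q`-expansion `b` has expansion `E b`. -/
theorem h46_emb_spec (hExp : h46_ExpSys Exp) (hgen : ∀ x ∈ S₀, h46_Good θ Exp x)
    (b : IntermediateField.adjoin K S₀) (hb : (b : LaurentSeries K) ∈ Algebra.adjoin K S₀) :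
    ∃ G : ℍ → ℂ, HasTExp 1 G (coeffMap θ (b : LaurentSeries K)) ∧ Exp G (h46_emb hExp hgen b) := by
  rw [h46_emb_of_mem_adjoin hExp hgen b hb]
  exact h46_embAdjoin_spec hExp hgen ⟨b, hb⟩

theorem h46_emb_eq (hExp : h46_ExpSys Exp) (hgen : ∀ x ∈ S₀, h46_Good θ Exp x)
    (b : IntermediateField.adjoin K S₀) (hb : (b : LaurentSeries K) ∈ Algebra.adjoin K S₀)
    {G : ℍ → ℂ} {s : LaurentSeries ℂ}
    (hG : HasTExp 1 G (coeffMap θ (b : LaurentSeries K))) (hs : Exp G s) :
    h46_emb hExp hgen b = s := by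
  rw [h46_emb_of_mem_adjoin hExp hgen b hb]
  exact h46_embAdjoin_eq hExp hgen ⟨b, hb⟩ hG hs

theorem h46_emb_algebraMap (hExp : h46_ExpSys Exp) (hgen : ∀ x ∈ S₀, h46_Good θ Exp x) (a : K) :
    h46_emb hExp hgen (algebraMap K (IntermediateField.adjoin K S₀) a) = HahnSeries.C (θ a) := by
  refine h46_emb_eq hExp hgen _ (Subalgebra.algebraMap_mem _ a) (G := fun _ => θ a) ?_
    (hExp.const _)
  have : ((algebraMap K (IntermediateField.adjoin K S₀) a : IntermediateField.adjoin K S₀) :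
      LaurentSeries K) = algebraMap K (LaurentSeries K) a := rfl
  rw [this, algebraMap_laurentSeries_eq_single, coeffMap_single]
  exact HasTExp.const 1 _

/-- two ring homomorphisms out of `K(S₀)` which agree on `K` and on `S₀` are equal. -/
theorem h46_ringHom_ext {L : Type*} [Field L] (E₁ E₂ : IntermediateField.adjoin K S₀ →+* L)
    (hK : ∀ a : K, E₁ (algebraMap K _ a) = E₂ (algebraMap K _ a))
    (hS : ∀ (x : LaurentSeries K) (hx : x ∈ S₀),
      E₁ ⟨x, IntermediateField.subset_adjoin K S₀ hx⟩ =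
        E₂ ⟨x, IntermediateField.subset_adjoin K S₀ hx⟩) : E₁ = E₂ := by
  ext ⟨b, hb⟩
  induction hb using IntermediateField.adjoin_induction with
  | mem x hx => exact hS x hx
  | algebraMap a => exact hK a
  | add x y hx hy ihx ihy =>
    have : (⟨x + y, add_mem hx hy⟩ : IntermediateField.adjoin K S₀) = ⟨x, hx⟩ + ⟨y, hy⟩ := rfl
    rw [this, map_add, map_add, ihx, ihy]
  | inv x hx ihx =>
    have : (⟨x⁻¹, inv_mem hx⟩ : IntermediateField.adjoin K S₀) = (⟨x, hx⟩)⁻¹ := rfl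
    rw [this, map_inv₀, map_inv₀, ihx]
  | mul x y hx hy ihx ihy =>
    have : (⟨x * y, mul_mem hx hy⟩ : IntermediateField.adjoin K S₀) = ⟨x, hx⟩ * ⟨y, hy⟩ := rfl
    rw [this, map_mul, map_mul, ihx, ihy]

end Generic

end Fermat.Agent.S24
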