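import Fermat.Agent.S24.ADefs
import Fermat.Agent.S24.H46Emb
import Fermat.Agent.S28.CuspJ

/-!
# S24 MOD, task AN3: the cusp embedding `exists_cuspEmb`

For `g : SL(2,ℤ)` we construct a ring homomorphism `E : F → ℂ((𝕋))`, `𝕋 = exp (2πiτ/N)`, which
sends `f = P/Q` (in the sense of `IsAn`) to the quotient of the `𝕋`-expansions of `P ∘ g⁻¹` and
`Q ∘ g⁻¹`.  The construction is the generic one of `H46Emb.lean`, applied to the expansion system
"`𝕋`-expansion of the translate by `g⁻¹`" and the generators `j(q^d)`, `d ∣ N`.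
-/

set_option autoImplicit false

open ModularCurve AlgebraicCurve CongruenceSubgroup IntermediateField UpperHalfPlane
open scoped MatrixGroups Manifold

noncomputable section

namespace Fermat.Agent.S24

open Fermat.Agent.S28 (HasTExp jAn jAt cEmb scaleH)

/-- the expansion system "`𝕋`-expansion of the translate by `g⁻¹`". -/
def h19_cuspExp (N : ℕ) (g : SL(2, ℤ)) (G : ℍ → ℂ) (s : LaurentSeries ℂ) : Prop :=
  HasTExp N (fun τ => G (g⁻¹ • τ)) s

theorem h19_cuspExp_expSys (N : ℕ) [NeZero N] (g : SL(2, ℤ)) :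
    h46_ExpSys (h19_cuspExp N g) where
  const c := HasTExp.const N c
  add h₁ h₂ := (HasTExp.add h₁ h₂).congr fun _ => rfl
  mul h₁ h₂ := (HasTExp.mul (NeZero.pos N) h₁ h₂).congr fun _ => rfl
  unique h₁ h₂ := HasTExp.unique (NeZero.pos N) h₁ h₂
  faithful := by
    intro G h
    have h0 : (fun τ => G (g⁻¹ • τ)) = fun _ => 0 := h46_fun_unique h (HasTExp.zero N)
    funext τ
    have := congrFun h0 (g • τ)
    simpa using this

/-- `coeffMap embC ∘ coeffEmb = cEmb`. -/
theorem h19_coeffMap_embC_coeffEmb (x : LaurentSeries ℚ) :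
    coeffMap embC (coeffEmb Kbar x) = cEmb x := by
  rw [coeffEmb, coeffMap_coeffMap, cEmb]
  exact coeffMap_congr (RingHom.ext fun c => by simp) x

/-- the `q`-expansion of `j(dτ)`. -/
theorem h19_hasTExp_jAt_coeffEmb (d : ℕ) [NeZero d] :
    HasTExp 1 (jAt d) (coeffMap embC (coeffEmb Kbar (qExpand ℚ d jq))) := by
  rw [h19_coeffMap_embC_coeffEmb]
  have h := HasTExp.scale Fermat.Agent.S28.Cusp.hasTExp_jAn' d
  have e : cEmb (qExpand ℚ d jq) = qExpand ℂ d (cEmb jq) := coeffMap_qExpand _ d jq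
  rw [e]
  exact h

/-- the generators are good. -/
theorem h19_good_gen (N : ℕ) [NeZero N] (g : SL(2, ℤ)) :
    ∀ x ∈ (⇑(coeffEmb Kbar) '' divisorExpansions N),
      h46_Good embC (h19_cuspExp N g) x := by
  rintro _ ⟨x, ⟨d, hd0, hd, rfl⟩, rfl⟩
  have := hd0
  obtain ⟨s, hs, -, -⟩ := Fermat.Agent.S28.hasTExp_jAt_translate N d (NeZero.pos N) hd g⁻¹
  exact ⟨jAt d, s, h19_hasTExp_jAt_coeffEmb d, hs⟩

/-- the function field is generated over `ℚ̄` by the `j(q^d)`. -/
theorem h19_adjoin_coeffEmb_eq (N : ℕ) :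
    modularFunctionFieldBar N =
      IntermediateField.adjoin Kbar (⇑(coeffEmb Kbar) '' divisorExpansions N) := by
  apply le_antisymm
  · rw [modularFunctionFieldBar, laurentBaseChange, IntermediateField.adjoin_le_iff]
    rintro _ ⟨x, hx, rfl⟩
    rw [SetLike.mem_coe, modularFunctionFieldFull] at hx
    induction hx using IntermediateField.adjoin_induction with
    | mem x hx => exact IntermediateField.subset_adjoin _ _ ⟨x, hx, rfl⟩
    | algebraMap a =>
      have : coeffEmb Kbar (algebraMap ℚ (LaurentSeries ℚ) a)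
          = algebraMap Kbar (LaurentSeries Kbar) (algebraMap ℚ Kbar a) := by
        rw [algebraMap_laurentSeries_eq_single, algebraMap_laurentSeries_eq_single, coeffEmb,
          coeffMap_single]
      rw [this]
      exact IntermediateField.algebraMap_mem _ _
    | add x y _ _ hx hy => rw [map_add]; exact add_mem hx hy
    | inv x _ hx => rw [map_inv₀]; exact inv_mem hx
    | mul x y _ _ hx hy => rw [map_mul]; exact mul_mem hx hy
  · apply IntermediateField.adjoin.mono
    apply Set.image_mono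
    exact IntermediateField.subset_adjoin ℚ _

section Generic

variable {K : Type*} [Field K] {θ : K →+* ℂ} {S₀ : Set (LaurentSeries K)}
  {Exp : (ℍ → ℂ) → LaurentSeries ℂ → Prop}

open scoped IntermediateField.algebraAdjoinAdjoin in
/-- every element of `K(S₀)` is a quotient of two elements of `K[S₀]`. -/
theorem h19_exists_frac (f : IntermediateField.adjoin K S₀) :
    ∃ b₁ b₂ : IntermediateField.adjoin K S₀,
      (b₁ : LaurentSeries K) ∈ Algebra.adjoin K S₀ ∧ (b₂ : LaurentSeries K) ∈ Algebra.adjoin K S₀ ∧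
        b₂ ≠ 0 ∧ f * b₂ = b₁ := by
  obtain ⟨x, y, hy, rfl⟩ := IsFractionRing.div_surjective (A := Algebra.adjoin K S₀) f
  have hy0 : algebraMap (Algebra.adjoin K S₀) (IntermediateField.adjoin K S₀) y ≠ 0 :=
    IsFractionRing.to_map_ne_zero_of_mem_nonZeroDivisors hy
  refine ⟨algebraMap _ _ x, algebraMap _ _ y, x.2, y.2, hy0, ?_⟩
  exact div_mul_cancel₀ _ hy0

/-- **Bridge**: if `f ∈ K(S₀)` is represented (at `∞`, level one) by the quotient `P / Q`, and
`P`, `Q` have expansions `p`, `q` in the system `Exp`, then `E f * q = p`. -/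
theorem h19_emb_mul_eq_of_rel (hExp : h46_ExpSys Exp) (hgen : ∀ x ∈ S₀, h46_Good θ Exp x)
    (f : IntermediateField.adjoin K S₀) {P Q : ℍ → ℂ} {p₁ q₁ p q : LaurentSeries ℂ}
    (hP : HasTExp 1 P p₁) (hQ : HasTExp 1 Q q₁)
    (hrel : coeffMap θ (f : LaurentSeries K) * q₁ = p₁)
    (hp : Exp P p) (hq : Exp Q q) :
    h46_emb hExp hgen f * q = p := by
  obtain ⟨b₁, b₂, hb₁, hb₂, hb₂0, hfb⟩ := h19_exists_frac f
  obtain ⟨G₁, hG₁, hE₁⟩ := h46_emb_spec hExp hgen b₁ hb₁
  obtain ⟨G₂, hG₂, hE₂⟩ := h46_emb_spec hExp hgen b₂ hb₂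
  have hfb' : coeffMap θ (f : LaurentSeries K) * coeffMap θ (b₂ : LaurentSeries K)
      = coeffMap θ (b₁ : LaurentSeries K) := by
    rw [← map_mul, ← hfb]
    rfl
  have hser : p₁ * coeffMap θ (b₂ : LaurentSeries K) = q₁ * coeffMap θ (b₁ : LaurentSeries K) := by
    rw [← hrel, ← hfb']
    ring
  have hfun : P * G₂ = Q * G₁ := by
    have h1 := hP.mul one_pos hG₂
    have h2 := hQ.mul one_pos hG₁
    rw [hser] at h1
    exact h46_fun_unique h1 h2
  have hE : p * h46_emb hExp hgen b₂ = q * h46_emb hExp hgen b₁ := by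
    have h1 := hExp.mul hp hE₂
    have h2 := hExp.mul hq hE₁
    rw [hfun] at h1
    exact hExp.unique h1 h2
  have hne : h46_emb hExp hgen b₂ ≠ 0 := (map_ne_zero _).mpr hb₂0
  have hmul : h46_emb hExp hgen f * h46_emb hExp hgen b₂ = h46_emb hExp hgen b₁ := by
    rw [← map_mul, hfb]
  apply mul_right_cancel₀ hne
  calc h46_emb hExp hgen f * q * h46_emb hExp hgen b₂
      = q * (h46_emb hExp hgen f * h46_emb hExp hgen b₂) := by ring
    _ = q * h46_emb hExp hgen b₁ := by rw [hmul]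
    _ = p * h46_emb hExp hgen b₂ := hE.symm

end Generic

/-- the cusp embedding on `ℚ̄(j(q^d) : d ∣ N)`. -/
def h19_cuspEmb0 (N : ℕ) [NeZero N] (g : SL(2, ℤ)) :
    IntermediateField.adjoin Kbar (⇑(coeffEmb Kbar) '' divisorExpansions N) →+*
      LaurentSeries ℂ :=
  h46_emb (h19_cuspExp_expSys N g) (h19_good_gen N g)

/-- the cusp embedding of the function field. -/
def h19_cuspEmb (N : ℕ) [NeZero N] (g : SL(2, ℤ)) : FF N →+* LaurentSeries ℂ :=
  (h19_cuspEmb0 N g).comp
    (IntermediateField.inclusion (h19_adjoin_coeffEmb_eq N).le).toRingHom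

theorem h19_cuspEmb_cst (N : ℕ) [NeZero N] (g : SL(2, ℤ)) (a : Kbar) :
    h19_cuspEmb N g (cst N a) = HahnSeries.C (embC a) := by
  have h := h46_emb_algebraMap (h19_cuspExp_expSys N g) (h19_good_gen N g) a
  rw [← h]
  rfl

theorem h19_cuspEmb_mul_eq (N : ℕ) [NeZero N] (g : SL(2, ℤ)) (f : FF N) (P Q : ℍ → ℂ)
    (p q : LaurentSeries ℂ) (hf : IsAn N f P Q)
    (hp : HasTExp N (fun τ => P (g⁻¹ • τ)) p) (hq : HasTExp N (fun τ => Q (g⁻¹ • τ)) q) :
    h19_cuspEmb N g f * q = p := by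
  obtain ⟨p₁, q₁, hP, hQ, hrel⟩ := hf.rel
  exact h19_emb_mul_eq_of_rel (h19_cuspExp_expSys N g) (h19_good_gen N g)
    (IntermediateField.inclusion (h19_adjoin_coeffEmb_eq N).le f) hP hQ hrel hp hq

/-- **AN3**: cusp embedding (expansion in `𝕋 = exp (2πiτ/N)`) of the translate by `g⁻¹`. -/
theorem exists_cuspEmb (N : ℕ) [NeZero N] (g : SL(2, ℤ)) :
    ∃ E : FF N →+* LaurentSeries ℂ,
      (∀ a : Kbar, E (cst N a) = HahnSeries.C (embC a)) ∧
      ∀ (f : FF N) (P Q : ℍ → ℂ) (p q : LaurentSeries ℂ), IsAn N f P Q →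
        HasTExp N (fun τ => P (g⁻¹ • τ)) p → HasTExp N (fun τ => Q (g⁻¹ • τ)) q →
        E f * q = p :=
  ⟨h19_cuspEmb N g, h19_cuspEmb_cst N g, h19_cuspEmb_mul_eq N g⟩

end Fermat.Agent.S24
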