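import Fermat.Agent.S24.GermEmb
import Fermat.Agent.S24.M6Tay
import Fermat.Agent.S24.AnRep

/-!
# S24, modular half: the local Taylor calculus (`TayAxioms`) and the unconditional germ embedding

* `h25_tay_eq_zero_iff`, `h25_tay_mul`, `h25_tay_add`, `h25_tay_const` : the four facts about the
  formal Taylor series `tayAt τ₀ H` of a holomorphic function on `ℍ` used by `GermEmb.lean`;
* `h25_tayAxioms : TayAxioms`;
* `h25_exists_germEmb` : **AN2** (`exists_germEmb` of M-SKEL), unconditional.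
-/

set_option autoImplicit false

open ModularCurve AlgebraicCurve UpperHalfPlane CongruenceSubgroup
open scoped MatrixGroups Manifold

noncomputable section

namespace Fermat.Agent.S24

theorem h25_tay_const (c : ℂ) (τ₀ : ℍ) : tayAt τ₀ (fun _ => c) = PowerSeries.C c := by
  ext n
  have hcomp : (fun _ : ℍ => c) ∘ UpperHalfPlane.ofComplex = fun _ : ℂ => c := rfl
  rw [tayAt, PowerSeries.coeff_mk, hcomp, iteratedDeriv_const, PowerSeries.coeff_C]
  by_cases hn : n = 0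
  · subst hn
    simp
  · simp [hn]

theorem h25_tay_add {H₁ H₂ : ℍ → ℂ} (h1 : MDiff H₁) (h2 : MDiff H₂) (τ₀ : ℍ) :
    tayAt τ₀ (H₁ + H₂) = tayAt τ₀ H₁ + tayAt τ₀ H₂ := by
  have a1 := M6.analyticAt_comp_ofComplex h1 τ₀
  have a2 := M6.analyticAt_comp_ofComplex h2 τ₀
  have hcomp : (H₁ + H₂) ∘ UpperHalfPlane.ofComplex
      = (H₁ ∘ UpperHalfPlane.ofComplex) + (H₂ ∘ UpperHalfPlane.ofComplex) := rfl
  ext n
  rw [map_add]
  simp only [tayAt, PowerSeries.coeff_mk, hcomp]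
  rw [iteratedDeriv_add a1.contDiffAt a2.contDiffAt, mul_add]

theorem h25_tay_mul {H₁ H₂ : ℍ → ℂ} (h1 : MDiff H₁) (h2 : MDiff H₂) (τ₀ : ℍ) :
    tayAt τ₀ (H₁ * H₂) = tayAt τ₀ H₁ * tayAt τ₀ H₂ := by
  have a1 := M6.analyticAt_comp_ofComplex h1 τ₀
  have a2 := M6.analyticAt_comp_ofComplex h2 τ₀
  have hcomp : (H₁ * H₂) ∘ UpperHalfPlane.ofComplex
      = (H₁ ∘ UpperHalfPlane.ofComplex) * (H₂ ∘ UpperHalfPlane.ofComplex) := rfl
  ext n
  simp only [tayAt, PowerSeries.coeff_mk, hcomp,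
    iteratedDeriv_mul a1.contDiffAt a2.contDiffAt, Finset.mul_sum, PowerSeries.coeff_mul,
    Finset.Nat.sum_antidiagonal_eq_sum_range_succ_mk, Nat.succ_eq_add_one]
  refine Finset.sum_congr rfl fun i hi => ?_
  rw [Nat.cast_choose _ (by grind)]
  field_simp [Nat.factorial_ne_zero]

theorem h25_tay_eq_zero_iff {H : ℍ → ℂ} (hH : MDiff H) (τ₀ : ℍ) :
    tayAt τ₀ H = 0 ↔ H = 0 := by
  constructor
  · intro h
    by_contra h0
    have h1 := M6.analyticOrderAt_ne_top_of_ne_zero hH h0 τ₀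
    rw [← M6.order_tayAt_eq_analyticOrderAt hH τ₀, h] at h1
    exact h1 PowerSeries.order_zero
  · rintro rfl
    have h := h25_tay_const 0 τ₀
    have h0 : (0 : ℍ → ℂ) = fun _ => (0 : ℂ) := rfl
    rw [h0, h, map_zero]

theorem h25_tayAxioms : TayAxioms where
  eq_zero_iff := fun hH τ₀ => h25_tay_eq_zero_iff hH τ₀
  mul := fun h1 h2 τ₀ => h25_tay_mul h1 h2 τ₀
  add := fun h1 h2 τ₀ => h25_tay_add h1 h2 τ₀
  const := h25_tay_const

/-- **AN2** (`exists_germEmb` of M-SKEL), unconditional. -/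
theorem h25_exists_germEmb (N : ℕ) [NeZero N] (τ₀ : ℍ) (g : SL(2, ℤ)) :
    ∃ E : FF N →+* LaurentSeries ℂ,
      (∀ a : Kbar, E (cst N a) = HahnSeries.C (embC a)) ∧
      ∀ (f : FF N) (P Q : ℍ → ℂ), IsAn N f P Q →
        E f * HahnSeries.ofPowerSeries ℤ ℂ (tayAt τ₀ (fun τ => Q (g⁻¹ • τ)))
          = HahnSeries.ofPowerSeries ℤ ℂ (tayAt τ₀ (fun τ => P (g⁻¹ • τ))) :=
  exists_germEmb_of h25_tayAxioms (exists_isAn N) τ₀ g

end Fermat.Agent.S24
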