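import Fermat.Agent.S24.EmbPointCore
import Fermat.Agent.S24.TayAx

/-!
# S24, task AN7p: the three point families of embeddings

`exists_embFamily_generic`, `exists_embFamily_I`, `exists_embFamily_rho` with the exact
signatures of the S24 skeleton: the families of germ embeddings at a point over `j = c`
(`c ≠ 0, 1728`), at `i` (`j = 1728`) and at `ρ` (`j = 0`).
-/

set_option autoImplicit false

open ModularCurve AlgebraicCurve UpperHalfPlane CongruenceSubgroup IntermediateField
open scoped MatrixGroups Manifold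

noncomputable section

namespace Fermat.Agent.S24

theorem exists_embFamily_generic (N : ℕ) [NeZero N] (c : Kbar) (h0 : c ≠ 0) (h1 : c ≠ 1728) :
    Nonempty (EmbFamily Kbar (FF N) (jBar N - cst N c)
      (SL(2, ℤ) ⧸ Gamma0 N) (1 : SL(2, ℤ)) 1) :=
  exists_embFamily_generic_of h25_tayAxioms N c h0 h1

theorem exists_embFamily_I (N : ℕ) [NeZero N] :
    Nonempty (EmbFamily Kbar (FF N) (jBar N - cst N 1728)
      (SL(2, ℤ) ⧸ Gamma0 N) ModularGroup.S 2) :=
  exists_embFamily_I_of h25_tayAxioms N

theorem exists_embFamily_rho (N : ℕ) [NeZero N] :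
    Nonempty (EmbFamily Kbar (FF N) (jBar N - cst N 0)
      (SL(2, ℤ) ⧸ Gamma0 N) (ModularGroup.S * ModularGroup.T) 3) :=
  exists_embFamily_rho_of h25_tayAxioms N

end Fermat.Agent.S24
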