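import Fermat.Agent.S24.ADefs
import Fermat.Agent.S24.OrbitCount
import Fermat.Agent.S24.PrincipalDiv
import Fermat.Agent.S24.DiffPlace

/-!
# S24 (P-GENUS), task M8: `IfaceFin N` and `IfaceFib N` from the MOD inputs

Inputs (as hypotheses, in the exact shape of the MOD skeleton):
* `htr`  : `Transcendental Kbar (jBar N)`                                   (ML)
* `hle`  : `FiniteDimensional … ∧ finrank ≤ (Gamma0 N).index`                (ML)
* `hFI`  : `FIStatement Kbar (FF N) (jBar N)`                                (FI, function-field half)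
* `hM1c` : the abstract orbit-counting theorem M1c, specialised to `X = SL(2,ℤ) ⧸ Γ₀(N)`
* the four embedding families of AN7.
-/

set_option autoImplicit false

open AlgebraicCurve ModularCurve IntermediateField CongruenceSubgroup MulAction
open scoped MatrixGroups

noncomputable section

namespace Fermat.Agent.S24

/-- The coset space `X = SL(2,ℤ) ⧸ Γ₀(N)`. -/
abbrev XN (N : ℕ) : Type := SL(2, ℤ) ⧸ Gamma0 N

/-- The statement of M1c specialised to `(Kbar, FF N)` and `X = SL(2,ℤ) ⧸ Γ₀(N)`. -/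
def M1cStatement (N : ℕ) : Prop :=
  ∀ (t : FF N) (n : ℕ),
    (∃ s : Finset (Place Kbar (FF N)), (∀ v, v ∈ s ↔ 0 < v.ord t) ∧
      ∑ v ∈ s, v.ord t = (n : ℤ)) →
    (∀ v : Place Kbar (FF N), v.deg = 1) →
    ∀ (_inst : Fintype (XN N)) (g : SL(2, ℤ)) (h : ℕ), 0 < h →
      EmbFamily Kbar (FF N) t (XN N) g h → n ≤ Fintype.card (XN N) →
      Nat.card {v : Place Kbar (FF N) // 0 < v.ord t}
          = Nat.card (orbitRel.Quotient (Subgroup.zpowers g) (XN N))
        ∧ n = Fintype.card (XN N)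

/-- orbits of the trivial cyclic group are points. -/
theorem m8_card_orbits_one {G X : Type*} [Group G] [MulAction G X] :
    Nat.card (orbitRel.Quotient (Subgroup.zpowers (1 : G)) X) = Nat.card X := by
  refine (Nat.card_congr (Equiv.ofBijective
    (fun x : X => (Quotient.mk'' x : orbitRel.Quotient (Subgroup.zpowers (1 : G)) X))
    ⟨?_, ?_⟩)).symm
  · intro x y hxy
    have h := Quotient.exact' hxy
    change x ∈ MulAction.orbit (Subgroup.zpowers (1 : G)) y at h
    obtain ⟨⟨g, hg⟩, hgx⟩ := h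
    obtain ⟨k, hk⟩ := Subgroup.mem_zpowers_iff.mp hg
    have hg1 : g = 1 := by rw [← hk, one_zpow]
    subst hg1
    have : (1 : G) • y = x := hgx
    rw [one_smul] at this
    exact this.symm
  · intro q
    obtain ⟨x, rfl⟩ := Quotient.exists_rep q
    exact ⟨x, rfl⟩

section

variable (N : ℕ) [NeZero N]

theorem m8_hFI_sub (hFI : FIStatement Kbar (FF N) (jBar N)) (c : Kbar) :
    ∃ s : Finset (Place Kbar (FF N)), (∀ v, v ∈ s ↔ 0 < v.ord (jBar N - cst N c)) ∧
      ∑ v ∈ s, v.ord (jBar N - cst N c) = ((Module.finrank Kbar⟮jBar N⟯ (FF N) : ℕ) : ℤ) :=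
  hFI.1 c

theorem m8_hFI_inv (hFI : FIStatement Kbar (FF N) (jBar N)) :
    ∃ s : Finset (Place Kbar (FF N)), (∀ v, v ∈ s ↔ 0 < v.ord (jBar N)⁻¹) ∧
      ∑ v ∈ s, v.ord (jBar N)⁻¹ = ((Module.finrank Kbar⟮jBar N⟯ (FF N) : ℕ) : ℤ) := by
  obtain ⟨s, hs, hsum⟩ := hFI.2
  refine ⟨s, fun v => ?_, ?_⟩
  · rw [hs v, Place.ord_inv]
    constructor <;> intro h <;> omega
  · rw [← hsum]
    exact Finset.sum_congr rfl (fun v _ => Place.ord_inv v _)

theorem m8_degOne (hfd : FiniteDimensional Kbar⟮jBar N⟯ (FF N)) :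
    ∀ v : Place Kbar (FF N), v.deg = 1 := fun v =>
  DiffPlace.place_deg_eq_one (jBar N) (Algebra.IsAlgebraic.of_finite _ _) v

theorem m8_card_X (inst : Fintype (XN N)) : Fintype.card (XN N) = dedekindPsi N := by
  rw [← Nat.card_eq_fintype_card]
  exact card_coset_Gamma0 N

theorem m8_le_card (inst : Fintype (XN N))
    (hle : Module.finrank Kbar⟮jBar N⟯ (FF N) ≤ (Gamma0 N).index) :
    Module.finrank Kbar⟮jBar N⟯ (FF N) ≤ Fintype.card (XN N) := by
  rw [← Nat.card_eq_fintype_card]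
  exact hle

/-- M8, first half. -/
theorem ifaceFin_of
    (htr : Transcendental Kbar (jBar N))
    (hle : FiniteDimensional Kbar⟮jBar N⟯ (FF N) ∧
      Module.finrank Kbar⟮jBar N⟯ (FF N) ≤ (Gamma0 N).index)
    (hFI : FIStatement Kbar (FF N) (jBar N))
    (hM1c : M1cStatement N)
    (hgen : ∀ c : Kbar, c ≠ 0 → c ≠ 1728 →
      Nonempty (EmbFamily Kbar (FF N) (jBar N - cst N c) (XN N) (1 : SL(2, ℤ)) 1)) :
    IfaceFin N := by
  haveI := finite_coset_Gamma0 N
  let inst : Fintype (XN N) := Fintype.ofFinite _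
  obtain ⟨E⟩ := hgen 1 one_ne_zero (by norm_num)
  have h := hM1c (jBar N - cst N 1) _ (m8_hFI_sub N hFI 1) (m8_degOne N hle.1) inst 1 1
    one_pos E (m8_le_card N inst hle.2)
  exact ⟨htr, hle.1, by rw [h.2, m8_card_X N inst]⟩

/-- M8, second half. -/
theorem ifaceFib_of
    (hle : FiniteDimensional Kbar⟮jBar N⟯ (FF N) ∧
      Module.finrank Kbar⟮jBar N⟯ (FF N) ≤ (Gamma0 N).index)
    (hFI : FIStatement Kbar (FF N) (jBar N))
    (hM1c : M1cStatement N)
    (hgen : ∀ c : Kbar, c ≠ 0 → c ≠ 1728 →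
      Nonempty (EmbFamily Kbar (FF N) (jBar N - cst N c) (XN N) (1 : SL(2, ℤ)) 1))
    (hI : Nonempty (EmbFamily Kbar (FF N) (jBar N - cst N 1728) (XN N) ModularGroup.S 2))
    (hrho : Nonempty (EmbFamily Kbar (FF N) (jBar N - cst N 0) (XN N)
      (ModularGroup.S * ModularGroup.T) 3))
    (hcusp : Nonempty (EmbFamily Kbar (FF N) (jBar N)⁻¹ (XN N) ModularGroup.T N)) :
    IfaceFib N := by
  haveI := finite_coset_Gamma0 N
  let inst : Fintype (XN N) := Fintype.ofFinite _
  have hdeg := m8_degOne N hle.1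
  have hn := m8_le_card N inst hle.2
  refine ⟨fun c hc0 hc1 => ?_, ?_, ?_, ?_⟩
  · obtain ⟨E⟩ := hgen c hc0 hc1
    have h := hM1c (jBar N - cst N c) _ (m8_hFI_sub N hFI c) hdeg inst 1 1 one_pos E hn
    change Nat.card {v : Place Kbar (FF N) // 0 < v.ord (jBar N - cst N c)} = _
    rw [h.1]
    exact (m8_card_orbits_one (G := SL(2, ℤ)) (X := XN N)).trans (card_coset_Gamma0 N)
  · obtain ⟨E⟩ := hI
    have h := hM1c (jBar N - cst N 1728) _ (m8_hFI_sub N hFI 1728) hdeg inst _ 2 two_pos E hn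
    change 2 * Nat.card {v : Place Kbar (FF N) // 0 < v.ord (jBar N - cst N 1728)} = _
    rw [h.1]
    exact two_mul_card_orbits_S N
  · obtain ⟨E⟩ := hrho
    have h := hM1c (jBar N - cst N 0) _ (m8_hFI_sub N hFI 0) hdeg inst _ 3 (by norm_num) E hn
    change 3 * Nat.card {v : Place Kbar (FF N) // 0 < v.ord (jBar N - cst N 0)} = _
    rw [h.1]
    exact three_mul_card_orbits_ST N
  · obtain ⟨E⟩ := hcusp
    have h := hM1c (jBar N)⁻¹ _ (m8_hFI_inv N hFI) hdeg inst _ N
      (Nat.pos_of_ne_zero (NeZero.ne N)) E hn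
    have hequiv : Nat.card (Poles N)
        = Nat.card {v : Place Kbar (FF N) // 0 < v.ord (jBar N)⁻¹} := by
      refine Nat.card_congr (Equiv.subtypeEquivRight (fun v => ?_))
      rw [Place.ord_inv]
      constructor <;> intro h <;> omega
    rw [hequiv, h.1]
    exact card_orbits_T N

end

end Fermat.Agent.S24
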