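import Mathlib

/-!
# S24, task M1a ("Lemma E"): the power-series core

Two ring homomorphisms `j j' : R → ℂ⟦X⟧` out of a ring `R` in which every element is
"constant + `π` * element" (a discrete valuation ring with residue field the constants), which
agree on constants, send `π` to series of the same positive order `m` with the same leading
coefficient, and agree on one element `u * π ^ e` (`e > 0`, `u` with nonzero constant term),
are equal.
-/

set_option autoImplicit false

namespace Fermat.Agent.S24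

open PowerSeries

/-- The basic induction: divisibility of `j f - j' f` by powers of `X`. -/
theorem h33_dvd_sub_of_dec {R : Type*} [CommRing R] (j j' : R →+* PowerSeries ℂ) (π : R)
    (m : ℕ) (hm : 0 < m) (hπ' : (X : PowerSeries ℂ) ^ m ∣ j' π)
    (hdec : ∀ f : R, ∃ (c : ℂ) (f₁ : R),
      j f = C c + j π * j f₁ ∧ j' f = C c + j' π * j' f₁)
    (k : ℕ) (hδ : (X : PowerSeries ℂ) ^ (m + k) ∣ j π - j' π) :
    ∀ n : ℕ, ∀ f : R, (X : PowerSeries ℂ) ^ (min (k + 1) n) ∣ j f - j' f := by
  intro n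
  induction n with
  | zero => intro f; simp
  | succ n ih =>
    intro f
    obtain ⟨c, f₁, h, h'⟩ := hdec f
    have hrw : j f - j' f = (j π - j' π) * j f₁ + j' π * (j f₁ - j' f₁) := by
      rw [h, h']; ring
    rw [hrw]
    refine dvd_add ?_ ?_
    · refine Dvd.dvd.mul_right (dvd_trans (pow_dvd_pow X ?_) hδ) _
      have := min_le_left (k + 1) (n + 1)
      omega
    · have h1 : (X : PowerSeries ℂ) ^ (m + min (k + 1) n) ∣ j' π * (j f₁ - j' f₁) := by
        rw [pow_add]
        exact mul_dvd_mul hπ' (ih f₁)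
      refine dvd_trans (pow_dvd_pow X ?_) h1
      omega

/-- If `j π = j' π` then `j = j'`. -/
theorem h33_eq_of_apply_eq {R : Type*} [CommRing R] (j j' : R →+* PowerSeries ℂ) (π : R)
    (m : ℕ) (hm : 0 < m) (hπ' : (X : PowerSeries ℂ) ^ m ∣ j' π)
    (hdec : ∀ f : R, ∃ (c : ℂ) (f₁ : R),
      j f = C c + j π * j f₁ ∧ j' f = C c + j' π * j' f₁)
    (h0 : j π = j' π) (f : R) : j f = j' f := by
  have key : ∀ n : ℕ, (X : PowerSeries ℂ) ^ n ∣ j f - j' f := by
    intro n
    have h := h33_dvd_sub_of_dec j j' π m hm hπ' hdec n (by rw [h0, sub_self]; exact dvd_zero _)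
      n f
    refine dvd_trans (pow_dvd_pow X ?_) h
    omega
  have hz : j f - j' f = 0 := by
    ext i
    have := (X_pow_dvd_iff.mp (key (i + 1))) i (Nat.lt_succ_self i)
    simpa using this
  exact sub_eq_zero.mp hz

/-- Tracking the leading coefficient of `j (u * π ^ i) - j' (u * π ^ i)`. -/
theorem h33_coeff_track {R : Type*} [CommRing R] (j j' : R →+* PowerSeries ℂ) (π u : R)
    (m k : ℕ) (p p' d : PowerSeries ℂ)
    (hπ : j π = X ^ m * p) (hπ' : j' π = X ^ m * p')
    (hb : constantCoeff p = constantCoeff p')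
    (hδ : j π - j' π = X ^ (m + k) * d)
    (hu : (X : PowerSeries ℂ) ^ (k + 1) ∣ j u - j' u) :
    ∀ i : ℕ, ∃ G : PowerSeries ℂ, j (u * π ^ i) - j' (u * π ^ i) = X ^ (k + i * m) * G ∧
      constantCoeff G * constantCoeff p =
        (i : ℂ) * constantCoeff (j' u) * (constantCoeff p) ^ i * constantCoeff d := by
  intro i
  induction i with
  | zero =>
    obtain ⟨g, hg⟩ := hu
    refine ⟨X * g, ?_, ?_⟩
    · rw [pow_zero, mul_one, hg]; ring
    · simp
  | succ i ih =>
    obtain ⟨G, hG, hGc⟩ := ih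
    refine ⟨G * p + j' u * p' ^ i * d, ?_, ?_⟩
    · have h1 : j (u * π ^ (i + 1)) - j' (u * π ^ (i + 1)) =
          (j (u * π ^ i) - j' (u * π ^ i)) * j π + j' (u * π ^ i) * (j π - j' π) := by
        rw [pow_succ, ← mul_assoc, map_mul j, map_mul j']
        ring
      rw [h1, hG, hδ, hπ, map_mul j', map_pow j', hπ']
      ring
    · simp only [map_add, map_mul, map_pow]
      rw [← hb]
      have : constantCoeff G * constantCoeff p * constantCoeff p =
          ((i : ℂ) * constantCoeff (j' u) * (constantCoeff p) ^ i * constantCoeff d) *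
            constantCoeff p := by rw [hGc]
      push_cast
      linear_combination this

/-- **Core of Lemma E.** -/
theorem h33_lemmaE_core {R : Type*} [CommRing R] (j j' : R →+* PowerSeries ℂ) (π u : R)
    (m e : ℕ) (hm : 0 < m) (he : 0 < e) (p p' : PowerSeries ℂ)
    (hπ : j π = X ^ m * p) (hπ' : j' π = X ^ m * p')
    (hb : constantCoeff p = constantCoeff p') (hb0 : constantCoeff p ≠ 0)
    (hdec : ∀ f : R, ∃ (c : ℂ) (f₁ : R),
      j f = C c + j π * j f₁ ∧ j' f = C c + j' π * j' f₁)
    (hu0 : constantCoeff (j' u) ≠ 0)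
    (ht : j (u * π ^ e) = j' (u * π ^ e)) (f : R) : j f = j' f := by
  have hπ'dvd : (X : PowerSeries ℂ) ^ m ∣ j' π := ⟨p', hπ'⟩
  by_cases h0 : j π = j' π
  · exact h33_eq_of_apply_eq j j' π m hm hπ'dvd hdec h0 f
  exfalso
  -- `p - p' ≠ 0` has zero constant coefficient
  have hpp : p - p' ≠ 0 := by
    intro h
    apply h0
    rw [hπ, hπ', sub_eq_zero.mp h]
  set φ := p - p' with hφ
  have hφ0 : constantCoeff φ = 0 := by
    rw [hφ, map_sub, hb, sub_self]
  have hφeq : X ^ φ.order.toNat * divXPowOrder φ = φ := X_pow_order_mul_divXPowOrder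
  have hd0 : constantCoeff (divXPowOrder φ) ≠ 0 := by
    rw [Ne, constantCoeff_divXPowOrder_eq_zero_iff]
    exact hpp
  -- the order is positive
  obtain ⟨k, hk⟩ : ∃ k : ℕ, φ.order.toNat = k + 1 := by
    refine Nat.exists_eq_succ_of_ne_zero ?_
    intro hz
    rw [hz, pow_zero, one_mul] at hφeq
    rw [hφeq] at hd0
    exact hd0 hφ0
  set d := divXPowOrder φ with hd
  have hδ : j π - j' π = X ^ (m + (k + 1)) * d := by
    rw [hπ, hπ', ← mul_sub, ← hφ, ← hφeq, hk, pow_add]
    ring
  have hu : (X : PowerSeries ℂ) ^ (k + 1 + 1) ∣ j u - j' u := by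
    have h := h33_dvd_sub_of_dec j j' π m hm hπ'dvd hdec (k + 1) ⟨d, hδ⟩ (k + 1 + 1) u
    simpa using h
  obtain ⟨G, hG, hGc⟩ := h33_coeff_track j j' π u m (k + 1) p p' d hπ hπ' hb hδ hu e
  rw [ht, sub_self] at hG
  have hG0 : G = 0 := by
    rcases mul_eq_zero.mp hG.symm with h | h
    · exact absurd h (pow_ne_zero _ X_ne_zero)
    · exact h
  rw [hG0, map_zero, zero_mul] at hGc
  have he0 : (e : ℂ) ≠ 0 := by exact_mod_cast he.ne'
  have : (e : ℂ) * constantCoeff (j' u) * (constantCoeff p) ^ e * constantCoeff d ≠ 0 :=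
    mul_ne_zero (mul_ne_zero (mul_ne_zero he0 hu0) (pow_ne_zero _ hb0)) hd0
  exact this hGc.symm

end Fermat.Agent.S24
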