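import Mathlib
import Fermat.Prelude.Def_AlgebraicCurve_DivisorClassGroup
import Fermat.Agent.S24.LemmaECore

/-!
# S24, task M1a: "Lemma E"

At most `e = ord_v t` pairwise distinct embeddings `F → ℂ((s))` which agree on constants and
on `t` can induce (a positive multiple of) the same place `v` of degree one.
-/

set_option autoImplicit false

namespace Fermat.Agent.S24

open AlgebraicCurve PowerSeries

section Aux

variable {K F : Type*} [Field K] [Field F] [Algebra K F]

/-- If `deg v = 1`, every element of the valuation ring is congruent to a constant. -/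
theorem h33_exists_const_sub_mem (v : Place K F) (hdeg : v.deg = 1) (f : v.toValuationSubring) :
    ∃ a : K, f - algebraMap K v.toValuationSubring a ∈
      IsLocalRing.maximalIdeal v.toValuationSubring := by
  have h1 : Module.finrank K v.ResidueField = 1 := hdeg
  have hone : (1 : v.ResidueField) ≠ 0 := one_ne_zero
  obtain ⟨c, hc⟩ := (finrank_eq_one_iff_of_nonzero' (1 : v.ResidueField) hone).mp h1
    (IsLocalRing.residue v.toValuationSubring f)
  refine ⟨c, ?_⟩
  rw [← IsLocalRing.residue_eq_zero_iff, map_sub, ← hc, Algebra.smul_def, mul_one]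
  rw [IsScalarTower.algebraMap_apply K v.toValuationSubring v.ResidueField]
  rw [IsLocalRing.ResidueField.algebraMap_eq]
  exact sub_self _

/-- If `deg v = 1`, every element of the valuation ring is `constant + π * element`. -/
theorem h33_exists_dec (v : Place K F) (hdeg : v.deg = 1) {π : v.toValuationSubring}
    (hπ : Irreducible π) (f : v.toValuationSubring) :
    ∃ (a : K) (f₁ : v.toValuationSubring), f = algebraMap K v.toValuationSubring a + π * f₁ := by
  obtain ⟨a, ha⟩ := h33_exists_const_sub_mem v hdeg f
  rw [hπ.maximalIdeal_eq, Ideal.mem_span_singleton'] at ha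
  obtain ⟨f₁, hf₁⟩ := ha
  refine ⟨a, f₁, ?_⟩
  rw [mul_comm, hf₁]
  ring

/-- Elements of the valuation ring have nonnegative order. -/
theorem h33_ord_nonneg (v : Place K F) (f : v.toValuationSubring) : 0 ≤ v.ord (f : F) := by
  unfold Place.ord
  rw [v.adicValuation_coe]
  have h := v.heightOneSpectrum.intValuation_le_one f
  rcases eq_or_ne (v.heightOneSpectrum.intValuation f) 0 with h0 | h0
  · rw [h0]; simp
  · have := (WithZero.log_le_log h0 one_ne_zero).mpr h
    rw [WithZero.log_one] at this
    omega

end Aux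

/-- A ring hom into Laurent series whose values have no negative coefficients factors through
power series. -/
theorem h33_exists_lift {R : Type*} [CommRing R] (g : R →+* LaurentSeries ℂ)
    (hg : ∀ f : R, ∀ i : ℤ, i < 0 → (g f).coeff i = 0) :
    ∃ j : R →+* PowerSeries ℂ, ∀ f, HahnSeries.ofPowerSeries ℤ ℂ (j f) = g f := by
  have hmem : ∀ f : R, g f ∈ (HahnSeries.ofPowerSeries ℤ ℂ).range := by
    intro f
    refine ⟨PowerSeries.mk fun n => (g f).coeff n, ?_⟩
    ext i
    rw [PowerSeries.coeff_coe]
    split_ifs with hi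
    · exact (hg f i hi).symm
    · rw [PowerSeries.coeff_mk]
      congr 1
      omega
  let E : PowerSeries ℂ ≃+* (HahnSeries.ofPowerSeries ℤ ℂ).range :=
    RingEquiv.ofBijective (HahnSeries.ofPowerSeries ℤ ℂ).rangeRestrict
      ⟨fun a b hab => HahnSeries.ofPowerSeries_injective (congrArg Subtype.val hab),
        RingHom.rangeRestrict_surjective _⟩
  refine ⟨E.symm.toRingHom.comp (g.codRestrict _ hmem), fun f => ?_⟩
  have h1 : E (E.symm (g.codRestrict _ hmem f)) = g.codRestrict _ hmem f :=
    E.apply_symm_apply _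
  have h2 := congrArg Subtype.val h1
  exact h2

/-- M1a "Lemma E": at most `e = ord_v t` pairwise distinct embeddings into `ℂ((s))` which agree on
constants and on `t` can induce (a positive multiple of) the same place `v`. -/
theorem card_le_ord_of_induce_same_place {K F : Type*} [Field K] [Field F] [Algebra K F]
    (t : F) (v : Place K F) (ht : 0 < v.ord t)
    (θ : K →+* ℂ) {Y : Type*} [Fintype Y] (ι : Y → (F →+* LaurentSeries ℂ))
    (hconst : ∀ y a, ι y (algebraMap K F a) = HahnSeries.C (θ a))
    (hmapt : ∀ y y', ι y t = ι y' t) (hinj : Function.Injective ι)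
    (hdeg : v.deg = 1)
    (hind : ∀ y, ∃ m : ℕ, 0 < m ∧ ∀ f : F, f ≠ 0 → (ι y f).order = m * v.ord f) :
    (Fintype.card Y : ℤ) ≤ v.ord t := by
  classical
  by_contra hlt
  rw [not_le] at hlt
  -- basic data
  obtain ⟨π, hπ⟩ := IsDiscreteValuationRing.exists_irreducible v.toValuationSubring
  have ht0 : t ≠ 0 := by
    rintro rfl
    simp at ht
  obtain ⟨u, hu⟩ := v.exists_unit_mul_zpow ht0 hπ
  obtain ⟨e, he⟩ : ∃ e : ℕ, v.ord t = e := ⟨(v.ord t).toNat, (Int.toNat_of_nonneg ht.le).symm⟩
  have he0 : 0 < e := by omega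
  rw [he, zpow_natCast] at hu
  set T : v.toValuationSubring := (u : v.toValuationSubring) * π ^ e with hT
  have hTt : (T : F) = t := by
    rw [hu, hT]
    simp
  have hπF : (π : F) ≠ 0 := by
    simpa [ne_eq, ZeroMemClass.coe_eq_zero] using hπ.ne_zero
  -- `Y` is nonempty
  have hY : 0 < Fintype.card Y := by omega
  obtain ⟨y₀⟩ : Nonempty Y := Fintype.card_pos_iff.mp hY
  -- the multiplicities are all equal
  choose mf hmf0 hmf using hind
  have hm_eq : ∀ y, mf y = mf y₀ := by
    intro y
    have h1 := hmf y t ht0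
    have h2 := hmf y₀ t ht0
    rw [hmapt y y₀, h2, he] at h1
    have he' : (e : ℤ) ≠ 0 := by omega
    have : (mf y₀ : ℤ) = mf y := mul_right_cancel₀ he' h1
    exact_mod_cast this.symm
  set m := mf y₀ with hm
  have hm0 : 0 < m := hmf0 y₀
  have hord : ∀ y (f : F), f ≠ 0 → (ι y f).order = m * v.ord f := by
    intro y f hf
    rw [hmf y f hf, hm_eq y]
  -- no negative coefficients on the valuation ring
  have hneg : ∀ y (f : v.toValuationSubring), ∀ i : ℤ, i < 0 → (ι y (f : F)).coeff i = 0 := by
    intro y f i hi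
    rcases eq_or_ne (f : F) 0 with h0 | h0
    · rw [h0, map_zero]
      rfl
    · apply HahnSeries.coeff_eq_zero_of_lt_order
      rw [hord y f h0]
      have h1 := h33_ord_nonneg v f
      have h2 : (0 : ℤ) ≤ m * v.ord (f : F) := by positivity
      omega
  -- lifts to power series
  have hlift : ∀ y, ∃ j : v.toValuationSubring →+* PowerSeries ℂ,
      ∀ f, HahnSeries.ofPowerSeries ℤ ℂ (j f) = ι y (f : F) := by
    intro y
    exact h33_exists_lift ((ι y).comp v.toValuationSubring.subtype) (fun f i hi => hneg y f i hi)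
  choose j hj using hlift
  -- the image of the uniformizer
  have hjπ : ∀ y, ∃ p : PowerSeries ℂ, j y π = X ^ m * p ∧ constantCoeff p ≠ 0 := by
    intro y
    have hz0 : ι y (π : F) ≠ 0 := (map_ne_zero (ι y)).mpr hπF
    have hzo : (m : ℤ) = (ι y (π : F)).order := by
      rw [hord y π hπF, v.ord_coe_irreducible hπ, mul_one]
    refine ⟨(ι y (π : F)).powerSeriesPart, ?_, ?_⟩
    · apply HahnSeries.ofPowerSeries_injective (Γ := ℤ)
      rw [hj y π]
      exact (LaurentSeries.X_order_mul_powerSeriesPart hzo).symm
    · rw [← coeff_zero_eq_constantCoeff_apply, LaurentSeries.powerSeriesPart_coeff]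
      simpa using (HahnSeries.coeff_order_eq_zero.not.mpr hz0)
  choose p hp hp0 using hjπ
  -- constants
  have hjconst : ∀ y (a : K), j y (algebraMap K v.toValuationSubring a) = C (θ a) := by
    intro y a
    apply HahnSeries.ofPowerSeries_injective (Γ := ℤ)
    rw [hj, v.coe_algebraMap, hconst, HahnSeries.ofPowerSeries_C]
  have hdec : ∀ y y' (f : v.toValuationSubring), ∃ (c : ℂ) (f₁ : v.toValuationSubring),
      j y f = C c + j y π * j y f₁ ∧ j y' f = C c + j y' π * j y' f₁ := by
    intro y y' f
    obtain ⟨a, f₁, hf⟩ := h33_exists_dec v hdeg hπ f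
    refine ⟨θ a, f₁, ?_, ?_⟩
    · have := congrArg (j y) hf
      rwa [map_add, map_mul, hjconst] at this
    · have := congrArg (j y') hf
      rwa [map_add, map_mul, hjconst] at this
  -- the unit `u`
  obtain ⟨au, u₁, hu₁⟩ := h33_exists_dec v hdeg hπ (u : v.toValuationSubring)
  have hau : au ≠ 0 := by
    rintro rfl
    rw [map_zero, zero_add] at hu₁
    have h1 : IsUnit (π * u₁) := hu₁ ▸ u.isUnit
    exact hπ.not_isUnit (isUnit_of_mul_isUnit_left h1)
  have hθ : θ au ≠ 0 := (map_ne_zero θ).mpr hau
  have hju : ∀ y, constantCoeff (j y (u : v.toValuationSubring)) = θ au := by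
    intro y
    have := congrArg (j y) hu₁
    rw [map_add, map_mul, hjconst, hp y] at this
    rw [this]
    simp [hm0.ne']
  -- agreement on `t`
  have hjT : ∀ y y', j y T = j y' T := by
    intro y y'
    apply HahnSeries.ofPowerSeries_injective (Γ := ℤ)
    rw [hj, hj, hTt]
    exact hmapt y y'
  -- the leading coefficients of the images of `π` are `e`-th roots of the same number
  have key : ∀ y, coeff (m * e) (j y T) = θ au * (constantCoeff (p y)) ^ e := by
    intro y
    have h1 : j y T = X ^ (m * e) * (j y (u : v.toValuationSubring) * p y ^ e) := by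
      rw [hT, map_mul, map_pow, hp y, mul_pow, ← pow_mul]
      ring
    rw [h1]
    have h := coeff_X_pow_mul (j y (u : v.toValuationSubring) * p y ^ e) (m * e) 0
    rw [zero_add] at h
    rw [h, coeff_zero_eq_constantCoeff_apply, map_mul, map_pow, hju]
  have hbe : ∀ y, (constantCoeff (p y)) ^ e = (constantCoeff (p y₀)) ^ e := by
    intro y
    have h1 := key y
    rw [hjT y y₀, key y₀] at h1
    exact (mul_left_cancel₀ hθ h1).symm
  -- pigeonhole
  have hcard : (Polynomial.nthRoots e ((constantCoeff (p y₀)) ^ e)).toFinset.card ≤ e :=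
    le_trans (Multiset.toFinset_card_le _) (Polynomial.card_nthRoots e _)
  have hlt' : (Polynomial.nthRoots e ((constantCoeff (p y₀)) ^ e)).toFinset.card <
      (Finset.univ : Finset Y).card := by
    rw [Finset.card_univ]
    omega
  obtain ⟨y, -, y', -, hne, hbb⟩ := Finset.exists_ne_map_eq_of_card_lt_of_maps_to hlt'
    (f := fun y => constantCoeff (p y)) (fun y _ => by
      rw [Finset.mem_coe, Multiset.mem_toFinset, Polynomial.mem_nthRoots he0]
      exact hbe y)
  -- the core lemma shows that the two embeddings agree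
  have hall : ∀ f : v.toValuationSubring, j y f = j y' f :=
    h33_lemmaE_core (j y) (j y') π (u : v.toValuationSubring) m e hm0 he0 (p y) (p y')
      (hp y) (hp y') hbb (hp0 y) (hdec y y') (by rw [hju]; exact hθ) (hjT y y')
  have hιO : ∀ f : v.toValuationSubring, ι y (f : F) = ι y' (f : F) := by
    intro f
    rw [← hj y f, ← hj y' f, hall f]
  have hι : ι y = ι y' := by
    refine RingHom.ext fun f => ?_
    rcases v.toValuationSubring.mem_or_inv_mem f with hf | hf
    · exact hιO ⟨f, hf⟩
    · have h1 := hιO ⟨f⁻¹, hf⟩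
      simp only [map_inv₀] at h1
      exact inv_injective h1
  exact hne (hinj hι)

end Fermat.Agent.S24
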