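import Fermat.Agent.S24.OrbitPlacesCore
import Fermat.Agent.S24.LemmaE
import Fermat.Agent.S24.PlaceOfEmb

/-!
# S24, modular half, task M1c: places over `t = 0`  ↔  orbits of `g` on `X`

The exact interface statement `card_zeroPlaces_eq_card_orbits` (M-SKEL), obtained from the
core theorem `OrbitPlaces.card_zeroPlaces_eq_card_orbits_of` by feeding in M1a
(`card_le_ord_of_induce_same_place`, "Lemma E") and M1b (`exists_place_of_emb`).
-/

set_option autoImplicit false

open ModularCurve AlgebraicCurve

noncomputable section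

namespace Fermat.Agent.S24

/-- M1c: the abstract orbit-counting theorem.  `hFI` is the fundamental identity (GFF half),
`hdeg` is DEG1. -/
theorem card_zeroPlaces_eq_card_orbits {K F : Type*} [Field K] [Field F] [Algebra K F]
    (t : F) (n : ℕ)
    (hFI : ∃ s : Finset (Place K F), (∀ v, v ∈ s ↔ 0 < v.ord t) ∧ ∑ v ∈ s, v.ord t = (n : ℤ))
    (hdeg : ∀ v : Place K F, v.deg = 1)
    {G : Type*} [Group G] {X : Type*} [Fintype X] [MulAction G X] (g : G) (h : ℕ) (hh : 0 < h)
    (E : EmbFamily K F t X g h) (hn : n ≤ Fintype.card X) :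
    Nat.card {v : Place K F // 0 < v.ord t}
        = Nat.card (MulAction.orbitRel.Quotient (Subgroup.zpowers g) X)
      ∧ n = Fintype.card X := by
  refine OrbitPlaces.card_zeroPlaces_eq_card_orbits_of t n hFI g h hh E hn ?_ ?_
  · intro v hv Y hY
    have h1 := card_le_ord_of_induce_same_place t v hv E.θ (Y := {y // y ∈ Y})
      (fun y => E.ι y.1) (fun y a => E.map_const y.1 a) (fun y y' => E.map_t y.1 y'.1)
      (fun y y' hyy' => Subtype.ext (E.inj hyy')) (hdeg v) (fun y => hY y.1 y.2)
    simpa using h1
  · intro x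
    exact exists_place_of_emb t E.θ (E.ι x) (E.map_const x)
      (by rw [E.order_t x]; exact_mod_cast hh)

end Fermat.Agent.S24
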