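import Mathlib

/-!
# S24: the formal derivative on Laurent series (helper79)

Mathlib's `LaurentSeries.derivative` is only a linear map. Here we prove the Leibniz rule and the
order formula. To avoid the scalar-multiplication diamond on `LaurentSeries L`, everything is
stated with the additive map `laurentD` and multiplication by constants `HahnSeries.C c`.

* `laurentD L : LaurentSeries L →+ LaurentSeries L`
* `laurentD_mul`, `laurentD_C`, `laurentD_one`
* `order_laurentD` : in characteristic zero, `order (∂ f) = order f - 1` if `order f ≠ 0`.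
* `laurentD_ne_zero` : in characteristic zero, `∂ f ≠ 0` if `order f ≠ 0`.
-/

set_option autoImplicit false

open HahnSeries LaurentSeries

namespace Fermat.Agent.S24

section LaurentDerivation

variable (L : Type*) [Field L]

/-- The formal derivative of Laurent series as an additive map. -/
noncomputable def laurentD : LaurentSeries L →+ LaurentSeries L :=
  (LaurentSeries.derivative L).toAddMonoidHom

theorem coeff_laurentD (f : LaurentSeries L) (n : ℤ) :
    (laurentD L f).coeff n = ((n : L) + 1) * f.coeff (n + 1) := by
  change (LaurentSeries.derivative L f).coeff n = _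
  rw [LaurentSeries.derivative_apply, LaurentSeries.hasseDeriv_coeff, Ring.choose_one_right]
  simp [zsmul_eq_mul]

theorem coeff_C_mul' (c : L) (f : LaurentSeries L) (n : ℤ) :
    (HahnSeries.C c * f).coeff n = c * f.coeff n := by
  rw [HahnSeries.C_mul_eq_smul, HahnSeries.coeff_smul, smul_eq_mul]

/-- `X^a * p` for an integer `a` and a power series `p`. -/
noncomputable def shiftPS (a : ℤ) (p : PowerSeries L) : LaurentSeries L :=
  single a (1 : L) * ofPowerSeries ℤ L p

theorem coeff_shiftPS (a : ℤ) (p : PowerSeries L) (n : ℤ) :
    (shiftPS L a p).coeff n = if n - a < 0 then 0 else PowerSeries.coeff (n - a).natAbs p := by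
  rw [shiftPS, coeff_single_mul, one_mul]
  exact PowerSeries.coeff_coe (f := p) (n - a)

theorem exists_eq_shiftPS (f : LaurentSeries L) : ∃ a p, f = shiftPS L a p :=
  ⟨f.order, f.powerSeriesPart, (single_order_mul_powerSeriesPart f).symm⟩

theorem shiftPS_mul (a b : ℤ) (p r : PowerSeries L) :
    shiftPS L a p * shiftPS L b r = shiftPS L (a + b) (p * r) := by
  simp only [shiftPS, map_mul]
  rw [mul_mul_mul_comm, single_mul_single, mul_one]

theorem shiftPS_add (a : ℤ) (p r : PowerSeries L) :
    shiftPS L a (p + r) = shiftPS L a p + shiftPS L a r := by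
  simp only [shiftPS, map_add, mul_add]

theorem laurentD_shiftPS (a : ℤ) (p : PowerSeries L) :
    laurentD L (shiftPS L a p) =
      HahnSeries.C (a : L) * shiftPS L (a - 1) p + shiftPS L a (PowerSeries.derivative L p) := by
  ext n
  rw [coeff_laurentD, coeff_add, coeff_C_mul', coeff_shiftPS, coeff_shiftPS,
    coeff_shiftPS]
  have e1 : n + 1 - a = n - (a - 1) := by ring
  rw [e1]
  by_cases h : n - (a - 1) < 0
  · have h' : n - a < 0 := by omega
    simp [h, h']
  · rw [if_neg h]
    by_cases h' : n - a < 0
    · have h0 : n - (a - 1) = 0 := by omega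
      have hna : (n : L) + 1 = a := by
        have : n + 1 = a := by omega
        rw [← this]; push_cast; rfl
      rw [if_pos h', add_zero, hna]
    · rw [if_neg h', PowerSeries.coeff_derivative]
      have hk : (n - (a - 1)).natAbs = (n - a).natAbs + 1 := by omega
      rw [hk]
      have hc : (((n - a).natAbs : ℕ) : L) = (n : L) - a := by
        rw [← Int.cast_natCast, Int.natAbs_of_nonneg (by omega)]
        push_cast
        rfl
      rw [hc]
      ring

/-- Leibniz rule for the formal derivative of Laurent series. -/
theorem laurentD_mul (f g : LaurentSeries L) :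
    laurentD L (f * g) = f * laurentD L g + g * laurentD L f := by
  obtain ⟨a, p, rfl⟩ := exists_eq_shiftPS L f
  obtain ⟨b, r, rfl⟩ := exists_eq_shiftPS L g
  rw [shiftPS_mul, laurentD_shiftPS, laurentD_shiftPS, laurentD_shiftPS,
    Derivation.leibniz, shiftPS_add]
  simp only [smul_eq_mul, mul_add]
  have e1 : a + (b - 1) = a + b - 1 := by ring
  have e2 : b + (a - 1) = a + b - 1 := by ring
  have e3 : b + a = a + b := by ring
  have h1 : shiftPS L a p * (HahnSeries.C (b : L) * shiftPS L (b - 1) r) =
      HahnSeries.C (b : L) * shiftPS L (a + b - 1) (p * r) := by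
    rw [mul_left_comm, shiftPS_mul, e1]
  have h2 : shiftPS L b r * (HahnSeries.C (a : L) * shiftPS L (a - 1) p) =
      HahnSeries.C (a : L) * shiftPS L (a + b - 1) (p * r) := by
    rw [mul_left_comm, shiftPS_mul, e2, mul_comm r p]
  rw [h1, h2, shiftPS_mul, shiftPS_mul, e3]
  push_cast
  rw [map_add, add_mul]
  abel

theorem laurentD_C (c : L) : laurentD L (HahnSeries.C c) = 0 := by
  ext n
  rw [coeff_laurentD, HahnSeries.C_apply, HahnSeries.coeff_single]
  by_cases h : n + 1 = 0
  · have : (n : L) + 1 = 0 := by
      have h2 := congrArg (Int.cast : ℤ → L) h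
      push_cast at h2
      exact h2
    simp [this]
  · simp [h]

theorem laurentD_one : laurentD L (1 : LaurentSeries L) = 0 := by
  rw [← HahnSeries.C_one]
  exact laurentD_C L 1

variable {L}

/-- In characteristic zero the derivative lowers a nonzero order by exactly one. -/
theorem order_laurentD [CharZero L] {f : LaurentSeries L} (hf : f.order ≠ 0) :
    (laurentD L f).order = f.order - 1 := by
  have hf0 : f ≠ 0 := by
    rintro rfl
    exact hf HahnSeries.order_zero
  have hc : (laurentD L f).coeff (f.order - 1) ≠ 0 := by
    rw [coeff_laurentD, sub_add_cancel]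
    refine mul_ne_zero ?_ (HahnSeries.coeff_order_eq_zero.not.mpr hf0)
    have : ((f.order - 1 : ℤ) : L) + 1 = ((f.order : ℤ) : L) := by push_cast; ring
    rw [this]
    exact_mod_cast hf
  refine le_antisymm (HahnSeries.order_le_of_coeff_ne_zero hc) ?_
  by_contra hlt
  rw [not_le] at hlt
  have hd0 : laurentD L f ≠ 0 := by
    rintro h
    rw [h] at hc
    exact hc rfl
  have := HahnSeries.coeff_order_eq_zero.not.mpr hd0
  rw [coeff_laurentD, HahnSeries.coeff_eq_zero_of_lt_order (by omega), mul_zero] at this
  exact this rfl

theorem laurentD_ne_zero [CharZero L] {f : LaurentSeries L} (hf : f.order ≠ 0) :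
    laurentD L f ≠ 0 := by
  have hf0 : f ≠ 0 := by
    rintro rfl
    exact hf HahnSeries.order_zero
  intro h
  have hc : (laurentD L f).coeff (f.order - 1) ≠ 0 := by
    rw [coeff_laurentD, sub_add_cancel]
    refine mul_ne_zero ?_ (HahnSeries.coeff_order_eq_zero.not.mpr hf0)
    have : ((f.order - 1 : ℤ) : L) + 1 = ((f.order : ℤ) : L) := by push_cast; ring
    rw [this]
    exact_mod_cast hf
  rw [h] at hc
  exact hc rfl

end LaurentDerivation

end Fermat.Agent.S24
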