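import Mathlib
import Fermat.Prelude.Def_AlgebraicCurve_CanonicalDivisor
import Fermat.Agent.S24.LaurentDeriv

/-!
# S24, differentials package (helper79)

* `span_D_eq_top_of_isAlgebraic` (L1): if `F / K(x)` is algebraic (characteristic zero) then `dx`
  spans `Ω[F⁄K]`.
-/

set_option autoImplicit false

open KaehlerDifferential IntermediateField

namespace Fermat.Agent.S24

section L1

variable {K F : Type*} [Field K] [Field F] [Algebra K F]

/-- The elements of `F` whose differential lies in a given `F`-submodule of `Ω[F⁄K]` form an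
intermediate field. -/
noncomputable def diffField (W : Submodule F Ω[F⁄K]) : IntermediateField K F where
  carrier := {y | D K F y ∈ W}
  mul_mem' {a b} ha hb := by
    simp only [Set.mem_ofPred_eq] at ha hb ⊢
    rw [Derivation.leibniz]
    exact W.add_mem (W.smul_mem _ hb) (W.smul_mem _ ha)
  one_mem' := by simp
  add_mem' {a b} ha hb := by
    simp only [Set.mem_ofPred_eq] at ha hb ⊢
    rw [map_add]
    exact W.add_mem ha hb
  zero_mem' := by simp
  algebraMap_mem' r := by simp
  inv_mem' a ha := by
    simp only [Set.mem_ofPred_eq] at ha ⊢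
    rw [Derivation.leibniz_inv]
    exact W.smul_mem _ ha

theorem mem_diffField {W : Submodule F Ω[F⁄K]} {y : F} : y ∈ diffField W ↔ D K F y ∈ W :=
  Iff.rfl

/-- For a polynomial `p` with coefficients in a subfield `E` all of whose differentials lie in
`W`, we have `d(p(y)) ≡ p'(y) dy` modulo `W`. -/
theorem D_aeval_sub_mem {W : Submodule F Ω[F⁄K]} (E : IntermediateField K F)
    (hE : E ≤ diffField W) (y : F) (p : Polynomial E) :
    D K F (Polynomial.aeval y p) - (Polynomial.aeval y (Polynomial.derivative p)) • D K F y ∈ W := by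
  induction p using Polynomial.induction_on' with
  | add p q hp hq =>
    have : D K F (Polynomial.aeval y (p + q)) -
        (Polynomial.aeval y (Polynomial.derivative (p + q))) • D K F y =
        (D K F (Polynomial.aeval y p) - (Polynomial.aeval y (Polynomial.derivative p)) • D K F y) +
        (D K F (Polynomial.aeval y q) -
          (Polynomial.aeval y (Polynomial.derivative q)) • D K F y) := by
      simp only [map_add, add_smul]
      abel
    rw [this]
    exact W.add_mem hp hq
  | monomial n a =>
    have ha : D K F (a : F) ∈ W := hE a.2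
    have h1 : Polynomial.aeval y (Polynomial.monomial n a) = (a : F) * y ^ n := by
      rw [Polynomial.aeval_monomial]; rfl
    have h2 : Polynomial.aeval y (Polynomial.derivative (Polynomial.monomial n a)) =
        (a : F) * (n : F) * y ^ (n - 1) := by
      rw [Polynomial.derivative_monomial, Polynomial.aeval_monomial]
      simp [map_mul]
    rw [h1, h2, Derivation.leibniz, Derivation.leibniz_pow]
    have : ((a : F) • (n • y ^ (n - 1) • D K F y) + y ^ n • D K F (a : F)) -
        ((a : F) * (n : F) * y ^ (n - 1)) • D K F y = y ^ n • D K F (a : F) := by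
      rw [← Nat.cast_smul_eq_nsmul F, smul_smul, smul_smul]
      abel
    rw [this]
    exact W.smul_mem _ ha

/-- An element which is separable algebraic over a subfield `E` all of whose differentials lie
in `W` has its differential in `W`. -/
theorem D_mem_of_isSeparable {W : Submodule F Ω[F⁄K]} (E : IntermediateField K F)
    (hE : E ≤ diffField W) (y : F) (hy : IsSeparable E y) : D K F y ∈ W := by
  have hroot : Polynomial.aeval y (minpoly E y) = 0 := minpoly.aeval E y
  have hsep : Polynomial.aeval y (Polynomial.derivative (minpoly E y)) ≠ 0 :=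
    hy.aeval_derivative_ne_zero hroot
  have key := D_aeval_sub_mem E hE y (minpoly E y)
  rw [hroot, map_zero, zero_sub, Submodule.neg_mem_iff] at key
  have := W.smul_mem (Polynomial.aeval y (Polynomial.derivative (minpoly E y)))⁻¹ key
  rwa [smul_smul, inv_mul_cancel₀ hsep, one_smul] at this

/-- (L1) If `F / K(x)` is algebraic (characteristic zero), then `dx` spans `Ω[F⁄K]`. -/
theorem span_D_eq_top_of_isAlgebraic [CharZero K] (x : F)
    (halg : Algebra.IsAlgebraic K⟮x⟯ F) :
    Submodule.span F {D K F x} = ⊤ := by
  set W : Submodule F Ω[F⁄K] := Submodule.span F {D K F x} with hW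
  have hx : K⟮x⟯ ≤ diffField W := by
    rw [IntermediateField.adjoin_simple_le_iff]
    exact Submodule.subset_span rfl
  have : CharZero K⟮x⟯ := charZero_of_injective_algebraMap (algebraMap K K⟮x⟯).injective
  have hall : ∀ y : F, D K F y ∈ W := fun y ↦
    D_mem_of_isSeparable K⟮x⟯ hx y (Algebra.IsSeparable.isSeparable K⟮x⟯ y)
  rw [eq_top_iff, ← KaehlerDifferential.span_range_derivation, Submodule.span_le]
  rintro _ ⟨y, rfl⟩
  exact hall y

end L1

section L3

open AlgebraicCurve

variable {K F : Type*} [Field K] [Field F] [Algebra K F]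
variable {L : Type*} [Field L]

/-- Every place has a uniformizer `π` (of order one) with `v.dCoord = dπ`. -/
theorem exists_uniformizer_dCoord (v : Place K F) :
    ∃ π : F, v.ord π = 1 ∧ v.dCoord = D K F π := by
  have hirr := (IsDiscreteValuationRing.exists_irreducible v.toValuationSubring).choose_spec
  exact ⟨_, v.ord_coe_irreducible hirr, rfl⟩

/-- Transport of a relation between differentials along an embedding into Laurent series:
if `dx = f dπ` in `Ω[F⁄K]` then `∂(ι x) = ι f * ∂(ι π)`. -/
theorem laurentD_of_D_eq_smul (ι : F →+* LaurentSeries L)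
    (hK : ∀ a : K, ∃ b : L, ι (algebraMap K F a) = HahnSeries.C b)
    {x π f : F} (h : D K F x = f • D K F π) :
    laurentD L (ι x) = ι f * laurentD L (ι π) := by
  let instF : Module F (LaurentSeries L) := Module.compHom (LaurentSeries L) ι
  let instK : Module K (LaurentSeries L) :=
    Module.compHom (LaurentSeries L) (ι.comp (algebraMap K F))
  have smulF : ∀ (y : F) (m : LaurentSeries L), y • m = ι y * m := fun _ _ ↦ rfl
  have smulK : ∀ (a : K) (m : LaurentSeries L), a • m = ι (algebraMap K F a) * m :=
    fun _ _ ↦ rfl
  have : IsScalarTower K F (LaurentSeries L) := ⟨fun a y m ↦ by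
    rw [smulF, smulK, smulF, Algebra.smul_def, map_mul, mul_assoc]⟩
  let δ : Derivation K F (LaurentSeries L) :=
    { toFun := fun y ↦ laurentD L (ι y)
      map_add' := fun y z ↦ by rw [map_add, map_add]
      map_smul' := fun a y ↦ by
        obtain ⟨b, hb⟩ := hK a
        rw [RingHom.id_apply, smulK, Algebra.smul_def, map_mul, laurentD_mul, hb, laurentD_C,
          mul_zero, add_zero]
      map_one_eq_zero' := by
        change laurentD L (ι 1) = 0
        rw [map_one, laurentD_one]
      leibniz' := fun y z ↦ by
        change laurentD L (ι (y * z)) = y • laurentD L (ι z) + z • laurentD L (ι y)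
        rw [map_mul, laurentD_mul, smulF, smulF] }
  have h1 := congrArg δ.liftKaehlerDifferential h
  rw [map_smul, Derivation.liftKaehlerDifferential_comp_D,
    Derivation.liftKaehlerDifferential_comp_D] at h1
  exact h1

/-- (L2'') If `ι x` has nonzero order for an embedding `ι` into Laurent series over a field of
characteristic zero which maps `K` to constants, then `dx ≠ 0` in `Ω[F⁄K]`. -/
theorem D_ne_zero_of_embedding [CharZero L] (ι : F →+* LaurentSeries L)
    (hK : ∀ a : K, ∃ b : L, ι (algebraMap K F a) = HahnSeries.C b)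
    {x : F} (hx : (ι x).order ≠ 0) : D K F x ≠ 0 := by
  intro h0
  have h : D K F x = (0 : F) • D K F x := by rw [zero_smul, h0]
  have := laurentD_of_D_eq_smul ι hK h
  rw [map_zero, zero_mul] at this
  exact laurentD_ne_zero hx this

/-- (L3) LOCAL LEMMA. Let `ι : F →+* L((s))` be an embedding mapping `K` to constants, `L` of
characteristic zero, and let `v` be a place of `F` whose valuation is induced by `ι`
(`order (ι f) = g * ord_v f` with `g > 0`). Then for every `x` with `ord_v x ≠ 0`,
`ord_v (dx) = ord_v x - 1`, whatever uniformizer was chosen in the definition of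
`ordDifferential`. -/
theorem ordDifferential_D_of_embedding [CharZero L] (ι : F →+* LaurentSeries L)
    (hK : ∀ a : K, ∃ b : L, ι (algebraMap K F a) = HahnSeries.C b)
    (v : Place K F) [v.DCoordGenerates] (g : ℤ) (hg : 0 < g)
    (hv : ∀ f : F, f ≠ 0 → (ι f).order = g * v.ord f)
    (x : F) (hx : v.ord x ≠ 0) :
    v.ordDifferential (D K F x) = v.ord x - 1 := by
  obtain ⟨π, hπ1, hπ⟩ := exists_uniformizer_dCoord v
  have hx0 : x ≠ 0 := by rintro rfl; exact hx v.ord_zero
  have hπ0 : π ≠ 0 := by rintro rfl; rw [v.ord_zero] at hπ1; exact zero_ne_one hπ1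
  set f := v.differentialCoeff (D K F x) with hf
  have h : D K F x = f • D K F π := by
    rw [← hπ]; exact (v.differentialCoeff_smul_dCoord (D K F x)).symm
  have key := laurentD_of_D_eq_smul ι hK h
  have ox : (ι x).order ≠ 0 := by
    rw [hv x hx0]; exact mul_ne_zero hg.ne' hx
  have oπ : (ι π).order ≠ 0 := by
    rw [hv π hπ0, hπ1, mul_one]; exact hg.ne'
  have dx0 : laurentD L (ι x) ≠ 0 := laurentD_ne_zero ox
  have dπ0 : laurentD L (ι π) ≠ 0 := laurentD_ne_zero oπ
  have ιf0 : ι f ≠ 0 := by
    intro h0; rw [h0, zero_mul] at key; exact dx0 key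
  have f0 : f ≠ 0 := by
    rintro h0; rw [h0, map_zero] at ιf0; exact ιf0 rfl
  have ho := congrArg HahnSeries.order key
  rw [HahnSeries.order_mul ιf0 dπ0, order_laurentD ox, order_laurentD oπ, hv x hx0, hv π hπ0,
    hv f f0, hπ1, mul_one] at ho
  have h2 : g * (v.ord x - 1 - v.ord f) = 0 := by linarith
  rcases mul_eq_zero.mp h2 with h3 | h3
  · exact absurd h3 hg.ne'
  · change v.ord f = v.ord x - 1
    linarith

/-- (L3', zeros) if `ord_v (x - c) = e > 0` for a constant `c`, then `ord_v (dx) = e - 1`. -/
theorem ordDifferential_D_of_embedding_sub [CharZero L] (ι : F →+* LaurentSeries L)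
    (hK : ∀ a : K, ∃ b : L, ι (algebraMap K F a) = HahnSeries.C b)
    (v : Place K F) [v.DCoordGenerates] (g : ℤ) (hg : 0 < g)
    (hv : ∀ f : F, f ≠ 0 → (ι f).order = g * v.ord f)
    (x : F) (c : K) (hx : v.ord (x - algebraMap K F c) ≠ 0) :
    v.ordDifferential (D K F x) = v.ord (x - algebraMap K F c) - 1 := by
  have := ordDifferential_D_of_embedding ι hK v g hg hv (x - algebraMap K F c) hx
  rwa [map_sub, Derivation.map_algebraMap, sub_zero] at this

end L3

end Fermat.Agent.S24
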