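import Fermat.Agent.S24.Interfaces
import Fermat.Agent.S24.DiffPlace
import Fermat.Agent.S24.Differentials
import Fermat.Agent.S24.PrincipalDiv

/-!
# S24 (P-GENUS): glue — instantiating the general function-field theorems at `(Kbar, FF N, jBar N)`
-/

set_option autoImplicit false

open AlgebraicCurve ModularCurve KaehlerDifferential IntermediateField

noncomputable section

namespace Fermat.Agent.S24

/-- the tautological embedding `F ⊆ K((q))` as a ring homomorphism. -/
def glueIncl (N : ℕ) : FF N →+* LaurentSeries Kbar :=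
  (algebraMap (FF N) (LaurentSeries Kbar))

theorem glueIncl_apply (N : ℕ) (f : FF N) : glueIncl N f = (f : LaurentSeries Kbar) := rfl

theorem glueIncl_const (N : ℕ) (a : Kbar) :
    ∃ b : Kbar, glueIncl N (algebraMap Kbar (FF N) a) = HahnSeries.C b := by
  refine ⟨a, ?_⟩
  rw [glueIncl_apply]
  change algebraMap Kbar (LaurentSeries Kbar) a = HahnSeries.C a
  rw [algebraMap_laurentSeries_eq_single]
  rfl

theorem glue_order_jBar_ne_zero (N : ℕ) [NeZero N] : (glueIncl N (jBar N)).order ≠ 0 := by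
  rw [glueIncl_apply, coe_jBar]
  have hc : (coeffEmb Kbar jq).coeff (-1) ≠ 0 := by
    rw [coeffEmb_coeff, coeff_jq_neg_one, map_one]
    exact one_ne_zero
  have := HahnSeries.order_le_of_coeff_ne_zero hc
  omega

theorem glue_isAlgebraic (N : ℕ) [NeZero N] (hFin : IfaceFin N) :
    Algebra.IsAlgebraic Kbar⟮jBar N⟯ (FF N) := by
  haveI := hFin.2.1
  exact Algebra.IsAlgebraic.of_finite _ _

theorem glue_degOne (N : ℕ) [NeZero N] (hFin : IfaceFin N) : IfaceDegOne N :=
  fun v => DiffPlace.place_deg_eq_one (jBar N) (glue_isAlgebraic N hFin) v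

theorem glue_center (N : ℕ) [NeZero N] (hFin : IfaceFin N) : IfaceCenter N :=
  fun v hreg => DiffPlace.exists_ord_sub_const_pos (jBar N) (glue_isAlgebraic N hFin) v
    hFin.1 hreg

theorem glue_kaehler (N : ℕ) [NeZero N] (hFin : IfaceFin N) : IfaceKaehler N := by
  have hspan : ∀ y : FF N, Transcendental Kbar y →
      Submodule.span (FF N) {D Kbar (FF N) y} = ⊤ := fun y hy =>
    span_D_eq_top_of_isAlgebraic y
      (DiffPlace.isAlgebraic_adjoin_of_transcendental (jBar N) y (glue_isAlgebraic N hFin) hy)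
  refine ⟨D_ne_zero_of_embedding (glueIncl N) (glueIncl_const N) (glue_order_jBar_ne_zero N),
    fun ω => ?_, fun v => DiffPlace.dCoordGenerates_of_span v hspan⟩
  have hω : ω ∈ Submodule.span (FF N) {D Kbar (FF N) (jBar N)} := by
    rw [hspan (jBar N) hFin.1]
    exact Submodule.mem_top
  obtain ⟨f, hf⟩ := Submodule.mem_span_singleton.mp hω
  exact ⟨f, hf.symm⟩

/-- PD from the general fundamental identity. -/
theorem glue_pd (N : ℕ) [NeZero N] (hFin : IfaceFin N)
    (hFI : ∀ f : FF N, Transcendental Kbar f → FiniteDimensional Kbar⟮f⟯ (FF N) →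
      FIStatement Kbar (FF N) f) : IfacePD N := by
  haveI := hFin.2.1
  exact hasPrincipalDivisors_of hFI (glue_degOne N hFin) (jBar N)

/-- FI for `j` from the general fundamental identity. -/
theorem glue_fi (N : ℕ) [NeZero N] (hFin : IfaceFin N)
    (hFI : ∀ f : FF N, Transcendental Kbar f → FiniteDimensional Kbar⟮f⟯ (FF N) →
      FIStatement Kbar (FF N) f) : IfaceFI N :=
  hFI (jBar N) hFin.1 hFin.2.1

/-- ORD from the existence of an expansion embedding at every place. -/
theorem glue_ordDj (N : ℕ) [NeZero N] (hFin : IfaceFin N)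
    (hEXP : ∀ v : Place Kbar (FF N), ∃ E : FF N →+* LaurentSeries Kbar,
      (∀ c : Kbar, E (algebraMap Kbar (FF N) c) = HahnSeries.C c) ∧
      (∀ f : FF N, f ≠ 0 → (E f).order = v.ord f)) : IfaceOrdDj N := by
  obtain ⟨-, -, hDCG⟩ := glue_kaehler N hFin
  refine ⟨fun v c hc => ?_, fun v hv => ?_⟩
  · obtain ⟨E, hE1, hE2⟩ := hEXP v
    haveI := hDCG v
    exact ordDifferential_D_of_embedding_sub E (fun a => ⟨a, hE1 a⟩) v 1 one_pos
      (fun f hf => by rw [hE2 f hf, one_mul]) (jBar N) c hc.ne'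
  · obtain ⟨E, hE1, hE2⟩ := hEXP v
    haveI := hDCG v
    exact ordDifferential_D_of_embedding E (fun a => ⟨a, hE1 a⟩) v 1 one_pos
      (fun f hf => by rw [hE2 f hf, one_mul]) (jBar N) hv.ne

end Fermat.Agent.S24
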