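import Fermat.Statements.S24

/-!
# S24 (P-GENUS): shared definitions and FROZEN interfaces

`K = AlgebraicClosure ℚ`, `F = modularFunctionFieldBar N ⊆ K((q))`, `jBar N : F` the `j`-function.

The statement S24 is assembled (file `Assembly.lean`) from the interface propositions below.
Every interface is a `def … : Prop`; module owners prove them (for all `N` with `[NeZero N]`).
-/

set_option autoImplicit false

open AlgebraicCurve ModularCurve KaehlerDifferential IntermediateField

noncomputable section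

namespace Fermat.Agent.S24

/-- `K = ℚ̄`. -/
abbrev Kbar : Type := AlgebraicClosure ℚ

/-- `F = ℚ̄(j(q^d) : d ∣ N) ⊆ ℚ̄((q))`, the function field of `X₀(N)` over `ℚ̄`. -/
abbrev FF (N : ℕ) : Type := ↥(modularFunctionFieldBar N)

theorem coeffEmb_jq_mem (N : ℕ) [NeZero N] :
    coeffEmb Kbar jq ∈ modularFunctionFieldBar N :=
  coeffEmb_mem_laurentBaseChange Kbar (modularFunctionField_le_full N (jq_mem N))

/-- the `j`-function as an element of `F`. -/
def jBar (N : ℕ) [NeZero N] : FF N := ⟨coeffEmb Kbar jq, coeffEmb_jq_mem N⟩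

@[simp] theorem coe_jBar (N : ℕ) [NeZero N] :
    ((jBar N : FF N) : LaurentSeries Kbar) = coeffEmb Kbar jq := rfl

/-- the constant `c ∈ K` as an element of `F`. -/
abbrev cst (N : ℕ) (c : Kbar) : FF N := algebraMap Kbar (FF N) c

/-- places of `F` over the point `j = c` of the `j`-line. -/
abbrev PlacesOver (N : ℕ) [NeZero N] (c : Kbar) : Type :=
  {v : Place Kbar (FF N) // 0 < v.ord (jBar N - cst N c)}

/-- places of `F` over `j = ∞` (the cusps). -/
abbrev Poles (N : ℕ) [NeZero N] : Type :=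
  {v : Place Kbar (FF N) // v.ord (jBar N) < 0}

/-! ## Modular half (MOD), owner of the interface: helper31 -/

/-- (MOD-fin) `j` is transcendental over `K` and `[F : K(j)] = ψ(N)`. -/
def IfaceFin (N : ℕ) [NeZero N] : Prop :=
  Transcendental Kbar (jBar N) ∧ FiniteDimensional Kbar⟮jBar N⟯ (FF N) ∧
    Module.finrank Kbar⟮jBar N⟯ (FF N) = dedekindPsi N

/-- (MOD-fib) the number of places over each point of the `j`-line
(`= number of orbits of the stabiliser on the cosets`). -/
def IfaceFib (N : ℕ) [NeZero N] : Prop :=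
  (∀ c : Kbar, c ≠ 0 → c ≠ 1728 → Nat.card (PlacesOver N c) = dedekindPsi N) ∧
  (2 * Nat.card (PlacesOver N 1728) = dedekindPsi N + nuTwo N) ∧
  (3 * Nat.card (PlacesOver N 0) = dedekindPsi N + 2 * nuThree N) ∧
  (Nat.card (Poles N) = cuspCount N)

/-! ## Function-field half (GFF) — specialised to `(K, F, j)`; owners prove the general
versions for `x : F` with `Transcendental K x` and `FiniteDimensional K⟮x⟯ F`, `K` algebraically
closed of characteristic zero, and instantiate with `IfaceFin`. -/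

/-- (FI) fundamental identity over every finite point and over `∞`. -/
def IfaceFI (N : ℕ) [NeZero N] : Prop :=
  (∀ c : Kbar, ∃ s : Finset (Place Kbar (FF N)),
      (∀ v, v ∈ s ↔ 0 < v.ord (jBar N - cst N c)) ∧
      ∑ v ∈ s, v.ord (jBar N - cst N c) = (Module.finrank Kbar⟮jBar N⟯ (FF N) : ℤ)) ∧
  (∃ s : Finset (Place Kbar (FF N)),
      (∀ v, v ∈ s ↔ v.ord (jBar N) < 0) ∧
      ∑ v ∈ s, (- v.ord (jBar N)) = (Module.finrank Kbar⟮jBar N⟯ (FF N) : ℤ))

/-- (CEN) every place at which `j` is regular lies over some `c ∈ K`. -/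
def IfaceCenter (N : ℕ) [NeZero N] : Prop :=
  ∀ v : Place Kbar (FF N), 0 ≤ v.ord (jBar N) → ∃ c : Kbar, 0 < v.ord (jBar N - cst N c)

/-- (PD) principal divisors have finite support and degree `0`. -/
def IfacePD (N : ℕ) : Prop := HasPrincipalDivisors Kbar (FF N)

/-- (DEG1) every place has degree one. -/
def IfaceDegOne (N : ℕ) : Prop := ∀ v : Place Kbar (FF N), v.deg = 1

/-- (KAE) `Ω[F/K] = F·dj ≠ 0`, and every `dCoord` generates. -/
def IfaceKaehler (N : ℕ) [NeZero N] : Prop :=
  D Kbar (FF N) (jBar N) ≠ 0 ∧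
  (∀ ω : Ω[FF N⁄Kbar], ∃ f : FF N, ω = f • D Kbar (FF N) (jBar N)) ∧
  ∀ v : Place Kbar (FF N), v.DCoordGenerates

/-- (ORD) the local formula `ord_v(dj) = e_v - 1` resp. `-e_v - 1`. -/
def IfaceOrdDj (N : ℕ) [NeZero N] : Prop :=
  (∀ (v : Place Kbar (FF N)) (c : Kbar), 0 < v.ord (jBar N - cst N c) →
      v.ordDifferential (D Kbar (FF N) (jBar N)) = v.ord (jBar N - cst N c) - 1) ∧
  (∀ v : Place Kbar (FF N), v.ord (jBar N) < 0 →
      v.ordDifferential (D Kbar (FF N) (jBar N)) = v.ord (jBar N) - 1)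

/-! ## Numerics (GNAT), owner: helper24 -/

/-- (GNAT) `genusFormula N` is a natural number, in the form needed by `genus`. -/
def IfaceGNat (N : ℕ) : Prop :=
  ∀ d : ℤ, (d : ℚ) = 2 * genusFormula N - 2 →
    (((d + 2).toNat / 2 : ℕ) : ℚ) = genusFormula N

end Fermat.Agent.S24
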