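import Fermat.Agent.S24.Kaehler
import Fermat.Agent.S24.Interfaces
import Fermat.Agent.S24.Expansion

/-!
# S24: the interfaces `IfaceKaehler` and `IfaceOrdDj` (helper79)

* `ifaceKaehler_of_ifaceFin : IfaceFin N → IfaceKaehler N`
* `ifaceOrdDj_of_expansion` : `IfaceOrdDj N` from `IfaceKaehler N` and the expansion embeddings
  at all places (task EXP).
-/

set_option autoImplicit false

open AlgebraicCurve ModularCurve KaehlerDifferential IntermediateField

namespace Fermat.Agent.S24

/-- (KAE) for the modular function field, from `IfaceFin`. -/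
theorem ifaceKaehler_of_ifaceFin (N : ℕ) [NeZero N] (h : IfaceFin N) : IfaceKaehler N := by
  obtain ⟨htr, hfin, _⟩ := h
  have := hfin
  exact kaehler_general (jBar N) htr

/-- (ORD) for the modular function field, from `IfaceKaehler` and expansion embeddings at all
places. -/
theorem ifaceOrdDj_of_expansion (N : ℕ) [NeZero N] (hK : IfaceKaehler N)
    (hexp : ∀ v : Place Kbar (FF N), ∃ E : FF N →+* LaurentSeries Kbar,
      (∀ c : Kbar, E (algebraMap Kbar (FF N) c) = HahnSeries.C c) ∧
        ∀ f : FF N, f ≠ 0 → (E f).order = v.ord f) :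
    IfaceOrdDj N :=
  ordD_general (jBar N) hexp hK.2.2

/-- (ORD) for the modular function field, from `IfaceFin` alone (uses EXP and DEG1). -/
theorem ifaceOrdDj_of_ifaceFin (N : ℕ) [NeZero N] (h : IfaceFin N) : IfaceOrdDj N := by
  have hK := ifaceKaehler_of_ifaceFin N h
  obtain ⟨_, hfin, _⟩ := h
  have := hfin
  have halg : Algebra.IsAlgebraic Kbar⟮jBar N⟯ (FF N) := Algebra.IsAlgebraic.of_finite _ _
  exact ifaceOrdDj_of_expansion N hK fun v ↦
    EXP_exists_expansion v (DiffPlace.place_deg_eq_one (jBar N) halg v)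

end Fermat.Agent.S24
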