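import Fermat.Agent.S24.Assembly
import Fermat.Agent.S24.Glue
import Fermat.Agent.S24.KaeOrd

/-!
# S24 (P-GENUS): the statement from the four remaining inputs

`result_of : IfaceFin N → IfaceFib N → (general fundamental identity) → IfaceGNat N → S24`.
-/

set_option autoImplicit false

open AlgebraicCurve ModularCurve KaehlerDifferential IntermediateField

noncomputable section

namespace Fermat.Agent.S24

theorem result_of (N : ℕ) [NeZero N]
    [HasCanonicalDivisor (K := Kbar) (F := FF N)]
    (hFin : IfaceFin N) (hFib : IfaceFib N)
    (hFI : ∀ f : FF N, Transcendental Kbar f → FiniteDimensional Kbar⟮f⟯ (FF N) →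
      FIStatement Kbar (FF N) f)
    (hNat : IfaceGNat N) :
    (genus Kbar (FF N) : ℚ) = genusFormula N :=
  assembly N hFin hFib (glue_fi N hFin hFI) (glue_center N hFin) (glue_pd N hFin hFI)
    (glue_degOne N hFin) (glue_kaehler N hFin) (ifaceOrdDj_of_ifaceFin N hFin) hNat

end Fermat.Agent.S24
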