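import Fermat.Agent.S24.M6Tay

/-!
# S24, modular half: the `dvd` hypotheses of the point families (AN7p), from M6

For `σ = 1, S, S T` at `τ₀ = ` generic point, `i`, `ρ` and `h = 1, 2, 3`:
`hdvd : ∀ H, MDiff H → H ≠ 0 → ∀ k, (∀ τ, H (σ ^ k • τ) = H τ) →
  (h : ℤ) ∣ k * (tayAt τ₀ H).order.toNat`.
-/

set_option autoImplicit false

open UpperHalfPlane Filter Topology
open scoped MatrixGroups Manifold

namespace Fermat.Agent.S24.M6

/-- General form: if `(c τ₀ + d)²` is a primitive `h`-th root of unity for `σ` fixing `τ₀`, then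
every nonzero holomorphic `σ ^ k`-invariant function has Taylor order `n` at `τ₀` with
`h ∣ k n`. -/
theorem dvd_mul_order_tayAt_of_isPrimitiveRoot (σ : SL(2, ℤ)) (τ₀ : ℍ) (hσ : σ • τ₀ = τ₀)
    (h : ℕ) (hprim : IsPrimitiveRoot (denom σ τ₀ ^ 2) h) {H : ℍ → ℂ} (hH : MDiff H)
    (h0 : H ≠ 0) (k : ℕ) (hinv : ∀ τ : ℍ, H ((σ ^ k) • τ) = H τ) :
    (h : ℤ) ∣ k * ((tayAt τ₀ H).order.toNat : ℤ) := by
  have key := dvd_mul_order_of_isPrimitiveRoot σ τ₀ hσ h hprim k H hinv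
    (analyticAt_comp_ofComplex hH τ₀).meromorphicAt
    (meromorphicOrderAt_ne_top_of_ne_zero hH h0 τ₀)
  rwa [meromorphicOrderAt_untop₀_eq hH τ₀] at key

/-- `hdvd` at `i` for `σ = S`, `h = 2`. -/
theorem hdvd_ptI {H : ℍ → ℂ} (hH : MDiff H) (h0 : H ≠ 0) (k : ℕ)
    (hinv : ∀ τ : ℍ, H ((ModularGroup.S ^ k) • τ) = H τ) :
    ((2 : ℕ) : ℤ) ∣ k * ((tayAt ptI H).order.toNat : ℤ) :=
  dvd_mul_order_tayAt_of_isPrimitiveRoot ModularGroup.S ptI S_smul_ptI 2
    (isPrimitiveRoot_denom_sq_of_trace_eq_zero _ trace_S ptI S_smul_ptI) hH h0 k hinv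

/-- `hdvd` at `ρ` for `σ = S T`, `h = 3`. -/
theorem hdvd_ptRho {H : ℍ → ℂ} (hH : MDiff H) (h0 : H ≠ 0) (k : ℕ)
    (hinv : ∀ τ : ℍ, H (((ModularGroup.S * ModularGroup.T) ^ k) • τ) = H τ) :
    ((3 : ℕ) : ℤ) ∣ k * ((tayAt ptRho H).order.toNat : ℤ) :=
  dvd_mul_order_tayAt_of_isPrimitiveRoot (ModularGroup.S * ModularGroup.T) ptRho ST_smul_ptRho 3
    (isPrimitiveRoot_denom_sq_of_trace_eq_one _ (Or.inl trace_ST) ptRho ST_smul_ptRho)
    hH h0 k hinv

/-- `hdvd` at any point for `σ = 1`, `h = 1` (trivial). -/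
theorem hdvd_generic (τ₀ : ℍ) {H : ℍ → ℂ} (k : ℕ) :
    ((1 : ℕ) : ℤ) ∣ k * ((tayAt τ₀ H).order.toNat : ℤ) := by
  simp

/-! ### Order of a quotient of Taylor series -/

theorem ofPowerSeries_coeff_neg (p : PowerSeries ℂ) {k : ℤ} (hk : k < 0) :
    (HahnSeries.ofPowerSeries ℤ ℂ p).coeff k = 0 := by
  rw [HahnSeries.ofPowerSeries_apply]
  refine HahnSeries.embDomain_of_notMem_range ?_
  rintro ⟨m, rfl⟩
  exact absurd hk (not_lt.mpr (Int.natCast_nonneg m))

/-- The order of a nonzero power series, viewed as a Laurent series. -/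
theorem order_ofPowerSeries {p : PowerSeries ℂ} (hp : p ≠ 0) :
    (HahnSeries.ofPowerSeries ℤ ℂ p).order = (p.order.toNat : ℤ) := by
  have hp' : HahnSeries.ofPowerSeries ℤ ℂ p ≠ 0 := by
    intro h0
    apply hp
    exact HahnSeries.ofPowerSeries_injective (by rw [h0, map_zero])
  have h1 : (HahnSeries.ofPowerSeries ℤ ℂ p).coeff (p.order.toNat : ℤ) ≠ 0 := by
    rw [HahnSeries.ofPowerSeries_apply_coeff]
    exact PowerSeries.coeff_order hp
  have hle : (HahnSeries.ofPowerSeries ℤ ℂ p).order ≤ (p.order.toNat : ℤ) :=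
    HahnSeries.order_le_of_coeff_ne_zero h1
  have h2 : (HahnSeries.ofPowerSeries ℤ ℂ p).coeff (HahnSeries.ofPowerSeries ℤ ℂ p).order ≠ 0 :=
    fun h0 => hp' (HahnSeries.coeff_order_eq_zero.mp h0)
  have hnn : 0 ≤ (HahnSeries.ofPowerSeries ℤ ℂ p).order := by
    by_contra hneg
    exact h2 (ofPowerSeries_coeff_neg p (not_le.mp hneg))
  obtain ⟨m, hm⟩ := Int.eq_ofNat_of_zero_le hnn
  rw [hm, HahnSeries.ofPowerSeries_apply_coeff] at h2
  have h3 : p.order ≤ m := PowerSeries.order_le m h2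
  have h4 : p.order.toNat ≤ m := by
    have := ENat.toNat_le_toNat h3 (ENat.coe_ne_top m)
    simpa using this
  rw [hm]
  rw [hm] at hle
  have : (m : ℤ) = (p.order.toNat : ℤ) := le_antisymm hle (by exact_mod_cast h4)
  exact this

/-- If `e * ofPowerSeries q = ofPowerSeries p` in `ℂ((s))` with `p, q ≠ 0`, then
`order e = order p - order q`. -/
theorem order_eq_sub_of_mul_eq {e : LaurentSeries ℂ} {p q : PowerSeries ℂ} (hp : p ≠ 0)
    (hq : q ≠ 0)
    (h : e * HahnSeries.ofPowerSeries ℤ ℂ q = HahnSeries.ofPowerSeries ℤ ℂ p) :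
    e.order = (p.order.toNat : ℤ) - (q.order.toNat : ℤ) := by
  have hq' : HahnSeries.ofPowerSeries ℤ ℂ q ≠ 0 := by
    intro h0
    apply hq
    exact HahnSeries.ofPowerSeries_injective (by rw [h0, map_zero])
  have hp' : HahnSeries.ofPowerSeries ℤ ℂ p ≠ 0 := by
    intro h0
    apply hp
    exact HahnSeries.ofPowerSeries_injective (by rw [h0, map_zero])
  have he : e ≠ 0 := by
    rintro rfl
    rw [zero_mul] at h
    exact hp' h.symm
  have h1 := HahnSeries.order_mul he hq'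
  rw [h, order_ofPowerSeries hp, order_ofPowerSeries hq] at h1
  omega

end Fermat.Agent.S24.M6
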