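import Fermat.Agent.S24.MDefs
import Fermat.Agent.S28.ADefs

/-!
# S24, modular half: analytic definitions (sorry-free, shared)

* `tayAt τ₀ H` : the formal Taylor series at `τ₀ ∈ ℍ` of `H : ℍ → ℂ` (in the variable `z - τ₀`).
* `IsAn N f P Q` : the element `f` of the function field `F = FF N` is represented by the quotient
  `P / Q` of two holomorphic `Γ₀(N)`-invariant functions on `ℍ` which have Laurent expansions
  (in `𝕋 = exp (2πiτ/N)`) at every cusp.
* `ptI`, `ptRho` : the elliptic points `i` and `ρ = (-1 + i√3)/2`.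
-/

set_option autoImplicit false

open ModularCurve AlgebraicCurve UpperHalfPlane CongruenceSubgroup
open scoped MatrixGroups Manifold

noncomputable section

namespace Fermat.Agent.S24

open Fermat.Agent.S28 (HasTExp)

/-- The formal Taylor series at `τ₀` of a function on the upper half plane. -/
def tayAt (τ₀ : ℍ) (H : ℍ → ℂ) : PowerSeries ℂ :=
  PowerSeries.mk fun n =>
    ((n.factorial : ℂ))⁻¹ * iteratedDeriv n (H ∘ UpperHalfPlane.ofComplex) (τ₀ : ℂ)

/-- `f ∈ F` is represented by the quotient `P / Q` of holomorphic `Γ₀(N)`-invariant functions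
having Laurent expansions at all cusps. -/
structure IsAn (N : ℕ) (f : FF N) (P Q : ℍ → ℂ) : Prop where
  holoP : MDiff P
  holoQ : MDiff Q
  Q_ne : Q ≠ 0
  invP : ∀ γ ∈ Gamma0 N, ∀ τ : ℍ, P (γ • τ) = P τ
  invQ : ∀ γ ∈ Gamma0 N, ∀ τ : ℍ, Q (γ • τ) = Q τ
  expP : ∀ g : SL(2, ℤ), ∃ s : LaurentSeries ℂ, HasTExp N (fun τ => P (g • τ)) s
  expQ : ∀ g : SL(2, ℤ), ∃ s : LaurentSeries ℂ, HasTExp N (fun τ => Q (g • τ)) s
  rel : ∃ p q : LaurentSeries ℂ, HasTExp 1 P p ∧ HasTExp 1 Q q ∧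
    coeffMap embC (f : LaurentSeries Kbar) * q = p

/-- the elliptic point `i`. -/
def ptI : ℍ := UpperHalfPlane.I

/-- the elliptic point `ρ = (-1 + i√3)/2`. -/
def ptRho : ℍ :=
  ⟨(-1 + Real.sqrt 3 * Complex.I) / 2, by simp⟩

end Fermat.Agent.S24
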