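import Fermat.Agent.S24.Interfaces
import Fermat.Prelude.Def_AlgebraicCurve_Repartitions

/-!
# S24 (P-GENUS): assembly

`assembly : IfaceFin N → IfaceFib N → IfaceFI N → IfaceCenter N → IfacePD N → IfaceDegOne N →
  IfaceKaehler N → IfaceOrdDj N → IfaceGNat N → (genus K F : ℚ) = genusFormula N`.

Riemann–Hurwitz by hand: the chosen differential is `ω₀ = f • dj`, so
`div ω₀ = div f + div dj`, `deg div f = 0`, and
`deg div dj = ∑_{v ∣ 0} (e_v - 1) + ∑_{v ∣ 1728} (e_v - 1) - ∑_{v ∣ ∞} (e_v + 1)`.
-/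

set_option autoImplicit false

open AlgebraicCurve ModularCurve KaehlerDifferential IntermediateField

noncomputable section

namespace Fermat.Agent.S24

section PlaceLemmas

variable {K F : Type*} [Field K] [Field F] [Algebra K F] (v : Place K F)

theorem asm_adicValuation_lt_one_of_ord_pos {f : F} (h : 0 < v.ord f) :
    v.adicValuation f < 1 := by
  have hf : f ≠ 0 := by
    rintro rfl
    simp at h
  rw [v.adicValuation_eq_exp_neg_ord hf, ← WithZero.exp_zero, WithZero.exp_lt_exp]
  omega

theorem asm_adicValuation_algebraMap {c : K} (hc : c ≠ 0) :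
    v.adicValuation (algebraMap K F c) = 1 := by
  have h1 := v.adicValuation_algebraMap_le_one c
  have h2 := v.adicValuation_algebraMap_le_one c⁻¹
  have h3 : v.adicValuation (algebraMap K F c) * v.adicValuation (algebraMap K F c⁻¹) = 1 := by
    rw [← map_mul, ← map_mul, mul_inv_cancel₀ hc, map_one, map_one]
  rcases lt_or_eq_of_le h1 with hlt | heq
  · exfalso
    have hne : v.adicValuation (algebraMap K F c⁻¹) ≠ 0 := by
      intro h0
      rw [h0, mul_zero] at h3
      exact zero_ne_one h3
    have : v.adicValuation (algebraMap K F c) * v.adicValuation (algebraMap K F c⁻¹) < 1 := by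
      calc v.adicValuation (algebraMap K F c) * v.adicValuation (algebraMap K F c⁻¹)
          ≤ v.adicValuation (algebraMap K F c) * 1 := by
            exact mul_le_mul_right h2 _
        _ < 1 := by rwa [mul_one]
    rw [h3] at this
    exact lt_irrefl _ this
  · exact heq

/-- two distinct constants cannot both be the centre of `x` at `v`. -/
theorem asm_not_ord_pos_both (x : F) {c c' : K} (hcc : c ≠ c')
    (h : 0 < v.ord (x - algebraMap K F c)) (h' : 0 < v.ord (x - algebraMap K F c')) : False := by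
  have h1 := asm_adicValuation_lt_one_of_ord_pos v h
  have h2 := asm_adicValuation_lt_one_of_ord_pos v h'
  have hsub : algebraMap K F (c' - c) = (x - algebraMap K F c) - (x - algebraMap K F c') := by
    rw [map_sub]; ring
  have h3 : v.adicValuation (algebraMap K F (c' - c)) < 1 := by
    rw [hsub]
    exact lt_of_le_of_lt (Valuation.map_sub _ _ _) (max_lt h1 h2)
  rw [asm_adicValuation_algebraMap v (sub_ne_zero.mpr (Ne.symm hcc))] at h3
  exact lt_irrefl _ h3

/-- a zero of `x - c` is not a pole of `x`. -/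
theorem asm_not_ord_pos_and_pole (x : F) (c : K)
    (h : 0 < v.ord (x - algebraMap K F c)) (h' : v.ord x < 0) : False := by
  have h1 := asm_adicValuation_lt_one_of_ord_pos v h
  have h2 := (v.not_adicValuation_le_one_iff).mpr h'
  apply h2
  have hx : x = (x - algebraMap K F c) + algebraMap K F c := by ring
  rw [hx]
  exact le_trans (Valuation.map_add _ _ _)
    (max_le h1.le (v.adicValuation_algebraMap_le_one c))

end PlaceLemmas

theorem asm_card_subtype {α : Type*} (p : α → Prop) (s : Finset α) (hs : ∀ v, v ∈ s ↔ p v) :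
    Nat.card {v // p v} = s.card := by
  classical
  rw [← Fintype.card_coe s, ← Nat.card_eq_fintype_card]
  exact Nat.card_congr (Equiv.subtypeEquivRight (fun v => (hs v).symm))

theorem asm_sum_sub_one {α : Type*} (s : Finset α) (e : α → ℤ) :
    ∑ v ∈ s, (e v - 1) = ∑ v ∈ s, e v - s.card := by
  rw [Finset.sum_sub_distrib, Finset.sum_const, nsmul_eq_mul, mul_one]

theorem assembly (N : ℕ) [NeZero N]
    [HasCanonicalDivisor (K := Kbar) (F := FF N)]
    (hFin : IfaceFin N) (hFib : IfaceFib N) (hFI : IfaceFI N) (hCen : IfaceCenter N)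
    (hPD : IfacePD N) (hDeg : IfaceDegOne N) (hKae : IfaceKaehler N) (hOrd : IfaceOrdDj N)
    (hNat : IfaceGNat N) :
    (genus Kbar (FF N) : ℚ) = genusFormula N := by
  classical
  obtain ⟨hdj, hspan, hDCG⟩ := hKae
  obtain ⟨-, -, hn⟩ := hFin
  obtain ⟨hfibc, hfib1, hfib0, hfibinf⟩ := hFib
  obtain ⟨hFIc, sinf, hsinf, hsuminf⟩ := hFI
  obtain ⟨hOrdc, hOrdinf⟩ := hOrd
  have : Nontrivial Ω[FF N⁄Kbar] := ⟨⟨_, _, hdj⟩⟩
  have hex : ∃ ω : Ω[FF N⁄Kbar], ω ≠ 0 := ⟨_, hdj⟩
  have hgen : genus Kbar (FF N)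
      = (Divisor.degree (canonicalDivisorOf hex.choose_spec) + 2).toNat / 2 := by
    unfold genus
    rw [dif_pos hex]
  rw [hgen]
  apply hNat
  -- the chosen differential is `f • dj`
  obtain ⟨f, hf⟩ := hspan hex.choose
  have hf0 : f ≠ 0 := by
    rintro rfl
    exact hex.choose_spec (by rw [hf, zero_smul])
  have hcoef : ∀ v : Place Kbar (FF N),
      v.differentialCoeff (D Kbar (FF N) (jBar N)) ≠ 0 := by
    intro v h0
    have := hDCG v
    apply hdj
    rw [← v.differentialCoeff_smul_dCoord (D Kbar (FF N) (jBar N)), h0, zero_smul]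
  have hD₀ : ∀ v : Place Kbar (FF N), canonicalDivisorOf hex.choose_spec v
      = v.ord f + v.ordDifferential (D Kbar (FF N) (jBar N)) := by
    intro v
    have := hDCG v
    rw [canonicalDivisorOf_apply]
    conv_lhs => rw [hf]
    exact Place.ordDifferential_smul v hf0 (hcoef v)
  obtain ⟨Df, hDf, hDfdeg⟩ := hPD.exists_divisor f hf0
  -- `D' = div (dj)`
  set D' : Divisor Kbar (FF N) := canonicalDivisorOf hex.choose_spec - Df with hD'def
  have hD' : ∀ v : Place Kbar (FF N), D' v = v.ordDifferential (D Kbar (FF N) (jBar N)) := by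
    intro v
    rw [hD'def, Finsupp.sub_apply, hD₀ v, hDf v]
    ring
  have hdegeq : Divisor.degree (canonicalDivisorOf hex.choose_spec) = Divisor.degree D' := by
    rw [hD'def, map_sub, hDfdeg, sub_zero]
  rw [hdegeq]
  -- the three special fibres
  obtain ⟨s0, hs0, hsum0⟩ := hFIc 0
  obtain ⟨s1, hs1, hsum1⟩ := hFIc 1728
  have hdisj01 : Disjoint s0 s1 := by
    rw [Finset.disjoint_left]
    intro v hv0 hv1
    exact asm_not_ord_pos_both v (jBar N) (by norm_num : (0 : Kbar) ≠ 1728)
      ((hs0 v).mp hv0) ((hs1 v).mp hv1)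
  have hdisj0inf : Disjoint s0 sinf := by
    rw [Finset.disjoint_left]
    intro v hv0 hvinf
    exact asm_not_ord_pos_and_pole v (jBar N) 0 ((hs0 v).mp hv0) ((hsinf v).mp hvinf)
  have hdisj1inf : Disjoint s1 sinf := by
    rw [Finset.disjoint_left]
    intro v hv1 hvinf
    exact asm_not_ord_pos_and_pole v (jBar N) 1728 ((hs1 v).mp hv1) ((hsinf v).mp hvinf)
  -- outside the special fibres `dj` has order `0`
  have hout : ∀ v : Place Kbar (FF N), v ∉ s0 → v ∉ s1 → v ∉ sinf → D' v = 0 := by
    intro v hv0 hv1 hvinf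
    have hnn : 0 ≤ v.ord (jBar N) := by
      by_contra hneg
      exact hvinf ((hsinf v).mpr (not_le.mp hneg))
    obtain ⟨c, hc⟩ := hCen v hnn
    have hc0 : c ≠ 0 := by
      rintro rfl
      exact hv0 ((hs0 v).mpr hc)
    have hc1 : c ≠ 1728 := by
      rintro rfl
      exact hv1 ((hs1 v).mpr hc)
    obtain ⟨sc, hsc, hsumc⟩ := hFIc c
    have hcard : (sc.card : ℤ) = (Module.finrank Kbar⟮jBar N⟯ (FF N) : ℤ) := by
      have := asm_card_subtype (fun v : Place Kbar (FF N) => 0 < v.ord (jBar N - cst N c)) sc hsc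
      have h2 := hfibc c hc0 hc1
      change Nat.card {v : Place Kbar (FF N) // 0 < v.ord (jBar N - cst N c)} = _ at h2
      rw [this] at h2
      rw [h2, hn]
    have hzero : ∑ w ∈ sc, (w.ord (jBar N - cst N c) - 1) = 0 := by
      rw [asm_sum_sub_one, hsumc, hcard, sub_self]
    have hall := (Finset.sum_eq_zero_iff_of_nonneg (fun w hw => by
      have := (hsc w).mp hw
      omega)).mp hzero
    have hv : v.ord (jBar N - cst N c) - 1 = 0 := hall v ((hsc v).mpr hc)
    rw [hD' v, hOrdc v c hc, hv]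
  -- degree as a sum over the three fibres
  have hsupp : D'.support ⊆ s0 ∪ s1 ∪ sinf := by
    intro v hv
    by_contra hnot
    simp only [Finset.mem_union, not_or] at hnot
    exact (Finsupp.mem_support_iff.mp hv) (hout v hnot.1.1 hnot.1.2 hnot.2)
  have hdeg : Divisor.degree D' = ∑ v ∈ s0 ∪ s1 ∪ sinf, D' v := by
    have h1 : Divisor.degree D' = D'.sum fun v n => n * (v.deg : ℤ) := by
      simp [Divisor.degree, Finsupp.liftAddHom_apply]
    rw [h1, Finsupp.sum_of_support_subset D' hsupp _ (fun v _ => by simp)]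
    refine Finset.sum_congr rfl (fun v _ => ?_)
    rw [hDeg v]
    simp
  have hsplit : ∑ v ∈ s0 ∪ s1 ∪ sinf, D' v
      = ∑ v ∈ s0, D' v + ∑ v ∈ s1, D' v + ∑ v ∈ sinf, D' v := by
    rw [Finset.sum_union (Finset.disjoint_union_left.mpr ⟨hdisj0inf, hdisj1inf⟩),
      Finset.sum_union hdisj01]
  have hA0 : ∑ v ∈ s0, D' v = (dedekindPsi N : ℤ) - s0.card := by
    rw [Finset.sum_congr rfl (fun v hv => by
      rw [hD' v, hOrdc v 0 ((hs0 v).mp hv)]), asm_sum_sub_one, hsum0, hn]
  have hA1 : ∑ v ∈ s1, D' v = (dedekindPsi N : ℤ) - s1.card := by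
    rw [Finset.sum_congr rfl (fun v hv => by
      rw [hD' v, hOrdc v 1728 ((hs1 v).mp hv)]), asm_sum_sub_one, hsum1, hn]
  have hAinf : ∑ v ∈ sinf, D' v = - (dedekindPsi N : ℤ) - sinf.card := by
    have : ∀ v ∈ sinf, D' v = - (- v.ord (jBar N)) - 1 := by
      intro v hv
      rw [hD' v, hOrdinf v ((hsinf v).mp hv)]
      ring
    rw [Finset.sum_congr rfl this, Finset.sum_sub_distrib, Finset.sum_neg_distrib, hsuminf,
      Finset.sum_const, nsmul_eq_mul, mul_one, hn]
  have hc0 : 3 * s0.card = dedekindPsi N + 2 * nuThree N := by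
    have := asm_card_subtype (fun v : Place Kbar (FF N) => 0 < v.ord (jBar N - cst N 0)) s0 hs0
    have h2 := hfib0
    change 3 * Nat.card {v : Place Kbar (FF N) // 0 < v.ord (jBar N - cst N 0)} = _ at h2
    rwa [this] at h2
  have hc1 : 2 * s1.card = dedekindPsi N + nuTwo N := by
    have := asm_card_subtype (fun v : Place Kbar (FF N) => 0 < v.ord (jBar N - cst N 1728)) s1 hs1
    have h2 := hfib1
    change 2 * Nat.card {v : Place Kbar (FF N) // 0 < v.ord (jBar N - cst N 1728)} = _ at h2
    rwa [this] at h2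
  have hcinf : sinf.card = cuspCount N := by
    have := asm_card_subtype (fun v : Place Kbar (FF N) => v.ord (jBar N) < 0) sinf hsinf
    have h2 := hfibinf
    change Nat.card {v : Place Kbar (FF N) // v.ord (jBar N) < 0} = _ at h2
    rwa [this] at h2
  rw [hdeg, hsplit, hA0, hA1, hAinf]
  have q0 : (3 : ℚ) * (s0.card : ℚ) = dedekindPsi N + 2 * nuThree N := by exact_mod_cast hc0
  have q1 : (2 : ℚ) * (s1.card : ℚ) = dedekindPsi N + nuTwo N := by exact_mod_cast hc1
  have qinf : (sinf.card : ℚ) = cuspCount N := by exact_mod_cast hcinf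
  unfold genusFormula
  push_cast
  linarith

end Fermat.Agent.S24
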