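import Fermat.Agent.S24.ADefs
import Fermat.Agent.S28.TExp

/-!
# S24 AN5 (helper58), part 3: translation `τ ↦ τ + k` and `𝕋`-expansions

* `HasTExp.order_comp_T` : translation by `T` does not change the order of the `𝕋`-expansion.
* `HasTExp.dvd_mul_order_of_periodic` : a `T^k`-invariant function has `N ∣ k * order`.
-/

set_option autoImplicit false

open ModularCurve AlgebraicCurve CongruenceSubgroup IntermediateField UpperHalfPlane
open scoped MatrixGroups Manifold

noncomputable section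

namespace Fermat.Agent.S24

open Fermat.Agent.S28 (HasTExp tParam twist)

/-- the root of unity `exp (2πi k / N)`. -/
def h58_zeta (N : ℕ) (k : ℤ) : ℂ :=
  Complex.exp (2 * Real.pi * Complex.I * (k : ℂ) / (((1 : ℕ) : ℂ) * (N : ℂ)))

theorem h58_zeta_ne_zero (N : ℕ) (k : ℤ) : h58_zeta N k ≠ 0 := Complex.exp_ne_zero _

theorem h58_tParam_T_zpow {N : ℕ} (hN : 0 < N) (k : ℤ) (τ : ℍ) :
    tParam N (ModularGroup.T ^ k • τ) = h58_zeta N k * tParam N τ ^ 1 := by
  refine Fermat.Agent.S28.tParam_affine (M := N) (N := N) (a := 1) (d := 1) (e := 1) (b := k)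
    one_pos hN hN (by ring) τ _ ?_
  rw [ModularGroup.coe_T_zpow_smul_eq]
  simp

/-- the expansion of a translate. -/
theorem h58_hasTExp_comp_T_zpow {N : ℕ} (hN : 0 < N) {H : ℍ → ℂ} {s : LaurentSeries ℂ}
    (h : HasTExp N H s) (k : ℤ) :
    HasTExp N (fun τ => H (ModularGroup.T ^ k • τ)) (twist (h58_zeta N k) s) := by
  refine Fermat.Agent.S28.HasTExp.subst h (fun τ => ModularGroup.T ^ k • τ) (h58_zeta N k) 1
    one_pos (fun τ => h58_tParam_T_zpow hN k τ) _ (fun n => ?_) (fun n hn => ?_)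
  · simp
  · simp at hn

theorem h58_coeff_order_ne_zero {s : LaurentSeries ℂ} (hs : s ≠ 0) : s.coeff s.order ≠ 0 :=
  fun h => hs (HahnSeries.coeff_order_eq_zero.mp h)

theorem h58_twist_ne_zero {ω : ℂ} (hω : ω ≠ 0) {s : LaurentSeries ℂ} (hs : s ≠ 0) :
    twist ω s ≠ 0 := by
  intro h
  apply hs
  ext n
  have := congrArg (fun t : LaurentSeries ℂ => t.coeff n) h
  simp only [Fermat.Agent.S28.coeff_twist, HahnSeries.coeff_zero] at this
  rcases mul_eq_zero.mp this with h1 | h1
  · simpa using h1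
  · exact absurd h1 (zpow_ne_zero _ hω)

theorem h58_order_twist {ω : ℂ} (hω : ω ≠ 0) (s : LaurentSeries ℂ) :
    (twist ω s).order = s.order := by
  by_cases hs : s = 0
  · subst hs
    have : twist ω (0 : LaurentSeries ℂ) = 0 := by
      ext n
      simp
    rw [this]
  · have hs' := h58_twist_ne_zero hω hs
    apply le_antisymm
    · apply HahnSeries.order_le_of_coeff_ne_zero
      rw [Fermat.Agent.S28.coeff_twist]
      exact mul_ne_zero (h58_coeff_order_ne_zero hs) (zpow_ne_zero _ hω)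
    · apply HahnSeries.order_le_of_coeff_ne_zero
      have := h58_coeff_order_ne_zero hs'
      rw [Fermat.Agent.S28.coeff_twist] at this
      exact left_ne_zero_of_mul this

/-- translation by `T` multiplies the coefficients of a `𝕋`-expansion by roots of unity. -/
theorem HasTExp.order_comp_T {N : ℕ} [NeZero N] {H : ℍ → ℂ} {s s' : LaurentSeries ℂ}
    (h : HasTExp N H s) (h' : HasTExp N (fun τ => H (ModularGroup.T • τ)) s') :
    s'.order = s.order := by
  have hN : 0 < N := Nat.pos_of_ne_zero (NeZero.ne N)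
  have h1 := h58_hasTExp_comp_T_zpow hN h 1
  simp only [zpow_one] at h1
  rw [Fermat.Agent.S28.HasTExp.unique hN h' h1, h58_order_twist (h58_zeta_ne_zero N 1)]

/-- a `T^k`-invariant function has a `𝕋`-expansion supported on exponents `n` with `N ∣ k n`. -/
theorem HasTExp.dvd_mul_order_of_periodic {N : ℕ} [NeZero N] {H : ℍ → ℂ} {s : LaurentSeries ℂ}
    (h : HasTExp N H s) (hs : s ≠ 0) (k : ℕ) (hk : 0 < k)
    (hper : ∀ τ : ℍ, H (ModularGroup.T ^ k • τ) = H τ) :
    (N : ℤ) ∣ k * s.order := by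
  have hN : 0 < N := Nat.pos_of_ne_zero (NeZero.ne N)
  have hN' : (N : ℂ) ≠ 0 := by exact_mod_cast hN.ne'
  have h1 := h58_hasTExp_comp_T_zpow hN h (k : ℤ)
  simp only [zpow_natCast] at h1
  have h2 : HasTExp N (fun τ => H (ModularGroup.T ^ k • τ)) s :=
    Fermat.Agent.S28.HasTExp.congr h (fun τ => (hper τ).symm)
  have he : twist (h58_zeta N k) s = s := Fermat.Agent.S28.HasTExp.unique hN h1 h2
  have hc := congrArg (fun t : LaurentSeries ℂ => t.coeff s.order) he
  simp only [Fermat.Agent.S28.coeff_twist] at hc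
  have hc0 : s.coeff s.order ≠ 0 := h58_coeff_order_ne_zero hs
  have hz : h58_zeta N k ^ s.order = 1 := by
    have : s.coeff s.order * h58_zeta N k ^ s.order = s.coeff s.order * 1 := by
      rw [hc, mul_one]
    exact mul_left_cancel₀ hc0 this
  rw [h58_zeta, ← Complex.exp_int_mul, Complex.exp_eq_one_iff] at hz
  obtain ⟨m, hm⟩ := hz
  have hpi : (2 * Real.pi * Complex.I : ℂ) ≠ 0 := Complex.two_pi_I_ne_zero
  have h3 : ((s.order : ℤ) : ℂ) * ((k : ℤ) : ℂ) = (m : ℂ) * (N : ℂ) := by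
    have h4 : (2 * Real.pi * Complex.I : ℂ) * (((s.order : ℤ) : ℂ) * ((k : ℤ) : ℂ)) =
        (2 * Real.pi * Complex.I : ℂ) * ((m : ℂ) * (N : ℂ)) := by
      have hm' : ((s.order : ℤ) : ℂ) * (2 * Real.pi * Complex.I * ((k : ℤ) : ℂ) /
          (((1 : ℕ) : ℂ) * (N : ℂ))) * (N : ℂ) = (m : ℂ) * (2 * Real.pi * Complex.I) * (N : ℂ) := by
        rw [hm]
      rw [Nat.cast_one, one_mul, mul_div_assoc', div_mul_cancel₀ _ hN'] at hm'
      linear_combination hm'
    exact mul_left_cancel₀ hpi h4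
  have h5 : s.order * (k : ℤ) = m * (N : ℤ) := by
    exact_mod_cast h3
  exact ⟨m, by rw [mul_comm, h5, mul_comm]⟩

end Fermat.Agent.S24
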