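import Mathlib

/-!
# S24, package M7 (generic part): orbits of a cyclic group acting with prime exponent

If `g ^ p` acts trivially on a finite set `X` (`p` prime), then every orbit of `⟨g⟩` has `1` or
`p` elements and `p * #orbits = #X + (p - 1) * #Fix(g)`.
-/

set_option autoImplicit false

open MulAction

namespace Fermat.Agent.S24

section Generic

variable {G X : Type*} [Group G] [MulAction G X]

/-- `toPerm` commutes with integer powers. -/
theorem toPerm_zpow (g : G) (k : ℤ) :
    (MulAction.toPerm g : Equiv.Perm X) ^ k = MulAction.toPerm (g ^ k) :=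
  (map_zpow (MulAction.toPermHom G X) g k).symm

/-- The orbit relation of `⟨g⟩` only depends on the permutation induced by `g`. -/
theorem orbitRel_zpowers_eq_toPerm (g : G) :
    orbitRel (Subgroup.zpowers g) X =
      orbitRel (Subgroup.zpowers (MulAction.toPerm g : Equiv.Perm X)) X := by
  ext x y
  simp only [orbitRel_apply, mem_orbit_iff]
  constructor
  · rintro ⟨⟨h, hh⟩, rfl⟩
    obtain ⟨k, rfl⟩ := Subgroup.mem_zpowers_iff.mp hh
    refine ⟨⟨(MulAction.toPerm g : Equiv.Perm X) ^ k, Subgroup.zpow_mem_zpowers _ k⟩, ?_⟩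
    change ((MulAction.toPerm g : Equiv.Perm X) ^ k) y = g ^ k • y
    rw [toPerm_zpow]
    rfl
  · rintro ⟨⟨h, hh⟩, rfl⟩
    obtain ⟨k, rfl⟩ := Subgroup.mem_zpowers_iff.mp hh
    refine ⟨⟨g ^ k, Subgroup.zpow_mem_zpowers _ k⟩, ?_⟩
    change g ^ k • y = ((MulAction.toPerm g : Equiv.Perm X) ^ k) y
    rw [toPerm_zpow]
    rfl

/-- The number of orbits of `⟨g⟩` only depends on the permutation induced by `g`. -/
theorem card_orbits_zpowers_eq_toPerm (g : G) :
    Nat.card (orbitRel.Quotient (Subgroup.zpowers g) X) =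
      Nat.card (orbitRel.Quotient (Subgroup.zpowers (MulAction.toPerm g : Equiv.Perm X)) X) := by
  unfold orbitRel.Quotient
  rw [orbitRel_zpowers_eq_toPerm]

end Generic

section Perm

variable {X : Type*} [Fintype X] [DecidableEq X]

omit [Fintype X] [DecidableEq X] in
/-- If `σ ^ p = 1` with `p` prime, a nontrivial power of `σ` has the same fixed points as `σ`. -/
theorem fixedBy_eq_of_mem_zpowers {σ : Equiv.Perm X} {p : ℕ} (hp : p.Prime) (hσ : σ ^ p = 1)
    {h : Equiv.Perm X} (hh : h ∈ Subgroup.zpowers σ) (h1 : h ≠ 1) (x : X) :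
    h x = x ↔ σ x = x := by
  obtain ⟨k, rfl⟩ := Subgroup.mem_zpowers_iff.mp hh
  have hpk : ¬ (p : ℤ) ∣ k := by
    rintro ⟨m, rfl⟩
    apply h1
    rw [zpow_mul, zpow_natCast, hσ, one_zpow]
  have hcop : IsCoprime k (p : ℤ) :=
    ((Nat.prime_iff_prime_int.mp hp).coprime_iff_not_dvd.mpr hpk).symm
  obtain ⟨a, b, hab⟩ := hcop
  have hσk : σ = (σ ^ k) ^ a := by
    have e0 : σ ^ (a * k + b * (p : ℤ)) = σ := by rw [hab, zpow_one]
    have e1 : σ ^ (b * (p : ℤ)) = 1 := by
      rw [mul_comm, zpow_mul, zpow_natCast, hσ, one_zpow]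
    have e2 : σ ^ (a * k) = (σ ^ k) ^ a := by rw [mul_comm, zpow_mul]
    rw [zpow_add, e1, mul_one, e2] at e0
    exact e0.symm
  constructor
  · intro hx
    rw [hσk]
    exact (Equiv.Perm.zpow_apply_eq_self_of_apply_eq_self hx a)
  · intro hx
    exact Equiv.Perm.zpow_apply_eq_self_of_apply_eq_self hx k

/-- Burnside count for a permutation of prime exponent. -/
theorem mul_card_orbits_zpowers_perm (σ : Equiv.Perm X) {p : ℕ} (hp : p.Prime)
    (hσ : σ ^ p = 1) :
    p * Nat.card (orbitRel.Quotient (Subgroup.zpowers σ) X) =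
      Nat.card X + (p - 1) * Nat.card {x : X // σ x = x} := by
  classical
  let _ : Fintype (orbitRel.Quotient (Subgroup.zpowers σ) X) := Fintype.ofFinite _
  have hB := MulAction.sum_card_fixedBy_eq_card_orbits_mul_card_group (Subgroup.zpowers σ) X
  simp only [Nat.card_eq_fintype_card]
  have hfix : ∀ h : Subgroup.zpowers σ, Fintype.card (fixedBy X h) =
      if h = 1 then Fintype.card X else Fintype.card {x : X // σ x = x} := by
    intro h
    split_ifs with h1
    · subst h1
      refine Fintype.card_congr ⟨fun x => x.1, fun x => ⟨x, by simp⟩,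
        fun x => rfl, fun x => rfl⟩
    · have h1' : (h : Equiv.Perm X) ≠ 1 := fun hh => h1 (Subtype.ext hh)
      refine Fintype.card_congr (Equiv.subtypeEquivRight fun x => ?_)
      rw [mem_fixedBy]
      exact fixedBy_eq_of_mem_zpowers hp hσ h.2 h1' x
  rw [Finset.sum_congr rfl (fun h _ => hfix h), Finset.sum_ite, Finset.sum_const,
    Finset.sum_const, smul_eq_mul, smul_eq_mul] at hB
  have hone : (Finset.univ.filter fun h : Subgroup.zpowers σ => h = 1).card = 1 := by
    rw [Finset.card_eq_one]
    exact ⟨1, by ext h; simp⟩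
  have hne : (Finset.univ.filter fun h : Subgroup.zpowers σ => ¬ h = 1).card =
      Fintype.card (Subgroup.zpowers σ) - 1 := by
    have := Finset.card_filter_add_card_filter_not (s := Finset.univ)
      (fun h : Subgroup.zpowers σ => h = 1)
    rw [hone, Finset.card_univ] at this
    omega
  rw [hone, hne, one_mul] at hB
  have hcard : Fintype.card (Subgroup.zpowers σ) = orderOf σ := Fintype.card_zpowers
  rw [hcard] at hB
  have hdvd : orderOf σ ∣ p := orderOf_dvd_of_pow_eq_one hσ
  rcases (Nat.dvd_prime hp).mp hdvd with h1 | h1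
  · -- `σ = 1`
    rw [h1] at hB
    have hσ1 : σ = 1 := orderOf_eq_one_iff.mp h1
    have hF : Fintype.card {x : X // σ x = x} = Fintype.card X := by
      refine Fintype.card_congr ⟨fun x => x.1, fun x => ⟨x, by simp [hσ1]⟩,
        fun x => rfl, fun x => rfl⟩
    rw [hF]
    have hp1 : 1 ≤ p := hp.one_le
    simp only [Nat.sub_self, zero_mul, add_zero, mul_one] at hB
    rw [← hB]
    have : p = 1 + (p - 1) := by omega
    calc p * Fintype.card X = (1 + (p - 1)) * Fintype.card X := by rw [← this]
      _ = Fintype.card X + (p - 1) * Fintype.card X := by ring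
  · rw [h1] at hB
    rw [mul_comm, ← hB]

end Perm

section Main

variable {G X : Type*} [Group G] [MulAction G X]

/-- **Orbit count.** If `g ^ p` acts trivially on the finite set `X` (`p` prime), then
`p * #(X / ⟨g⟩) = #X + (p - 1) * #Fix(g)`. -/
theorem mul_card_orbits_zpowers [Finite X] (g : G) {p : ℕ} (hp : p.Prime) (hg : ∀ x : X, g ^ p • x = x) :
    p * Nat.card (orbitRel.Quotient (Subgroup.zpowers g) X) =
      Nat.card X + (p - 1) * Nat.card {x : X // g • x = x} := by
  classical
  let _ : Fintype X := Fintype.ofFinite X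
  rw [card_orbits_zpowers_eq_toPerm]
  have hσ : (MulAction.toPerm g : Equiv.Perm X) ^ p = 1 := by
    ext x
    have : ((MulAction.toPerm g : Equiv.Perm X) ^ p) x = g ^ p • x := by
      rw [← zpow_natCast, toPerm_zpow, zpow_natCast]
      rfl
    rw [this, hg]
    rfl
  exact mul_card_orbits_zpowers_perm _ hp hσ

/-- If `g ^ p` acts trivially (`p` prime), the orbit of a fixed point of `g` under `⟨g⟩` is a
singleton and every other orbit has exactly `p` elements. -/
theorem card_orbit_zpowers (g : G) {p : ℕ} (hp : p.Prime) (hg : ∀ x : X, g ^ p • x = x)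
    (x : X) [Decidable (g • x = x)] :
    Nat.card (orbit (Subgroup.zpowers g) x) = if g • x = x then 1 else p := by
  have hper : Function.IsPeriodicPt (g • ·) p x := by
    have : (g • · : X → X)^[p] x = g ^ p • x := by
      rw [smul_iterate]
    unfold Function.IsPeriodicPt Function.IsFixedPt
    rw [this, hg]
  have hdvd : Function.minimalPeriod (g • ·) x ∣ p := hper.minimalPeriod_dvd
  have hcard : Nat.card (orbit (Subgroup.zpowers g) x) = Function.minimalPeriod (g • ·) x := by
    rw [Nat.card_congr (MulAction.orbitZPowersEquiv g x)]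
    have hpos : 0 < Function.minimalPeriod (g • ·) x := hper.minimalPeriod_pos hp.pos
    have : NeZero (Function.minimalPeriod (g • ·) x) := ⟨hpos.ne'⟩
    rw [Nat.card_eq_fintype_card, ZMod.card]
  rw [hcard]
  split_ifs with hx
  · exact Function.minimalPeriod_eq_one_iff_isFixedPt.mpr hx
  · rcases (Nat.dvd_prime hp).mp hdvd with h1 | h1
    · exact absurd (Function.minimalPeriod_eq_one_iff_isFixedPt.mp h1) hx
    · exact h1

/-- Conjugation invariance of the number of fixed points. -/
theorem card_fixed_conj (a g : G) :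
    Nat.card {x : X // (a * g * a⁻¹) • x = x} = Nat.card {x : X // g • x = x} := by
  refine Nat.card_congr ⟨fun x => ⟨a⁻¹ • x.1, ?_⟩, fun x => ⟨a • x.1, ?_⟩, ?_, ?_⟩
  · have := congrArg (fun y => a⁻¹ • y) x.2
    simpa [mul_smul] using this
  · have := x.2
    simp only [mul_smul, inv_smul_smul]
    rw [this]
  · intro x; simp
  · intro x; simp

/-- Conjugation invariance of the number of orbits of a cyclic subgroup. -/
theorem card_orbits_zpowers_conj (a g : G) :
    Nat.card (orbitRel.Quotient (Subgroup.zpowers (a * g * a⁻¹)) X) =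
      Nat.card (orbitRel.Quotient (Subgroup.zpowers g) X) := by
  have key : ∀ x y : X, orbitRel (Subgroup.zpowers (a * g * a⁻¹)) X x y ↔
      orbitRel (Subgroup.zpowers g) X (a⁻¹ • x) (a⁻¹ • y) := by
    intro x y
    simp only [orbitRel_apply, mem_orbit_iff]
    constructor
    · rintro ⟨⟨h, hh⟩, rfl⟩
      obtain ⟨k, rfl⟩ := Subgroup.mem_zpowers_iff.mp hh
      refine ⟨⟨g ^ k, Subgroup.zpow_mem_zpowers _ k⟩, ?_⟩
      change g ^ k • a⁻¹ • y = a⁻¹ • ((a * g * a⁻¹) ^ k • y)
      rw [show a * g * a⁻¹ = MulAut.conj a g from rfl, ← map_zpow]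
      simp [mul_smul]
    · rintro ⟨⟨h, hh⟩, hxy⟩
      obtain ⟨k, rfl⟩ := Subgroup.mem_zpowers_iff.mp hh
      refine ⟨⟨(a * g * a⁻¹) ^ k, Subgroup.zpow_mem_zpowers _ k⟩, ?_⟩
      change (a * g * a⁻¹) ^ k • y = x
      have hxy' : g ^ k • a⁻¹ • y = a⁻¹ • x := hxy
      rw [show a * g * a⁻¹ = MulAut.conj a g from rfl, ← map_zpow]
      simp only [MulAut.conj_apply, mul_smul]
      rw [hxy']
      simp
  refine Nat.card_congr ⟨Quotient.map' (fun x => a⁻¹ • x) fun x y h => (key x y).mp h,
    Quotient.map' (fun x => a • x) fun x y h => (key _ _).mpr (by simpa using h), ?_, ?_⟩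
  · intro q
    induction q using Quotient.inductionOn' with
    | h x => simp [Quotient.map'_mk'']
  · intro q
    induction q using Quotient.inductionOn' with
    | h x => simp [Quotient.map'_mk'']

end Main

end Fermat.Agent.S24
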