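import Fermat.Agent.S24.MDefs
import Fermat.Agent.S24.DiffPlace

/-!
# S24, modular half, task M1c (core): places over `t = 0`  ↔  orbits of `g` on `X`

`card_zeroPlaces_eq_card_orbits_of` is the abstract orbit-counting theorem, with the two
pure-algebra inputs M1a ("Lemma E") and M1b (an embedding induces a place) as hypotheses
`hA`, `hB`.  The wrapper with the exact interface statement is in `OrbitPlaces.lean`.
-/

set_option autoImplicit false

open ModularCurve AlgebraicCurve

noncomputable section

namespace Fermat.Agent.S24.OrbitPlaces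

/-- Two places whose orders are positively proportional are equal. -/
theorem place_eq_of_proportional {K F : Type*} [Field K] [Field F] [Algebra K F]
    (v w : Place K F) (a b : ℕ) (ha : 0 < a) (hb : 0 < b)
    (hprop : ∀ f : F, f ≠ 0 → (a : ℤ) * v.ord f = b * w.ord f) : v = w := by
  apply Place.ext
  ext f
  rcases eq_or_ne f 0 with rfl | hf
  · simp only [zero_mem]
  · rw [← DiffPlace.ord_nonneg_iff_mem, ← DiffPlace.ord_nonneg_iff_mem]
    have h3 := hprop f hf
    have p1 : (0 : ℤ) < a := by exact_mod_cast ha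
    have p2 : (0 : ℤ) < b := by exact_mod_cast hb
    constructor
    · intro hge
      have h4 : 0 ≤ (b : ℤ) * w.ord f := by
        rw [← h3]
        exact mul_nonneg p1.le hge
      exact nonneg_of_mul_nonneg_right h4 p2
    · intro hge
      have h4 : 0 ≤ (a : ℤ) * v.ord f := by
        rw [h3]
        exact mul_nonneg p2.le hge
      exact nonneg_of_mul_nonneg_right h4 p1

/-- Every place has a uniformizer. -/
theorem exists_ord_eq_one {K F : Type*} [Field K] [Field F] [Algebra K F] (v : Place K F) :
    ∃ π : F, π ≠ 0 ∧ v.ord π = 1 := by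
  obtain ⟨π, hπ⟩ := IsDiscreteValuationRing.exists_irreducible v.toValuationSubring
  refine ⟨(π : F), ?_, v.ord_coe_irreducible hπ⟩
  intro h0
  exact hπ.ne_zero (Subtype.ext h0)

/-- M1c, core form: the abstract orbit-counting theorem with M1a (`hA`) and M1b (`hB`) as
hypotheses. -/
theorem card_zeroPlaces_eq_card_orbits_of {K F : Type*} [Field K] [Field F] [Algebra K F]
    (t : F) (n : ℕ)
    (hFI : ∃ s : Finset (Place K F), (∀ v, v ∈ s ↔ 0 < v.ord t) ∧ ∑ v ∈ s, v.ord t = (n : ℤ))
    {G : Type*} [Group G] {X : Type*} [Fintype X] [MulAction G X] (g : G) (h : ℕ) (hh : 0 < h)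
    (E : EmbFamily K F t X g h) (hn : n ≤ Fintype.card X)
    (hA : ∀ (v : Place K F), 0 < v.ord t → ∀ Y : Finset X,
      (∀ y ∈ Y, ∃ m : ℕ, 0 < m ∧ ∀ f : F, f ≠ 0 → (E.ι y f).order = m * v.ord f) →
      (Y.card : ℤ) ≤ v.ord t)
    (hB : ∀ x : X, ∃ (v : Place K F) (m : ℕ), 0 < m ∧
      ∀ f : F, f ≠ 0 → (E.ι x f).order = m * v.ord f) :
    Nat.card {v : Place K F // 0 < v.ord t}
        = Nat.card (MulAction.orbitRel.Quotient (Subgroup.zpowers g) X)
      ∧ n = Fintype.card X := by
  classical
  obtain ⟨s, hs, hsum⟩ := hFI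
  choose vp m hm hvm using hB
  have hhZ : (0 : ℤ) < h := by exact_mod_cast hh
  have hmZ : ∀ x, (0 : ℤ) < m x := fun x => by exact_mod_cast hm x
  -- `t ≠ 0` as soon as `X` is nonempty
  have ht0 : X → t ≠ 0 := by
    intro x ht
    have h1 := E.order_t x
    have h2 : E.ι x t = 0 := (map_eq_zero (E.ι x)).2 ht
    rw [h2, HahnSeries.order_zero] at h1
    omega
  have hht : ∀ x, (h : ℤ) = m x * (vp x).ord t := by
    intro x
    rw [← hvm x t (ht0 x), E.order_t x]
  have hpos : ∀ x, 0 < (vp x).ord t := by
    intro x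
    have h1 : (0 : ℤ) < m x * (vp x).ord t := by rw [← hht x]; exact hhZ
    exact pos_of_mul_pos_right h1 (hmZ x).le
  have hmem : ∀ x, vp x ∈ s := fun x => (hs _).2 (hpos x)
  -- the fibres of `x ↦ v_x`
  let fib : Place K F → Finset X := fun v => Finset.univ.filter (fun x => vp x = v)
  have hfib_mem : ∀ v x, x ∈ fib v ↔ vp x = v := by
    intro v x
    simp only [fib, Finset.mem_filter, Finset.mem_univ, true_and]
  have hfib_le : ∀ v ∈ s, ((fib v).card : ℤ) ≤ v.ord t := by
    intro v hv
    apply hA v ((hs v).1 hv)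
    intro y hy
    have hy' : vp y = v := (hfib_mem v y).1 hy
    exact ⟨m y, hm y, fun f hf => by rw [← hy']; exact hvm y f hf⟩
  have hcard : Fintype.card X = ∑ v ∈ s, (fib v).card := by
    rw [← Finset.card_univ]
    exact Finset.card_eq_sum_card_fiberwise (fun x _ => hmem x)
  have hcardZ : (Fintype.card X : ℤ) = ∑ v ∈ s, ((fib v).card : ℤ) := by
    rw [hcard]
    push_cast
    rfl
  have hle : (Fintype.card X : ℤ) ≤ n := by
    rw [hcardZ, ← hsum]
    exact Finset.sum_le_sum hfib_le
  have hnX : n = Fintype.card X := by omega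
  have hfib_eq : ∀ v ∈ s, ((fib v).card : ℤ) = v.ord t := by
    have hz : ∑ v ∈ s, (v.ord t - ((fib v).card : ℤ)) = 0 := by
      rw [Finset.sum_sub_distrib, hsum, ← hcardZ, hnX]
      simp
    have h1 := (Finset.sum_eq_zero_iff_of_nonneg
      (fun v hv => sub_nonneg.2 (hfib_le v hv))).1 hz
    intro v hv
    have := h1 v hv
    omega
  -- invariance of `v_x` along orbits
  have hvg : ∀ x, vp (g • x) = vp x := by
    intro x
    refine place_eq_of_proportional _ _ (m (g • x)) (m x) (hm _) (hm _) ?_
    intro f hf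
    rw [← hvm (g • x) f hf, ← hvm x f hf, E.order_smul]
  have hvpow : ∀ (k : ℕ) (x : X), vp (g ^ k • x) = vp x := by
    intro k
    induction k with
    | zero => intro x; simp
    | succ k ih => intro x; rw [pow_succ', mul_smul, hvg, ih]
  have hvz : ∀ (k : ℤ) (x : X), vp (g ^ k • x) = vp x := by
    intro k x
    cases k with
    | ofNat k => simpa using hvpow k x
    | negSucc k =>
      rw [zpow_negSucc]
      have h1 := hvpow (k + 1) ((g ^ (k + 1))⁻¹ • x)
      rw [smul_inv_smul] at h1
      exact h1.symm
  -- the key point: a fibre is a single orbit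
  have hkey : ∀ x y : X, vp x = vp y → ∃ i : ℕ, g ^ i • y = x := by
    intro x y hxy
    set v := vp y with hv
    set k := Function.minimalPeriod (g • · : X → X) y with hk
    have hkpos : 0 < k :=
      Function.minimalPeriod_pos_of_mem_periodicPts
        ((MulAction.injective g).mem_periodicPts y)
    have hper : g ^ k • y = y := by
      have h1 := Function.iterate_minimalPeriod (f := (g • · : X → X)) (x := y)
      rw [smul_iterate] at h1
      exact h1
    obtain ⟨π, hπ0, hπ⟩ := exists_ord_eq_one v
    have hdvd := E.dvd y k hkpos hper π hπ0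
    rw [hvm y π hπ0, hπ, mul_one, hht y, mul_comm (k : ℤ)] at hdvd
    have hek : v.ord t ∣ (k : ℤ) := (mul_dvd_mul_iff_left (hmZ y).ne').1 hdvd
    have hekle : v.ord t ≤ k := Int.le_of_dvd (by exact_mod_cast hkpos) hek
    -- the orbit segment
    let I : Finset X := (Finset.range k).image (fun i => g ^ i • y)
    have hIsub : I ⊆ fib v := by
      intro z hz
      obtain ⟨i, -, rfl⟩ := Finset.mem_image.1 hz
      exact (hfib_mem v _).2 (hvpow i y)
    have hIcard : I.card = k := by
      rw [Finset.card_image_of_injOn, Finset.card_range]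
      intro i hi j hj hij
      have hi' : i < k := Finset.mem_range.1 hi
      have hj' : j < k := Finset.mem_range.1 hj
      have h1 : (g • · : X → X)^[i] y = (g • · : X → X)^[j] y := by
        simp only [smul_iterate]
        exact hij
      exact (Function.iterate_eq_iterate_iff_of_lt_minimalPeriod hi' hj').1 h1
    have hfv := hfib_eq v (hmem y)
    have hle2 : (fib v).card ≤ I.card := by
      rw [hIcard]
      have : ((fib v).card : ℤ) ≤ k := by rw [hfv]; exact hekle
      exact_mod_cast this
    have hIeq : I = fib v := Finset.eq_of_subset_of_card_le hIsub hle2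
    have hx : x ∈ I := by
      rw [hIeq]
      exact (hfib_mem v x).2 hxy
    obtain ⟨i, -, hi⟩ := Finset.mem_image.1 hx
    exact ⟨i, hi⟩
  -- the bijection orbits → places
  let φ : MulAction.orbitRel.Quotient (Subgroup.zpowers g) X → {v : Place K F // 0 < v.ord t} :=
    Quotient.lift (fun x => (⟨vp x, hpos x⟩ : {v : Place K F // 0 < v.ord t})) (by
      intro a b hab
      obtain ⟨⟨z, hz⟩, hzb⟩ := hab
      obtain ⟨k, rfl⟩ := Subgroup.mem_zpowers_iff.1 hz
      apply Subtype.ext
      have : g ^ k • b = a := hzb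
      show vp a = vp b
      rw [← this]
      exact hvz k b)
  have hφ : ∀ x : X, φ (Quotient.mk _ x) = ⟨vp x, hpos x⟩ := fun x => rfl
  have hinj : Function.Injective φ := by
    intro a b
    induction a using Quotient.inductionOn with
    | _ x =>
      induction b using Quotient.inductionOn with
      | _ y =>
        intro hab
        rw [hφ, hφ] at hab
        have hxy : vp x = vp y := congrArg Subtype.val hab
        obtain ⟨i, hi⟩ := hkey x y hxy
        apply Quotient.sound
        exact ⟨⟨g ^ i, Subgroup.npow_mem_zpowers g i⟩, hi⟩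
  have hsurj : Function.Surjective φ := by
    rintro ⟨v, hv⟩
    have hvs : v ∈ s := (hs v).2 hv
    have hne : (fib v).Nonempty := by
      rw [← Finset.card_pos]
      have := hfib_eq v hvs
      omega
    obtain ⟨x, hx⟩ := hne
    refine ⟨Quotient.mk _ x, ?_⟩
    rw [hφ]
    exact Subtype.ext ((hfib_mem v x).1 hx)
  exact ⟨(Nat.card_eq_of_bijective φ ⟨hinj, hsurj⟩).symm, hnX⟩

end Fermat.Agent.S24.OrbitPlaces
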