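import Mathlib

/-!
# S24 / GNAT core (pure Mathlib)

* `scott_inequality`: Scott's lemma for three endomorphisms with `A B C = 1`.
* `card_quotient_sameCycle`: the number of orbits of a permutation in terms of its cycle type.
* `finrank_ker_id_sub_permMap`, `finrank_range_id_sub_permMap`: invariants / rank of `1 - π`
  on the permutation module `X → ℚ`.
-/

set_option autoImplicit false

namespace Fermat.Agent.S24.GNat

open Module LinearMap

section Scott

variable {k V : Type*} [Field k] [AddCommGroup V] [Module k V] [FiniteDimensional k V]

/-- **Scott's lemma** for three endomorphisms with `A * B * C = 1`. -/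
theorem scott_inequality (A B C : V →ₗ[k] V) (h : ∀ v, A (B (C v)) = v) :
    finrank k V + finrank k ↥(range (LinearMap.id - A) ⊔ range (LinearMap.id - B)) ≤
      finrank k ↥(ker (LinearMap.id - A) ⊓ ker (LinearMap.id - B)) +
        (finrank k (range (LinearMap.id - A)) + finrank k (range (LinearMap.id - B)) +
          finrank k (range (LinearMap.id - C))) := by
  let a : V →ₗ[k] V := LinearMap.id - A
  let b : V →ₗ[k] V := LinearMap.id - B
  let c : V →ₗ[k] V := LinearMap.id - C
  have ha : ∀ v, a v = v - A v := fun v => rfl
  have hb : ∀ v, b v = v - B v := fun v => rfl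
  have hc : ∀ v, c v = v - C v := fun v => rfl
  let β : V →ₗ[k] (range a × range b × range c) :=
    a.rangeRestrict.prod (b.rangeRestrict.prod c.rangeRestrict)
  let δ : (range a × range b × range c) →ₗ[k] V :=
    (range a).subtype.coprod ((A ∘ₗ (range b).subtype).coprod (A ∘ₗ B ∘ₗ (range c).subtype))
  have hβ1 : ∀ v, ((β v).1 : V) = a v := fun v => rfl
  have hβ2 : ∀ v, ((β v).2.1 : V) = b v := fun v => rfl
  have hβ3 : ∀ v, ((β v).2.2 : V) = c v := fun v => rfl
  have hδ : ∀ x : range a × range b × range c,
      δ x = (x.1 : V) + (A (x.2.1 : V) + A (B (x.2.2 : V))) := fun x => rfl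
  have hδβ : ∀ v, δ (β v) = 0 := by
    intro v
    rw [hδ, hβ1, hβ2, hβ3, ha, hb, hc, map_sub, map_sub, map_sub, h]
    abel
  have h1 := LinearMap.finrank_range_add_finrank_ker β
  have h2 := LinearMap.finrank_range_add_finrank_ker δ
  have h3 : finrank k (range β) ≤ finrank k (ker δ) := by
    apply Submodule.finrank_mono
    rintro _ ⟨v, rfl⟩
    exact hδβ v
  have h4 : finrank k (ker β) ≤ finrank k ↥(ker a ⊓ ker b) := by
    apply Submodule.finrank_mono
    intro v hv
    have hv' : β v = 0 := hv
    refine ⟨?_, ?_⟩
    · show a v = 0
      rw [← hβ1, hv']; rfl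
    · show b v = 0
      rw [← hβ2, hv']; rfl
  have h5 : finrank k ↥(range a ⊔ range b) ≤ finrank k (range δ) := by
    apply Submodule.finrank_mono
    refine sup_le ?_ ?_
    · rintro _ ⟨v, rfl⟩
      refine ⟨(⟨a v, ⟨v, rfl⟩⟩, 0, 0), ?_⟩
      rw [hδ]
      simp
    · rintro _ ⟨v, rfl⟩
      refine ⟨(⟨a (b v), ⟨b v, rfl⟩⟩, ⟨b v, ⟨v, rfl⟩⟩, 0), ?_⟩
      rw [hδ]
      simp only [ha, ZeroMemClass.coe_zero, map_zero, add_zero]
      abel
  have h6 : finrank k (range a × range b × range c) =
      finrank k (range a) + (finrank k (range b) + finrank k (range c)) := by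
    rw [Module.finrank_prod, Module.finrank_prod]
  show finrank k V + finrank k ↥(range a ⊔ range b) ≤
      finrank k ↥(ker a ⊓ ker b) +
        (finrank k (range a) + finrank k (range b) + finrank k (range c))
  omega

end Scott

open Equiv Equiv.Perm

section Orb

variable {X : Type*} [Fintype X] [DecidableEq X]

/-- auxiliary classifying map: a point goes to itself if fixed, to its cycle otherwise. -/
noncomputable def orbMap (π : Perm X) (x : X) :
    (Function.fixedPoints π) ⊕ π.cycleFactorsFinset :=
  if h : π x = x then Sum.inl ⟨x, h⟩
  else Sum.inr ⟨π.cycleOf x, cycleOf_mem_cycleFactorsFinset_iff.mpr (mem_support.mpr h)⟩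

theorem orbMap_eq_iff (π : Perm X) (x y : X) :
    orbMap π x = orbMap π y ↔ π.SameCycle x y := by
  unfold orbMap
  by_cases hx : π x = x
  · by_cases hy : π y = y
    · rw [dif_pos hx, dif_pos hy]
      constructor
      · intro h
        have : x = y := congrArg Subtype.val (Sum.inl.inj h)
        subst this
        exact SameCycle.refl _ _
      · rintro ⟨i, hi⟩
        have : (π ^ i) x = x := zpow_apply_eq_self_of_apply_eq_self hx i
        have hxy : x = y := this.symm.trans hi
        subst hxy
        rfl
    · rw [dif_pos hx, dif_neg hy]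
      constructor
      · intro h; simp at h
      · intro h
        exact absurd (h.apply_eq_self_iff.mp hx) hy
  · by_cases hy : π y = y
    · rw [dif_neg hx, dif_pos hy]
      constructor
      · intro h; simp at h
      · intro h
        exact absurd (h.apply_eq_self_iff.mpr hy) hx
    · rw [dif_neg hx, dif_neg hy]
      rw [sameCycle_iff_cycleOf_eq_of_mem_support (mem_support.mpr hx) (mem_support.mpr hy)]
      constructor
      · intro h
        have := Sum.inr.inj h
        exact congrArg Subtype.val this
      · intro h
        congr 1
        exact Subtype.ext h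

theorem orbMap_surjective (π : Perm X) : Function.Surjective (orbMap π) := by
  rintro (⟨x, hx⟩ | ⟨c, hc⟩)
  · refine ⟨x, ?_⟩
    have hx' : π x = x := hx
    unfold orbMap
    rw [dif_pos hx']
  · have hc' : c ∈ π.cycleFactorsFinset := hc
    have hcyc : c.IsCycle := (mem_cycleFactorsFinset_iff.mp hc').1
    obtain ⟨x, hx⟩ := hcyc.nonempty_support
    have hxπ : x ∈ π.support := mem_cycleFactorsFinset_support_le hc' hx
    refine ⟨x, ?_⟩
    unfold orbMap
    rw [dif_neg (mem_support.mp hxπ)]
    congr 1
    exact Subtype.ext (cycle_is_cycleOf hx hc').symm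

/-- The number of orbits of `⟨π⟩`, in terms of the cycle type. -/
theorem card_quotient_sameCycle (π : Perm X) :
    Nat.card (Quotient (SameCycle.setoid π)) + π.cycleType.sum
      = Fintype.card X + Multiset.card π.cycleType := by
  classical
  have hbij : Function.Bijective
      (Quotient.lift (s := SameCycle.setoid π) (orbMap π)
        (fun a b (h : π.SameCycle a b) => (orbMap_eq_iff π a b).mpr h)) := by
    constructor
    · intro q q'
      induction q using Quotient.inductionOn with
      | h a =>
        induction q' using Quotient.inductionOn with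
        | h b =>
          intro h
          exact Quotient.sound ((orbMap_eq_iff π a b).mp h)
    · intro z
      obtain ⟨x, hx⟩ := orbMap_surjective π z
      exact ⟨Quotient.mk _ x, hx⟩
  rw [Nat.card_eq_of_bijective _ hbij, Nat.card_sum, Nat.card_eq_fintype_card,
    card_fixedPoints]
  have h1 : Nat.card π.cycleFactorsFinset = Multiset.card π.cycleType := by
    rw [Nat.card_eq_fintype_card, Fintype.card_coe, cycleType_def, Multiset.card_map]
    rfl
  rw [h1]
  have := sum_cycleType_le π
  omega

end Orb

section Inv

variable {X : Type*}

/-- right translation by a permutation on `X → ℚ` -/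
noncomputable def permMap (π : Perm X) : (X → ℚ) →ₗ[ℚ] (X → ℚ) := LinearMap.funLeft ℚ ℚ π

@[simp] theorem permMap_apply (π : Perm X) (v : X → ℚ) (x : X) : permMap π v x = v (π x) := rfl

theorem mem_ker_id_sub_permMap (π : Perm X) (v : X → ℚ) :
    v ∈ LinearMap.ker (LinearMap.id - permMap π) ↔ ∀ x, v (π x) = v x := by
  rw [LinearMap.mem_ker, LinearMap.sub_apply, LinearMap.id_apply, sub_eq_zero]
  constructor
  · intro h x
    exact (congrFun h x).symm
  · intro h
    funext x
    exact (h x).symm

theorem finrank_ker_id_sub_permMap [Fintype X] [DecidableEq X] (π : Perm X) :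
    finrank ℚ (LinearMap.ker (LinearMap.id - permMap π))
      = Nat.card (Quotient (SameCycle.setoid π)) := by
  classical
  let Q := Quotient (SameCycle.setoid π)
  let mk : X → Q := Quotient.mk (SameCycle.setoid π)
  have hmk : Function.Surjective mk := Quotient.mk_surjective
  let Φ : (Q → ℚ) →ₗ[ℚ] (X → ℚ) := LinearMap.funLeft ℚ ℚ mk
  have hΦ : Function.Injective Φ := LinearMap.funLeft_injective_of_surjective ℚ ℚ mk hmk
  have hrange : LinearMap.range Φ = LinearMap.ker (LinearMap.id - permMap π) := by
    ext v
    rw [mem_ker_id_sub_permMap]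
    constructor
    · rintro ⟨w, rfl⟩ x
      show w (mk (π x)) = w (mk x)
      congr 1
      apply Quotient.sound
      show π.SameCycle (π x) x
      exact sameCycle_apply_left.mpr (SameCycle.refl _ _)
    · intro h
      have hz : ∀ (i : ℤ) (x : X), v ((π ^ i) x) = v x := by
        intro i
        induction i using Int.induction_on with
        | zero => intro x; simp
        | succ n ih =>
          intro x
          rw [zpow_add_one, Perm.mul_apply, ih, h]
        | pred n ih =>
          intro x
          rw [zpow_sub_one, Perm.mul_apply, ih]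
          have := h (π⁻¹ x)
          rw [show π (π⁻¹ x) = x from π.apply_symm_apply x] at this
          exact this.symm
      refine ⟨Quotient.lift v (fun a b (hab : π.SameCycle a b) => ?_), ?_⟩
      · obtain ⟨i, rfl⟩ := hab
        exact (hz i a).symm
      · funext x
        rfl
  rw [← hrange, LinearMap.finrank_range_of_inj hΦ, Module.finrank_pi, Nat.card_eq_fintype_card]

/-- rank of `1 - π` on the permutation module, in terms of the cycle type -/
theorem finrank_range_id_sub_permMap [Fintype X] [DecidableEq X] (π : Perm X) :
    finrank ℚ (LinearMap.range (LinearMap.id - permMap π)) + Multiset.card π.cycleType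
      = π.cycleType.sum := by
  have h1 := LinearMap.finrank_range_add_finrank_ker (LinearMap.id - permMap π)
  rw [finrank_ker_id_sub_permMap, Module.finrank_pi] at h1
  have h2 := card_quotient_sameCycle π
  omega

end Inv

end Fermat.Agent.S24.GNat
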