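import Mathlib
import Fermat.Agent.S24.GenusNatCore

/-!
# S24 / GNAT: consequences of transitivity on the permutation module
-/

set_option autoImplicit false

namespace Fermat.Agent.S24.GNat

open Module LinearMap Equiv Equiv.Perm

section Trans

variable {X : Type*} [Fintype X] [DecidableEq X]

omit [Fintype X] [DecidableEq X] in
theorem finrank_common_inv_le_one (σ τ : Perm X) (x₀ : X)
    (htrans : ∀ x, ∃ h ∈ Subgroup.closure ({σ, τ} : Set (Perm X)), h x₀ = x) :
    finrank ℚ ↥(ker (LinearMap.id - permMap τ) ⊓ ker (LinearMap.id - permMap σ)) ≤ 1 := by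
  have hne : (fun _ : X => (1 : ℚ)) ≠ 0 := by
    intro h
    have := congrFun h x₀
    simp at this
  rw [← finrank_span_singleton (K := ℚ) hne]
  apply Submodule.finrank_mono
  rintro v ⟨hτ, hσ⟩
  rw [SetLike.mem_coe, mem_ker_id_sub_permMap] at hτ hσ
  have hcl : ∀ h ∈ Subgroup.closure ({σ, τ} : Set (Perm X)), ∀ x, v (h x) = v x := by
    intro h hh
    induction hh using Subgroup.closure_induction with
    | mem g hg =>
      rcases hg with rfl | rfl
      · exact hσ
      · exact hτ
    | one => intro x; rfl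
    | mul a b _ _ iha ihb =>
      intro x
      rw [Perm.mul_apply, iha, ihb]
    | inv a _ iha =>
      intro x
      have := iha (a⁻¹ x)
      rw [show a (a⁻¹ x) = x from a.apply_symm_apply x] at this
      exact this.symm
  rw [Submodule.mem_span_singleton]
  refine ⟨v x₀, ?_⟩
  funext x
  obtain ⟨h, hh, rfl⟩ := htrans x
  rw [hcl h hh]
  simp

theorem card_le_finrank_range_add_one (σ τ : Perm X) (x₀ : X)
    (htrans : ∀ x, ∃ h ∈ Subgroup.closure ({σ, τ} : Set (Perm X)), h x₀ = x) :
    Fintype.card X ≤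
      finrank ℚ ↥(range (LinearMap.id - permMap τ) ⊔ range (LinearMap.id - permMap σ)) + 1 := by
  set W : Submodule ℚ (X → ℚ) :=
    range (LinearMap.id - permMap τ) ⊔ range (LinearMap.id - permMap σ) with hW
  have hgen : ∀ (g : Perm X), range (LinearMap.id - permMap g) ≤ W →
      ∀ z, (Pi.single (g z) (1 : ℚ) - Pi.single z 1 : X → ℚ) ∈ W := by
    intro g hg z
    apply hg
    refine ⟨Pi.single (g z) 1, ?_⟩
    rw [LinearMap.sub_apply, LinearMap.id_apply]
    congr 1
    funext x
    rw [permMap_apply, Pi.single_apply, Pi.single_apply]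
    simp only [g.injective.eq_iff]
  have hcl : ∀ h ∈ Subgroup.closure ({σ, τ} : Set (Perm X)),
      ∀ z, (Pi.single (h z) (1 : ℚ) - Pi.single z 1 : X → ℚ) ∈ W := by
    intro h hh
    induction hh using Subgroup.closure_induction with
    | mem g hg =>
      rcases hg with rfl | rfl
      · exact hgen _ le_sup_right
      · exact hgen _ le_sup_left
    | one => intro z; simp
    | mul a b _ _ iha ihb =>
      intro z
      have h1 := iha (b z)
      have h2 := ihb z
      have := W.add_mem h1 h2
      rw [Perm.mul_apply]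
      convert this using 1
      abel
    | inv a _ iha =>
      intro z
      have := W.neg_mem (iha (a⁻¹ z))
      rw [show a (a⁻¹ z) = z from a.apply_symm_apply z] at this
      convert this using 1
      abel
  have htop : (⊤ : Submodule ℚ (X → ℚ)) ≤ W ⊔ Submodule.span ℚ {(Pi.single x₀ (1 : ℚ) : X → ℚ)} := by
    intro v _
    have hv : v = ∑ x, v x • (Pi.single x (1 : ℚ) : X → ℚ) := by
      funext y
      simp [Finset.sum_apply, Pi.single_apply]
    rw [hv]
    refine Submodule.sum_mem _ (fun x _ => Submodule.smul_mem _ _ ?_)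
    obtain ⟨h, hh, rfl⟩ := htrans x
    have h1 := hcl h hh x₀
    have h2 : (Pi.single x₀ (1 : ℚ) : X → ℚ) ∈ Submodule.span ℚ {(Pi.single x₀ (1 : ℚ) : X → ℚ)} :=
      Submodule.mem_span_singleton_self _
    have := Submodule.add_mem_sup h1 h2
    convert this using 1
    abel
  have h1 : finrank ℚ (X → ℚ) ≤
      finrank ℚ ↥(W ⊔ Submodule.span ℚ {(Pi.single x₀ (1 : ℚ) : X → ℚ)}) := by
    rw [← finrank_top ℚ (X → ℚ)]
    exact Submodule.finrank_mono htop
  have h2 := Submodule.finrank_add_le_finrank_add_finrank W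
    (Submodule.span ℚ {(Pi.single x₀ (1 : ℚ) : X → ℚ)})
  have hne : (Pi.single x₀ (1 : ℚ) : X → ℚ) ≠ 0 := by
    intro h
    have := congrFun h x₀
    simp at this
  have h3 : finrank ℚ ↥(Submodule.span ℚ {(Pi.single x₀ (1 : ℚ) : X → ℚ)}) ≤ 1 :=
    (finrank_span_singleton (K := ℚ) hne).le
  rw [Module.finrank_pi] at h1
  omega

end Trans

end Fermat.Agent.S24.GNat
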