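import Mathlib
import Fermat.Agent.S24.GenusNatCore
import Fermat.Agent.S24.GenusNatTrans

/-!
# S24 / GNAT: Ree's inequality, parity, and the genus of a permutation triple

`perm_triple_genus`: for a transitive pair of permutations `σ, τ` with `σ² = 1`, `(στ)³ = 1`,
the number `1 + n/12 - f₂/4 - f₃/3 - c/2` is a natural number.
-/

set_option autoImplicit false

namespace Fermat.Agent.S24.GNat

open Module LinearMap Equiv Equiv.Perm

section Main

variable {X : Type*} [Fintype X] [DecidableEq X]

/-- Ree's inequality (via Scott's lemma) for a transitive pair `σ, τ` and `ρ = σ τ`. -/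
theorem ree_inequality (σ τ : Perm X) (x₀ : X)
    (htrans : ∀ x, ∃ h ∈ Subgroup.closure ({σ, τ} : Set (Perm X)), h x₀ = x) :
    2 * Fintype.card X + (Multiset.card σ.cycleType + Multiset.card τ.cycleType +
        Multiset.card (σ * τ).cycleType)
      ≤ 2 + (σ.cycleType.sum + τ.cycleType.sum + (σ * τ).cycleType.sum) := by
  have hABC : ∀ v : X → ℚ, permMap τ (permMap σ (permMap (σ * τ)⁻¹ v)) = v := by
    intro v
    funext x
    simp only [permMap_apply]
    congr 1
    rw [← Perm.mul_apply, ← Perm.mul_apply, mul_assoc, inv_mul_cancel]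
    rfl
  have h := scott_inequality (permMap τ) (permMap σ) (permMap (σ * τ)⁻¹) hABC
  have h1 := finrank_common_inv_le_one σ τ x₀ htrans
  have h2 := card_le_finrank_range_add_one σ τ x₀ htrans
  have r1 := finrank_range_id_sub_permMap σ
  have r2 := finrank_range_id_sub_permMap τ
  have r3 := finrank_range_id_sub_permMap (σ * τ)⁻¹
  rw [cycleType_inv] at r3
  rw [Module.finrank_pi] at h
  omega

/-- parity from the sign character -/
theorem parity_cycleType (σ τ : Perm X) :
    Even ((σ.cycleType.sum + τ.cycleType.sum + (σ * τ).cycleType.sum) +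
      (Multiset.card σ.cycleType + Multiset.card τ.cycleType +
        Multiset.card (σ * τ).cycleType)) := by
  have h := Perm.sign_mul σ τ
  rw [sign_of_cycleType, sign_of_cycleType σ, sign_of_cycleType τ, ← pow_add] at h
  have h2 : ((-1 : ℤˣ)) ^ ((σ * τ).cycleType.sum + Multiset.card (σ * τ).cycleType +
      (σ.cycleType.sum + Multiset.card σ.cycleType +
        (τ.cycleType.sum + Multiset.card τ.cycleType))) = 1 := by
    rw [pow_add, h, ← pow_add, ← two_mul, pow_mul]
    simp
  have h3 : Even ((σ * τ).cycleType.sum + Multiset.card (σ * τ).cycleType +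
      (σ.cycleType.sum + Multiset.card σ.cycleType +
        (τ.cycleType.sum + Multiset.card τ.cycleType))) := by
    by_contra hodd
    rw [Nat.not_even_iff_odd] at hodd
    rw [hodd.neg_one_pow] at h2
    exact absurd h2 (by decide)
  convert h3 using 1
  ring

/-- cycle type of a permutation killed by a prime power `p`: all cycles have length `p`. -/
theorem sum_cycleType_of_pow_prime_eq_one (π : Perm X) {p : ℕ} (hp : p.Prime) (h : π ^ p = 1) :
    π.cycleType.sum = p * Multiset.card π.cycleType := by
  have hall : ∀ n ∈ π.cycleType, n = p := by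
    intro n hn
    have h1 : n ∣ orderOf π := dvd_of_mem_cycleType hn
    have h2 : orderOf π ∣ p := orderOf_dvd_of_pow_eq_one h
    have h3 : 2 ≤ n := two_le_of_mem_cycleType hn
    rcases (Nat.dvd_prime hp).mp (h1.trans h2) with h4 | h4
    · omega
    · exact h4
  rw [Multiset.eq_replicate_card.mpr hall, Multiset.sum_replicate, Multiset.card_replicate,
    smul_eq_mul, mul_comm]

/-- **Integrality and non-negativity of the genus** of a transitive permutation triple
`σ² = 1`, `(στ)³ = 1`. -/
theorem perm_triple_genus (σ τ : Perm X) (x₀ : X)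
    (htrans : ∀ x, ∃ h ∈ Subgroup.closure ({σ, τ} : Set (Perm X)), h x₀ = x)
    (hσ : σ ^ 2 = 1) (hρ : (σ * τ) ^ 3 = 1) :
    ∃ g : ℕ, 12 * g + 3 * Fintype.card (Function.fixedPoints σ)
        + 4 * Fintype.card (Function.fixedPoints (σ * τ))
        + 6 * Nat.card (Quotient (SameCycle.setoid τ)) = 12 + Fintype.card X := by
  have h1 := ree_inequality σ τ x₀ htrans
  have h2 := parity_cycleType σ τ
  have h3 := sum_cycleType_of_pow_prime_eq_one σ Nat.prime_two hσ
  have h4 := sum_cycleType_of_pow_prime_eq_one (σ * τ) Nat.prime_three hρ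
  have h5 := card_quotient_sameCycle τ
  have h6 := card_fixedPoints σ
  have h7 := card_fixedPoints (σ * τ)
  have h8 := sum_cycleType_le σ
  have h9 := sum_cycleType_le (σ * τ)
  have h10 := sum_cycleType_le τ
  obtain ⟨m, hm⟩ := h2
  -- `Σ s + 2 - 2n - Σ k = 2 g`
  refine ⟨(σ.cycleType.sum + τ.cycleType.sum + (σ * τ).cycleType.sum + 2
      - 2 * Fintype.card X - (Multiset.card σ.cycleType + Multiset.card τ.cycleType +
        Multiset.card (σ * τ).cycleType)) / 2, ?_⟩
  omega

end Main

end Fermat.Agent.S24.GNat
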