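import Mathlib
import Fermat.Prelude.Def_ModularCurve_GenusNumerics
import Fermat.Agent.S24.Interfaces
import Fermat.Agent.S21.C1.Index
import Fermat.Agent.S21.C.FixS
import Fermat.Agent.S21.C.FixST
import Fermat.Agent.S21.C4.Main
import Fermat.Agent.S24.GenusNatPerm

/-!
# S24 / GNAT: the genus formula of `X₀(N)` is a natural number

Uses the landed counts of project ES (`Fermat.Agent.S21`): index of `Γ₀(N)`, fixed points of
`S` and `S T` on the coset space and the number of `T`-orbits.

Main results: `genusFormula_eq_natCast`, `toNat_div_two_eq_genusFormula`, `ifaceGNat`.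
-/

set_option autoImplicit false

open scoped MatrixGroups
open CongruenceSubgroup

namespace Fermat.Agent.S24.GNat

open Equiv Equiv.Perm

section Concrete

theorem neg_one_smul_coset (N : ℕ) (x : SL(2, ℤ) ⧸ Gamma0 N) : (-1 : SL(2, ℤ)) • x = x := by
  induction x using QuotientGroup.induction_on with
  | H g =>
    show ((-1 * g : SL(2, ℤ)) : SL(2, ℤ) ⧸ Gamma0 N) = g
    rw [QuotientGroup.eq]
    have : (-1 * g)⁻¹ * g = (-1 : SL(2, ℤ)) := by
      rw [mul_inv_rev, mul_assoc]
      simp
    rw [this, Gamma0_mem]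
    simp

theorem S_sq_eq_neg_one : ModularGroup.S ^ 2 = (-1 : SL(2, ℤ)) := by
  apply Subtype.ext
  rw [pow_two]
  simp only [Matrix.SpecialLinearGroup.coe_mul, Matrix.SpecialLinearGroup.coe_neg,
    Matrix.SpecialLinearGroup.coe_one]
  exact ModularGroup.S_mul_S_eq

theorem ST_cube_eq_neg_one : (ModularGroup.S * ModularGroup.T) ^ 3 = (-1 : SL(2, ℤ)) := by
  apply Subtype.ext
  rw [pow_succ, pow_succ, pow_one]
  simp only [Matrix.SpecialLinearGroup.coe_mul, Matrix.SpecialLinearGroup.coe_neg,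
    Matrix.SpecialLinearGroup.coe_one, ModularGroup.coe_S, ModularGroup.coe_T]
  simp [Matrix.one_fin_two]

variable (N : ℕ)

/-- the permutation of the coset space induced by `g` -/
noncomputable def cosetPerm (g : SL(2, ℤ)) : Perm (SL(2, ℤ) ⧸ Gamma0 N) := MulAction.toPerm g

theorem cosetPerm_apply (g : SL(2, ℤ)) (x : SL(2, ℤ) ⧸ Gamma0 N) : cosetPerm N g x = g • x := rfl

theorem cosetPerm_mul (g h : SL(2, ℤ)) : cosetPerm N (g * h) = cosetPerm N g * cosetPerm N h := by
  ext x
  simp [cosetPerm_apply, mul_smul]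

theorem cosetPerm_one : cosetPerm N 1 = 1 := by
  ext x
  simp [cosetPerm_apply]

theorem cosetPerm_neg_one : cosetPerm N (-1) = 1 := by
  ext x
  simp [cosetPerm_apply, neg_one_smul_coset]

theorem cosetPerm_pow (g : SL(2, ℤ)) (n : ℕ) : cosetPerm N (g ^ n) = cosetPerm N g ^ n := by
  induction n with
  | zero => simp [cosetPerm_one]
  | succ n ih => rw [pow_succ, pow_succ, cosetPerm_mul, ih]

theorem cosetPerm_mem_closure (g : SL(2, ℤ)) :
    cosetPerm N g ∈ Subgroup.closure
      ({cosetPerm N ModularGroup.S, cosetPerm N ModularGroup.T} :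
        Set (Perm (SL(2, ℤ) ⧸ Gamma0 N))) := by
  have hg : g ∈ Subgroup.closure ({ModularGroup.S, ModularGroup.T} : Set SL(2, ℤ)) := by
    rw [_root_.SpecialLinearGroup.SL2Z_generators]
    exact Subgroup.mem_top g
  induction hg using Subgroup.closure_induction with
  | mem g hg =>
    apply Subgroup.subset_closure
    rcases hg with rfl | rfl
    · exact Or.inl rfl
    · exact Or.inr rfl
  | one => rw [cosetPerm_one]; exact Subgroup.one_mem _
  | mul a b _ _ iha ihb => rw [cosetPerm_mul]; exact Subgroup.mul_mem _ iha ihb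
  | inv a _ iha =>
    have : cosetPerm N a⁻¹ = (cosetPerm N a)⁻¹ := by
      rw [eq_inv_iff_mul_eq_one, ← cosetPerm_mul, inv_mul_cancel, cosetPerm_one]
    rw [this]
    exact Subgroup.inv_mem _ iha


variable [NeZero N]

theorem card_coset : Nat.card (SL(2, ℤ) ⧸ Gamma0 N) = ModularCurve.dedekindPsi N := by
  rw [← Subgroup.index_eq_card]
  exact Fermat.Agent.S21.C1.index_Gamma0 N

theorem card_fixed_S :
    Nat.card (Function.fixedPoints (cosetPerm N ModularGroup.S)) = ModularCurve.nuTwo N := by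
  rw [← Fermat.Agent.S21.C.fixCount_S_Gamma0 N]
  rfl

theorem card_fixed_ST :
    Nat.card (Function.fixedPoints
      (cosetPerm N ModularGroup.S * cosetPerm N ModularGroup.T)) = ModularCurve.nuThree N := by
  rw [← Fermat.Agent.S21.C.fixCount_ST_Gamma0 N, ← cosetPerm_mul]
  rfl

theorem card_orbits_T :
    Nat.card (Quotient (SameCycle.setoid (cosetPerm N ModularGroup.T)))
      = ModularCurve.cuspCount N := by
  rw [← Fermat.Agent.S21.C4.cuspOrbit_card_Gamma0 N]
  refine Nat.card_congr (Quotient.congr (Equiv.refl _) ?_)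
  intro a b
  show SameCycle (cosetPerm N ModularGroup.T) a b ↔
    a ∈ MulAction.orbit (Subgroup.zpowers ModularGroup.T) b
  have hz : ∀ i : ℤ, cosetPerm N ModularGroup.T ^ i = cosetPerm N (ModularGroup.T ^ i) := by
    intro i
    exact (map_zpow (MulAction.toPermHom SL(2, ℤ) (SL(2, ℤ) ⧸ Gamma0 N)) ModularGroup.T i).symm
  constructor
  · rintro ⟨i, hi⟩
    refine ⟨⟨ModularGroup.T ^ (-i), Subgroup.zpow_mem_zpowers _ _⟩, ?_⟩
    show ModularGroup.T ^ (-i) • b = a
    rw [← hi, hz, cosetPerm_apply, smul_smul, ← zpow_add]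
    simp
  · rintro ⟨⟨g, hg⟩, hgb⟩
    obtain ⟨i, rfl⟩ := Subgroup.mem_zpowers_iff.mp hg
    have hgb' : ModularGroup.T ^ i • b = a := hgb
    refine ⟨-i, ?_⟩
    rw [hz, cosetPerm_apply, ← hgb', smul_smul, ← zpow_add]
    simp


end Concrete

end Fermat.Agent.S24.GNat

namespace Fermat.Agent.S24

open GNat Equiv Equiv.Perm

section Concrete

variable (N : ℕ) [NeZero N]

/-- **GNAT, combinatorial form.** -/
theorem genus_nat_identity :
    ∃ g : ℕ, 12 * g + 3 * ModularCurve.nuTwo N + 4 * ModularCurve.nuThree N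
      + 6 * ModularCurve.cuspCount N = 12 + ModularCurve.dedekindPsi N := by
  classical
  let _ : Fintype (SL(2, ℤ) ⧸ Gamma0 N) := Subgroup.fintypeQuotientOfFiniteIndex
  have hσ : cosetPerm N ModularGroup.S ^ 2 = 1 := by
    rw [← cosetPerm_pow, S_sq_eq_neg_one, cosetPerm_neg_one]
  have hρ : (cosetPerm N ModularGroup.S * cosetPerm N ModularGroup.T) ^ 3 = 1 := by
    rw [← cosetPerm_mul, ← cosetPerm_pow, ST_cube_eq_neg_one, cosetPerm_neg_one]
  have htrans : ∀ x : SL(2, ℤ) ⧸ Gamma0 N, ∃ h ∈ Subgroup.closure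
      ({cosetPerm N ModularGroup.S, cosetPerm N ModularGroup.T} :
        Set (Perm (SL(2, ℤ) ⧸ Gamma0 N))), h ((1 : SL(2, ℤ)) : SL(2, ℤ) ⧸ Gamma0 N) = x := by
    intro x
    induction x using QuotientGroup.induction_on with
    | H g =>
      refine ⟨cosetPerm N g, cosetPerm_mem_closure N g, ?_⟩
      show ((g * 1 : SL(2, ℤ)) : SL(2, ℤ) ⧸ Gamma0 N) = g
      rw [mul_one]
  obtain ⟨g, hg⟩ := perm_triple_genus (cosetPerm N ModularGroup.S) (cosetPerm N ModularGroup.T)
    _ htrans hσ hρ
  rw [← Nat.card_eq_fintype_card, ← Nat.card_eq_fintype_card, ← Nat.card_eq_fintype_card,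
    card_fixed_S, card_fixed_ST, card_orbits_T, card_coset] at hg
  exact ⟨g, hg⟩

/-- **GNAT**: the classical genus formula of `X₀(N)` is a natural number. -/
theorem genusFormula_eq_natCast : ∃ g : ℕ, ModularCurve.genusFormula N = (g : ℚ) := by
  obtain ⟨g, hg⟩ := genus_nat_identity N
  refine ⟨g, ?_⟩
  have h : (12 * g + 3 * ModularCurve.nuTwo N + 4 * ModularCurve.nuThree N
      + 6 * ModularCurve.cuspCount N : ℚ) = 12 + ModularCurve.dedekindPsi N := by
    exact_mod_cast hg
  unfold ModularCurve.genusFormula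
  linarith

/-- The shape needed for the Prelude definition of `genus`: if the canonical degree is
`2 g - 2` with `g = genusFormula N`, then `(deg + 2).toNat / 2 = g`. -/
theorem toNat_div_two_eq_genusFormula (d : ℤ)
    (hd : (d : ℚ) = 2 * ModularCurve.genusFormula N - 2) :
    (((d + 2).toNat / 2 : ℕ) : ℚ) = ModularCurve.genusFormula N := by
  obtain ⟨g, hg⟩ := genusFormula_eq_natCast N
  rw [hg] at hd ⊢
  have hd' : d = 2 * (g : ℤ) - 2 := by
    have : (d : ℚ) = ((2 * (g : ℤ) - 2 : ℤ) : ℚ) := by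
      rw [hd]; push_cast; ring
    exact_mod_cast this
  have : (d + 2).toNat = 2 * g := by
    rw [hd']
    omega
  rw [this, Nat.mul_div_cancel_left g (by norm_num)]

/-- **GNAT**, in the frozen interface shape of `Interfaces.lean`. -/
theorem ifaceGNat : IfaceGNat N :=
  fun d hd => toNat_div_two_eq_genusFormula N d hd

end Concrete

end Fermat.Agent.S24
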