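import Fermat.Agent.S24.Tay

/-!
# S24 AN5 (helper58), part 2: the elliptic points `i` and `ρ`

* `S_smul_ptI`, `ST_smul_ptRho`
* `two_dvd_order_tayAt_I`, `three_dvd_order_tayAt_rho`
-/

set_option autoImplicit false

open ModularCurve AlgebraicCurve CongruenceSubgroup IntermediateField UpperHalfPlane
open scoped MatrixGroups Manifold
open Filter Topology

noncomputable section

namespace Fermat.Agent.S24

theorem h58_coe_ptI : ((ptI : ℍ) : ℂ) = Complex.I := rfl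

theorem h58_coe_ptRho : ((ptRho : ℍ) : ℂ) = (-1 + Real.sqrt 3 * Complex.I) / 2 := rfl

theorem h58_sqrt3_sq : ((Real.sqrt 3 : ℝ) : ℂ) ^ 2 = 3 := by
  rw [← Complex.ofReal_pow, Real.sq_sqrt (by norm_num : (0 : ℝ) ≤ 3)]
  norm_num

theorem S_smul_ptI : ModularGroup.S • ptI = ptI := by
  apply UpperHalfPlane.ext
  rw [UpperHalfPlane.modular_S_smul]
  simp [h58_coe_ptI]

theorem h58_coe_ST_smul (τ : ℍ) :
    (((ModularGroup.S * ModularGroup.T) • τ : ℍ) : ℂ) = -1 / ((τ : ℂ) + 1) := by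
  rw [UpperHalfPlane.coe_specialLinearGroup_apply]
  simp [ModularGroup.S, ModularGroup.T, Matrix.mul_apply, Fin.sum_univ_two]

theorem h58_ptRho_add_one_ne : ((ptRho : ℍ) : ℂ) + 1 ≠ 0 := by
  intro h
  have : (((ptRho : ℍ) : ℂ) + 1).im = 0 := by rw [h]; simp
  have h2 : (((ptRho : ℍ) : ℂ) + 1).im = (ptRho : ℍ).im := by simp
  rw [h2] at this
  exact (ptRho : ℍ).im_pos.ne' this

theorem h58_ptRho_rel : ((ptRho : ℍ) : ℂ) ^ 2 + ((ptRho : ℍ) : ℂ) + 1 = 0 := by
  rw [h58_coe_ptRho]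
  have h3 := h58_sqrt3_sq
  have hI := Complex.I_sq
  linear_combination (1 / 4 : ℂ) * Complex.I ^ 2 * h3 + (3 / 4 : ℂ) * hI

theorem ST_smul_ptRho : (ModularGroup.S * ModularGroup.T) • ptRho = ptRho := by
  apply UpperHalfPlane.ext
  rw [h58_coe_ST_smul, div_eq_iff h58_ptRho_add_one_ne]
  linear_combination -h58_ptRho_rel

theorem h58_denom_S (τ : ℍ) :
    UpperHalfPlane.denom ((ModularGroup.S : SL(2, ℤ)) : GL (Fin 2) ℝ) (τ : ℂ) = (τ : ℂ) := by
  simp [UpperHalfPlane.denom, ModularGroup.S]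

theorem h58_denom_ST (τ : ℍ) :
    UpperHalfPlane.denom ((ModularGroup.S * ModularGroup.T : SL(2, ℤ)) : GL (Fin 2) ℝ) (τ : ℂ) =
      (τ : ℂ) + 1 := by
  simp [UpperHalfPlane.denom, ModularGroup.S, ModularGroup.T, Matrix.mul_apply,
    Fin.sum_univ_two]

/-- an `S`-invariant holomorphic function vanishes to even order at `i`. -/
theorem two_dvd_order_tayAt_I {H : ℍ → ℂ} (hH : MDiff H) (h0 : H ≠ 0)
    (hinv : ∀ τ : ℍ, H (ModularGroup.S • τ) = H τ) :
    2 ∣ (tayAt ptI H).order.toNat := by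
  have h := h58_deriv_pow_order_eq_one hH h0 ModularGroup.S ptI S_smul_ptI hinv
  rw [h58_moeb_deriv, h58_denom_S, h58_coe_ptI, Complex.I_sq] at h
  have h1 : (1 / (-1 : ℂ)) = -1 := by norm_num
  rw [h1] at h
  have hne : (-1 : ℂ) ≠ 1 := by norm_num
  exact even_iff_two_dvd.mp ((neg_one_pow_eq_one_iff_even hne).mp h)

/-- an `ST`-invariant holomorphic function vanishes to order divisible by `3` at `ρ`. -/
theorem three_dvd_order_tayAt_rho {H : ℍ → ℂ} (hH : MDiff H) (h0 : H ≠ 0)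
    (hinv : ∀ τ : ℍ, H ((ModularGroup.S * ModularGroup.T) • τ) = H τ) :
    3 ∣ (tayAt ptRho H).order.toNat := by
  have h := h58_deriv_pow_order_eq_one hH h0 (ModularGroup.S * ModularGroup.T) ptRho
    ST_smul_ptRho hinv
  rw [h58_moeb_deriv, h58_denom_ST] at h
  set n := (tayAt ptRho H).order.toNat with hn
  set r : ℂ := ((ptRho : ℍ) : ℂ) with hr
  have hrel : r ^ 2 + r + 1 = 0 := h58_ptRho_rel
  have hsq : (r + 1) ^ 2 = r := by linear_combination hrel
  rw [hsq] at h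
  have hr0 : r ≠ 0 := by
    intro h0'
    rw [h0'] at hrel
    norm_num at hrel
  have hr3 : r ^ 3 = 1 := by linear_combination (r - 1) * hrel
  have hμ3 : (1 / r) ^ 3 = 1 := by
    rw [one_div, inv_pow, hr3, inv_one]
  by_contra hdvd
  have hcop : Nat.Coprime n 3 :=
    (Nat.Coprime.symm ((Nat.Prime.coprime_iff_not_dvd Nat.prime_three).mpr hdvd))
  have hg : (1 / r) ^ (Nat.gcd n 3) = 1 := pow_gcd_eq_one.mpr ⟨h, hμ3⟩
  rw [hcop.gcd_eq_one, pow_one, one_div, inv_eq_one] at hg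
  rw [hg] at hrel
  norm_num at hrel

end Fermat.Agent.S24
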