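import Fermat.Agent.S24.H46Emb
import Fermat.Agent.S28.Bridge
import Fermat.Agent.S28.CuspJ

/-!
# S24 (MOD half, M3): the embeddings of the function field at the cusps

For every `γ ∈ SL(2,ℤ)` we construct the ring homomorphism
`h46_cuspEmb N γ : FF N → ℂ((𝕋))`, `f ↦ 𝕋`-expansion of `f ∘ γ` (`𝕋 = exp (2πiτ/N)`),
characterised on the polynomial ring `Q̄[j(q^d) : d ∣ N]` by `h46_cuspEmb_spec`.
-/

set_option autoImplicit false

open ModularCurve UpperHalfPlane Complex HahnSeries
open Fermat.Agent.S28
open scoped MatrixGroups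

noncomputable section

namespace Fermat.Agent.S24

/-! ### the expansion system at a cusp -/

/-- `s` is the `𝕋`-expansion of `g ∘ γ`. -/
def h46_CuspExp (N : ℕ) (γ : SL(2, ℤ)) (g : ℍ → ℂ) (s : LaurentSeries ℂ) : Prop :=
  HasTExp N (fun τ => g (γ • τ)) s

theorem h46_cuspExp_sys (N : ℕ) (hN : 0 < N) (γ : SL(2, ℤ)) : h46_ExpSys (h46_CuspExp N γ) where
  const c := HasTExp.const N c
  add h₁ h₂ := HasTExp.add h₁ h₂
  mul h₁ h₂ := HasTExp.mul hN h₁ h₂
  unique h₁ h₂ := HasTExp.unique hN h₁ h₂
  faithful := by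
    intro g hg
    have h0 : (fun τ => g (γ • τ)) = fun _ => 0 :=
      h46_fun_unique hg (HasTExp.zero N)
    funext τ
    have := congrFun h0 (γ⁻¹ • τ)
    simpa using this

/-! ### generators of the function field -/

/-- the generators `j(q^d)`, `d ∣ N`, of the function field over `Q̄`. -/
def h46_gens (N : ℕ) : Set (LaurentSeries Kbar) := ⇑(coeffEmb Kbar) '' divisorExpansions N

theorem h46_coeffEmb_mem_adjoin_gens (N : ℕ) {x : LaurentSeries ℚ}
    (hx : x ∈ modularFunctionFieldFull N) :
    coeffEmb Kbar x ∈ IntermediateField.adjoin Kbar (h46_gens N) := by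
  rw [modularFunctionFieldFull] at hx
  induction hx using IntermediateField.adjoin_induction with
  | mem x hx => exact IntermediateField.subset_adjoin _ _ ⟨x, hx, rfl⟩
  | algebraMap a =>
    have : coeffEmb Kbar (algebraMap ℚ (LaurentSeries ℚ) a) =
        algebraMap Kbar (LaurentSeries Kbar) (algebraMap ℚ Kbar a) := by
      rw [algebraMap_laurentSeries_eq_single, algebraMap_laurentSeries_eq_single, coeffEmb,
        coeffMap_single]
    rw [this]
    exact IntermediateField.algebraMap_mem _ _
  | add x y _ _ hx hy => rw [map_add]; exact add_mem hx hy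
  | inv x _ hx => rw [map_inv₀]; exact inv_mem hx
  | mul x y _ _ hx hy => rw [map_mul]; exact mul_mem hx hy

theorem h46_adjoin_gens (N : ℕ) :
    IntermediateField.adjoin Kbar (h46_gens N) = modularFunctionFieldBar N := by
  apply le_antisymm
  · apply IntermediateField.adjoin.mono
    rintro _ ⟨x, hx, rfl⟩
    exact ⟨x, IntermediateField.subset_adjoin ℚ _ hx, rfl⟩
  · rw [modularFunctionFieldBar, laurentBaseChange, IntermediateField.adjoin_le_iff]
    rintro _ ⟨x, hx, rfl⟩
    exact h46_coeffEmb_mem_adjoin_gens N hx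

theorem h46_embC_algebraMap (r : ℚ) : embC (algebraMap ℚ Kbar r) = (r : ℂ) := by
  simp

theorem h46_coeffMap_embC_coeffEmb (x : LaurentSeries ℚ) :
    coeffMap embC (coeffEmb Kbar x) = cEmb x := by
  ext n
  simp only [coeffMap_coeff, coeffEmb_coeff, cEmb]
  rw [h46_embC_algebraMap]
  simp

end Fermat.Agent.S24
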