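import Fermat.Agent.S28.TExp

/-!
# S24 (MOD half, AN5): translation by `T` and `𝕋`-expansions

* `h46_hasTExp_vadd` : the `𝕋`-expansion of `τ ↦ H (k + τ)` is the twist of the expansion of `H`
  by the root of unity `exp (2πik/N)`;
* `h46_order_comp_T` : translation by `T` does not change the order of the expansion;
* `h46_dvd_mul_order_of_periodic` : the expansion of a `T^k`-invariant function is supported on
  exponents `n` with `N ∣ k n`.
-/

set_option autoImplicit false

open UpperHalfPlane Complex HahnSeries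
open Fermat.Agent.S28
open scoped MatrixGroups

noncomputable section

namespace Fermat.Agent.S24

theorem h46_coeff_order_ne_zero {x : LaurentSeries ℂ} (hx : x ≠ 0) :
    x.coeff x.order ≠ 0 := fun h => hx (HahnSeries.coeff_order_eq_zero.mp h)

theorem h46_twist_zero (ω : ℂ) : twist ω 0 = 0 := by
  ext n
  simp

theorem h46_twist_ne_zero {ω : ℂ} (hω : ω ≠ 0) {s : LaurentSeries ℂ} (hs : s ≠ 0) :
    twist ω s ≠ 0 := by
  intro h
  apply hs
  ext n
  have h1 : (twist ω s).coeff n = 0 := by rw [h]; rfl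
  rw [coeff_twist] at h1
  rcases mul_eq_zero.mp h1 with h2 | h2
  · simpa using h2
  · exact absurd h2 (zpow_ne_zero _ hω)

theorem h46_order_twist {ω : ℂ} (hω : ω ≠ 0) (s : LaurentSeries ℂ) :
    (twist ω s).order = s.order := by
  by_cases hs : s = 0
  · subst hs
    rw [h46_twist_zero]
  · have hts := h46_twist_ne_zero hω hs
    apply le_antisymm
    · apply HahnSeries.order_le_of_coeff_ne_zero
      rw [coeff_twist]
      exact mul_ne_zero (h46_coeff_order_ne_zero hs) (zpow_ne_zero _ hω)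
    · apply HahnSeries.order_le_of_coeff_ne_zero
      have := h46_coeff_order_ne_zero hts
      rw [coeff_twist] at this
      exact left_ne_zero_of_mul this

/-- the parameter at an integer translate. -/
theorem h46_tParam_vadd {N : ℕ} (hN : 0 < N) (k : ℤ) (τ : ℍ) :
    tParam N ((k : ℝ) +ᵥ τ) =
      Complex.exp (2 * Real.pi * Complex.I * (k : ℂ) / (N : ℂ)) * tParam N τ := by
  have hN' : (N : ℂ) ≠ 0 := by exact_mod_cast hN.ne'
  simp only [tParam, Function.Periodic.qParam, Complex.ofReal_natCast, UpperHalfPlane.coe_vadd]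
  rw [← Complex.exp_add]
  congr 1
  push_cast
  field_simp

/-- the expansion of an integer translate is the twist by a root of unity. -/
theorem h46_hasTExp_vadd {N : ℕ} (hN : 0 < N) {H : ℍ → ℂ} {s : LaurentSeries ℂ}
    (h : HasTExp N H s) (k : ℤ) :
    HasTExp N (fun τ => H ((k : ℝ) +ᵥ τ))
      (twist (Complex.exp (2 * Real.pi * Complex.I * (k : ℂ) / (N : ℂ))) s) := by
  refine h.subst (fun τ => (k : ℝ) +ᵥ τ)
    (Complex.exp (2 * Real.pi * Complex.I * (k : ℂ) / (N : ℂ))) 1 one_pos (fun τ => ?_) _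
    (fun n => ?_) (fun m hm => absurd (one_dvd m) (by simp at hm))
  · rw [pow_one]; exact h46_tParam_vadd hN k τ
  · simp

/-- translation by `T` multiplies the coefficients of a `𝕋`-expansion by roots of unity. -/
theorem h46_order_comp_T {N : ℕ} [NeZero N] {H : ℍ → ℂ} {s s' : LaurentSeries ℂ}
    (h : HasTExp N H s) (h' : HasTExp N (fun τ => H (ModularGroup.T • τ)) s') :
    s'.order = s.order := by
  have hN : 0 < N := Nat.pos_of_ne_zero (NeZero.ne N)
  have h1 := h46_hasTExp_vadd hN h 1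
  have h2 : HasTExp N (fun τ => H (ModularGroup.T • τ))
      (twist (Complex.exp (2 * Real.pi * Complex.I * ((1 : ℤ) : ℂ) / (N : ℂ))) s) := by
    refine h1.congr (fun τ => ?_)
    rw [UpperHalfPlane.modular_T_smul]
    simp
  rw [HasTExp.unique hN h' h2, h46_order_twist (Complex.exp_ne_zero _)]

/-- a `T^k`-invariant function has a `𝕋`-expansion supported on exponents `n` with `N ∣ k n`. -/
theorem h46_dvd_mul_of_periodic {N : ℕ} [NeZero N] {H : ℍ → ℂ} {s : LaurentSeries ℂ}
    (h : HasTExp N H s) (k : ℕ)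
    (hper : ∀ τ : ℍ, H (ModularGroup.T ^ k • τ) = H τ) (n : ℤ) (hn : s.coeff n ≠ 0) :
    (N : ℤ) ∣ k * n := by
  have hN : 0 < N := Nat.pos_of_ne_zero (NeZero.ne N)
  set ζ : ℂ := Complex.exp (2 * Real.pi * Complex.I / (N : ℂ)) with hζ
  have hprim : IsPrimitiveRoot ζ N := Complex.isPrimitiveRoot_exp N hN.ne'
  have hω : Complex.exp (2 * Real.pi * Complex.I * ((k : ℤ) : ℂ) / (N : ℂ)) = ζ ^ (k : ℤ) := by
    rw [hζ, ← Complex.exp_int_mul]
    congr 1
    push_cast
    ring
  have h1 := h46_hasTExp_vadd hN h (k : ℤ)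
  rw [hω] at h1
  have h2 : HasTExp N H (twist (ζ ^ (k : ℤ)) s) := by
    refine h1.congr (fun τ => ?_)
    have := hper τ
    rw [← zpow_natCast, UpperHalfPlane.modular_T_zpow_smul] at this
    exact this
  have h3 : twist (ζ ^ (k : ℤ)) s = s := HasTExp.unique hN h2 h
  have h4 : (twist (ζ ^ (k : ℤ)) s).coeff n = s.coeff n := by rw [h3]
  rw [coeff_twist] at h4
  have h5 : (ζ ^ (k : ℤ)) ^ n = 1 := mul_left_cancel₀ hn (h4.trans (mul_one _).symm)
  rw [← zpow_mul] at h5
  exact (hprim.zpow_eq_one_iff_dvd _).mp h5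

theorem h46_dvd_mul_order_of_periodic {N : ℕ} [NeZero N] {H : ℍ → ℂ} {s : LaurentSeries ℂ}
    (h : HasTExp N H s) (hs : s ≠ 0) (k : ℕ) (_hk : 0 < k)
    (hper : ∀ τ : ℍ, H (ModularGroup.T ^ k • τ) = H τ) :
    (N : ℤ) ∣ k * s.order :=
  h46_dvd_mul_of_periodic h k hper s.order (h46_coeff_order_ne_zero hs)

end Fermat.Agent.S24
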