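import Fermat.Agent.S24.Differentials
import Fermat.Agent.S24.DiffPlace

/-!
# S24, KAE: Kähler differentials of a function field in one variable (helper79)

General statements for `x : F` transcendental over `K` with `F / K(x)` finite, characteristic `0`:

* `D_ne_zero_of_transcendental` (L2): `dx ≠ 0`.
* `exists_eq_smul_D` : every differential is `f • dx`.
* `nontrivial_kaehler` : `Ω[F⁄K]` is nontrivial.
-/

set_option autoImplicit false

open KaehlerDifferential IntermediateField

namespace Fermat.Agent.S24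

variable {K F : Type*} [Field K] [Field F] [Algebra K F]

/-- `F` is essentially of finite type over `K` if it is finite over a simple extension `K(x)`. -/
theorem essFiniteType_of_finiteDimensional_adjoin (x : F) [FiniteDimensional K⟮x⟯ F] :
    Algebra.EssFiniteType K F := by
  have h1 : Algebra.EssFiniteType K K⟮x⟯ := by
    rw [IntermediateField.essFiniteType_iff]
    exact ⟨{x}, by simp⟩
  have h2 : Algebra.EssFiniteType K⟮x⟯ F := inferInstance
  exact Algebra.EssFiniteType.comp K K⟮x⟯ F

/-- (L2) If `x` is transcendental over `K` (characteristic zero) and `F / K(x)` is finite, then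
`dx ≠ 0` in `Ω[F⁄K]`. -/
theorem D_ne_zero_of_transcendental [CharZero K] (x : F) (hx : Transcendental K x)
    [FiniteDimensional K⟮x⟯ F] : D K F x ≠ 0 := by
  intro h0
  have halg : Algebra.IsAlgebraic K⟮x⟯ F := Algebra.IsAlgebraic.of_finite K⟮x⟯ F
  have htop := span_D_eq_top_of_isAlgebraic x halg
  rw [h0, Submodule.span_zero_singleton] at htop
  have hsub : Subsingleton Ω[F⁄K] := by
    refine ⟨fun a b ↦ ?_⟩
    have ha : a ∈ (⊥ : Submodule F Ω[F⁄K]) := htop ▸ Submodule.mem_top
    have hb : b ∈ (⊥ : Submodule F Ω[F⁄K]) := htop ▸ Submodule.mem_top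
    rw [Submodule.mem_bot] at ha hb
    rw [ha, hb]
  have hunr : Algebra.FormallyUnramified K F := ⟨hsub⟩
  have hess : Algebra.EssFiniteType K F := essFiniteType_of_finiteDimensional_adjoin x
  have hsep : Algebra.IsSeparable K F := Algebra.FormallyUnramified.isSeparable K F
  exact hx (Algebra.IsSeparable.isIntegral K x).isAlgebraic

/-- Every differential is a multiple of `dx` when `F / K(x)` is algebraic (characteristic zero). -/
theorem exists_eq_smul_D [CharZero K] (x : F) (halg : Algebra.IsAlgebraic K⟮x⟯ F)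
    (ω : Ω[F⁄K]) : ∃ f : F, ω = f • D K F x := by
  have hω : ω ∈ (⊤ : Submodule F Ω[F⁄K]) := Submodule.mem_top
  rw [← span_D_eq_top_of_isAlgebraic x halg, Submodule.mem_span_singleton] at hω
  obtain ⟨f, hf⟩ := hω
  exact ⟨f, hf.symm⟩

theorem nontrivial_kaehler [CharZero K] (x : F) (hx : Transcendental K x)
    [FiniteDimensional K⟮x⟯ F] : Nontrivial Ω[F⁄K] :=
  ⟨⟨D K F x, 0, D_ne_zero_of_transcendental x hx⟩⟩

open AlgebraicCurve in
/-- (KAE, general form) For `x` transcendental over `K` with `F / K(x)` finite (characteristic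
zero): `dx ≠ 0`, every differential is a multiple of `dx`, and every place satisfies
`DCoordGenerates`. -/
theorem kaehler_general [CharZero K] (x : F) (hx : Transcendental K x)
    [FiniteDimensional K⟮x⟯ F] :
    D K F x ≠ 0 ∧ (∀ ω : Ω[F⁄K], ∃ f : F, ω = f • D K F x) ∧
      ∀ v : Place K F, v.DCoordGenerates := by
  have halg : Algebra.IsAlgebraic K⟮x⟯ F := Algebra.IsAlgebraic.of_finite K⟮x⟯ F
  refine ⟨D_ne_zero_of_transcendental x hx, exists_eq_smul_D x halg, fun v ↦ ?_⟩
  exact DiffPlace.dCoordGenerates_of_span v fun y hy ↦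
    span_D_eq_top_of_isAlgebraic y (DiffPlace.isAlgebraic_adjoin_of_transcendental x y halg hy)

open AlgebraicCurve in
/-- (ORD, general form) Given expansion embeddings at all places (task EXP) and
`DCoordGenerates`, the local formula `ord_v(dx) = ord_v(x - c) - 1` at the zeros of `x - c` and
`ord_v(dx) = ord_v(x) - 1` at the poles of `x`. -/
theorem ordD_general [CharZero K] (x : F)
    (hexp : ∀ v : Place K F, ∃ E : F →+* LaurentSeries K,
      (∀ c : K, E (algebraMap K F c) = HahnSeries.C c) ∧
        ∀ f : F, f ≠ 0 → (E f).order = v.ord f)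
    (hdcg : ∀ v : Place K F, v.DCoordGenerates) :
    (∀ (v : Place K F) (c : K), 0 < v.ord (x - algebraMap K F c) →
        v.ordDifferential (D K F x) = v.ord (x - algebraMap K F c) - 1) ∧
    (∀ v : Place K F, v.ord x < 0 → v.ordDifferential (D K F x) = v.ord x - 1) := by
  refine ⟨fun v c hc ↦ ?_, fun v hv ↦ ?_⟩
  · obtain ⟨E, hE1, hE2⟩ := hexp v
    have := hdcg v
    exact ordDifferential_D_of_embedding_sub E (fun a ↦ ⟨a, hE1 a⟩) v 1 one_pos
      (fun f hf ↦ by rw [hE2 f hf, one_mul]) x c hc.ne'
  · obtain ⟨E, hE1, hE2⟩ := hexp v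
    have := hdcg v
    exact ordDifferential_D_of_embedding E (fun a ↦ ⟨a, hE1 a⟩) v 1 one_pos
      (fun f hf ↦ by rw [hE2 f hf, one_mul]) x hv.ne

end Fermat.Agent.S24
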